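import Fermat.Agent.S28.CoreDefs
import Fermat.Prelude.Def_ModularCurve_X0ModL

/-!
# S28 (Igusa), non-Borel lemma: orders of `Δ(q^p)/Δ(q)` and of polynomials in `j`  (helper3)
-/

set_option autoImplicit false

noncomputable section

namespace Fermat.Agent.S28

open HahnSeries ModularCurve

section Ring

variable {A : Type*} [CommRing A]

/-- all coefficients of `x` below `m` vanish. -/
def s28nb_VanishBelow (m : ℤ) (x : LaurentSeries A) : Prop :=
  ∀ n : ℤ, n < m → x.coeff n = 0

theorem s28nb_vanishBelow_mul {a b : ℤ} {x y : LaurentSeries A}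
    (hx : s28nb_VanishBelow a x) (hy : s28nb_VanishBelow b y) :
    s28nb_VanishBelow (a + b) (x * y) := by
  intro n hn
  rw [HahnSeries.coeff_mul]
  refine Finset.sum_eq_zero fun ij hij => ?_
  rw [Finset.mem_antidiagonal] at hij
  by_cases h1 : ij.1 < a
  · rw [hx _ h1, zero_mul]
  · have h2 : ij.2 < b := by
      have := hij.2.2
      omega
    rw [hy _ h2, mul_zero]

theorem s28nb_vanishBelow_single_mul_ofPowerSeries (m : ℤ) (f : PowerSeries A) :
    s28nb_VanishBelow m (HahnSeries.single m (1 : A) * HahnSeries.ofPowerSeries ℤ A f) := by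
  intro n hn
  have h1 : n = (n - m) + m := by ring
  rw [h1, HahnSeries.coeff_single_mul_add, one_mul]
  exact ofPowerSeries_coeff_of_neg _ (by omega)

theorem s28nb_vanishBelow_qExpand (p : ℕ) [NeZero p] {m : ℤ} {x : LaurentSeries A}
    (hx : s28nb_VanishBelow m x) : s28nb_VanishBelow ((p : ℤ) * m) (qExpand A p x) := by
  intro n hn
  by_cases hd : (p : ℤ) ∣ n
  · obtain ⟨c, rfl⟩ := hd
    rw [qExpand_coeff_mul]
    apply hx
    have hp : (0 : ℤ) < p := by exact_mod_cast Nat.pos_of_ne_zero (NeZero.ne p)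
    exact lt_of_mul_lt_mul_left hn hp.le
  · exact qExpand_coeff_of_not_dvd p _ hd

variable (A) in
theorem s28nb_Delta_mul_inv : s28_Delta A * s28_DeltaInv A = 1 := by
  rw [s28_Delta, s28_DeltaInv]
  have h1 : (HahnSeries.single (1 : ℤ) (1 : A) *
        HahnSeries.ofPowerSeries ℤ A (dedekindEtaUnit.map (Int.castRingHom A))) *
      (HahnSeries.single (-1 : ℤ) (1 : A) *
        HahnSeries.ofPowerSeries ℤ A (dedekindEtaUnitInv.map (Int.castRingHom A))) =
      (HahnSeries.single (1 : ℤ) (1 : A) * HahnSeries.single (-1 : ℤ) (1 : A)) *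
        (HahnSeries.ofPowerSeries ℤ A (dedekindEtaUnit.map (Int.castRingHom A)) *
          HahnSeries.ofPowerSeries ℤ A (dedekindEtaUnitInv.map (Int.castRingHom A))) := by
    ring
  rw [h1, HahnSeries.single_mul_single, ← map_mul, ← map_mul, dedekindEtaUnit_mul_inv]
  simp

variable (A) in
theorem s28nb_vanishBelow_Delta : s28nb_VanishBelow 1 (s28_Delta A) :=
  s28nb_vanishBelow_single_mul_ofPowerSeries 1 _

variable (A) in
theorem s28nb_vanishBelow_DeltaInv : s28nb_VanishBelow (-1) (s28_DeltaInv A) :=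
  s28nb_vanishBelow_single_mul_ofPowerSeries (-1) _

theorem s28nb_coeffMap_Delta {B : Type*} [CommRing B] (f : A →+* B) :
    coeffMap f (s28_Delta A) = s28_Delta B := by
  rw [s28_Delta, s28_Delta, map_mul, coeffMap_single, map_one, coeffMap_ofPowerSeries,
    ← RingHom.comp_apply (PowerSeries.map f) (PowerSeries.map (Int.castRingHom A)),
    ← PowerSeries.map_comp, RingHom.ext_int (f.comp (Int.castRingHom A)) (Int.castRingHom B)]

theorem s28nb_coeffMap_DeltaInv {B : Type*} [CommRing B] (f : A →+* B) :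
    coeffMap f (s28_DeltaInv A) = s28_DeltaInv B := by
  rw [s28_DeltaInv, s28_DeltaInv, map_mul, coeffMap_single, map_one, coeffMap_ofPowerSeries,
    ← RingHom.comp_apply (PowerSeries.map f) (PowerSeries.map (Int.castRingHom A)),
    ← PowerSeries.map_comp, RingHom.ext_int (f.comp (Int.castRingHom A)) (Int.castRingHom B)]

/-- `u = Δ(q^p) / Δ(q)`. -/
def s28nb_u (A : Type*) [CommRing A] (p : ℕ) [NeZero p] : LaurentSeries A :=
  qExpand A p (s28_Delta A) * s28_DeltaInv A

theorem s28nb_vanishBelow_u (p : ℕ) [NeZero p] :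
    s28nb_VanishBelow ((p : ℤ) - 1) (s28nb_u A p) := by
  have h := s28nb_vanishBelow_mul (s28nb_vanishBelow_qExpand p (s28nb_vanishBelow_Delta A))
    (s28nb_vanishBelow_DeltaInv A)
  have e : (p : ℤ) * 1 + (-1) = (p : ℤ) - 1 := by ring
  rw [e] at h
  exact h

theorem s28nb_u_mul_Delta (p : ℕ) [NeZero p] :
    s28nb_u A p * s28_Delta A = qExpand A p (s28_Delta A) := by
  rw [s28nb_u, mul_assoc, mul_comm (s28_DeltaInv A), s28nb_Delta_mul_inv, mul_one]

theorem s28nb_coeffMap_u {B : Type*} [CommRing B] (f : A →+* B) (p : ℕ) [NeZero p] :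
    coeffMap f (s28nb_u A p) = s28nb_u B p := by
  rw [s28nb_u, s28nb_u, map_mul, coeffMap_qExpand, s28nb_coeffMap_Delta, s28nb_coeffMap_DeltaInv]

/-- a nonzero polynomial in `j` has a nonzero coefficient at the exponent `-deg`. -/
theorem s28nb_coeff_aeval_jq (P : Polynomial A) :
    (Polynomial.eval₂ (HahnSeries.C : A →+* LaurentSeries A) (jqModC A) P).coeff
      (-(P.natDegree : ℤ)) = P.leadingCoeff := by
  rw [Polynomial.eval₂_eq_sum_range, HahnSeries.coeff_sum]
  rw [Finset.sum_eq_single_of_mem P.natDegree (Finset.mem_range.mpr (Nat.lt_succ_self _))]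
  · rw [HahnSeries.C_mul_eq_smul, HahnSeries.coeff_smul, coeff_jqModC_pow_self, smul_eq_mul,
      mul_one]
    rfl
  · intro i hi hne
    rw [HahnSeries.C_mul_eq_smul, HahnSeries.coeff_smul, coeff_jqModC_pow_of_lt, smul_zero]
    have : i < P.natDegree := lt_of_le_of_ne (Nat.lt_succ_iff.mp (Finset.mem_range.mp hi)) hne
    omega

end Ring

section Field

variable {k : Type*} [Field k]

theorem s28nb_Delta_ne_zero : s28_Delta k ≠ 0 := by
  intro h
  have := s28nb_Delta_mul_inv k
  rw [h, zero_mul] at this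
  exact zero_ne_one this

theorem s28nb_u_ne_zero (p : ℕ) [NeZero p] : s28nb_u k p ≠ 0 := by
  intro h
  have h1 := s28nb_u_mul_Delta (A := k) p
  rw [h, zero_mul] at h1
  have h2 : qExpand k p (s28_Delta k) = qExpand k p 0 := by rw [← h1, map_zero]
  exact s28nb_Delta_ne_zero (qExpand_injective p h2)

/-- `u` is not a polynomial in `j`. -/
theorem s28nb_u_ne_eval (p : ℕ) [NeZero p] (hp : 2 ≤ p) (c : k) (hc : c ≠ 0)
    (P : Polynomial k) :
    HahnSeries.C c * s28nb_u k p ≠
      Polynomial.eval₂ (HahnSeries.C : k →+* LaurentSeries k) (jqModC k) P := by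
  intro h
  by_cases hP : P = 0
  · rw [hP, Polynomial.eval₂_zero] at h
    rcases mul_eq_zero.mp h with h1 | h1
    · exact hc ((map_eq_zero_iff _ HahnSeries.C_injective).mp h1)
    · exact s28nb_u_ne_zero p h1
  · have h1 := s28nb_coeff_aeval_jq P
    rw [← h, HahnSeries.C_mul_eq_smul, HahnSeries.coeff_smul,
      s28nb_vanishBelow_u p _ (by
        have : (0 : ℤ) ≤ (P.natDegree : ℤ) := Int.natCast_nonneg _
        have : (2 : ℤ) ≤ (p : ℤ) := by exact_mod_cast hp
        omega), smul_zero] at h1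
    exact hP (Polynomial.leadingCoeff_eq_zero.mp h1.symm)

end Field

end Fermat.Agent.S28

end
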