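import Fermat.Agent.S28.CoreDefs

/-!
# S28 (Igusa): interface statements of the tower (TL)  (OWNER: helper9, architect)

`k` is a field in which the level is invertible, `L = k⸨s⸩`, `J = jqModC k`,
`J_m = qExpand k m J = J(s ^ m)`.

* (CAroot)  `Φ_p(J, J_p) = 0` over every commutative ring (part of the transfer TR);
* (TLA)  Borel exclusion at prime level: `J_p ∉ k(J)`;
* (TLB)  rotation lemma: `∏_{b<p} (Y - x(ζ^b s))` is irreducible over `k⸨s^p⸩` when the `p`
  rotations of `x` are pairwise distinct;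
* (TLN)  the tower: the subfield generated by `J` and the `J_d`, `d ∣ N` a prime power, has
  degree `ψ(N)` over `k(J)`.
-/

set_option autoImplicit false

noncomputable section

namespace Fermat.Agent.S28

open HahnSeries ModularCurve Polynomial IntermediateField

/-- **(TR)** the transferred modular polynomial: one `Φ` for all coefficient rings. -/
def s28_stmt_TR : Prop :=
  ∀ (p : ℕ) [NeZero p], p.Prime →
    ∃ Φ : Polynomial (Polynomial ℤ), Φ.Monic ∧ Φ.natDegree = p + 1 ∧
      (∀ (A : Type) [Field A] (ζ : Aˣ), IsPrimitiveRoot (ζ : A) p → s28_FactorsAt p Φ A ζ) ∧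
      (∀ (A : Type) [CommRing A],
        (Φ.map (s28_evalAt (jqModC A))).eval (qExpand A p (jqModC A)) = 0)

/-- **(TLA)** Borel exclusion at prime level: `J(s^p) ∉ k(J(s))` when `p ≠ 0` in `k`. -/
def s28_stmt_TLA : Prop :=
  ∀ (k : Type) [Field k] [IsAlgClosed k] (p : ℕ) [NeZero p], p.Prime → (p : k) ≠ 0 →
    qExpand k p (jqModC k) ∉
      (IntermediateField.adjoin k {jqModC k} : IntermediateField k (LaurentSeries k))

/-- **(TLB)** rotation lemma.  If `x ∈ k⸨s⸩` has `p` pairwise distinct rotations `x(ζ^b s)` and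
`h₀ ∈ k⸨s⸩[Y]` satisfies `h₀(s^p) = ∏_{b<p} (Y - x(ζ^b s))`, then `h₀` is irreducible. -/
def s28_stmt_TLB : Prop :=
  ∀ (k : Type) [Field k] (p : ℕ) [NeZero p], p.Prime → ∀ (ζ : kˣ), IsPrimitiveRoot (ζ : k) p →
    ∀ (x : LaurentSeries k) (h₀ : Polynomial (LaurentSeries k)),
      (∀ b ∈ Finset.range p, ∀ b' ∈ Finset.range p, b ≠ b' →
        s28_scale (ζ ^ b) x ≠ s28_scale (ζ ^ b') x) →
      h₀.map (qExpand k p) = ∏ b ∈ Finset.range p, (Polynomial.X - Polynomial.C (s28_scale (ζ ^ b) x)) →
      Irreducible h₀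

/-- the generators of the tower: `J` and `J_d` for the prime powers `d ∣ N`. -/
def s28_gens (k : Type*) [Field k] (N : ℕ) : Set (LaurentSeries k) :=
  {x | x = jqModC k ∨ ∃ (d : ℕ) (_ : NeZero d), d ∣ N ∧ IsPrimePow d ∧ x = qExpand k d (jqModC k)}

/-- the tower field of level `N`. -/
def s28_E (k : Type*) [Field k] (N : ℕ) : IntermediateField k (LaurentSeries k) :=
  IntermediateField.adjoin k (s28_gens k N)

/-- **(TLN)** the degree of the tower field over `k(J)`. -/
def s28_stmt_TLN : Prop :=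
  ∀ (k : Type) [Field k] [IsAlgClosed k] (N : ℕ) [NeZero N], (N : k) ≠ 0 →
    (IntermediateField.adjoin k {jqModC k} : IntermediateField k (LaurentSeries k)).relfinrank
      (s28_E k N) = dedekindPsi N

end Fermat.Agent.S28
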