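import Fermat.Agent.S28.NBTheta
import Fermat.Agent.S28.NBOrder
import Fermat.Agent.S28.TowerDefs

/-!
# S28 (Igusa), Borel exclusion at prime level (TLA)  (helper3)

`J(s^p) ∉ k(J(s))` for every field `k` in which `p ≠ 0`, from (CB) and (CG).
-/

set_option autoImplicit false

noncomputable section

namespace Fermat.Agent.S28

open HahnSeries ModularCurve

section Transfer

variable {A B : Type*} [CommRing A] [CommRing B]

/-- naturality of `s28_evalAt`. -/
theorem s28nb_comp_evalAt (g : LaurentSeries A →+* LaurentSeries B) (x : LaurentSeries A) :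
    g.comp (s28_evalAt x) = s28_evalAt (g x) := by
  apply Polynomial.ringHom_ext
  · intro a
    simp [s28_evalAt]
  · simp [s28_evalAt]

theorem s28nb_map_eval (g : LaurentSeries A →+* LaurentSeries B)
    (U : Polynomial (Polynomial ℤ)) (x y : LaurentSeries A) :
    g ((U.map (s28_evalAt x)).eval y) = (U.map (s28_evalAt (g x))).eval (g y) := by
  rw [Polynomial.eval_map, Polynomial.eval_map, Polynomial.hom_eval₂, s28nb_comp_evalAt]

/-- (CG) over every commutative ring. -/
theorem s28nb_CG_ring (hCG : s28_stmt_CG) (A : Type*) [CommRing A] :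
    (s28_theta (jqModC A)) ^ 6 = (jqModC A) ^ 4 * (jqModC A - 1728) ^ 3 * s28_Delta A := by
  have h := congrArg (coeffMap (Int.castRingHom A)) hCG
  rw [map_pow, ← s28nb_theta_coeffMap, coeffMap_jqModC, map_mul, map_mul, map_pow, map_pow,
    map_sub, coeffMap_jqModC, s28nb_coeffMap_Delta, map_ofNat] at h
  exact h

/-- (CB) over every commutative ring. -/
theorem s28nb_CB_ring (hCB : s28_stmt_CB) (A : Type*) [CommRing A] (p : ℕ) [NeZero p]
    (hp : p.Prime) :
    ∃ U : Polynomial (Polynomial ℤ), U.Monic ∧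
      (U.map (s28_evalAt (jqModC A))).eval ((p : LaurentSeries A) ^ 12 * s28nb_u A p) = 0 := by
  obtain ⟨U, hU, h⟩ := hCB p hp
  refine ⟨U, hU, ?_⟩
  have h2 := congrArg (coeffMap (Int.castRingHom A)) h
  rw [s28nb_map_eval, map_zero, coeffMap_jqModC, map_mul, map_mul, map_pow, map_natCast,
    coeffMap_qExpand, s28nb_coeffMap_Delta, s28nb_coeffMap_DeltaInv] at h2
  rw [s28nb_u, ← mul_assoc]
  exact h2

end Transfer

section Field

variable {k : Type*} [Field k]

theorem s28nb_algebraMap_eq_C' :
    algebraMap k (LaurentSeries k) = (HahnSeries.C : k →+* LaurentSeries k) :=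
  RingHom.ext s28nb_algebraMap_eq_C

theorem s28nb_aeval_eq_eval₂ (x : LaurentSeries k) (P : Polynomial k) :
    Polynomial.aeval x P = Polynomial.eval₂ (HahnSeries.C : k →+* LaurentSeries k) x P := by
  rw [Polynomial.aeval_def, s28nb_algebraMap_eq_C']

variable (k) in
/-- `j` is transcendental over `k`. -/
theorem s28nb_transcendental_jq : Transcendental k (jqModC k) := by
  rw [transcendental_iff]
  intro P hP
  rw [s28nb_aeval_eq_eval₂] at hP
  have h := s28nb_coeff_aeval_jq P
  rw [hP, HahnSeries.coeff_zero] at h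
  exact Polynomial.leadingCoeff_eq_zero.mp h.symm

/-- `k[x]` is integrally closed in `k(x)` (in the form needed here). -/
theorem s28nb_mem_poly_of_integral (x : LaurentSeries k) (hx : Transcendental k x)
    (w : LaurentSeries k) (hw : w ∈ IntermediateField.adjoin k {x})
    (U : Polynomial (Polynomial ℤ)) (hU : U.Monic)
    (h : (U.map (s28_evalAt x)).eval w = 0) :
    ∃ P : Polynomial k, w = Polynomial.aeval x P := by
  have hφ : Function.Injective (Polynomial.aeval (R := k) x) :=
    transcendental_iff_injective.mp hx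
  let ψ : RatFunc k →ₐ[k] LaurentSeries k := IsFractionRing.liftAlgHom (K := RatFunc k) hφ
  have hψ : ∀ P : Polynomial k, ψ (algebraMap (Polynomial k) (RatFunc k) P) =
      Polynomial.aeval x P := fun P => by
    rw [IsFractionRing.liftAlgHom_apply, IsFractionRing.lift_algebraMap]
    rfl
  have hE : IntermediateField.adjoin k {x} ≤ ψ.fieldRange := by
    rw [IntermediateField.adjoin_le_iff, Set.singleton_subset_iff]
    exact ⟨algebraMap (Polynomial k) (RatFunc k) Polynomial.X,
      (hψ Polynomial.X).trans (Polynomial.aeval_X x)⟩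
  obtain ⟨r, hr⟩ := hE hw
  have hr' : ψ r = w := hr
  have hint : IsIntegral (Polynomial k) r := by
    refine ⟨U.map (Polynomial.mapRingHom (Int.castRingHom k)), hU.map _, ?_⟩
    rw [Polynomial.eval₂_map]
    have hcomp : ((ψ : RatFunc k →+* LaurentSeries k).comp
        ((algebraMap (Polynomial k) (RatFunc k)).comp
          (Polynomial.mapRingHom (Int.castRingHom k)))) = s28_evalAt x := by
      apply Polynomial.ringHom_ext
      · intro a
        simp [s28_evalAt]
      · simp only [RingHom.coe_comp, Function.comp_apply, Polynomial.coe_mapRingHom,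
          Polynomial.map_X]
        refine ((hψ Polynomial.X).trans (Polynomial.aeval_X x)).trans ?_
        simp [s28_evalAt]
    have h3 : ψ (Polynomial.eval₂ ((algebraMap (Polynomial k) (RatFunc k)).comp
        (Polynomial.mapRingHom (Int.castRingHom k))) r U) =
        Polynomial.eval₂ ((ψ : RatFunc k →+* LaurentSeries k).comp
          ((algebraMap (Polynomial k) (RatFunc k)).comp
            (Polynomial.mapRingHom (Int.castRingHom k)))) (ψ r) U :=
      Polynomial.hom_eval₂ U _ (ψ : RatFunc k →+* LaurentSeries k) r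
    have h4 : ψ (Polynomial.eval₂ ((algebraMap (Polynomial k) (RatFunc k)).comp
        (Polynomial.mapRingHom (Int.castRingHom k))) r U) = 0 := by
      rw [h3, hcomp, hr', ← Polynomial.eval_map]
      exact h
    exact (map_eq_zero_iff ψ (RingHom.injective (ψ : RatFunc k →+* LaurentSeries k))).mp h4
  obtain ⟨P, hP⟩ := IsIntegrallyClosed.isIntegral_iff.mp hint
  exact ⟨P, by rw [← hr', ← hP, hψ]⟩

theorem s28nb_eval_jq_ne_zero (P : Polynomial k) (hP : P ≠ 0) :
    Polynomial.eval₂ (HahnSeries.C : k →+* LaurentSeries k) (jqModC k) P ≠ 0 := by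
  intro h
  have h1 := s28nb_coeff_aeval_jq P
  rw [h, HahnSeries.coeff_zero] at h1
  exact hP (Polynomial.leadingCoeff_eq_zero.mp h1.symm)

theorem s28nb_jq_sub_ne_zero (c : k) : jqModC k - HahnSeries.C c ≠ 0 := by
  have h := s28nb_eval_jq_ne_zero (Polynomial.X - Polynomial.C c) (Polynomial.X_sub_C_ne_zero c)
  rwa [Polynomial.eval₂_sub, Polynomial.eval₂_X, Polynomial.eval₂_C] at h

/-- **Borel exclusion at prime level**: `J(s^p) ∉ k(J(s))` when `p ≠ 0` in `k`. -/
theorem s28nb_main (hCB : s28_stmt_CB) (hCG : s28_stmt_CG) (k : Type*) [Field k] (p : ℕ)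
    [NeZero p] (hp : p.Prime) (hpk : (p : k) ≠ 0) :
    qExpand k p (jqModC k) ∉
      (IntermediateField.adjoin k {jqModC k} : IntermediateField k (LaurentSeries k)) := by
  intro hJp
  have hJE : jqModC k ∈ IntermediateField.adjoin k {jqModC k} :=
    IntermediateField.mem_adjoin_simple_self k (jqModC k)
  obtain ⟨S, hS, hθ⟩ := s28nb_theta_mem_adjoin (jqModC k) hJp
  rw [s28nb_theta_qExpand] at hθ
  have hCGk := s28nb_CG_ring hCG k
  have hCGp := congrArg (qExpand k p) hCGk
  rw [map_pow, map_mul, map_mul, map_pow, map_pow, map_sub, map_ofNat] at hCGp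
  have hpL : (p : LaurentSeries k) ≠ 0 := by
    have : (p : LaurentSeries k) = HahnSeries.C (p : k) := by rw [map_natCast]
    rw [this]
    exact (map_ne_zero_iff _ HahnSeries.C_injective).mpr hpk
  have h1728 : (1728 : LaurentSeries k) = HahnSeries.C (1728 : k) := by rw [map_ofNat]
  have hJ0 : jqModC k ≠ 0 := jqModC_ne_zero_of_nontrivial k
  have hJ1 : jqModC k - 1728 ≠ 0 := by
    rw [h1728]
    exact s28nb_jq_sub_ne_zero _
  have hJp0 : qExpand k p (jqModC k) ≠ 0 := by
    intro h
    exact hJ0 (qExpand_injective p (h.trans (map_zero _).symm))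
  have hJp1 : qExpand k p (jqModC k) - 1728 ≠ 0 := by
    intro h
    apply hJ1
    apply qExpand_injective p
    rw [map_sub, map_ofNat, map_zero]
    exact h
  have key : ((p : LaurentSeries k) ^ 6 * (qExpand k p (jqModC k) ^ 4 *
        (qExpand k p (jqModC k) - 1728) ^ 3) * s28nb_u k p) * s28_Delta k =
      (S ^ 6 * (jqModC k ^ 4 * (jqModC k - 1728) ^ 3)) * s28_Delta k := by
    calc ((p : LaurentSeries k) ^ 6 * (qExpand k p (jqModC k) ^ 4 *
          (qExpand k p (jqModC k) - 1728) ^ 3) * s28nb_u k p) * s28_Delta k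
        = ((p : LaurentSeries k) * qExpand k p (s28_theta (jqModC k))) ^ 6 := by
          rw [mul_pow, hCGp, ← s28nb_u_mul_Delta]
          ring
      _ = (S * s28_theta (jqModC k)) ^ 6 := by rw [hθ]
      _ = _ := by
          rw [mul_pow, hCGk]
          ring
  have key2 := mul_right_cancel₀ s28nb_Delta_ne_zero key
  have hD : (p : LaurentSeries k) ^ 6 * (qExpand k p (jqModC k) ^ 4 *
        (qExpand k p (jqModC k) - 1728) ^ 3) ≠ 0 :=
    mul_ne_zero (pow_ne_zero _ hpL) (mul_ne_zero (pow_ne_zero _ hJp0) (pow_ne_zero _ hJp1))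
  have h1728E : (1728 : LaurentSeries k) ∈ IntermediateField.adjoin k {jqModC k} := by
    rw [h1728, ← s28nb_algebraMap_eq_C]
    exact IntermediateField.algebraMap_mem _ _
  have hDE : (p : LaurentSeries k) ^ 6 * (qExpand k p (jqModC k) ^ 4 *
        (qExpand k p (jqModC k) - 1728) ^ 3) ∈ IntermediateField.adjoin k {jqModC k} :=
    mul_mem (pow_mem (natCast_mem _ _) _)
      (mul_mem (pow_mem hJp _) (pow_mem (sub_mem hJp h1728E) _))
  have hu : s28nb_u k p ∈ IntermediateField.adjoin k {jqModC k} := by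
    have e : s28nb_u k p = ((p : LaurentSeries k) ^ 6 * (qExpand k p (jqModC k) ^ 4 *
        (qExpand k p (jqModC k) - 1728) ^ 3))⁻¹ *
        (S ^ 6 * (jqModC k ^ 4 * (jqModC k - 1728) ^ 3)) := by
      rw [← key2, ← mul_assoc, inv_mul_cancel₀ hD, one_mul]
    rw [e]
    exact mul_mem (inv_mem hDE)
      (mul_mem (pow_mem hS _) (mul_mem (pow_mem hJE _) (pow_mem (sub_mem hJE h1728E) _)))
  obtain ⟨U, hU, hUw⟩ := s28nb_CB_ring hCB k p hp
  have hw : (p : LaurentSeries k) ^ 12 * s28nb_u k p ∈ IntermediateField.adjoin k {jqModC k} :=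
    mul_mem (pow_mem (natCast_mem _ _) _) hu
  obtain ⟨P, hP⟩ := s28nb_mem_poly_of_integral (jqModC k) (s28nb_transcendental_jq k) _ hw U hU hUw
  refine s28nb_u_ne_eval p hp.two_le ((p : k) ^ 12) (pow_ne_zero _ hpk) P ?_
  rw [← s28nb_aeval_eq_eval₂, ← hP, map_pow, map_natCast]

theorem s28nb_TLA (hCB : s28_stmt_CB) (hCG : s28_stmt_CG) : s28_stmt_TLA := by
  intro k _ _ p _ hp hpk
  exact s28nb_main hCB hCG k p hp hpk

end Field

end Fermat.Agent.S28

end
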