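import Fermat.Agent.S28.Scale
import Fermat.Prelude.Def_ModularCurve_X0ModL

/-!
# S28 (Igusa) / (CG): formal calculus of `θ = s d/ds` on Laurent series  (OWNER: helper1)

* `s28cg_theta_mul`: the Leibniz rule;
* `s28cg_theta_ofPowerSeries`: `θ` on power series;
* `s28cg_coeffMap_theta`: `θ` commutes with coefficient maps;
* `s28cg_core`: the algebraic core of the theta identity: in a domain with a derivation `θ`,
  `J d = a³`, `1728 d = a³ - b²`, `2 a θb - 3 b θa = -1728 d` imply
  `(θ J)⁶ = J⁴ (J - 1728)³ d`.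
-/

set_option autoImplicit false

noncomputable section

namespace Fermat.Agent.S28

open HahnSeries ModularCurve

section formal

variable {A : Type*} [CommRing A]

theorem s28cg_theta_support (x : LaurentSeries A) : (s28_theta x).support ⊆ x.support := by
  intro m hm
  simp only [HahnSeries.mem_support, s28_theta_coeff, ne_eq] at hm ⊢
  intro h
  exact hm (by rw [h, mul_zero])

/-- the Leibniz rule for `θ = s d/ds`. -/
theorem s28cg_theta_mul (x y : LaurentSeries A) :
    s28_theta (x * y) = x * s28_theta y + s28_theta x * y := by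
  ext n
  have e1 : (x * s28_theta y).coeff n =
      ∑ ij ∈ Finset.antidiagonal x.isPWO_support y.isPWO_support n,
        x.coeff ij.1 * (s28_theta y).coeff ij.2 :=
    HahnSeries.coeff_mul_right' y.isPWO_support (s28cg_theta_support y)
  have e2 : (s28_theta x * y).coeff n =
      ∑ ij ∈ Finset.antidiagonal x.isPWO_support y.isPWO_support n,
        (s28_theta x).coeff ij.1 * y.coeff ij.2 :=
    HahnSeries.coeff_mul_left' x.isPWO_support (s28cg_theta_support x)
  rw [s28_theta_coeff, HahnSeries.coeff_add, e1, e2, HahnSeries.coeff_mul, Finset.mul_sum,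
    ← Finset.sum_add_distrib]
  refine Finset.sum_congr rfl fun ij hij => ?_
  rw [Finset.mem_antidiagonal] at hij
  rw [s28_theta_coeff, s28_theta_coeff, ← hij.2.2]
  push_cast
  ring

/-- `θ = X d/dX` on power series. -/
def s28cg_thetaP (f : PowerSeries A) : PowerSeries A :=
  PowerSeries.mk fun n => (n : A) * PowerSeries.coeff n f

@[simp]
theorem s28cg_thetaP_coeff (f : PowerSeries A) (n : ℕ) :
    PowerSeries.coeff n (s28cg_thetaP f) = (n : A) * PowerSeries.coeff n f := by
  simp [s28cg_thetaP]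

theorem s28cg_theta_ofPowerSeries (f : PowerSeries A) :
    s28_theta (HahnSeries.ofPowerSeries ℤ A f) =
      HahnSeries.ofPowerSeries ℤ A (s28cg_thetaP f) := by
  ext k
  rw [s28_theta_coeff]
  rcases le_or_gt 0 k with hk | hk
  · lift k to ℕ using hk
    rw [HahnSeries.ofPowerSeries_apply_coeff, HahnSeries.ofPowerSeries_apply_coeff,
      s28cg_thetaP_coeff]
    simp
  · rw [ofPowerSeries_coeff_of_neg _ hk, ofPowerSeries_coeff_of_neg _ hk, mul_zero]

theorem s28cg_coeffMap_theta {B : Type*} [CommRing B] (f : A →+* B) (x : LaurentSeries A) :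
    coeffMap f (s28_theta x) = s28_theta (coeffMap f x) := by
  ext k
  rw [coeffMap_coeff, s28_theta_coeff, s28_theta_coeff, coeffMap_coeff, map_mul, map_intCast]

theorem s28cg_coeffMap_ofPowerSeries {B : Type*} [CommRing B] (f : A →+* B)
    (u : PowerSeries A) :
    coeffMap f (HahnSeries.ofPowerSeries ℤ A u) =
      HahnSeries.ofPowerSeries ℤ B (PowerSeries.map f u) := by
  ext k
  rw [coeffMap_coeff]
  rcases le_or_gt 0 k with hk | hk
  · lift k to ℕ using hk
    rw [HahnSeries.ofPowerSeries_apply_coeff, HahnSeries.ofPowerSeries_apply_coeff,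
      PowerSeries.coeff_map]
  · rw [ofPowerSeries_coeff_of_neg _ hk, ofPowerSeries_coeff_of_neg _ hk, map_zero]

theorem s28cg_coeffMap_Delta {B : Type*} [CommRing B] (f : A →+* B) :
    coeffMap f (s28_Delta A) = s28_Delta B := by
  unfold s28_Delta
  rw [map_mul, coeffMap_single, map_one, s28cg_coeffMap_ofPowerSeries]
  congr 2
  ext n
  rw [PowerSeries.coeff_map, PowerSeries.coeff_map, PowerSeries.coeff_map]
  simp

theorem s28cg_coeffMap_injective {B : Type*} [CommRing B] (f : A →+* B)
    (hf : Function.Injective f) : Function.Injective (coeffMap f) := by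
  intro x y h
  ext k
  have := congrArg (fun z => z.coeff k) h
  simp only [coeffMap_coeff] at this
  exact hf this

end formal

section core

variable {L : Type*} [CommRing L] [IsDomain L]

/-- the algebraic core of the theta identity. -/
theorem s28cg_core (θ : L →+ L) (hθ : ∀ x y, θ (x * y) = x * θ y + θ x * y)
    (J a b d : L) (hd : d ≠ 0) (h1728 : (1728 : L) ≠ 0)
    (h1 : J * d = a ^ 3) (h2 : 1728 * d = a ^ 3 - b ^ 2)
    (h3 : 2 * a * θ b - 3 * b * θ a = -1728 * d) :
    (θ J) ^ 6 = J ^ 4 * (J - 1728) ^ 3 * d := by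
  have hθ1 : θ 1 = 0 := by
    have h := hθ 1 1
    rw [mul_one, one_mul, mul_one] at h
    have h' : θ 1 + 0 = θ 1 + θ 1 := by rw [add_zero]; exact h
    exact (add_left_cancel h').symm
  have hθn : θ (1728 : L) = 0 := by
    have h : (1728 : L) = (1728 : ℕ) • (1 : L) := by
      rw [nsmul_eq_mul, mul_one]; norm_cast
    rw [h, map_nsmul, hθ1, smul_zero]
  have hθa3 : θ (a ^ 3) = 3 * a ^ 2 * θ a := by
    have h : a ^ 3 = a * (a * a) := by ring
    rw [h, hθ, hθ]
    ring
  have hθb2 : θ (b ^ 2) = 2 * b * θ b := by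
    have h : b ^ 2 = b * b := by ring
    rw [h, hθ]
    ring
  have e1 : J * θ d + θ J * d = 3 * a ^ 2 * θ a := by
    have h := congrArg θ h1
    rw [hθ, hθa3] at h
    exact h
  have e2 : 1728 * θ d = 3 * a ^ 2 * θ a - 2 * b * θ b := by
    have h := congrArg θ h2
    rw [hθ, hθn, zero_mul, add_zero, map_sub, hθa3, hθb2] at h
    exact h
  have key : 1728 * d * (d * θ J + a ^ 2 * b) = 0 := by
    linear_combination (1728 * d) * e1 + (3 * a ^ 2 * θ a) * h2 - (1728 * θ d) * h1
      - a ^ 3 * e2 + (a ^ 2 * b) * h3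
  have hdθ : d * θ J = -(a ^ 2 * b) := by
    rcases mul_eq_zero.mp key with h | h
    · exact absurd h (mul_ne_zero h1728 hd)
    · exact eq_neg_of_add_eq_zero_left h
  have h6 : d ^ 6 * (θ J) ^ 6 = a ^ 12 * b ^ 6 := by
    rw [← mul_pow, hdθ]
    ring
  have h7 : d ^ 6 * (J ^ 4 * (J - 1728) ^ 3 * d) = a ^ 12 * b ^ 6 := by
    have h : d ^ 6 * (J ^ 4 * (J - 1728) ^ 3 * d) = (J * d) ^ 4 * (J * d - 1728 * d) ^ 3 := by
      ring
    rw [h, h1, h2]
    ring
  exact mul_left_cancel₀ (pow_ne_zero 6 hd) (h6.trans h7.symm)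

end core

end Fermat.Agent.S28
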