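import Fermat.Agent.S28.CoreDefs
import Fermat.Prelude.Def_ModularCurve_X0ModL

/-!
# S28 (Igusa), non-Borel lemma: the derivation `θ = q d/dq` on Laurent series  (helper3)

Leibniz rule, compatibility with `coeffMap` and `qExpand`, and the lemma that `θ` maps the field
`k(x)` into `k(x) · θ x`.
-/

set_option autoImplicit false

noncomputable section

namespace Fermat.Agent.S28

open HahnSeries ModularCurve

section Ring

variable {A : Type*} [CommRing A]

theorem s28nb_theta_support (x : LaurentSeries A) : (s28_theta x).support ⊆ x.support := by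
  intro n hn
  simp only [HahnSeries.mem_support, s28_theta_coeff, ne_eq] at hn ⊢
  intro h
  exact hn (by rw [h, mul_zero])

/-- Leibniz rule. -/
theorem s28nb_theta_mul (x y : LaurentSeries A) :
    s28_theta (x * y) = s28_theta x * y + x * s28_theta y := by
  ext n
  rw [s28_theta_coeff, HahnSeries.coeff_add, HahnSeries.coeff_mul,
    HahnSeries.coeff_mul_left' x.isPWO_support (s28nb_theta_support x),
    HahnSeries.coeff_mul_right' y.isPWO_support (s28nb_theta_support y),
    Finset.mul_sum, ← Finset.sum_add_distrib]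
  refine Finset.sum_congr rfl fun ij hij => ?_
  rw [Finset.mem_antidiagonal] at hij
  rw [s28_theta_coeff, s28_theta_coeff, ← hij.2.2]
  push_cast
  ring

theorem s28nb_theta_C (c : A) : s28_theta (HahnSeries.C c : LaurentSeries A) = 0 := by
  ext n
  rw [s28_theta_coeff, HahnSeries.coeff_zero]
  by_cases h : n = 0
  · subst h; simp
  · rw [HahnSeries.C_apply, HahnSeries.coeff_single_of_ne h, mul_zero]

theorem s28nb_theta_one : s28_theta (1 : LaurentSeries A) = 0 := by
  have := s28nb_theta_C (1 : A)
  rwa [map_one] at this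

theorem s28nb_theta_neg (x : LaurentSeries A) : s28_theta (-x) = - s28_theta x :=
  map_neg s28_theta x

theorem s28nb_theta_sub (x y : LaurentSeries A) :
    s28_theta (x - y) = s28_theta x - s28_theta y :=
  map_sub s28_theta x y

theorem s28nb_theta_pow (x : LaurentSeries A) (n : ℕ) :
    s28_theta (x ^ (n + 1)) = ((n + 1 : ℕ) : LaurentSeries A) * x ^ n * s28_theta x := by
  induction n with
  | zero => simp
  | succ n ih =>
    rw [pow_succ, s28nb_theta_mul, ih]
    push_cast
    ring

theorem s28nb_theta_coeffMap {B : Type*} [CommRing B] (f : A →+* B) (x : LaurentSeries A) :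
    s28_theta (coeffMap f x) = coeffMap f (s28_theta x) := by
  ext n
  simp [map_intCast]

theorem s28nb_theta_qExpand (m : ℕ) [NeZero m] (x : LaurentSeries A) :
    s28_theta (qExpand A m x) = (m : LaurentSeries A) * qExpand A m (s28_theta x) := by
  have hm : ((m : LaurentSeries A)) = HahnSeries.C (m : A) := by
    rw [map_natCast]
  ext n
  rw [s28_theta_coeff, hm, HahnSeries.C_mul_eq_smul, HahnSeries.coeff_smul, smul_eq_mul]
  by_cases hn : (m : ℤ) ∣ n
  · obtain ⟨k, rfl⟩ := hn
    rw [qExpand_coeff_mul, qExpand_coeff_mul, s28_theta_coeff]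
    push_cast
    ring
  · rw [qExpand_coeff_of_not_dvd m _ hn, qExpand_coeff_of_not_dvd m _ hn, mul_zero, mul_zero]

end Ring

section Field

variable {k : Type*} [Field k]

theorem s28nb_theta_inv (x : LaurentSeries k) :
    s28_theta (x⁻¹) = - (s28_theta x * (x⁻¹) ^ 2) := by
  by_cases hx : x = 0
  · subst hx
    simp
  · have h1 : s28_theta (x * x⁻¹) = 0 := by
      rw [mul_inv_cancel₀ hx, s28nb_theta_one]
    rw [s28nb_theta_mul] at h1
    have h2 : x * s28_theta (x⁻¹) = - (s28_theta x * x⁻¹) := by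
      rw [eq_neg_iff_add_eq_zero, add_comm]
      exact h1
    have h3 : s28_theta (x⁻¹) = x⁻¹ * (x * s28_theta (x⁻¹)) := by
      rw [← mul_assoc, inv_mul_cancel₀ hx, one_mul]
    rw [h3, h2]
    ring

theorem s28nb_algebraMap_eq_C (c : k) :
    algebraMap k (LaurentSeries k) c = HahnSeries.C c := by
  rw [ModularCurve.algebraMap_laurentSeries_eq_single]
  rfl

/-- `θ` maps `k(x)` into `k(x) · θ x`. -/
theorem s28nb_theta_mem_adjoin (x : LaurentSeries k) {y : LaurentSeries k}
    (hy : y ∈ IntermediateField.adjoin k {x}) :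
    ∃ S ∈ IntermediateField.adjoin k {x}, s28_theta y = S * s28_theta x := by
  induction hy using IntermediateField.adjoin_induction with
  | mem z hz =>
    rw [Set.mem_singleton_iff] at hz
    subst hz
    exact ⟨1, one_mem _, (one_mul _).symm⟩
  | algebraMap c =>
    refine ⟨0, zero_mem _, ?_⟩
    rw [s28nb_algebraMap_eq_C, s28nb_theta_C, zero_mul]
  | add a b ha hb iha ihb =>
    obtain ⟨Sa, hSa, ea⟩ := iha
    obtain ⟨Sb, hSb, eb⟩ := ihb
    exact ⟨Sa + Sb, add_mem hSa hSb, by rw [map_add, ea, eb, add_mul]⟩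
  | inv a ha iha =>
    obtain ⟨Sa, hSa, ea⟩ := iha
    refine ⟨- (Sa * (a⁻¹) ^ 2), neg_mem (mul_mem hSa (pow_mem (inv_mem ha) 2)), ?_⟩
    rw [s28nb_theta_inv, ea]
    ring
  | mul a b ha hb iha ihb =>
    obtain ⟨Sa, hSa, ea⟩ := iha
    obtain ⟨Sb, hSb, eb⟩ := ihb
    refine ⟨Sa * b + a * Sb, add_mem (mul_mem hSa hb) (mul_mem ha hSb), ?_⟩
    rw [s28nb_theta_mul, ea, eb]
    ring

end Field

end Fermat.Agent.S28

end
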