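import Fermat.Agent.S28.CAInvPt

/-!
# S28 / (CA-2): holomorphy and `SL₂(ℤ)`-invariance of the coefficients of
`∏ i, (X - f_i(τ))`  (helper2)

Main results: `s28ca_g_mdiff`, `s28ca_poly_inv`, `s28ca_g_inv`.
-/

set_option autoImplicit false

namespace Fermat.Agent.S28

open UpperHalfPlane Polynomial
open scoped MatrixGroups ModularForm Manifold
open Fermat.Agent.S24

/-! ### Holomorphy -/

/-- Composition with an affine self-map of `ℍ` preserves holomorphy. -/
lemma s28ca_mdiff_comp_affine (F : ℍ → ℂ) (hF : MDiff F) (φ : ℍ → ℍ) (a c : ℂ)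
    (hφ : ∀ τ : ℍ, (φ τ : ℂ) = a * τ + c) : MDiff (fun τ => F (φ τ)) := by
  rw [UpperHalfPlane.mdifferentiable_iff] at hF ⊢
  have hmaps : Set.MapsTo (fun w : ℂ => a * w + c) {z : ℂ | 0 < z.im} {z : ℂ | 0 < z.im} := by
    intro w hw
    have h1 := hφ ⟨w, hw⟩
    have h2 : (a * w + c) = (φ ⟨w, hw⟩ : ℂ) := by rw [h1]
    show 0 < (a * w + c).im
    rw [h2]
    exact (φ ⟨w, hw⟩).im_pos
  have hdiff : DifferentiableOn ℂ (fun w : ℂ => a * w + c) {z : ℂ | 0 < z.im} := by
    intro w _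
    exact ((differentiableAt_id.const_mul a).add_const c).differentiableWithinAt
  refine (hF.comp hdiff hmaps).congr ?_
  intro w hw
  have hw' : 0 < w.im := hw
  show F (φ (ofComplex w)) = F (ofComplex (a * w + c))
  congr 1
  apply UpperHalfPlane.ext
  rw [hφ, ofComplex_apply_of_im_pos hw', ofComplex_apply_of_im_pos (hmaps hw)]

variable (p : ℕ) [NeZero p]

lemma s28ca_mdiff_jf_dmul : MDiff (fun τ => jf (dmul p τ)) :=
  s28ca_mdiff_comp_affine jf jf_mdiff (dmul p) (p : ℂ) 0 (fun τ => by rw [coe_dmul, add_zero])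

lemma s28ca_mdiff_jf_pt (b : ℤ) : MDiff (fun τ => jf (s28ca_pt p b τ)) :=
  s28ca_mdiff_comp_affine jf jf_mdiff (s28ca_pt p b) ((p : ℂ)⁻¹) ((b : ℂ) / p) (fun τ => by
    rw [s28ca_coe_pt]
    field_simp [s28ca_p_ne_zero p])

lemma s28ca_f_mdiff (i : Option (Fin p)) : MDiff (s28ca_f p i) := by
  cases i with
  | none => exact s28ca_mdiff_jf_dmul p
  | some b => exact s28ca_mdiff_jf_pt p _

/-- Coefficients of a product of `X - C (f i τ)` are holomorphic. -/
lemma s28ca_mdiff_coeff_prod {ι : Type*} (s : Finset ι) (f : ι → ℍ → ℂ)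
    (hf : ∀ i ∈ s, MDiff (f i)) (k : ℕ) :
    MDifferentiable 𝓘(ℂ) 𝓘(ℂ)
      (fun τ : ℍ => ((∏ i ∈ s, (X - C (f i τ)) : Polynomial ℂ).coeff k : ℂ)) := by
  classical
  induction s using Finset.induction_on generalizing k with
  | empty =>
    simp only [Finset.prod_empty]
    exact mdifferentiable_const
  | insert a s ha ih =>
    have ih' := fun k => ih (fun i hi => hf i (Finset.mem_insert_of_mem hi)) k
    have hfa := hf a (Finset.mem_insert_self a s)
    simp only [Finset.prod_insert ha]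
    cases k with
    | zero =>
      have : (fun τ => ((X - C (f a τ)) * ∏ i ∈ s, (X - C (f i τ))).coeff 0) =
          fun τ => -(f a τ) * (∏ i ∈ s, (X - C (f i τ))).coeff 0 := by
        funext τ
        rw [Polynomial.mul_coeff_zero]
        simp
      rw [this]
      exact hfa.neg.mul (ih' 0)
    | succ k =>
      have : (fun τ => ((X - C (f a τ)) * ∏ i ∈ s, (X - C (f i τ))).coeff (k + 1)) =
          fun τ => (∏ i ∈ s, (X - C (f i τ))).coeff k -
            f a τ * (∏ i ∈ s, (X - C (f i τ))).coeff (k + 1) := by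
        funext τ
        rw [Polynomial.coeff_X_sub_C_mul]
      rw [this]
      exact (ih' k).sub (hfa.mul (ih' (k + 1)))

theorem s28ca_g_mdiff (k : ℕ) : MDiff (s28ca_g p k) := by
  unfold s28ca_g s28ca_poly
  exact s28ca_mdiff_coeff_prod Finset.univ (s28ca_f p) (fun i _ => s28ca_f_mdiff p i) k

/-! ### Invariance -/

/-- The conjugates, indexed by `ℙ¹(𝔽_p) = Option (ZMod p)`. -/
noncomputable def s28ca_fz : Option (ZMod p) → ℍ → ℂ
  | none => fun τ => jf (dmul p τ)
  | some x => fun τ => jf (s28ca_pt p ((x.val : ℕ) : ℤ) τ)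

lemma s28ca_jf_pt_int (n : ℤ) (τ : ℍ) :
    jf (s28ca_pt p n τ) = jf (s28ca_pt p ((((n : ZMod p)).val : ℕ) : ℤ) τ) := by
  apply s28ca_jf_pt_congr
  rw [← ZMod.intCast_zmod_eq_zero_iff_dvd]
  push_cast
  rw [ZMod.natCast_zmod_val, sub_self]

lemma s28ca_fz_T (i : Option (ZMod p)) (τ : ℍ) :
    s28ca_fz p i (ModularGroup.T • τ) =
      s28ca_fz p ((Equiv.optionCongr (Equiv.addRight (1 : ZMod p))) i) τ := by
  cases i with
  | none => exact s28ca_jf_dmul_T p τ
  | some x =>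
    show jf (s28ca_pt p ((x.val : ℕ) : ℤ) (ModularGroup.T • τ)) =
      jf (s28ca_pt p (((x + 1).val : ℕ) : ℤ) τ)
    rw [s28ca_pt_T, s28ca_jf_pt_int]
    congr 5
    push_cast
    rw [ZMod.natCast_zmod_val]

/-- The action of `S` on `ℙ¹(𝔽_p)`: `x ↦ -1/x`. -/
noncomputable def s28ca_sS : Option (ZMod p) → Option (ZMod p)
  | none => some 0
  | some x => if x = 0 then none else some (-x⁻¹)

lemma s28ca_sS_involutive (hp : p.Prime) : Function.Involutive (s28ca_sS p) := by
  haveI := Fact.mk hp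
  intro i
  cases i with
  | none => simp [s28ca_sS]
  | some x =>
    by_cases hx : x = 0
    · simp [s28ca_sS, hx]
    · have h1 : -x⁻¹ ≠ 0 := neg_ne_zero.mpr (inv_ne_zero hx)
      simp [s28ca_sS, hx]

lemma s28ca_fz_S (hp : p.Prime) (i : Option (ZMod p)) (τ : ℍ) :
    s28ca_fz p i (ModularGroup.S • τ) = s28ca_fz p (s28ca_sS p i) τ := by
  haveI := Fact.mk hp
  cases i with
  | none =>
    show jf (dmul p (ModularGroup.S • τ)) = jf (s28ca_pt p (((0 : ZMod p).val : ℕ) : ℤ) τ)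
    rw [ZMod.val_zero, s28ca_jf_dmul_S]
    rfl
  | some x =>
    by_cases hx : x = 0
    · subst hx
      have h1 : s28ca_sS p (some (0 : ZMod p)) = none := by simp [s28ca_sS]
      rw [h1]
      show jf (s28ca_pt p (((0 : ZMod p).val : ℕ) : ℤ) (ModularGroup.S • τ)) = jf (dmul p τ)
      rw [ZMod.val_zero]
      exact s28ca_jf_pt_zero_S p τ
    · have h1 : s28ca_sS p (some x) = some (-x⁻¹) := by simp [s28ca_sS, hx]
      rw [h1]
      show jf (s28ca_pt p ((x.val : ℕ) : ℤ) (ModularGroup.S • τ)) =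
        jf (s28ca_pt p (((-x⁻¹).val : ℕ) : ℤ) τ)
      apply s28ca_jf_pt_S
      rw [← ZMod.intCast_zmod_eq_zero_iff_dvd]
      push_cast
      rw [ZMod.natCast_zmod_val, ZMod.natCast_zmod_val, mul_neg, mul_inv_cancel₀ hx]
      ring

/-- The polynomial `∏ (X - f_i(τ))` with index set `ℙ¹(𝔽_p)`. -/
noncomputable def s28ca_polyz (τ : ℍ) : Polynomial ℂ :=
  ∏ i : Option (ZMod p), (X - C (s28ca_fz p i τ))

lemma s28ca_polyz_T (τ : ℍ) : s28ca_polyz p (ModularGroup.T • τ) = s28ca_polyz p τ := by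
  unfold s28ca_polyz
  simp_rw [s28ca_fz_T]
  exact Equiv.prod_comp (Equiv.optionCongr (Equiv.addRight (1 : ZMod p)))
    (fun i => X - C (s28ca_fz p i τ))

lemma s28ca_polyz_S (hp : p.Prime) (τ : ℍ) :
    s28ca_polyz p (ModularGroup.S • τ) = s28ca_polyz p τ := by
  unfold s28ca_polyz
  simp_rw [s28ca_fz_S p hp]
  exact Equiv.prod_comp ((s28ca_sS_involutive p hp).toPerm _)
    (fun i => X - C (s28ca_fz p i τ))

/-- `Fin p ≃ ZMod p`, compatible with `val`. -/
noncomputable def s28ca_finEquiv : Fin p ≃ ZMod p where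
  toFun b := ((b : ℕ) : ZMod p)
  invFun x := ⟨x.val, ZMod.val_lt x⟩
  left_inv b := by
    apply Fin.ext
    show ((b : ℕ) : ZMod p).val = b
    exact ZMod.val_natCast_of_lt b.isLt
  right_inv x := ZMod.natCast_zmod_val x

lemma s28ca_poly_eq_polyz (τ : ℍ) : s28ca_poly p τ = s28ca_polyz p τ := by
  unfold s28ca_poly s28ca_polyz
  rw [← Equiv.prod_comp (Equiv.optionCongr (s28ca_finEquiv p))
    (fun i => X - C (s28ca_fz p i τ))]
  refine Finset.prod_congr rfl fun i _ => ?_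
  cases i with
  | none => rfl
  | some b =>
    show X - C (jf (s28ca_pt p ((b : ℕ) : ℤ) τ)) =
      X - C (jf (s28ca_pt p (((((b : ℕ) : ZMod p)).val : ℕ) : ℤ) τ))
    rw [ZMod.val_natCast_of_lt b.isLt]

/-- The polynomial `∏ (X - f_i(τ))` is `SL₂(ℤ)`-invariant. -/
theorem s28ca_poly_inv (hp : p.Prime) (γ : SL(2, ℤ)) (τ : ℍ) :
    s28ca_poly p (γ • τ) = s28ca_poly p τ := by
  have hγ : γ ∈ Subgroup.closure ({ModularGroup.S, ModularGroup.T} : Set SL(2, ℤ)) := by
    rw [SpecialLinearGroup.SL2Z_generators]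
    exact Subgroup.mem_top γ
  revert τ
  induction hγ using Subgroup.closure_induction with
  | mem x hx =>
    intro τ
    rw [s28ca_poly_eq_polyz, s28ca_poly_eq_polyz]
    rcases hx with rfl | hx
    · exact s28ca_polyz_S p hp τ
    · rw [Set.mem_singleton_iff] at hx
      subst hx
      exact s28ca_polyz_T p τ
  | one => intro τ; rw [one_smul]
  | mul x y _ _ hx hy =>
    intro τ
    rw [mul_smul, hx, hy]
  | inv x _ hx =>
    intro τ
    have := hx (x⁻¹ • τ)
    rw [smul_inv_smul] at this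
    exact this.symm

theorem s28ca_g_inv (hp : p.Prime) (k : ℕ) (γ : SL(2, ℤ)) (τ : ℍ) :
    s28ca_g p k (γ • τ) = s28ca_g p k τ := by
  unfold s28ca_g
  rw [s28ca_poly_inv p hp γ τ]

end Fermat.Agent.S28
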