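import Mathlib
import Fermat.Agent.S24.QExpAux
import Fermat.Agent.S24.QExpFormal
import Fermat.Agent.S24.JFunInfty

/-!
# S28 / (CA-3) part 1: `q^{1/N}`-expansions of functions on the upper half plane
(OWNER: helper8; off-main)

* `s28ca_hasSum_qfT`   : a function holomorphic on the unit disc is the sum of its Taylor series
                         `S24.qfT`.
* `s28ca_qfT_of_hasSum`: uniqueness of the coefficients.
* `s28ca_qfT_comp_mul`, `s28ca_qfT_comp_pow` : Taylor series of `w ↦ G (c w)`, `w ↦ G (w ^ N)`.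
* `s28ca_HasQExp N g A`: `g : ℍ → ℂ` has the expansion `A ∈ ℂ⸨s⸩` in `s = exp (2πi τ / N)`:
  for some `m`, `s ^ m · g` is a holomorphic function `H` of `s` on the unit disc with Taylor
  series `s ^ m · A`.
* API: `s28ca_hasQExp_const/_add/_neg/_sub/_mul/_pow/_unique/_congr`, level change
  `s28ca_hasQExp_level`, and `s28ca_hasQExp_jf`.
-/

set_option autoImplicit false
set_option linter.style.haveILetI false

namespace Fermat.Agent.S28

open Complex UpperHalfPlane Function Filter Topology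
open ModularForm EisensteinSeries CongruenceSubgroup
open scoped MatrixGroups ModularForm Manifold
open Fermat.Agent.S20 Fermat.Agent.S24

local notation "𝕢" => Periodic.qParam

/-! ### Taylor series on the unit disc -/

theorem s28ca_analyticAt {G : ℂ → ℂ} (hG : DifferentiableOn ℂ G (Metric.ball 0 1)) :
    AnalyticAt ℂ G 0 :=
  hG.analyticAt (Metric.ball_mem_nhds 0 one_pos)

theorem s28ca_qfT_add {G H : ℂ → ℂ} (hG : AnalyticAt ℂ G 0) (hH : AnalyticAt ℂ H 0) :
    qfT (G + H) = qfT G + qfT H := by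
  ext m
  rw [qfT_coeff, map_add, qfT_coeff, qfT_coeff, iteratedDeriv_add hG.contDiffAt hH.contDiffAt]
  ring

theorem s28ca_qfT_zero : qfT (0 : ℂ → ℂ) = 0 := by
  have h := qfT_const 0
  rw [map_zero] at h
  exact h

/-- a function holomorphic on the unit disc is the sum of its Taylor series. -/
theorem s28ca_hasSum_qfT {G : ℂ → ℂ} (hG : DifferentiableOn ℂ G (Metric.ball 0 1)) {w : ℂ}
    (hw : ‖w‖ < 1) : HasSum (fun n : ℕ => (qfT G).coeff n * w ^ n) (G w) := by
  have hw' : w ∈ Metric.ball (0 : ℂ) 1 := by simpa using hw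
  have h := Complex.hasSum_taylorSeries_on_ball hG hw'
  refine h.congr_fun ?_
  intro n
  rw [qfT_coeff]
  simp only [sub_zero, smul_eq_mul]
  ring

/-- uniqueness of the coefficients of a convergent power series. -/
theorem s28ca_qfT_of_hasSum {G : ℂ → ℂ} (hG : DifferentiableOn ℂ G (Metric.ball 0 1))
    (b : ℕ → ℂ) (h : ∀ w : ℂ, ‖w‖ < 1 → HasSum (fun n : ℕ => b n * w ^ n) (G w)) :
    qfT G = PowerSeries.mk b := by
  -- the difference of the two series sums to zero on the disc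
  set c : ℕ → ℂ := fun n => (qfT G).coeff n - b n with hc
  have hsum : ∀ w : ℂ, ‖w‖ < 1 → HasSum (fun n : ℕ => c n * w ^ n) 0 := by
    intro w hw
    have := (s28ca_hasSum_qfT hG hw).sub (h w hw)
    rw [sub_self] at this
    refine this.congr_fun ?_
    intro n
    simp only [hc]
    ring
  have hrad : (1 : ENNReal) ≤ (FormalMultilinearSeries.ofScalars ℂ c).radius := by
    refine ENNReal.le_of_forall_nnreal_lt ?_
    intro r hr
    have hr1 : (r : ℝ) < 1 := by exact_mod_cast hr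
    have hnr : ‖(((r : ℝ) : ℂ))‖ = (r : ℝ) := by
      rw [Complex.norm_real, Real.norm_of_nonneg (NNReal.coe_nonneg r)]
    have hs := (hsum (((r : ℝ) : ℂ)) (by rw [hnr]; exact hr1)).summable
    have ht := hs.tendsto_atTop_zero
    have ht' : Tendsto (fun n : ℕ => ‖FormalMultilinearSeries.ofScalars ℂ c n‖ * (r : ℝ) ^ n)
        atTop (𝓝 0) := by
      have := ht.norm
      rw [norm_zero] at this
      refine this.congr ?_
      intro n
      rw [FormalMultilinearSeries.ofScalars_norm, norm_mul, norm_pow, hnr]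
    exact FormalMultilinearSeries.le_radius_of_tendsto _ ht'
  have hfp : HasFPowerSeriesOnBall (fun _ : ℂ => (0 : ℂ))
      (FormalMultilinearSeries.ofScalars ℂ c) 0 1 := by
    refine ⟨hrad, one_pos, ?_⟩
    intro y hy
    have hy' : ‖y‖ < 1 := by
      have := hy
      rw [Metric.mem_eball, edist_zero_right] at this
      have h2 : (‖y‖₊ : ENNReal) < 1 := by simpa [enorm] using this
      exact_mod_cast h2
    refine (hsum y hy').congr_fun ?_
    intro n
    rw [FormalMultilinearSeries.ofScalars_apply_eq, smul_eq_mul]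
  have hz : FormalMultilinearSeries.ofScalars ℂ c = 0 := hfp.hasFPowerSeriesAt.eq_zero
  have hc0 : c = 0 := (FormalMultilinearSeries.ofScalars_series_eq_zero (E := ℂ)).mp hz
  ext n
  rw [PowerSeries.coeff_mk]
  have := congrFun hc0 n
  simp only [hc, Pi.zero_apply] at this
  exact sub_eq_zero.mp this

/-- Taylor series of `w ↦ G (c w)` for `‖c‖ ≤ 1`. -/
theorem s28ca_qfT_comp_mul {G : ℂ → ℂ} (hG : DifferentiableOn ℂ G (Metric.ball 0 1)) {c : ℂ}
    (hc : ‖c‖ ≤ 1) :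
    DifferentiableOn ℂ (fun w => G (c * w)) (Metric.ball 0 1) ∧
      qfT (fun w => G (c * w)) = PowerSeries.rescale c (qfT G) := by
  have hmaps : Set.MapsTo (fun w : ℂ => c * w) (Metric.ball 0 1) (Metric.ball 0 1) := by
    intro w hw
    simp only [Metric.mem_ball, dist_zero_right] at hw ⊢
    rw [norm_mul]
    calc ‖c‖ * ‖w‖ ≤ 1 * ‖w‖ := mul_le_mul_of_nonneg_right hc (norm_nonneg _)
      _ < 1 := by rw [one_mul]; exact hw
  have hd : DifferentiableOn ℂ (fun w => G (c * w)) (Metric.ball 0 1) :=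
    hG.comp ((differentiable_id.const_mul c).differentiableOn) hmaps
  refine ⟨hd, ?_⟩
  rw [s28ca_qfT_of_hasSum hd (fun n => c ^ n * (qfT G).coeff n)]
  · ext n
    rw [PowerSeries.coeff_mk, PowerSeries.coeff_rescale]
  · intro w hw
    have hcw : ‖c * w‖ < 1 := by
      have := hmaps (show w ∈ Metric.ball (0 : ℂ) 1 by simpa using hw)
      simpa using this
    refine (s28ca_hasSum_qfT hG hcw).congr_fun ?_
    intro n
    rw [mul_pow]
    ring

/-- Taylor series of `w ↦ G (w ^ N)`. -/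
theorem s28ca_qfT_comp_pow {G : ℂ → ℂ} (hG : DifferentiableOn ℂ G (Metric.ball 0 1)) (N : ℕ)
    (hN : N ≠ 0) :
    DifferentiableOn ℂ (fun w => G (w ^ N)) (Metric.ball 0 1) ∧
      qfT (fun w => G (w ^ N)) = PowerSeries.expand N hN (qfT G) := by
  have hpow : ∀ w : ℂ, ‖w‖ < 1 → ‖w ^ N‖ < 1 := by
    intro w hw
    rw [norm_pow]
    exact pow_lt_one₀ (norm_nonneg _) hw hN
  have hmaps : Set.MapsTo (fun w : ℂ => w ^ N) (Metric.ball 0 1) (Metric.ball 0 1) := by
    intro w hw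
    simp only [Metric.mem_ball, dist_zero_right] at hw ⊢
    exact hpow w hw
  have hd : DifferentiableOn ℂ (fun w => G (w ^ N)) (Metric.ball 0 1) :=
    hG.comp ((differentiable_id.pow N).differentiableOn) hmaps
  refine ⟨hd, ?_⟩
  rw [s28ca_qfT_of_hasSum hd
    (fun n => if N ∣ n then (qfT G).coeff (n / N) else 0)]
  · ext n
    rw [PowerSeries.coeff_mk, PowerSeries.coeff_expand]
  · intro w hw
    have h := s28ca_hasSum_qfT hG (hpow w hw)
    have hinj : Function.Injective fun n : ℕ => N * n := fun a b hab =>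
      Nat.eq_of_mul_eq_mul_left (Nat.pos_of_ne_zero hN) hab
    refine (Function.Injective.hasSum_iff hinj ?_).mp ?_
    · intro m hm
      have : ¬ N ∣ m := fun ⟨n, hn⟩ => hm ⟨n, hn.symm⟩
      simp [this]
    · refine h.congr_fun ?_
      intro n
      simp only [Function.comp_apply, dvd_mul_right, if_true,
        Nat.mul_div_cancel_left _ (Nat.pos_of_ne_zero hN), pow_mul]

theorem s28ca_qfT_pow_mul {H : ℂ → ℂ} (hH : DifferentiableOn ℂ H (Metric.ball 0 1)) (k : ℕ) :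
    DifferentiableOn ℂ (fun w => w ^ k * H w) (Metric.ball 0 1) ∧
      HahnSeries.ofPowerSeries ℤ ℂ (qfT (fun w => w ^ k * H w)) =
        HahnSeries.single (k : ℤ) 1 * HahnSeries.ofPowerSeries ℤ ℂ (qfT H) := by
  refine ⟨((differentiable_id.pow k).differentiableOn).mul hH, ?_⟩
  have hid : AnalyticAt ℂ (fun q : ℂ => q) 0 := analyticAt_id
  have e : (fun w : ℂ => w ^ k * H w) = ((fun q : ℂ => q) ^ k) * H := by
    funext w; simp
  rw [e, qfT_mul (hid.pow k) (s28ca_analyticAt hH), qfT_pow hid, qfT_id, map_mul,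
    HahnSeries.ofPowerSeries_X_pow]

/-! ### `q^{1/N}`-expansions -/

/-- `g` has the expansion `A` in the variable `s = exp (2πi τ / N)`. -/
def s28ca_HasQExp (N : ℕ) (g : ℍ → ℂ) (A : LaurentSeries ℂ) : Prop :=
  ∃ (m : ℕ) (H : ℂ → ℂ), DifferentiableOn ℂ H (Metric.ball 0 1) ∧
    (∀ τ : ℍ, g τ * (𝕢 (N : ℝ) τ) ^ m = H (𝕢 (N : ℝ) τ)) ∧
    HahnSeries.ofPowerSeries ℤ ℂ (qfT H) = HahnSeries.single (m : ℤ) 1 * A

theorem s28ca_norm_qParam_lt_one (N : ℕ) [NeZero N] (τ : ℍ) : ‖𝕢 (N : ℝ) τ‖ < 1 :=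
  Periodic.norm_qParam_lt_one (Nat.cast_pos.mpr (NeZero.pos N)) τ.im_pos

theorem s28ca_exists_qParam (N : ℕ) [NeZero N] {w : ℂ} (hw : ‖w‖ < 1) (hw0 : w ≠ 0) :
    ∃ τ : ℍ, 𝕢 (N : ℝ) τ = w := by
  have hN : (0 : ℝ) < N := Nat.cast_pos.mpr (NeZero.pos N)
  have h1 := Periodic.im_invQParam_pos_of_norm_lt_one (h := (N : ℝ)) hN hw hw0
  exact ⟨⟨Periodic.invQParam (N : ℝ) w, h1⟩, Periodic.qParam_right_inv hN.ne' hw0⟩

theorem s28ca_single_mul_cancel {m : ℤ} {A B : LaurentSeries ℂ}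
    (h : HahnSeries.single m (1 : ℂ) * A = HahnSeries.single m 1 * B) : A = B := by
  have h2 : HahnSeries.single (-m) (1 : ℂ) * HahnSeries.single m (1 : ℂ) = 1 := by
    rw [HahnSeries.single_mul_single]
    simp
  calc A = (HahnSeries.single (-m) (1 : ℂ) * HahnSeries.single m (1 : ℂ)) * A := by
        rw [h2, one_mul]
    _ = HahnSeries.single (-m) (1 : ℂ) * (HahnSeries.single m 1 * A) := by ring
    _ = HahnSeries.single (-m) (1 : ℂ) * (HahnSeries.single m 1 * B) := by rw [h]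
    _ = (HahnSeries.single (-m) (1 : ℂ) * HahnSeries.single m (1 : ℂ)) * B := by ring
    _ = B := by rw [h2, one_mul]

theorem s28ca_single_add (a b : ℕ) :
    HahnSeries.single ((a + b : ℕ) : ℤ) (1 : ℂ) =
      HahnSeries.single (a : ℤ) 1 * HahnSeries.single (b : ℤ) 1 := by
  rw [HahnSeries.single_mul_single]
  simp

theorem s28ca_hasQExp_congr {N : ℕ} {g g' : ℍ → ℂ} {A : LaurentSeries ℂ}
    (h : s28ca_HasQExp N g A) (hg : ∀ τ, g τ = g' τ) : s28ca_HasQExp N g' A := by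
  obtain ⟨m, H, hH, hgH, hT⟩ := h
  exact ⟨m, H, hH, fun τ => by rw [← hg]; exact hgH τ, hT⟩

theorem s28ca_hasQExp_const (N : ℕ) (c : ℂ) :
    s28ca_HasQExp N (fun _ => c) (HahnSeries.C c) := by
  refine ⟨0, fun _ => c, differentiableOn_const c, fun τ => by simp, ?_⟩
  rw [qfT_const, HahnSeries.ofPowerSeries_C]
  simp

theorem s28ca_hasQExp_mul {N : ℕ} {g₁ g₂ : ℍ → ℂ} {A B : LaurentSeries ℂ}
    (h₁ : s28ca_HasQExp N g₁ A) (h₂ : s28ca_HasQExp N g₂ B) :
    s28ca_HasQExp N (fun τ => g₁ τ * g₂ τ) (A * B) := by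
  obtain ⟨m₁, H₁, hH₁, hg₁, hT₁⟩ := h₁
  obtain ⟨m₂, H₂, hH₂, hg₂, hT₂⟩ := h₂
  refine ⟨m₁ + m₂, H₁ * H₂, hH₁.mul hH₂, fun τ => ?_, ?_⟩
  · rw [Pi.mul_apply, ← hg₁, ← hg₂, pow_add]
    ring
  · rw [qfT_mul (s28ca_analyticAt hH₁) (s28ca_analyticAt hH₂), map_mul, hT₁, hT₂,
      s28ca_single_add]
    ring

theorem s28ca_hasQExp_add {N : ℕ} {g₁ g₂ : ℍ → ℂ} {A B : LaurentSeries ℂ}
    (h₁ : s28ca_HasQExp N g₁ A) (h₂ : s28ca_HasQExp N g₂ B) :
    s28ca_HasQExp N (fun τ => g₁ τ + g₂ τ) (A + B) := by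
  obtain ⟨m₁, H₁, hH₁, hg₁, hT₁⟩ := h₁
  obtain ⟨m₂, H₂, hH₂, hg₂, hT₂⟩ := h₂
  obtain ⟨hd₁, hs₁⟩ := s28ca_qfT_pow_mul hH₁ m₂
  obtain ⟨hd₂, hs₂⟩ := s28ca_qfT_pow_mul hH₂ m₁
  refine ⟨m₁ + m₂, (fun w => w ^ m₂ * H₁ w) + (fun w => w ^ m₁ * H₂ w), hd₁.add hd₂,
    fun τ => ?_, ?_⟩
  · rw [Pi.add_apply, ← hg₁, ← hg₂, pow_add]
    ring
  · rw [s28ca_qfT_add (s28ca_analyticAt hd₁) (s28ca_analyticAt hd₂), map_add, hs₁, hs₂, hT₁,
      hT₂, s28ca_single_add]
    ring

theorem s28ca_hasQExp_neg {N : ℕ} {g : ℍ → ℂ} {A : LaurentSeries ℂ}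
    (h : s28ca_HasQExp N g A) : s28ca_HasQExp N (fun τ => -g τ) (-A) := by
  have := s28ca_hasQExp_mul (s28ca_hasQExp_const N (-1)) h
  have e : (HahnSeries.C (-1 : ℂ) : LaurentSeries ℂ) * A = -A := by
    rw [map_neg, map_one, neg_one_mul]
  rw [e] at this
  exact s28ca_hasQExp_congr this (fun τ => by ring)

theorem s28ca_hasQExp_sub {N : ℕ} {g₁ g₂ : ℍ → ℂ} {A B : LaurentSeries ℂ}
    (h₁ : s28ca_HasQExp N g₁ A) (h₂ : s28ca_HasQExp N g₂ B) :
    s28ca_HasQExp N (fun τ => g₁ τ - g₂ τ) (A - B) := by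
  have := s28ca_hasQExp_add h₁ (s28ca_hasQExp_neg h₂)
  rw [← sub_eq_add_neg] at this
  exact s28ca_hasQExp_congr this (fun τ => by ring)

theorem s28ca_hasQExp_pow {N : ℕ} {g : ℍ → ℂ} {A : LaurentSeries ℂ}
    (h : s28ca_HasQExp N g A) (n : ℕ) : s28ca_HasQExp N (fun τ => g τ ^ n) (A ^ n) := by
  induction n with
  | zero =>
    have := s28ca_hasQExp_const N 1
    rw [map_one] at this
    simpa using this
  | succ n ih =>
    have := s28ca_hasQExp_mul ih h
    rw [← pow_succ] at this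
    exact s28ca_hasQExp_congr this (fun τ => by rw [pow_succ])

theorem s28ca_hasQExp_sum {N : ℕ} {ι : Type*} (s : Finset ι) (g : ι → ℍ → ℂ)
    (A : ι → LaurentSeries ℂ) (h : ∀ i ∈ s, s28ca_HasQExp N (g i) (A i)) :
    s28ca_HasQExp N (fun τ => ∑ i ∈ s, g i τ) (∑ i ∈ s, A i) := by
  classical
  induction s using Finset.induction_on with
  | empty =>
    have := s28ca_hasQExp_const N 0
    rw [map_zero] at this
    simpa using this
  | insert a s ha ih =>
    have h1 := s28ca_hasQExp_add (h a (Finset.mem_insert_self a s))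
      (ih fun i hi => h i (Finset.mem_insert_of_mem hi))
    rw [Finset.sum_insert ha]
    exact s28ca_hasQExp_congr h1 (fun τ => by rw [Finset.sum_insert ha])

theorem s28ca_hasQExp_prod {N : ℕ} {ι : Type*} (s : Finset ι) (g : ι → ℍ → ℂ)
    (A : ι → LaurentSeries ℂ) (h : ∀ i ∈ s, s28ca_HasQExp N (g i) (A i)) :
    s28ca_HasQExp N (fun τ => ∏ i ∈ s, g i τ) (∏ i ∈ s, A i) := by
  classical
  induction s using Finset.induction_on with
  | empty =>
    have := s28ca_hasQExp_const N 1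
    rw [map_one] at this
    simpa using this
  | insert a s ha ih =>
    have h1 := s28ca_hasQExp_mul (h a (Finset.mem_insert_self a s))
      (ih fun i hi => h i (Finset.mem_insert_of_mem hi))
    rw [Finset.prod_insert ha]
    exact s28ca_hasQExp_congr h1 (fun τ => by rw [Finset.prod_insert ha])

/-- uniqueness of the expansion. -/
theorem s28ca_hasQExp_unique {N : ℕ} [NeZero N] {g : ℍ → ℂ} {A B : LaurentSeries ℂ}
    (h₁ : s28ca_HasQExp N g A) (h₂ : s28ca_HasQExp N g B) : A = B := by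
  obtain ⟨m₁, H₁, hH₁, hg₁, hT₁⟩ := h₁
  obtain ⟨m₂, H₂, hH₂, hg₂, hT₂⟩ := h₂
  obtain ⟨hd₁, hs₁⟩ := s28ca_qfT_pow_mul hH₁ m₂
  obtain ⟨hd₂, hs₂⟩ := s28ca_qfT_pow_mul hH₂ m₁
  -- the two functions agree on the punctured disc
  have hpunct : ∀ w : ℂ, ‖w‖ < 1 → w ≠ 0 → w ^ m₂ * H₁ w = w ^ m₁ * H₂ w := by
    intro w hw hw0
    obtain ⟨τ, rfl⟩ := s28ca_exists_qParam N hw hw0
    rw [← hg₁, ← hg₂]
    ring
  -- hence everywhere on the disc
  have hball : Set.EqOn (fun w => w ^ m₂ * H₁ w) (fun w => w ^ m₁ * H₂ w) (Metric.ball 0 1) := by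
    intro w hw
    have hw' : ‖w‖ < 1 := by simpa using hw
    rcases eq_or_ne w 0 with rfl | hw0
    · have hc₁ : ContinuousAt (fun w => w ^ m₂ * H₁ w) 0 :=
        (hd₁.differentiableAt (Metric.ball_mem_nhds 0 one_pos)).continuousAt
      have hc₂ : ContinuousAt (fun w => w ^ m₁ * H₂ w) 0 :=
        (hd₂.differentiableAt (Metric.ball_mem_nhds 0 one_pos)).continuousAt
      have hev : (fun w => w ^ m₂ * H₁ w) =ᶠ[𝓝[≠] (0 : ℂ)] (fun w => w ^ m₁ * H₂ w) := by
        have hmem : Metric.ball (0 : ℂ) 1 ∈ 𝓝[≠] (0 : ℂ) :=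
          mem_nhdsWithin_of_mem_nhds (Metric.ball_mem_nhds 0 one_pos)
        filter_upwards [hmem, self_mem_nhdsWithin] with w hw hw0
        exact hpunct w (by simpa using hw) hw0
      have t₁ : Tendsto (fun w => w ^ m₂ * H₁ w) (𝓝[≠] (0 : ℂ))
          (𝓝 ((fun w => w ^ m₂ * H₁ w) 0)) := hc₁.tendsto.mono_left nhdsWithin_le_nhds
      have t₂ : Tendsto (fun w => w ^ m₁ * H₂ w) (𝓝[≠] (0 : ℂ))
          (𝓝 ((fun w => w ^ m₁ * H₂ w) 0)) := hc₂.tendsto.mono_left nhdsWithin_le_nhds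
      exact tendsto_nhds_unique (t₁.congr' hev) t₂
    · exact hpunct w hw' hw0
  have hev : (fun w => w ^ m₂ * H₁ w) =ᶠ[𝓝 0] (fun w => w ^ m₁ * H₂ w) :=
    hball.eventuallyEq_of_mem (Metric.ball_mem_nhds 0 one_pos)
  have hq := qfT_congr hev
  have h3 := congrArg (HahnSeries.ofPowerSeries ℤ ℂ) hq
  rw [hs₁, hs₂, hT₁, hT₂] at h3
  have h4 : HahnSeries.single ((m₁ + m₂ : ℕ) : ℤ) (1 : ℂ) * A
      = HahnSeries.single ((m₁ + m₂ : ℕ) : ℤ) 1 * B := by
    rw [s28ca_single_add]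
    calc HahnSeries.single (m₁ : ℤ) (1 : ℂ) * HahnSeries.single (m₂ : ℤ) 1 * A
        = HahnSeries.single (m₂ : ℤ) 1 * (HahnSeries.single (m₁ : ℤ) 1 * A) := by ring
      _ = HahnSeries.single (m₁ : ℤ) 1 * (HahnSeries.single (m₂ : ℤ) 1 * B) := h3
      _ = _ := by ring
  exact s28ca_single_mul_cancel h4

/-! ### change of level, and the expansion of `j` -/

theorem s28ca_ofPowerSeries_expand (M : ℕ) [NeZero M] (T : PowerSeries ℂ) :
    HahnSeries.ofPowerSeries ℤ ℂ (PowerSeries.expand M (NeZero.ne M) T) =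
      ModularCurve.qExpand ℂ M (HahnSeries.ofPowerSeries ℤ ℂ T) := by
  have hMpos : (0 : ℤ) < M := by exact_mod_cast Nat.pos_of_ne_zero (NeZero.ne M)
  ext k
  rcases lt_or_ge k 0 with hk | hk
  · rw [ModularCurve.ofPowerSeries_coeff_of_neg _ hk]
    by_cases hd : (M : ℤ) ∣ k
    · obtain ⟨k', rfl⟩ := hd
      rw [ModularCurve.qExpand_coeff_mul]
      have hk' : k' < 0 := by
        by_contra hcon
        have := mul_nonneg hMpos.le (not_lt.mp hcon)
        omega
      rw [ModularCurve.ofPowerSeries_coeff_of_neg _ hk']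
    · rw [ModularCurve.qExpand_coeff_of_not_dvd M _ hd]
  · obtain ⟨n, rfl⟩ := Int.eq_ofNat_of_zero_le hk
    rw [HahnSeries.ofPowerSeries_apply_coeff, PowerSeries.coeff_expand]
    by_cases hd : M ∣ n
    · rw [if_pos hd]
      obtain ⟨n', rfl⟩ := hd
      rw [Nat.mul_div_cancel_left _ (Nat.pos_of_ne_zero (NeZero.ne M))]
      push_cast
      rw [ModularCurve.qExpand_coeff_mul, HahnSeries.ofPowerSeries_apply_coeff]
    · rw [if_neg hd, ModularCurve.qExpand_coeff_of_not_dvd M _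
        (fun h => hd (Int.natCast_dvd_natCast.mp h))]

theorem s28ca_qParam_pow (N M : ℕ) [NeZero N] [NeZero M] (z : ℂ) :
    𝕢 ((N * M : ℕ) : ℝ) z ^ M = 𝕢 (N : ℝ) z := by
  have hN : (N : ℂ) ≠ 0 := by exact_mod_cast NeZero.ne N
  have hM : (M : ℂ) ≠ 0 := by exact_mod_cast NeZero.ne M
  simp only [Periodic.qParam]
  rw [← Complex.exp_nat_mul]
  congr 1
  push_cast
  field_simp

/-- change of level: an expansion in `s = q^{1/N}` gives one in `s' = q^{1/(N M)}`. -/
theorem s28ca_hasQExp_level {N : ℕ} (M K : ℕ) [NeZero N] [NeZero M] (hK : K = N * M)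
    {g : ℍ → ℂ} {A : LaurentSeries ℂ} (h : s28ca_HasQExp N g A) :
    s28ca_HasQExp K g (ModularCurve.qExpand ℂ M A) := by
  subst hK
  obtain ⟨m, H, hH, hg, hT⟩ := h
  obtain ⟨hd, hq⟩ := s28ca_qfT_comp_pow hH M (NeZero.ne M)
  refine ⟨m * M, fun w => H (w ^ M), hd, fun τ => ?_, ?_⟩
  · show g τ * 𝕢 ((N * M : ℕ) : ℝ) τ ^ (m * M) = H (𝕢 ((N * M : ℕ) : ℝ) τ ^ M)
    rw [mul_comm m M, pow_mul, s28ca_qParam_pow]
    exact hg τ
  · rw [hq, s28ca_ofPowerSeries_expand, hT, map_mul, ModularCurve.qExpand_single]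
    have e : (M : ℤ) * (m : ℤ) = ((m * M : ℕ) : ℤ) := by
      push_cast
      ring
    rw [e]

/-- the Taylor series of `q · j(q)`. -/
theorem s28ca_qfT_jfV :
    qfT jfV = PowerSeries.map (Int.castRingHom ℂ) ModularCurve.jNum := by
  have h4 : DifferentiableOn ℂ (cuspFunction 1 (⇑E₄)) (Metric.ball 0 1) :=
    differentiableOn_cuspFunction_ball one_pos jf_E4_per (ModularFormClass.holo E₄)
      (ModularFormClass.bdd_at_infty E₄)
  have ha4 : AnalyticAt ℂ (cuspFunction 1 (⇑E₄)) 0 := s28ca_analyticAt h4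
  have haV : AnalyticAt ℂ jfV 0 := s28ca_analyticAt jfV_differentiableOn
  have haP : AnalyticAt ℂ jfProd 0 := s28ca_analyticAt jfProd_differentiableOn
  -- `jfV * jfProd = cusp ^ 3` near `0`
  have e1 : (jfV * jfProd) =ᶠ[𝓝 0] (cuspFunction 1 (⇑E₄)) ^ 3 := by
    filter_upwards [Metric.ball_mem_nhds (0 : ℂ) one_pos] with q hq
    have hq' : ‖q‖ < 1 := by simpa using hq
    simp only [Pi.mul_apply, Pi.pow_apply, jfV]
    rw [div_mul_cancel₀ _ (jfProd_ne_zero hq')]
  -- `jfProd = qfP ^ 24` near `0`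
  have e2 : jfProd =ᶠ[𝓝 0] qfP ^ 24 := by
    filter_upwards [Metric.ball_mem_nhds (0 : ℂ) one_pos] with q hq
    have hq' : ‖q‖ < 1 := by simpa using hq
    simp only [Pi.pow_apply, qfP, jfProd]
    rw [(ModularForm.multipliable_one_sub_pow hq').tprod_pow 24]
  have h1 : qfT jfV * qfT jfProd = qfT (cuspFunction 1 (⇑E₄)) ^ 3 := by
    rw [← qfT_mul haV haP, qfT_congr e1, qfT_pow ha4]
  have h2 : qfT jfProd = PowerSeries.map (Int.castRingHom ℂ) ModularCurve.dedekindEtaUnit := by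
    rw [qfT_congr e2, qfT_pow qfP_analyticAt, qfT_qfP, qf_map_dedekindEtaUnit]
  have h3 : qfT (cuspFunction 1 (⇑E₄)) =
      PowerSeries.map (Int.castRingHom ℂ) ModularCurve.eisenstein4 := by
    rw [← qf_qExpansion_eq, qExpansion_E4]
  rw [h2, h3] at h1
  have h5 : PowerSeries.map (Int.castRingHom ℂ) ModularCurve.dedekindEtaUnit *
      PowerSeries.map (Int.castRingHom ℂ) ModularCurve.dedekindEtaUnitInv = 1 := by
    rw [← map_mul, ModularCurve.dedekindEtaUnit_mul_inv, map_one]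
  calc qfT jfV = qfT jfV * (PowerSeries.map (Int.castRingHom ℂ) ModularCurve.dedekindEtaUnit *
        PowerSeries.map (Int.castRingHom ℂ) ModularCurve.dedekindEtaUnitInv) := by
        rw [h5, mul_one]
    _ = (qfT jfV * PowerSeries.map (Int.castRingHom ℂ) ModularCurve.dedekindEtaUnit) *
        PowerSeries.map (Int.castRingHom ℂ) ModularCurve.dedekindEtaUnitInv := by ring
    _ = _ := by
        rw [h1, ModularCurve.jNum, map_mul, map_pow]

theorem s28ca_single_mul_jqModC :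
    HahnSeries.single (1 : ℤ) (1 : ℂ) * ModularCurve.jqModC ℂ =
      HahnSeries.ofPowerSeries ℤ ℂ (PowerSeries.map (Int.castRingHom ℂ) ModularCurve.jNum) := by
  unfold ModularCurve.jqModC
  rw [← mul_assoc, HahnSeries.single_mul_single]
  simp

/-- the expansion of `j` at level one. -/
theorem s28ca_hasQExp_jf : s28ca_HasQExp 1 jf (ModularCurve.jqModC ℂ) := by
  refine ⟨1, jfV, jfV_differentiableOn, fun τ => ?_, ?_⟩
  · rw [pow_one, mul_comm]
    have := jf_qParam_mul τ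
    simpa using this
  · rw [s28ca_qfT_jfV]
    simpa using s28ca_single_mul_jqModC.symm

/-- the expansion of `j` in the variable `s = q^{1/N}`. -/
theorem s28ca_hasQExp_jf_level (N : ℕ) [NeZero N] :
    s28ca_HasQExp N jf (ModularCurve.qExpand ℂ N (ModularCurve.jqModC ℂ)) :=
  s28ca_hasQExp_level N N (one_mul N).symm s28ca_hasQExp_jf

end Fermat.Agent.S28
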