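import Fermat.Agent.S28.CoreDefs
import Fermat.Prelude.Thm_ModularCurve_coeff_jqModC_pow_self
import Fermat.Prelude.Thm_ModularCurve_coeff_jqModC_pow_of_lt

/-!
# S28 / (CA-1b) the triangular lemma: a polynomial in `j` with integral `q`-expansion has
integral coefficients  (helper2)

* `s28ca_inv_of_S_T`: invariance under `S` and `T` implies invariance under `SL₂(ℤ)`.
* `s28ca_coeff_eval₂_jq`: the coefficient of `q^(-deg P)` in `P(j)` is the leading coefficient.
* `s28ca_tri`: if `P(j) ∈ ℂ⸨q⸩` has integral coefficients then `P ∈ ℤ[X]`.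
-/

set_option autoImplicit false

namespace Fermat.Agent.S28

open HahnSeries ModularCurve Polynomial UpperHalfPlane
open scoped MatrixGroups

/-- Invariance under `S` and `T` implies invariance under `SL₂(ℤ)`. -/
theorem s28ca_inv_of_S_T {α : Type*} (G : ℍ → α)
    (hS : ∀ τ, G (ModularGroup.S • τ) = G τ) (hT : ∀ τ, G (ModularGroup.T • τ) = G τ)
    (γ : SL(2, ℤ)) (τ : ℍ) : G (γ • τ) = G τ := by
  have hγ : γ ∈ Subgroup.closure ({ModularGroup.S, ModularGroup.T} : Set SL(2, ℤ)) := by
    rw [SpecialLinearGroup.SL2Z_generators]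
    exact Subgroup.mem_top γ
  revert τ
  induction hγ using Subgroup.closure_induction with
  | mem x hx =>
    intro τ
    rcases hx with rfl | hx
    · exact hS τ
    · rw [Set.mem_singleton_iff] at hx
      subst hx
      exact hT τ
  | one => intro τ; rw [one_smul]
  | mul x y _ _ hx hy =>
    intro τ
    rw [mul_smul, hx, hy]
  | inv x _ hx =>
    intro τ
    have := hx (x⁻¹ • τ)
    rw [smul_inv_smul] at this
    exact this.symm

/-- injectivity of the coefficientwise map `ℤ⸨q⸩ → ℂ⸨q⸩`. -/
theorem s28ca_coeffMap_int_injective :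
    Function.Injective (coeffMap (Int.castRingHom ℂ)) := by
  intro x y h
  ext k
  have h1 := congrArg (fun z => z.coeff k) h
  simp only [coeffMap_coeff] at h1
  exact Int.cast_injective h1

section

variable {K : Type*} [CommRing K]

/-- The coefficient of `q^(-deg P)` in `P(j)` is the leading coefficient of `P`. -/
theorem s28ca_coeff_eval₂_jq (P : Polynomial K) :
    (Polynomial.eval₂ (HahnSeries.C : K →+* LaurentSeries K) (jqModC K) P).coeff
      (-(P.natDegree : ℤ)) = P.leadingCoeff := by
  rw [Polynomial.eval₂_eq_sum_range, HahnSeries.coeff_sum, Finset.sum_range_succ]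
  have h1 : ∀ i ∈ Finset.range P.natDegree,
      ((HahnSeries.C : K →+* LaurentSeries K) (P.coeff i) * jqModC K ^ i).coeff
        (-(P.natDegree : ℤ)) = 0 := by
    intro i hi
    rw [Finset.mem_range] at hi
    rw [HahnSeries.C_mul_eq_smul, HahnSeries.coeff_smul,
      ModularCurve.coeff_jqModC_pow_of_lt K (by omega), smul_zero]
  rw [Finset.sum_eq_zero h1, zero_add, HahnSeries.C_mul_eq_smul, HahnSeries.coeff_smul,
    ModularCurve.coeff_jqModC_pow_self, smul_eq_mul, mul_one]
  rfl

end

/-- If all coefficients of `P(j)` are integers, then `P` has integer coefficients. -/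
theorem s28ca_tri_aux (B : ℕ) : ∀ P : Polynomial ℂ, P.natDegree ≤ B →
    (∀ k : ℤ, ∃ n : ℤ,
      (Polynomial.eval₂ (HahnSeries.C : ℂ →+* LaurentSeries ℂ) (jqModC ℂ) P).coeff k = n) →
    ∃ Q : Polynomial ℤ, Q.map (Int.castRingHom ℂ) = P := by
  induction B with
  | zero =>
    intro P hP h
    have hPC := Polynomial.eq_C_of_natDegree_le_zero hP
    obtain ⟨n, hn⟩ := h 0
    rw [hPC, Polynomial.eval₂_C, HahnSeries.C_apply, HahnSeries.coeff_single_same] at hn
    refine ⟨Polynomial.C n, ?_⟩
    rw [Polynomial.map_C, hPC, hn]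
    rfl
  | succ B ih =>
    intro P hP h
    by_cases hd : P.natDegree ≤ B
    · exact ih P hd h
    · have hdeg : P.natDegree = B + 1 := by omega
      obtain ⟨n, hn⟩ := h (-(P.natDegree : ℤ))
      rw [s28ca_coeff_eval₂_jq] at hn
      have hP' : P.eraseLead.natDegree ≤ B := by
        have := Polynomial.eraseLead_natDegree_le P
        omega
      have hdecomp := Polynomial.eraseLead_add_C_mul_X_pow P
      have hint : ∀ k : ℤ, ∃ m : ℤ,
          (Polynomial.eval₂ (HahnSeries.C : ℂ →+* LaurentSeries ℂ) (jqModC ℂ)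
            P.eraseLead).coeff k = m := by
        intro k
        obtain ⟨m, hm⟩ := h k
        have h2 : Polynomial.eval₂ (HahnSeries.C : ℂ →+* LaurentSeries ℂ) (jqModC ℂ) P =
            Polynomial.eval₂ (HahnSeries.C : ℂ →+* LaurentSeries ℂ) (jqModC ℂ) P.eraseLead +
              HahnSeries.C P.leadingCoeff * jqModC ℂ ^ P.natDegree := by
          conv_lhs => rw [← hdecomp]
          rw [Polynomial.eval₂_add, Polynomial.eval₂_mul, Polynomial.eval₂_C,
            Polynomial.eval₂_pow, Polynomial.eval₂_X]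
        have h3 : (jqModC ℂ ^ P.natDegree).coeff k =
            (((jqModC ℤ ^ P.natDegree).coeff k : ℤ) : ℂ) := by
          rw [← coeffMap_jqModC (Int.castRingHom ℂ), ← map_pow, coeffMap_coeff]
          rfl
        refine ⟨m - n * (jqModC ℤ ^ P.natDegree).coeff k, ?_⟩
        have h4 := congrArg (fun z => z.coeff k) h2
        simp only [HahnSeries.coeff_add, HahnSeries.C_mul_eq_smul, HahnSeries.coeff_smul,
          smul_eq_mul] at h4
        rw [hm, hn, h3] at h4
        push_cast
        rw [h4]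
        ring
      obtain ⟨Q', hQ'⟩ := ih P.eraseLead hP' hint
      refine ⟨Q' + Polynomial.C n * Polynomial.X ^ P.natDegree, ?_⟩
      rw [Polynomial.map_add, Polynomial.map_mul, Polynomial.map_pow, Polynomial.map_X,
        Polynomial.map_C, hQ']
      conv_rhs => rw [← hdecomp]
      rw [hn]
      rfl

/-- `coeffMap` commutes with the evaluation of integer polynomials at `j`. -/
theorem s28ca_coeffMap_evalAt (Q : Polynomial ℤ) :
    coeffMap (Int.castRingHom ℂ) (s28_evalAt (jqModC ℤ) Q) =
      Polynomial.eval₂ (HahnSeries.C : ℂ →+* LaurentSeries ℂ) (jqModC ℂ)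
        (Q.map (Int.castRingHom ℂ)) := by
  unfold s28_evalAt
  rw [Polynomial.coe_eval₂RingHom, Polynomial.hom_eval₂, Polynomial.eval₂_map,
    coeffMap_jqModC]
  congr 1
  exact RingHom.ext_int _ _

/-- **The triangular lemma.** -/
theorem s28ca_tri (P : Polynomial ℂ) (a : LaurentSeries ℤ)
    (h : Polynomial.eval₂ (HahnSeries.C : ℂ →+* LaurentSeries ℂ) (jqModC ℂ) P =
      coeffMap (Int.castRingHom ℂ) a) :
    ∃ Q : Polynomial ℤ, Q.map (Int.castRingHom ℂ) = P ∧ s28_evalAt (jqModC ℤ) Q = a := by
  obtain ⟨Q, hQ⟩ := s28ca_tri_aux P.natDegree P le_rfl (fun k => ⟨a.coeff k, by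
    rw [h, coeffMap_coeff]
    rfl⟩)
  refine ⟨Q, hQ, ?_⟩
  apply s28ca_coeffMap_int_injective
  rw [s28ca_coeffMap_evalAt, hQ, h]

end Fermat.Agent.S28
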