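import Fermat.Agent.S28.CAPoly
import Fermat.Agent.S28.CATri
import Fermat.Agent.S28.CAQExp

/-!
# S28 / (CA-1c) the shared lemma, integral form  (helper2)

`s28ca_exists_poly`: a holomorphic `SL₂(ℤ)`-invariant function on `ℍ` whose `q`-expansion
(in the sense of `s28ca_HasQExp 1`) has integer coefficients is an integer polynomial in `j`,
and the expansion is that polynomial evaluated at `jq`.
-/

set_option autoImplicit false

namespace Fermat.Agent.S28

open UpperHalfPlane ModularForm EisensteinSeries Filter CongruenceSubgroup Function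
open scoped MatrixGroups ModularForm Manifold Topology
open Fermat.Agent.S20 Fermat.Agent.S24 ModularCurve

local notation "𝕢" => Periodic.qParam

/-- A function with a `q`-expansion becomes bounded at `i∞` after multiplication by a power of
`Δ`. -/
theorem s28ca_bdd_of_hasQExp {g : ℍ → ℂ} {A : LaurentSeries ℂ} (h : s28ca_HasQExp 1 g A) :
    ∃ m : ℕ, IsBoundedAtImInfty (fun τ => g τ * ModularForm.discriminant τ ^ m) := by
  obtain ⟨m, H, hH, hg, -⟩ := h
  refine ⟨m, ?_⟩
  have hcont : ContinuousAt (fun w : ℂ => H w * jfProd w ^ m) 0 := by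
    have h0 : (0 : ℂ) ∈ Metric.ball (0 : ℂ) 1 := Metric.mem_ball_self one_pos
    have h1 : ContinuousAt H 0 :=
      (hH.differentiableAt (Metric.isOpen_ball.mem_nhds h0)).continuousAt
    have h2 : ContinuousAt jfProd 0 :=
      (jfProd_differentiableOn.differentiableAt (Metric.isOpen_ball.mem_nhds h0)).continuousAt
    exact h1.mul (h2.pow m)
  have htend : Tendsto (fun τ : ℍ => H (𝕢 (1 : ℝ) τ) * jfProd (𝕢 (1 : ℝ) τ) ^ m) atImInfty
      (𝓝 (H 0 * jfProd 0 ^ m)) :=
    hcont.tendsto.comp (qParam_tendsto_atImInfty one_pos)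
  have heq : (fun τ : ℍ => g τ * ModularForm.discriminant τ ^ m) =
      fun τ : ℍ => H (𝕢 (1 : ℝ) τ) * jfProd (𝕢 (1 : ℝ) τ) ^ m := by
    funext τ
    have h3 := hg τ
    simp only [Nat.cast_one] at h3
    rw [jf_delta_eq, mul_pow, ← mul_assoc, h3]
  rw [heq]
  exact htend.isBigO_one ℝ

/-- The expansion of a polynomial in `j`. -/
theorem s28ca_hasQExp_eval_jf (P : Polynomial ℂ) :
    s28ca_HasQExp 1 (fun τ => P.eval (jf τ))
      (Polynomial.eval₂ (HahnSeries.C : ℂ →+* LaurentSeries ℂ) (jqModC ℂ) P) := by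
  rw [Polynomial.eval₂_eq_sum_range]
  have h1 := s28ca_hasQExp_sum (N := 1) (Finset.range (P.natDegree + 1))
    (fun i τ => P.coeff i * jf τ ^ i)
    (fun i => (HahnSeries.C : ℂ →+* LaurentSeries ℂ) (P.coeff i) * jqModC ℂ ^ i)
    (fun i _ => s28ca_hasQExp_mul (s28ca_hasQExp_const 1 (P.coeff i))
      (s28ca_hasQExp_pow s28ca_hasQExp_jf i))
  refine s28ca_hasQExp_congr h1 (fun τ => ?_)
  rw [Polynomial.eval_eq_sum_range]

/-- **The shared lemma, integral form.** -/
theorem s28ca_exists_poly (g : ℍ → ℂ) (hg : MDiff g)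
    (hinv : ∀ γ : SL(2, ℤ), ∀ τ, g (γ • τ) = g τ) (a : LaurentSeries ℤ)
    (ha : s28ca_HasQExp 1 g (coeffMap (Int.castRingHom ℂ) a)) :
    ∃ P : Polynomial ℤ, (∀ τ, g τ = Polynomial.eval (jf τ) (P.map (Int.castRingHom ℂ))) ∧
      s28_evalAt (jqModC ℤ) P = a := by
  obtain ⟨m, hb⟩ := s28ca_bdd_of_hasQExp ha
  obtain ⟨P, -, hP⟩ := s28ca_exists_polyC g hg hinv m hb
  have h1 : s28ca_HasQExp 1 g
      (Polynomial.eval₂ (HahnSeries.C : ℂ →+* LaurentSeries ℂ) (jqModC ℂ) P) :=
    s28ca_hasQExp_congr (s28ca_hasQExp_eval_jf P) (fun τ => (hP τ).symm)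
  have h2 := s28ca_hasQExp_unique h1 ha
  obtain ⟨Q, hQ, hQa⟩ := s28ca_tri P a h2
  exact ⟨Q, fun τ => by rw [hQ]; exact hP τ, hQa⟩

end Fermat.Agent.S28
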