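import Fermat.Agent.S28.CBFormal
import Fermat.Agent.S28.CAInv
import Fermat.Agent.S28.CAPolyInt

/-!
# S28 / (CB): the analytic bridge and the main theorem  (helper7)

* `s28cb_hasQExp_delta`, `s28cb_hasQExp_deltaInv`: the expansions of `Δ`, `Δ⁻¹`;
* `s28cb_hasQExp_comp_pow`, `s28cb_hasQExp_comp_scale`: composition with `τ ↦ d τ`,
  `τ ↦ (τ + b) / p`;
* `s28cb_hasQExp_coeff_prod`: expansions of the coefficients of `∏ (X - f_i)`;
* `s28cb_bdd_of_hasQExp`: boundedness at `i∞` after multiplication by a power of `Δ`;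
* `s28cb_hasQExp_phi`: the expansions of the `p + 1` conjugates of `p ^ 12 Δ(p τ) / Δ(τ)`;
* `s28cb_main : s28_stmt_CB`.
-/

set_option autoImplicit false

noncomputable section

namespace Fermat.Agent.S28

open Complex UpperHalfPlane Function Filter Topology
open ModularForm EisensteinSeries CongruenceSubgroup
open scoped MatrixGroups ModularForm Manifold
open Fermat.Agent.S20 Fermat.Agent.S24 ModularCurve

local notation "𝕢" => Periodic.qParam

/-! ### The expansions of `Δ` and `Δ⁻¹` -/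

theorem s28cb_qfT_jfProd :
    qfT jfProd = PowerSeries.map (Int.castRingHom ℂ) ModularCurve.dedekindEtaUnit := by
  have e2 : jfProd =ᶠ[𝓝 0] qfP ^ 24 := by
    filter_upwards [Metric.ball_mem_nhds (0 : ℂ) one_pos] with q hq
    have hq' : ‖q‖ < 1 := by simpa using hq
    simp only [Pi.pow_apply, qfP, jfProd]
    rw [(ModularForm.multipliable_one_sub_pow hq').tprod_pow 24]
  rw [qfT_congr e2, qfT_pow qfP_analyticAt, qfT_qfP, qf_map_dedekindEtaUnit]

theorem s28cb_jfProdInv_differentiableOn :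
    DifferentiableOn ℂ (fun w => (jfProd w)⁻¹) (Metric.ball 0 1) :=
  jfProd_differentiableOn.inv (fun w hw => jfProd_ne_zero (by simpa using hw))

theorem s28cb_qfT_jfProdInv :
    qfT (fun w => (jfProd w)⁻¹) =
      PowerSeries.map (Int.castRingHom ℂ) ModularCurve.dedekindEtaUnitInv := by
  have haP : AnalyticAt ℂ jfProd 0 := s28ca_analyticAt jfProd_differentiableOn
  have haI : AnalyticAt ℂ (fun w => (jfProd w)⁻¹) 0 :=
    s28ca_analyticAt s28cb_jfProdInv_differentiableOn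
  have e1 : (jfProd * fun w => (jfProd w)⁻¹) =ᶠ[𝓝 0] (1 : ℂ → ℂ) := by
    filter_upwards [Metric.ball_mem_nhds (0 : ℂ) one_pos] with q hq
    have hq' : ‖q‖ < 1 := by simpa using hq
    simp only [Pi.mul_apply, Pi.one_apply]
    exact mul_inv_cancel₀ (jfProd_ne_zero hq')
  have h1 : qfT jfProd * qfT (fun w => (jfProd w)⁻¹) = 1 := by
    rw [← qfT_mul haP haI, qfT_congr e1, qfT_one]
  rw [s28cb_qfT_jfProd] at h1
  have h5 : PowerSeries.map (Int.castRingHom ℂ) ModularCurve.dedekindEtaUnit *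
      PowerSeries.map (Int.castRingHom ℂ) ModularCurve.dedekindEtaUnitInv = 1 := by
    rw [← map_mul, ModularCurve.dedekindEtaUnit_mul_inv, map_one]
  calc qfT (fun w => (jfProd w)⁻¹)
      = (PowerSeries.map (Int.castRingHom ℂ) ModularCurve.dedekindEtaUnit *
          PowerSeries.map (Int.castRingHom ℂ) ModularCurve.dedekindEtaUnitInv) *
          qfT (fun w => (jfProd w)⁻¹) := by rw [h5, one_mul]
    _ = (PowerSeries.map (Int.castRingHom ℂ) ModularCurve.dedekindEtaUnit *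
          qfT (fun w => (jfProd w)⁻¹)) *
          PowerSeries.map (Int.castRingHom ℂ) ModularCurve.dedekindEtaUnitInv := by ring
    _ = _ := by rw [h1, one_mul]

/-- the expansion of `Δ`. -/
theorem s28cb_hasQExp_delta : s28ca_HasQExp 1 ModularForm.discriminant (s28_Delta ℂ) := by
  obtain ⟨hd, hs⟩ := s28ca_qfT_pow_mul jfProd_differentiableOn 1
  refine ⟨0, fun w => w ^ 1 * jfProd w, hd, fun τ => ?_, ?_⟩
  · rw [pow_zero, mul_one, jf_delta_eq]
    simp
  · rw [hs, s28cb_qfT_jfProd, s28_Delta]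
    simp

/-- the expansion of `Δ⁻¹`. -/
theorem s28cb_hasQExp_deltaInv :
    s28ca_HasQExp 1 (fun τ => (ModularForm.discriminant τ)⁻¹) (s28_DeltaInv ℂ) := by
  refine ⟨1, fun w => (jfProd w)⁻¹, s28cb_jfProdInv_differentiableOn, fun τ => ?_, ?_⟩
  · have hq : 𝕢 ((1 : ℕ) : ℝ) τ ≠ 0 := Periodic.qParam_ne_zero _
    have h1 := jf_delta_eq τ
    simp only [Nat.cast_one] at hq ⊢
    rw [h1, pow_one, mul_inv]
    field_simp
  · rw [s28cb_qfT_jfProdInv, s28_DeltaInv, ← mul_assoc, HahnSeries.single_mul_single]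
    simp

/-! ### Composition with `τ ↦ d τ` and `τ ↦ (τ + b) / p` -/

theorem s28cb_hasQExp_comp_pow {N N' : ℕ} (d : ℕ) [NeZero d] (φ : ℍ → ℍ)
    (hφ : ∀ τ : ℍ, 𝕢 (N : ℝ) (φ τ) = 𝕢 (N' : ℝ) τ ^ d)
    {g : ℍ → ℂ} {A : LaurentSeries ℂ} (h : s28ca_HasQExp N g A) :
    s28ca_HasQExp N' (fun τ => g (φ τ)) (ModularCurve.qExpand ℂ d A) := by
  obtain ⟨m, H, hH, hg, hT⟩ := h
  obtain ⟨hd, hq⟩ := s28ca_qfT_comp_pow hH d (NeZero.ne d)
  refine ⟨m * d, fun w => H (w ^ d), hd, fun τ => ?_, ?_⟩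
  · show g (φ τ) * 𝕢 (N' : ℝ) τ ^ (m * d) = H (𝕢 (N' : ℝ) τ ^ d)
    rw [mul_comm m d, pow_mul, ← hφ]
    exact hg (φ τ)
  · rw [hq, s28ca_ofPowerSeries_expand, hT, map_mul, ModularCurve.qExpand_single]
    have e : (d : ℤ) * (m : ℤ) = ((m * d : ℕ) : ℤ) := by
      push_cast
      ring
    rw [e]

theorem s28cb_ofPowerSeries_rescale (c : ℂˣ) (T : PowerSeries ℂ) :
    HahnSeries.ofPowerSeries ℤ ℂ (PowerSeries.rescale (c : ℂ) T) =
      s28_scale c (HahnSeries.ofPowerSeries ℤ ℂ T) := by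
  ext k
  rw [s28_scale_coeff]
  rcases lt_or_ge k 0 with hk | hk
  · rw [ModularCurve.ofPowerSeries_coeff_of_neg _ hk, ModularCurve.ofPowerSeries_coeff_of_neg _ hk,
      mul_zero]
  · obtain ⟨n, rfl⟩ := Int.eq_ofNat_of_zero_le hk
    rw [HahnSeries.ofPowerSeries_apply_coeff, HahnSeries.ofPowerSeries_apply_coeff,
      PowerSeries.coeff_rescale, zpow_natCast, Units.val_pow_eq_pow_val]

theorem s28cb_hasQExp_comp_scale {N N' : ℕ} (c : ℂˣ) (hc : ‖(c : ℂ)‖ ≤ 1) (φ : ℍ → ℍ)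
    (hφ : ∀ τ : ℍ, 𝕢 (N : ℝ) (φ τ) = (c : ℂ) * 𝕢 (N' : ℝ) τ)
    {g : ℍ → ℂ} {A : LaurentSeries ℂ} (h : s28ca_HasQExp N g A) :
    s28ca_HasQExp N' (fun τ => g (φ τ)) (s28_scale c A) := by
  obtain ⟨m, H, hH, hg, hT⟩ := h
  obtain ⟨hd, hq⟩ := s28ca_qfT_comp_mul hH hc
  have hc0 : (c : ℂ) ≠ 0 := c.ne_zero
  have hcm : ((c : ℂ) ^ m) ≠ 0 := pow_ne_zero _ hc0
  refine ⟨m, fun w => ((c : ℂ) ^ m)⁻¹ * H ((c : ℂ) * w),
    (differentiableOn_const _).mul hd, fun τ => ?_, ?_⟩
  · show g (φ τ) * 𝕢 (N' : ℝ) τ ^ m = ((c : ℂ) ^ m)⁻¹ * H ((c : ℂ) * 𝕢 (N' : ℝ) τ)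
    rw [← hφ, ← hg (φ τ), hφ, mul_pow]
    field_simp
  · have e : (fun w => ((c : ℂ) ^ m)⁻¹ * H ((c : ℂ) * w)) =
        (fun _ : ℂ => ((c : ℂ) ^ m)⁻¹) * (fun w => H ((c : ℂ) * w)) := by
      funext w; rfl
    rw [e, qfT_mul analyticAt_const (s28ca_analyticAt hd), qfT_const, hq, map_mul,
      s28cb_ofPowerSeries_rescale, hT, map_mul, s28caf_scale_single, HahnSeries.ofPowerSeries_C]
    have e2 : (((c ^ ((m : ℕ) : ℤ) : ℂˣ) : ℂˣ) : ℂ) = (c : ℂ) ^ m := by
      rw [zpow_natCast, Units.val_pow_eq_pow_val]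
    rw [e2]
    have e3 : (HahnSeries.C (((c : ℂ) ^ m)⁻¹) : LaurentSeries ℂ) * HahnSeries.C ((c : ℂ) ^ m) = 1 := by
      rw [← map_mul, inv_mul_cancel₀ hcm, map_one]
    calc (HahnSeries.C (((c : ℂ) ^ m)⁻¹) : LaurentSeries ℂ) *
          (HahnSeries.C ((c : ℂ) ^ m) * HahnSeries.single (m : ℤ) (1 : ℂ) * s28_scale c A)
        = ((HahnSeries.C (((c : ℂ) ^ m)⁻¹) : LaurentSeries ℂ) * HahnSeries.C ((c : ℂ) ^ m)) *
          (HahnSeries.single (m : ℤ) (1 : ℂ) * s28_scale c A) := by ring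
      _ = _ := by rw [e3, one_mul]

/-! ### Coefficients of `∏ (X - f_i)` -/

theorem s28cb_coeff_zero_X_sub_C_mul {R : Type*} [CommRing R] (a : R) (Q : Polynomial R) :
    ((Polynomial.X - Polynomial.C a) * Q).coeff 0 = -(a * Q.coeff 0) := by
  rw [sub_mul, Polynomial.coeff_sub, Polynomial.coeff_X_mul_zero, Polynomial.coeff_C_mul,
    zero_sub]

theorem s28cb_coeff_succ_X_sub_C_mul {R : Type*} [CommRing R] (a : R) (Q : Polynomial R)
    (k : ℕ) :
    ((Polynomial.X - Polynomial.C a) * Q).coeff (k + 1) = Q.coeff k - a * Q.coeff (k + 1) := by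
  rw [sub_mul, Polynomial.coeff_sub, Polynomial.coeff_X_mul, Polynomial.coeff_C_mul]

theorem s28cb_hasQExp_coeff_prod {N : ℕ} {ι : Type*} (s : Finset ι) (f : ι → ℍ → ℂ)
    (A : ι → LaurentSeries ℂ) (h : ∀ i ∈ s, s28ca_HasQExp N (f i) (A i)) (k : ℕ) :
    s28ca_HasQExp N
      (fun τ => (∏ i ∈ s, (Polynomial.X - Polynomial.C (f i τ)) : Polynomial ℂ).coeff k)
      ((∏ i ∈ s, (Polynomial.X - Polynomial.C (A i)) : Polynomial (LaurentSeries ℂ)).coeff k) := by
  classical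
  induction s using Finset.induction_on generalizing k with
  | empty =>
    simp only [Finset.prod_empty, Polynomial.coeff_one]
    by_cases hk : k = 0
    · simp only [hk, if_true]
      have := s28ca_hasQExp_const N 1
      rwa [map_one] at this
    · simp only [hk, if_false]
      have := s28ca_hasQExp_const N 0
      rwa [map_zero] at this
  | insert a s ha ih =>
    have ih' := fun k => ih (fun i hi => h i (Finset.mem_insert_of_mem hi)) k
    have hfa := h a (Finset.mem_insert_self a s)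
    simp only [Finset.prod_insert ha]
    cases k with
    | zero =>
      have e1 : ∀ τ, ((Polynomial.X - Polynomial.C (f a τ)) *
          ∏ i ∈ s, (Polynomial.X - Polynomial.C (f i τ)) : Polynomial ℂ).coeff 0 =
          -(f a τ * (∏ i ∈ s, (Polynomial.X - Polynomial.C (f i τ)) : Polynomial ℂ).coeff 0) := by
        intro τ
        rw [sub_mul, Polynomial.coeff_sub, Polynomial.coeff_X_mul_zero, Polynomial.coeff_C_mul,
          zero_sub]
      have e2 : ((Polynomial.X - Polynomial.C (A a)) *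
          ∏ i ∈ s, (Polynomial.X - Polynomial.C (A i)) : Polynomial (LaurentSeries ℂ)).coeff 0 =
          -(A a * (∏ i ∈ s, (Polynomial.X - Polynomial.C (A i)) :
            Polynomial (LaurentSeries ℂ)).coeff 0) :=
        s28cb_coeff_zero_X_sub_C_mul _ _
      rw [e2]
      exact s28ca_hasQExp_congr (s28ca_hasQExp_neg (s28ca_hasQExp_mul hfa (ih' 0)))
        (fun τ => (e1 τ).symm)
    | succ k =>
      have e1 : ∀ τ, ((Polynomial.X - Polynomial.C (f a τ)) *
          ∏ i ∈ s, (Polynomial.X - Polynomial.C (f i τ)) : Polynomial ℂ).coeff (k + 1) =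
          (∏ i ∈ s, (Polynomial.X - Polynomial.C (f i τ)) : Polynomial ℂ).coeff k -
          f a τ * (∏ i ∈ s, (Polynomial.X - Polynomial.C (f i τ)) : Polynomial ℂ).coeff (k + 1) := by
        intro τ
        rw [sub_mul, Polynomial.coeff_sub, Polynomial.coeff_X_mul, Polynomial.coeff_C_mul]
      have e2 : ((Polynomial.X - Polynomial.C (A a)) *
          ∏ i ∈ s, (Polynomial.X - Polynomial.C (A i)) : Polynomial (LaurentSeries ℂ)).coeff (k + 1) =
          (∏ i ∈ s, (Polynomial.X - Polynomial.C (A i)) : Polynomial (LaurentSeries ℂ)).coeff k -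
          A a * (∏ i ∈ s, (Polynomial.X - Polynomial.C (A i)) :
            Polynomial (LaurentSeries ℂ)).coeff (k + 1) :=
        s28cb_coeff_succ_X_sub_C_mul _ _ _
      rw [e2]
      exact s28ca_hasQExp_congr (s28ca_hasQExp_sub (ih' k) (s28ca_hasQExp_mul hfa (ih' (k + 1))))
        (fun τ => (e1 τ).symm)

/-! ### Boundedness -/

/-- A function with a `q^{1/N}`-expansion becomes bounded at `i∞` after multiplication by a
power of `Δ`. -/
theorem s28cb_bdd_of_hasQExp {N : ℕ} [NeZero N] {g : ℍ → ℂ} {A : LaurentSeries ℂ}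
    (h : s28ca_HasQExp N g A) :
    ∃ m : ℕ, IsBoundedAtImInfty (fun τ => g τ * ModularForm.discriminant τ ^ m) := by
  obtain ⟨m, H, hH, hg, -⟩ := h
  refine ⟨m, ?_⟩
  have hN : (0 : ℝ) < N := Nat.cast_pos.mpr (NeZero.pos N)
  have h0 : (0 : ℂ) ∈ Metric.ball (0 : ℂ) 1 := Metric.mem_ball_self one_pos
  have hcont : ContinuousAt (fun w : ℂ => H w * (w ^ ((N - 1) * m) * jfProd (w ^ N) ^ m)) 0 := by
    have h1 : ContinuousAt H 0 :=
      (hH.differentiableAt (Metric.isOpen_ball.mem_nhds h0)).continuousAt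
    have h2 : ContinuousAt jfProd ((0 : ℂ) ^ N) := by
      rw [zero_pow (NeZero.ne N)]
      exact (jfProd_differentiableOn.differentiableAt (Metric.isOpen_ball.mem_nhds h0)).continuousAt
    have h3 : ContinuousAt (fun w : ℂ => jfProd (w ^ N)) 0 :=
      ContinuousAt.comp (f := fun w : ℂ => w ^ N) h2 (continuous_pow N).continuousAt
    exact h1.mul (((continuous_pow _).continuousAt).mul (h3.pow m))
  have htend := hcont.tendsto.comp (qParam_tendsto_atImInfty hN)
  have heq : (fun τ : ℍ => g τ * ModularForm.discriminant τ ^ m) =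
      (fun w : ℂ => H w * (w ^ ((N - 1) * m) * jfProd (w ^ N) ^ m)) ∘
        (fun τ : ℍ => 𝕢 (N : ℝ) τ) := by
    funext τ
    have h3 := hg τ
    have h4 : 𝕢 (N : ℝ) τ ^ N = 𝕢 (1 : ℝ) τ := by
      have := s28ca_qParam_pow 1 N (τ : ℂ)
      simpa using this
    simp only [Function.comp_apply]
    rw [h4, jf_delta_eq, ← h3, mul_pow, ← h4, ← pow_mul]
    have h5 : N * m = m + (N - 1) * m := by
      have : N = 1 + (N - 1) := by have := NeZero.pos N; omega
      calc N * m = (1 + (N - 1)) * m := by rw [← this]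
        _ = m + (N - 1) * m := by ring
    rw [h5, pow_add]
    ring
  rw [heq]
  exact htend.isBigO_one ℝ

/-! ### Holomorphy of the conjugates -/

theorem s28cb_mdiff_div_delta (f : ℍ → ℂ) (hf : MDiff f) :
    MDiff (fun τ => f τ / ModularForm.discriminant τ) := by
  have := div_mdifferentiable_divFun f ModularForm.discriminant hf jf_delta_mdiff
    (fun z hz => absurd hz (ModularForm.discriminant_ne_zero z))
    (fun z hz => absurd hz (ModularForm.discriminant_ne_zero z))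
  have e : divFun f ModularForm.discriminant = fun τ => f τ / ModularForm.discriminant τ := by
    funext z
    simp only [divFun, if_neg (ModularForm.discriminant_ne_zero z)]
  rwa [e] at this

variable (p : ℕ) [NeZero p]

theorem s28cb_phi_mdiff (i : Option (ZMod p)) : MDiff (s28cb_phi p i) := by
  have hp : (p : ℂ) ≠ 0 := s28cb_pcast_ne_zero p
  rcases i with _ | b
  · have h1 : MDiff (fun τ => ModularForm.discriminant (dmul p τ)) :=
      s28ca_mdiff_comp_affine _ jf_delta_mdiff (dmul p) (p : ℂ) 0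
        (fun τ => by rw [coe_dmul, add_zero])
    have h2 : MDiff (fun τ => (p : ℂ) ^ 12 * ModularForm.discriminant (dmul p τ)) :=
      (mdifferentiable_const (c := (p : ℂ) ^ 12)).mul h1
    exact s28cb_mdiff_div_delta _ h2
  · have h1 : MDiff (fun τ => ModularForm.discriminant (s28ca_pt p ((b.val : ℕ) : ℤ) τ)) :=
      s28ca_mdiff_comp_affine _ jf_delta_mdiff (s28ca_pt p ((b.val : ℕ) : ℤ)) ((p : ℂ)⁻¹)
        ((((b.val : ℕ) : ℤ) : ℂ) / p) (fun τ => by
          rw [s28ca_coe_pt]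
          field_simp)
    exact s28cb_mdiff_div_delta _ h1

theorem s28cb_coeff_mdiff (k : ℕ) : MDiff (fun τ => (s28cb_poly p τ).coeff k) :=
  s28ca_mdiff_coeff_prod Finset.univ (s28cb_phi p) (fun i _ => s28cb_phi_mdiff p i) k

/-! ### The expansions of the conjugates -/

/-- `ζ = exp (2πi / p)`. -/
def s28cb_zeta : ℂˣ := Units.mk0 (Complex.exp (2 * Real.pi * Complex.I / p)) (Complex.exp_ne_zero _)

omit [NeZero p] in
theorem s28cb_zeta_coe : ((s28cb_zeta p : ℂˣ) : ℂ) = Complex.exp (2 * Real.pi * Complex.I / p) :=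
  rfl

theorem s28cb_zeta_primitive : IsPrimitiveRoot ((s28cb_zeta p : ℂˣ) : ℂ) p :=
  Complex.isPrimitiveRoot_exp p (NeZero.ne p)

theorem s28cb_zeta_pow_p : (s28cb_zeta p) ^ p = 1 := by
  apply Units.ext
  rw [Units.val_pow_eq_pow_val, Units.val_one]
  exact (s28cb_zeta_primitive p).pow_eq_one

theorem s28cb_norm_zeta_pow (b : ℕ) : ‖(((s28cb_zeta p) ^ b : ℂˣ) : ℂ)‖ ≤ 1 := by
  rw [Units.val_pow_eq_pow_val, norm_pow]
  have h := (s28cb_zeta_primitive p).norm'_eq_one (NeZero.ne p)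
  rw [h, one_pow]

theorem s28cb_qParam_pt (b : ℕ) (τ : ℍ) :
    𝕢 ((1 : ℕ) : ℝ) (s28ca_pt p (b : ℤ) τ) =
      (((s28cb_zeta p) ^ b : ℂˣ) : ℂ) * 𝕢 (p : ℝ) τ := by
  have hp : (p : ℂ) ≠ 0 := s28cb_pcast_ne_zero p
  rw [Units.val_pow_eq_pow_val, s28cb_zeta_coe, ← Complex.exp_nat_mul]
  simp only [Periodic.qParam, s28ca_coe_pt]
  rw [← Complex.exp_add]
  congr 1
  push_cast
  field_simp
  ring

theorem s28cb_qParam_dmul (τ : ℍ) :
    𝕢 ((1 : ℕ) : ℝ) (dmul p τ) = 𝕢 ((1 : ℕ) : ℝ) τ ^ p := by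
  simp only [Periodic.qParam, coe_dmul]
  rw [← Complex.exp_nat_mul]
  congr 1
  ring

theorem s28cb_coeffMap_qExpand {R S : Type*} [CommRing R] [CommRing S] (f : R →+* S)
    (y : LaurentSeries R) :
    coeffMap f (qExpand R p y) = qExpand S p (coeffMap f y) := by
  ext k
  rw [coeffMap_coeff]
  by_cases hk : (p : ℤ) ∣ k
  · obtain ⟨c, rfl⟩ := hk
    rw [qExpand_coeff_mul, qExpand_coeff_mul, coeffMap_coeff]
  · rw [qExpand_coeff_of_not_dvd p _ hk, qExpand_coeff_of_not_dvd p _ hk, map_zero]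

theorem s28cb_coeffMap_Delta {R S : Type*} [CommRing R] [CommRing S] (f : R →+* S) :
    coeffMap f (s28_Delta R) = s28_Delta S := by
  rw [s28_Delta, s28_Delta, map_mul, coeffMap_single, map_one, coeffMap_ofPowerSeries]
  congr 2
  ext n
  rw [PowerSeries.coeff_map, PowerSeries.coeff_map, PowerSeries.coeff_map]
  simp

theorem s28cb_coeffMap_DeltaInv {R S : Type*} [CommRing R] [CommRing S] (f : R →+* S) :
    coeffMap f (s28_DeltaInv R) = s28_DeltaInv S := by
  rw [s28_DeltaInv, s28_DeltaInv, map_mul, coeffMap_single, map_one, coeffMap_ofPowerSeries]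
  congr 2
  ext n
  rw [PowerSeries.coeff_map, PowerSeries.coeff_map, PowerSeries.coeff_map]
  simp

theorem s28cb_coeffMap_x :
    coeffMap (Int.castRingHom ℂ) (s28cb_x p) =
      s28_Delta ℂ * qExpand ℂ p (s28_DeltaInv ℂ) := by
  rw [s28cb_x, map_mul, s28cb_coeffMap_qExpand, s28cb_coeffMap_Delta, s28cb_coeffMap_DeltaInv]

theorem s28cb_coeffMap_u :
    coeffMap (Int.castRingHom ℂ) (s28cb_u p) =
      HahnSeries.C ((p : ℂ) ^ 12) * qExpand ℂ p (s28_Delta ℂ) * s28_DeltaInv ℂ := by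
  rw [s28cb_u, map_mul, map_mul, s28cb_coeffMap_qExpand, s28cb_coeffMap_Delta,
    s28cb_coeffMap_DeltaInv, map_pow, map_natCast, map_pow, map_natCast]

/-- the expansions of the `p + 1` conjugates in `s = q^{1/p}`. -/
theorem s28cb_hasQExp_phi (i : Option (ZMod p)) :
    s28ca_HasQExp p (s28cb_phi p i) (s28cb_A p (s28cb_zeta p) i) := by
  rcases i with _ | b
  · -- `p ^ 12 Δ(p τ) / Δ(τ)`
    have h1 : s28ca_HasQExp 1 (fun τ => ModularForm.discriminant (dmul p τ))
        (qExpand ℂ p (s28_Delta ℂ)) :=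
      s28cb_hasQExp_comp_pow p (dmul p) (s28cb_qParam_dmul p) s28cb_hasQExp_delta
    have h2 := s28ca_hasQExp_mul (s28ca_hasQExp_mul (s28ca_hasQExp_const 1 ((p : ℂ) ^ 12)) h1)
      s28cb_hasQExp_deltaInv
    rw [← s28cb_coeffMap_u] at h2
    have h3 := s28ca_hasQExp_level p p (one_mul p).symm h2
    exact s28ca_hasQExp_congr h3 (fun τ => by
      show _ = s28cb_phiInf p τ
      rw [s28cb_phiInf, div_eq_mul_inv])
  · -- `Δ((τ + b) / p) / Δ(τ)`
    have h1 : s28ca_HasQExp p (fun τ => ModularForm.discriminant (s28ca_pt p ((b.val : ℕ) : ℤ) τ))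
        (s28_scale ((s28cb_zeta p) ^ (b.val : ℕ)) (s28_Delta ℂ)) :=
      s28cb_hasQExp_comp_scale ((s28cb_zeta p) ^ (b.val : ℕ)) (s28cb_norm_zeta_pow p _)
        (s28ca_pt p ((b.val : ℕ) : ℤ)) (s28cb_qParam_pt p b.val) s28cb_hasQExp_delta
    have h2 : s28ca_HasQExp p (fun τ => (ModularForm.discriminant τ)⁻¹)
        (qExpand ℂ p (s28_DeltaInv ℂ)) :=
      s28ca_hasQExp_level p p (one_mul p).symm s28cb_hasQExp_deltaInv
    have h3 := s28ca_hasQExp_mul h1 h2
    have hz : ((s28cb_zeta p) ^ (b.val : ℕ)) ^ p = 1 := by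
      rw [← pow_mul, mul_comm, pow_mul, s28cb_zeta_pow_p, one_pow]
    have e : s28cb_A p (s28cb_zeta p) (some b) =
        s28_scale ((s28cb_zeta p) ^ (b.val : ℕ)) (s28_Delta ℂ) * qExpand ℂ p (s28_DeltaInv ℂ) := by
      show s28_scale _ (coeffMap (Int.castRingHom ℂ) (s28cb_x p)) = _
      rw [s28cb_coeffMap_x, map_mul, s28caf_scale_qExpand p _ hz]
    rw [e]
    exact s28ca_hasQExp_congr h3 (fun τ => by
      show _ = s28cb_psi p _ τ
      rw [s28cb_psi, div_eq_mul_inv])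

/-! ### The bridge and the main theorem -/

theorem s28cb_bridge (hp : p.Prime) (k : ℕ) :
    ∃ P : Polynomial ℂ,
      qExpand ℂ p (Polynomial.eval₂ (HahnSeries.C : ℂ →+* LaurentSeries ℂ) (jqModC ℂ) P) =
        (∏ i : Option (ZMod p),
          (Polynomial.X - Polynomial.C (s28cb_A p (s28cb_zeta p) i))).coeff k := by
  have hexp : s28ca_HasQExp p (fun τ => (s28cb_poly p τ).coeff k)
      ((∏ i : Option (ZMod p),
          (Polynomial.X - Polynomial.C (s28cb_A p (s28cb_zeta p) i))).coeff k) :=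
    s28cb_hasQExp_coeff_prod Finset.univ (s28cb_phi p) (s28cb_A p (s28cb_zeta p))
      (fun i _ => s28cb_hasQExp_phi p i) k
  obtain ⟨m, hb⟩ := s28cb_bdd_of_hasQExp hexp
  obtain ⟨P, -, hP⟩ := s28ca_exists_polyC (fun τ => (s28cb_poly p τ).coeff k)
    (s28cb_coeff_mdiff p k) (fun γ τ => by rw [s28cb_poly_smul p hp γ τ]) m hb
  refine ⟨P, ?_⟩
  have h1 : s28ca_HasQExp p (fun τ => (s28cb_poly p τ).coeff k)
      (qExpand ℂ p (Polynomial.eval₂ (HahnSeries.C : ℂ →+* LaurentSeries ℂ) (jqModC ℂ) P)) :=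
    s28ca_hasQExp_congr (s28ca_hasQExp_level p p (one_mul p).symm (s28ca_hasQExp_eval_jf P))
      (fun τ => (hP τ).symm)
  exact s28ca_hasQExp_unique h1 hexp

/-- **(CB)** `p ^ 12 Δ(q^p) / Δ(q)` is integral over `ℤ[j]`. -/
theorem s28cb_main : s28_stmt_CB := by
  intro p _ hp
  exact s28cb_formal p (s28cb_zeta p) (s28cb_zeta_primitive p) (s28cb_bridge p hp)

end Fermat.Agent.S28
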