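import Fermat.Agent.S28.CoreDefs

/-!
# S28 / (F): the norm polynomial `∏_{b < p} (Y - x(ζ^b s))` of a Laurent series  (helper2)

For `x ∈ R⸨s⸩` let `M = (M i j)` be the `p × p` matrix over `R⸨q⸩` of multiplication by `x` on
`R⸨s⸩ = ⊕_{i < p} s^i R⸨s^p⸩`, i.e. `M i j = ∑_n x_{p n + i - j} q^n`.

* `s28caf_eigen`: `∑_i s^i M_{ij}(s^p) = x s^j`;
* `s28caf_eval_charpoly`: Cayley-Hamilton, `Ψ(s^p; x) = 0` for `Ψ = charpoly M`;
* `s28caf_charpoly_eq_prod`: over a field with a primitive `p`-th root of unity `ζ`,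
  `Ψ(s^p; Y) = ∏_b (Y - x(ζ^b s))`;
* `s28ca_F`: the statement (F) used for (CA) and (CB).
-/

set_option autoImplicit false

noncomputable section

namespace Fermat.Agent.S28

open HahnSeries ModularCurve Polynomial Matrix

section General

variable {R : Type*} [CommRing R] (p : ℕ) [NeZero p]

lemma s28caf_p_pos : (0 : ℤ) < (p : ℤ) := by exact_mod_cast NeZero.pos p

lemma s28caf_bdd (x : LaurentSeries R) (i j : Fin p) :
    BddBelow (Function.support (fun n : ℤ => x.coeff ((p : ℤ) * n + (i : ℤ) - (j : ℤ)))) := by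
  have hp := s28caf_p_pos p
  by_cases hx : x = 0
  · subst hx
    refine ⟨0, fun n hn => ?_⟩
    simp at hn
  · refine ⟨x.order / (p : ℤ), fun n hn => ?_⟩
    rw [Function.mem_support] at hn
    by_contra hlt
    rw [not_le] at hlt
    apply hn
    apply HahnSeries.coeff_eq_zero_of_lt_order
    have h1 : n + 1 ≤ x.order / (p : ℤ) := hlt
    have h2 : (p : ℤ) * (n + 1) ≤ (p : ℤ) * (x.order / (p : ℤ)) :=
      mul_le_mul_of_nonneg_left h1 hp.le
    have h3 : (p : ℤ) * (x.order / (p : ℤ)) ≤ x.order := Int.mul_ediv_self_le hp.ne'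
    have hi : ((i : ℕ) : ℤ) < (p : ℤ) := by exact_mod_cast i.isLt
    have hj : (0 : ℤ) ≤ ((j : ℕ) : ℤ) := Int.natCast_nonneg _
    linarith

/-- The entries of the matrix of multiplication by `x`. -/
def s28caf_entry (x : LaurentSeries R) (i j : Fin p) : LaurentSeries R :=
  HahnSeries.ofSuppBddBelow (fun n : ℤ => x.coeff ((p : ℤ) * n + (i : ℤ) - (j : ℤ)))
    (s28caf_bdd p x i j)

@[simp]
lemma s28caf_entry_coeff (x : LaurentSeries R) (i j : Fin p) (n : ℤ) :
    (s28caf_entry p x i j).coeff n = x.coeff ((p : ℤ) * n + (i : ℤ) - (j : ℤ)) := rfl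

/-- The matrix of multiplication by `x` on `⊕ s^i R⸨s^p⸩`. -/
def s28caf_M (x : LaurentSeries R) : Matrix (Fin p) (Fin p) (LaurentSeries R) :=
  Matrix.of (s28caf_entry p x)

/-- The eigenvector identity `∑_i s^i M_{ij}(s^p) = x s^j`. -/
theorem s28caf_eigen (x : LaurentSeries R) (j : Fin p) :
    ∑ i : Fin p, HahnSeries.single ((i : ℕ) : ℤ) (1 : R) * qExpand R p (s28caf_entry p x i j) =
      x * HahnSeries.single ((j : ℕ) : ℤ) (1 : R) := by
  have hp := s28caf_p_pos p
  ext n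
  rw [HahnSeries.coeff_sum, HahnSeries.coeff_mul_single, mul_one]
  have hr0 : 0 ≤ n % (p : ℤ) := Int.emod_nonneg _ hp.ne'
  have hrp : n % (p : ℤ) < (p : ℤ) := Int.emod_lt_of_pos _ hp
  have hlt : (n % (p : ℤ)).toNat < p := by
    have : ((n % (p : ℤ)).toNat : ℤ) < (p : ℤ) := by rw [Int.toNat_of_nonneg hr0]; exact hrp
    exact_mod_cast this
  set i₀ : Fin p := ⟨(n % (p : ℤ)).toNat, hlt⟩ with hi₀
  have hi₀c : ((i₀ : ℕ) : ℤ) = n % (p : ℤ) := Int.toNat_of_nonneg hr0
  have hdecomp : (p : ℤ) * (n / (p : ℤ)) + n % (p : ℤ) = n := Int.mul_ediv_add_emod n p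
  rw [Finset.sum_eq_single i₀]
  · rw [HahnSeries.coeff_single_mul, one_mul]
    have h1 : n - ((i₀ : ℕ) : ℤ) = (p : ℤ) * (n / (p : ℤ)) := by rw [hi₀c]; linarith
    rw [h1, qExpand_coeff_mul, s28caf_entry_coeff, hi₀c, hdecomp]
  · intro i _ hi
    rw [HahnSeries.coeff_single_mul, one_mul]
    apply qExpand_coeff_of_not_dvd
    intro hdvd
    apply hi
    apply Fin.ext
    have hi_lt : ((i : ℕ) : ℤ) < (p : ℤ) := by exact_mod_cast i.isLt
    have hi_nn : (0 : ℤ) ≤ ((i : ℕ) : ℤ) := Int.natCast_nonneg _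
    have h2 : n % (p : ℤ) = ((i : ℕ) : ℤ) % (p : ℤ) := by
      have := Int.emod_emod_of_dvd n (dvd_refl (p : ℤ))
      exact (Int.emod_eq_emod_iff_emod_sub_eq_zero.mpr (Int.emod_eq_zero_of_dvd hdvd))
    rw [Int.emod_eq_of_lt hi_nn hi_lt] at h2
    have h3 : ((i : ℕ) : ℤ) = ((i₀ : ℕ) : ℤ) := by rw [hi₀c, h2]
    exact_mod_cast h3
  · intro h
    exact absurd (Finset.mem_univ _) h

/-- **Cayley-Hamilton** for multiplication by `x`: `Ψ(s^p; x) = 0`. -/
theorem s28caf_eval_charpoly (x : LaurentSeries R) :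
    (((s28caf_M p x).charpoly).map (qExpand R p)).eval x = 0 := by
  classical
  rw [← Matrix.charpoly_map, ← Matrix.charpoly_transpose, Matrix.eval_charpoly]
  set B : Matrix (Fin p) (Fin p) (LaurentSeries R) :=
    (Matrix.scalar (Fin p)) x - ((s28caf_M p x).map ⇑(qExpand R p))ᵀ with hB
  set v : Fin p → LaurentSeries R := fun i => HahnSeries.single ((i : ℕ) : ℤ) (1 : R) with hv
  have hBv : B *ᵥ v = 0 := by
    funext j
    rw [hB, Matrix.sub_mulVec]
    simp only [Pi.sub_apply, Pi.zero_apply]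
    have h1 : ((Matrix.scalar (Fin p)) x *ᵥ v) j = x * v j := by
      simp [Matrix.mulVec, dotProduct, Matrix.scalar_apply, Matrix.diagonal_apply]
    have h2 : (((s28caf_M p x).map ⇑(qExpand R p))ᵀ *ᵥ v) j = x * v j := by
      rw [← s28caf_eigen p x j]
      simp only [Matrix.mulVec, dotProduct, Matrix.transpose_apply, Matrix.map_apply, s28caf_M,
        Matrix.of_apply, hv]
      refine Finset.sum_congr rfl fun i _ => ?_
      rw [mul_comm]
    rw [h1, h2, sub_self]
  have h3 : B.adjugate *ᵥ (B *ᵥ v) = B.det • v := by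
    rw [Matrix.mulVec_mulVec, Matrix.adjugate_mul, Matrix.smul_mulVec, Matrix.one_mulVec]
  rw [hBv, Matrix.mulVec_zero] at h3
  have h4 := congrFun h3 ⟨0, NeZero.pos p⟩
  simp only [Pi.zero_apply, Pi.smul_apply, hv, smul_eq_mul] at h4
  have h5 : HahnSeries.single (((⟨0, NeZero.pos p⟩ : Fin p) : ℕ) : ℤ) (1 : R) = 1 := by
    simp
  rw [h5, mul_one] at h4
  exact h4.symm

end General

section Field

variable {K : Type*} [Field K] (p : ℕ) [NeZero p]

lemma s28caf_scale_single (ξ : Kˣ) (n : ℤ) :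
    s28_scale ξ (HahnSeries.single n (1 : K)) =
      HahnSeries.C (((ξ ^ n : Kˣ) : K)) * HahnSeries.single n (1 : K) := by
  ext m
  rw [s28_scale_coeff, HahnSeries.C_mul_eq_smul, HahnSeries.coeff_smul, smul_eq_mul]
  by_cases h : m = n
  · subst h; rfl
  · rw [HahnSeries.coeff_single_of_ne h, mul_zero, mul_zero]

lemma s28caf_scale_qExpand (ξ : Kˣ) (hξ : ξ ^ p = 1) (y : LaurentSeries K) :
    s28_scale ξ (qExpand K p y) = qExpand K p y := by
  ext m
  rw [s28_scale_coeff]
  by_cases h : (p : ℤ) ∣ m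
  · obtain ⟨c, rfl⟩ := h
    have : ξ ^ ((p : ℤ) * c) = 1 := by
      rw [_root_.zpow_mul, zpow_natCast, hξ, _root_.one_zpow]
    rw [this, Units.val_one, one_mul]
  · rw [qExpand_coeff_of_not_dvd p y h, mul_zero]

/-- Over a field with a primitive `p`-th root of unity:
`Ψ(s^p; Y) = ∏_b (Y - x(ζ^b s))`. -/
theorem s28caf_charpoly_eq_prod (ζ : Kˣ) (hζ : IsPrimitiveRoot (ζ : K) p) (x : LaurentSeries K) :
    ((s28caf_M p x).map ⇑(qExpand K p)).charpoly =
      ∏ b : Fin p, (Polynomial.X - Polynomial.C (s28_scale (ζ ^ (b : ℕ)) x)) := by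
  classical
  have hζu : IsPrimitiveRoot ζ p := by
    rw [← IsPrimitiveRoot.coe_units_iff]
    exact hζ
  set t : Fin p → LaurentSeries K :=
    fun b => HahnSeries.C (((ζ ^ (b : ℕ) : Kˣ) : K)) * HahnSeries.single (1 : ℤ) (1 : K) with ht
  set W : Matrix (Fin p) (Fin p) (LaurentSeries K) := Matrix.vandermonde t with hW
  set M' : Matrix (Fin p) (Fin p) (LaurentSeries K) := (s28caf_M p x).map ⇑(qExpand K p)
    with hM'
  set d : Fin p → LaurentSeries K := fun b => s28_scale (ζ ^ (b : ℕ)) x with hd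
  -- powers of `t b`
  have htpow : ∀ (b : Fin p) (i : ℕ), t b ^ i =
      s28_scale (ζ ^ (b : ℕ)) (HahnSeries.single ((i : ℕ) : ℤ) (1 : K)) := by
    intro b i
    rw [s28caf_scale_single, ht]
    simp only
    rw [mul_pow, ← map_pow, HahnSeries.single_pow, one_pow]
    have e1 : (i • (1 : ℤ)) = (i : ℤ) := by simp
    have e2 : ((ζ ^ (b : ℕ) : Kˣ) : K) ^ i = (((ζ ^ (b : ℕ)) ^ ((i : ℕ) : ℤ) : Kˣ) : K) := by
      rw [zpow_natCast]
      push_cast
      rfl
    rw [e1, e2]
  have hpow1 : ∀ b : Fin p, (ζ ^ (b : ℕ)) ^ p = 1 := by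
    intro b
    rw [← pow_mul, mul_comm, pow_mul, hζu.pow_eq_one, one_pow]
  -- the conjugation identity
  have hconj : W * M' = Matrix.diagonal d * W := by
    apply Matrix.ext
    intro b j
    rw [Matrix.mul_apply, Matrix.diagonal_mul]
    simp only [hW, Matrix.vandermonde_apply, hM', Matrix.map_apply, s28caf_M, Matrix.of_apply]
    rw [htpow b j]
    have h1 := congrArg (s28_scale (ζ ^ (b : ℕ))) (s28caf_eigen p x j)
    rw [map_sum, map_mul] at h1
    rw [hd]
    simp only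
    rw [← h1]
    refine Finset.sum_congr rfl fun i _ => ?_
    rw [map_mul, s28caf_scale_qExpand p _ (hpow1 b), htpow b i]
  -- `W` is invertible
  have hinj : Function.Injective t := by
    intro b b' h
    have h1 := congrArg (fun y : LaurentSeries K => y.coeff 1) h
    simp only [ht, HahnSeries.C_mul_eq_smul, HahnSeries.coeff_smul,
      HahnSeries.coeff_single_same, smul_eq_mul, mul_one] at h1
    have h2 : (ζ : K) ^ (b : ℕ) = (ζ : K) ^ (b' : ℕ) := by
      simpa using h1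
    exact Fin.ext (hζ.pow_inj b.isLt b'.isLt h2)
  have hdet : W.det ≠ 0 := Matrix.det_vandermonde_ne_zero_iff.mpr hinj
  have hunit : IsUnit W.det := isUnit_iff_ne_zero.mpr hdet
  have hM'eq : M' = W⁻¹ * (Matrix.diagonal d * W) := by
    rw [← hconj, ← Matrix.mul_assoc, Matrix.nonsing_inv_mul W hunit, Matrix.one_mul]
  rw [hM'eq, Matrix.charpoly_mul_comm, Matrix.mul_assoc, Matrix.mul_nonsing_inv W hunit,
    Matrix.mul_one, Matrix.charpoly_diagonal]

end Field

/-- coefficientwise maps commute with the matrix of multiplication. -/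
lemma s28caf_coeffMap_entry {R S : Type*} [CommRing R] [CommRing S] (f : R →+* S) (p : ℕ)
    [NeZero p] (x : LaurentSeries R) (i j : Fin p) :
    coeffMap f (s28caf_entry p x i j) = s28caf_entry p (coeffMap f x) i j := by
  ext n
  rw [coeffMap_coeff, s28caf_entry_coeff, s28caf_entry_coeff, coeffMap_coeff]

/-- **(F)** the norm polynomial of an integral Laurent series. -/
theorem s28ca_F (p : ℕ) [NeZero p] (ζ : ℂˣ) (hζ : IsPrimitiveRoot (ζ : ℂ) p)
    (x : LaurentSeries ℤ) :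
    ∃ Ψ : Polynomial (LaurentSeries ℤ), Ψ.Monic ∧ Ψ.natDegree = p ∧
      (Ψ.map (qExpand ℤ p)).eval x = 0 ∧
      ∏ b ∈ Finset.range p, (Polynomial.X - Polynomial.C
          (s28_scale (ζ ^ b) (coeffMap (Int.castRingHom ℂ) x))) =
        Ψ.map ((qExpand ℂ p).comp (coeffMap (Int.castRingHom ℂ))) := by
  classical
  refine ⟨(s28caf_M p x).charpoly, Matrix.charpoly_monic _, ?_, s28caf_eval_charpoly p x, ?_⟩
  · rw [Matrix.charpoly_natDegree_eq_dim, Fintype.card_fin]
  · rw [← Matrix.charpoly_map]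
    have h1 : (s28caf_M p x).map ⇑((qExpand ℂ p).comp (coeffMap (Int.castRingHom ℂ))) =
        (s28caf_M p (coeffMap (Int.castRingHom ℂ) x)).map ⇑(qExpand ℂ p) := by
      apply Matrix.ext
      intro i j
      simp only [Matrix.map_apply, s28caf_M, Matrix.of_apply, RingHom.comp_apply]
      rw [s28caf_coeffMap_entry]
    rw [h1, s28caf_charpoly_eq_prod p ζ hζ,
      ← Fin.prod_univ_eq_prod_range (fun b => (Polynomial.X - Polynomial.C
          (s28_scale (ζ ^ b) (coeffMap (Int.castRingHom ℂ) x)))) p]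

end Fermat.Agent.S28
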