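import Fermat.Agent.S24.JFun
import Fermat.Agent.S20.LevelOne
import Fermat.Agent.S20.RankinCohen

/-!
# S28 / (CA-1) the shared lemma: invariant holomorphic functions are polynomials in `j`
(helper2)

`s28ca_exists_polyC`: a holomorphic `SL₂(ℤ)`-invariant function `G` on `ℍ` such that `G Δ^M` is
bounded at `i∞` is a polynomial of degree `≤ M` in `j`.
-/

set_option autoImplicit false

namespace Fermat.Agent.S28

open UpperHalfPlane ModularForm EisensteinSeries Filter CongruenceSubgroup
open scoped MatrixGroups ModularForm Manifold Topology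
open Fermat.Agent.S20 Fermat.Agent.S24

/-- A holomorphic function, invariant of weight `k` under `SL₂(ℤ)` and bounded at `i∞`, is a
modular form of level one. -/
theorem s28ca_exists_levelOne (k : ℤ) (φ : ℍ → ℂ) (hol : MDiff φ)
    (inv : ∀ γ : SL(2, ℤ), φ ∣[k] γ = φ) (bdd : IsBoundedAtImInfty φ) :
    ∃ f : ModularForm 𝒮ℒ k, ⇑f = φ := by
  refine ⟨{ toFun := φ, slash_action_eq' := ?_, holo' := hol, bdd_at_cusps' := ?_ }, rfl⟩
  · rintro γ ⟨g, rfl⟩
    exact inv g
  · intro c hc
    rw [Subgroup.IsArithmetic.isCusp_iff_isCusp_SL2Z] at hc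
    rw [OnePoint.isBoundedAt_iff_forall_SL2Z hc]
    intro γ _
    rw [inv γ]
    exact bdd

/-- Weight `12 n` invariance of `G Δ^n` for an invariant function `G`. -/
theorem s28ca_slash_mul_delta_pow (G : ℍ → ℂ)
    (inv : ∀ γ : SL(2, ℤ), ∀ τ, G (γ • τ) = G τ) (n : ℕ) (γ : SL(2, ℤ)) :
    (fun τ => G τ * ModularForm.discriminant τ ^ n) ∣[(12 * (n : ℤ))] γ =
      fun τ => G τ * ModularForm.discriminant τ ^ n := by
  funext z
  rw [ModularForm.SL_slash_apply]
  have hd : denom γ z ≠ 0 := denom_ne_zero _ z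
  show G (γ • z) * ModularForm.discriminant (γ • z) ^ n * denom γ z ^ (-(12 * (n : ℤ))) = _
  rw [inv γ z, jf_delta_smul, mul_pow, mul_assoc, mul_assoc]
  congr 1
  have h1 : (denom γ z ^ (12 : ℤ)) ^ n = denom γ z ^ (12 * (n : ℤ)) := by
    rw [← zpow_natCast, ← zpow_mul]
  rw [h1, mul_comm (denom γ z ^ (12 * (n : ℤ))), mul_assoc, ← zpow_add₀ hd]
  simp

/-- The shared lemma, function level. -/
theorem s28ca_exists_polyC (G : ℍ → ℂ) (hol : MDiff G)
    (inv : ∀ γ : SL(2, ℤ), ∀ τ, G (γ • τ) = G τ) (M : ℕ)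
    (bdd : IsBoundedAtImInfty (fun τ => G τ * ModularForm.discriminant τ ^ M)) :
    ∃ P : Polynomial ℂ, P.natDegree ≤ M ∧ ∀ τ, G τ = P.eval (jf τ) := by
  induction M generalizing G with
  | zero =>
    have hb : IsBoundedAtImInfty G := by simpa using bdd
    have hinv : ∀ γ : SL(2, ℤ), G ∣[(0 : ℤ)] γ = G := by
      intro γ
      funext z
      rw [ModularForm.SL_slash_apply, inv γ z]
      simp
    obtain ⟨f, hf⟩ := s28ca_exists_levelOne 0 G hol hinv hb
    obtain ⟨c, hc⟩ := ModularFormClass.levelOne_weight_zero_const f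
    refine ⟨Polynomial.C c, by simp, fun τ => ?_⟩
    rw [← hf, hc]
    simp
  | succ M ih =>
    have hΔ : MDiff ModularForm.discriminant := jf_delta_mdiff
    have hol1 : MDiff (fun τ => G τ * ModularForm.discriminant τ ^ (M + 1)) :=
      hol.mul (hΔ.pow (M + 1))
    obtain ⟨F, hF⟩ := s28ca_exists_levelOne (12 * ((M + 1 : ℕ) : ℤ)) _ hol1
      (s28ca_slash_mul_delta_pow G inv (M + 1)) bdd
    obtain ⟨E, hE⟩ := exists_monomial (3 * (M + 1)) 0 (12 * ((M + 1 : ℕ) : ℤ))
      (by push_cast; ring)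
    have hEz : ∀ z, E z = E₄ z ^ (3 * (M + 1)) := by
      intro z
      rw [hE z, pow_zero, mul_one]
    have hEt : Tendsto E atImInfty (𝓝 1) := by
      have h1 := rc_E4_tendsto.pow (3 * (M + 1))
      rw [one_pow] at h1
      refine h1.congr fun z => ?_
      exact (hEz z).symm
    set c : ℂ := valInf F with hc
    have hFt : Tendsto F atImInfty (𝓝 c) := tendsto_valInf F
    have h2t : Tendsto (F - c • E) atImInfty (𝓝 0) := by
      have h3 := hFt.sub (hEt.const_mul c)
      rw [mul_one, sub_self] at h3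
      refine h3.congr fun z => ?_
      simp [sub_apply, smul_apply]
    have h2v : valInf (F - c • E) = 0 := h2t.limUnder_eq
    obtain ⟨F', hF'⟩ := exists_eq_delta_mul (F - c • E) h2v
    -- the function `G - c j^(M+1)`
    have hol2 : MDiff (fun τ => G τ - c * jf τ ^ (M + 1)) :=
      hol.sub ((mdifferentiable_const (c := c)).mul (jf_mdiff.pow (M + 1)))
    have inv2 : ∀ γ : SL(2, ℤ), ∀ τ,
        (fun τ => G τ - c * jf τ ^ (M + 1)) (γ • τ) = (fun τ => G τ - c * jf τ ^ (M + 1)) τ := by
      intro γ τ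
      show G (γ • τ) - c * jf (γ • τ) ^ (M + 1) = G τ - c * jf τ ^ (M + 1)
      rw [inv γ τ, jf_smul]
    have key : ∀ τ, (G τ - c * jf τ ^ (M + 1)) * ModularForm.discriminant τ ^ M = F' τ := by
      intro τ
      have hne := ModularForm.discriminant_ne_zero τ
      have h4 := hF' τ
      have h5 : (F - c • E) τ = F τ - c * E τ := by simp [sub_apply, smul_apply]
      have h6 : F τ = G τ * ModularForm.discriminant τ ^ (M + 1) := by
        rw [show F τ = (⇑F) τ from rfl, hF]
      rw [h5, h6, hEz] at h4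
      have h7 : jf τ ^ (M + 1) * ModularForm.discriminant τ ^ (M + 1) = E₄ τ ^ (3 * (M + 1)) := by
        rw [jf, div_pow, div_mul_cancel₀ _ (pow_ne_zero _ hne), ← pow_mul]
      apply mul_left_cancel₀ hne
      rw [← h4, ← h7]
      ring
    have bdd2 : IsBoundedAtImInfty
        (fun τ => (fun τ => G τ - c * jf τ ^ (M + 1)) τ * ModularForm.discriminant τ ^ M) := by
      have h8 : (fun τ => (fun τ => G τ - c * jf τ ^ (M + 1)) τ * ModularForm.discriminant τ ^ M)
          = ⇑F' := by
        funext τ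
        exact key τ
      rw [h8]
      exact ModularFormClass.bdd_at_infty F'
    obtain ⟨P, hPdeg, hP⟩ := ih _ hol2 inv2 bdd2
    refine ⟨P + Polynomial.C c * Polynomial.X ^ (M + 1), ?_, fun τ => ?_⟩
    · refine (Polynomial.natDegree_add_le _ _).trans (max_le (hPdeg.trans (Nat.le_succ M)) ?_)
      exact Polynomial.natDegree_C_mul_X_pow_le c (M + 1)
    · have h9 : G τ - c * jf τ ^ (M + 1) = Polynomial.eval (jf τ) P := hP τ
      rw [Polynomial.eval_add, Polynomial.eval_mul, Polynomial.eval_C, Polynomial.eval_pow,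
        Polynomial.eval_X, ← h9]
      ring

end Fermat.Agent.S28
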