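import Fermat.Agent.S24.JFun
import Fermat.Agent.S24.AnDefs

/-!
# S28 / (CA) definitions: the `p + 1` conjugates of `j(p τ)` as functions on `ℍ`  (helper2)

* `s28ca_pt p b τ = (τ + b) / p` as a point of `ℍ`;
* `s28ca_f p i τ`: `i = none ↦ jf (p τ)`, `i = some b ↦ jf ((τ + b) / p)`;
* `s28ca_poly p τ = ∏ i, (X - C (s28ca_f p i τ)) ∈ ℂ[X]`, `s28ca_g p k τ` its `k`-th coefficient.
-/

set_option autoImplicit false

namespace Fermat.Agent.S28

open UpperHalfPlane Polynomial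
open Fermat.Agent.S24

/-- The point `(τ + b) / p` of the upper half plane. -/
noncomputable def s28ca_pt (p : ℕ) [NeZero p] (b : ℤ) (τ : ℍ) : ℍ :=
  ⟨((τ : ℂ) + (b : ℂ)) / (p : ℂ), by
    have hp : (0 : ℝ) < p := by exact_mod_cast Nat.pos_of_ne_zero (NeZero.ne p)
    have h1 : (((τ : ℂ) + (b : ℂ)) / (p : ℂ)).im = τ.im / p := by
      have h2 : ((τ : ℂ) + (b : ℂ)) / (p : ℂ) = (((τ : ℂ) + (b : ℂ)) / ((p : ℝ) : ℂ)) := by
        push_cast; rfl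
      rw [h2, Complex.div_ofReal_im]
      simp
    rw [h1]
    exact div_pos τ.im_pos hp⟩

@[simp] lemma s28ca_coe_pt (p : ℕ) [NeZero p] (b : ℤ) (τ : ℍ) :
    (s28ca_pt p b τ : ℂ) = ((τ : ℂ) + (b : ℂ)) / (p : ℂ) := rfl

/-- The `p + 1` conjugates of `j(p τ)` over `ℂ(j)`. -/
noncomputable def s28ca_f (p : ℕ) [NeZero p] : Option (Fin p) → ℍ → ℂ
  | none => fun τ => jf (dmul p τ)
  | some b => fun τ => jf (s28ca_pt p (b : ℕ) τ)

lemma s28ca_f_none (p : ℕ) [NeZero p] (τ : ℍ) : s28ca_f p none τ = jf (dmul p τ) := rfl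

lemma s28ca_f_some (p : ℕ) [NeZero p] (b : Fin p) (τ : ℍ) :
    s28ca_f p (some b) τ = jf (s28ca_pt p ((b : ℕ) : ℤ) τ) := rfl

/-- The polynomial `∏ i, (X - f_i(τ))`. -/
noncomputable def s28ca_poly (p : ℕ) [NeZero p] (τ : ℍ) : Polynomial ℂ :=
  ∏ i : Option (Fin p), (X - C (s28ca_f p i τ))

/-- The `k`-th coefficient of `∏ i, (X - f_i(τ))` as a function of `τ`. -/
noncomputable def s28ca_g (p : ℕ) [NeZero p] (k : ℕ) (τ : ℍ) : ℂ :=
  (s28ca_poly p τ).coeff k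

end Fermat.Agent.S28
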