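import Mathlib
import Fermat.Prelude.Def_ModularCurve_X0ModL

/-!
# S28 (Igusa): formal operations on Laurent series  (OWNER: helper9)

* `s28_scale ξ : A⸨s⸩ →+* A⸨s⸩`, `f(s) ↦ f(ξ s)` for a unit `ξ`;
* `s28_theta : A⸨s⸩ →+ A⸨s⸩`, `θ = s d/ds`;
* `s28_Delta A`, `s28_DeltaInv A`: the discriminant `Δ = q ∏ (1 - q^n)^24` and its inverse.
-/

set_option autoImplicit false

noncomputable section

namespace Fermat.Agent.S28

open HahnSeries ModularCurve

variable {A : Type*} [CommRing A]

/-- `f(s) ↦ f(ξ s)`: the coefficient of `s ^ n` is multiplied by `ξ ^ n`. -/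
def s28_scaleFun (ξ : Aˣ) (x : LaurentSeries A) : LaurentSeries A where
  coeff n := ((ξ ^ n : Aˣ) : A) * x.coeff n
  isPWO_support' := x.isPWO_support.mono (fun n hn => by
    simp only [Function.mem_support, ne_eq] at hn ⊢
    intro h
    exact hn (by rw [h, mul_zero]))

@[simp]
theorem s28_scaleFun_coeff (ξ : Aˣ) (x : LaurentSeries A) (n : ℤ) :
    (s28_scaleFun ξ x).coeff n = ((ξ ^ n : Aˣ) : A) * x.coeff n := rfl

theorem s28_scaleFun_support (ξ : Aˣ) (x : LaurentSeries A) :
    (s28_scaleFun ξ x).support = x.support := by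
  ext n
  simp only [HahnSeries.mem_support, s28_scaleFun_coeff, ne_eq, Units.mul_right_eq_zero]

theorem s28_scaleFun_mul (ξ : Aˣ) (x y : LaurentSeries A) :
    s28_scaleFun ξ (x * y) = s28_scaleFun ξ x * s28_scaleFun ξ y := by
  ext n
  rw [s28_scaleFun_coeff, HahnSeries.coeff_mul, HahnSeries.coeff_mul, Finset.mul_sum]
  have hs : (Finset.antidiagonal (s28_scaleFun ξ x).isPWO_support
      (s28_scaleFun ξ y).isPWO_support n) =
      Finset.antidiagonal x.isPWO_support y.isPWO_support n := by
    ext ij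
    simp only [Finset.mem_antidiagonal, s28_scaleFun_support]
  rw [hs]
  refine Finset.sum_congr rfl fun ij hij => ?_
  rw [Finset.mem_antidiagonal] at hij
  rw [s28_scaleFun_coeff, s28_scaleFun_coeff, ← hij.2.2, zpow_add, Units.val_mul]
  ring

/-- `f(s) ↦ f(ξ s)` as a ring homomorphism. -/
def s28_scale (ξ : Aˣ) : LaurentSeries A →+* LaurentSeries A where
  toFun := s28_scaleFun ξ
  map_one' := by
    ext n
    rw [s28_scaleFun_coeff, HahnSeries.coeff_one]
    split_ifs with h
    · subst h; simp
    · simp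
  map_mul' := s28_scaleFun_mul ξ
  map_zero' := by
    ext n
    simp
  map_add' x y := by
    ext n
    simp [mul_add]

@[simp]
theorem s28_scale_coeff (ξ : Aˣ) (x : LaurentSeries A) (n : ℤ) :
    (s28_scale ξ x).coeff n = ((ξ ^ n : Aˣ) : A) * x.coeff n := rfl

/-- `θ = s d/ds`: the coefficient of `s ^ n` is multiplied by `n`. -/
def s28_thetaFun (x : LaurentSeries A) : LaurentSeries A where
  coeff n := (n : A) * x.coeff n
  isPWO_support' := x.isPWO_support.mono (fun n hn => by
    simp only [Function.mem_support, ne_eq] at hn ⊢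
    intro h
    exact hn (by rw [h, mul_zero]))

@[simp]
theorem s28_thetaFun_coeff (x : LaurentSeries A) (n : ℤ) :
    (s28_thetaFun x).coeff n = (n : A) * x.coeff n := rfl

/-- `θ = s d/ds` as an additive map. -/
def s28_theta : LaurentSeries A →+ LaurentSeries A where
  toFun := s28_thetaFun
  map_zero' := by
    ext n
    simp
  map_add' x y := by
    ext n
    simp [mul_add]

@[simp]
theorem s28_theta_coeff (x : LaurentSeries A) (n : ℤ) :
    (s28_theta x).coeff n = (n : A) * x.coeff n := rfl

variable (A) in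
/-- the discriminant `Δ = q ∏ (1 - q ^ n) ^ 24` as a Laurent series over `A`. -/
def s28_Delta : LaurentSeries A :=
  HahnSeries.single (1 : ℤ) 1 *
    HahnSeries.ofPowerSeries ℤ A (dedekindEtaUnit.map (Int.castRingHom A))

variable (A) in
/-- the inverse of the discriminant. -/
def s28_DeltaInv : LaurentSeries A :=
  HahnSeries.single (-1 : ℤ) 1 *
    HahnSeries.ofPowerSeries ℤ A (dedekindEtaUnitInv.map (Int.castRingHom A))

end Fermat.Agent.S28
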