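import Mathlib
import Fermat.Agent.S28.CAQExp
import Fermat.Agent.S28.Scale
import Fermat.Agent.S28.CADefs

/-!
# S28 / (CA-3) part 2: more API for `q^{1/N}`-expansions  (OWNER: helper8; off-main)

* `s28ca_hasQExp_comp_scale` : substitution `τ ↦ φ τ` with `s(φ τ) = c · s'(τ)`;
* `s28ca_hasQExp_comp_pow`   : substitution `τ ↦ φ τ` with `s(φ τ) = s'(τ) ^ d`;
* `s28ca_hasQExp_delta`, `s28ca_hasQExp_deltaInv` : the expansions of `Δ` and `Δ⁻¹`;
* `s28ca_hasQExp_bdd`        : a function with an expansion is bounded at `i∞` after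
                               multiplication by a power of `Δ`;
* `s28ca_hasQExp_polyCoeff`, `s28ca_hasQExp_eval`;
* the expansions of the conjugates `s28ca_f p i` at level `p`, and `s28ca_g_bdd`.
-/

set_option autoImplicit false
set_option linter.style.haveILetI false

namespace Fermat.Agent.S28

open Complex UpperHalfPlane Function Filter Topology
open ModularForm EisensteinSeries CongruenceSubgroup
open scoped MatrixGroups ModularForm Manifold
open Fermat.Agent.S20 Fermat.Agent.S24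

local notation "𝕢" => Periodic.qParam

/-! ### formal lemmas on `s28_scale` -/

theorem s28ca_ofPowerSeries_rescale (c : ℂˣ) (T : PowerSeries ℂ) :
    HahnSeries.ofPowerSeries ℤ ℂ (PowerSeries.rescale (c : ℂ) T) =
      s28_scale c (HahnSeries.ofPowerSeries ℤ ℂ T) := by
  ext k
  rw [s28_scale_coeff]
  rcases lt_or_ge k 0 with hk | hk
  · rw [ModularCurve.ofPowerSeries_coeff_of_neg _ hk,
      ModularCurve.ofPowerSeries_coeff_of_neg _ hk, mul_zero]
  · obtain ⟨n, rfl⟩ := Int.eq_ofNat_of_zero_le hk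
    rw [HahnSeries.ofPowerSeries_apply_coeff, HahnSeries.ofPowerSeries_apply_coeff,
      PowerSeries.coeff_rescale]
    simp

theorem s28ca_scale_single {A : Type*} [CommRing A] (c : Aˣ) (m : ℤ) (a : A) :
    s28_scale c (HahnSeries.single m a) = HahnSeries.single m (((c ^ m : Aˣ) : A) * a) := by
  ext k
  rw [s28_scale_coeff]
  by_cases h : k = m
  · subst h
    simp
  · rw [HahnSeries.coeff_single_of_ne h, HahnSeries.coeff_single_of_ne h, mul_zero]

theorem s28ca_scale_one {A : Type*} [CommRing A] (x : LaurentSeries A) :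
    s28_scale (1 : Aˣ) x = x := by
  ext k
  rw [s28_scale_coeff]
  simp

/-! ### substitutions -/

/-- substitution `τ ↦ φ τ` with `s(φ τ) = c · s'(τ)`. -/
theorem s28ca_hasQExp_comp_scale {N N' : ℕ} (c : ℂˣ) (hc : ‖(c : ℂ)‖ ≤ 1) (φ : ℍ → ℍ)
    (hφ : ∀ τ : ℍ, 𝕢 (N : ℝ) (φ τ) = (c : ℂ) * 𝕢 (N' : ℝ) τ)
    {g : ℍ → ℂ} {A : LaurentSeries ℂ} (h : s28ca_HasQExp N g A) :
    s28ca_HasQExp N' (fun τ => g (φ τ)) (s28_scale c A) := by
  obtain ⟨m, H, hH, hg, hT⟩ := h
  obtain ⟨hd, hq⟩ := s28ca_qfT_comp_mul hH hc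
  have hcm : ((c : ℂ)) ^ m ≠ 0 := pow_ne_zero _ c.ne_zero
  refine ⟨m, (fun _ => (((c : ℂ)) ^ m)⁻¹) * (fun w => H ((c : ℂ) * w)),
    (differentiableOn_const _).mul hd, fun τ => ?_, ?_⟩
  · show g (φ τ) * 𝕢 (N' : ℝ) τ ^ m = (((c : ℂ)) ^ m)⁻¹ * H ((c : ℂ) * 𝕢 (N' : ℝ) τ)
    rw [← hφ, ← hg, hφ, mul_pow]
    field_simp
  · rw [qfT_mul analyticAt_const (s28ca_analyticAt hd), qfT_const, hq, map_mul,
      s28ca_ofPowerSeries_rescale, hT, map_mul, s28ca_scale_single, HahnSeries.ofPowerSeries_C,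
      ← mul_assoc]
    have e : (HahnSeries.C ((((c : ℂ)) ^ m)⁻¹) : LaurentSeries ℂ) *
        HahnSeries.single (m : ℤ) (((c ^ (m : ℤ) : ℂˣ) : ℂ) * 1) =
        HahnSeries.single (m : ℤ) 1 := by
      rw [HahnSeries.C_apply, HahnSeries.single_mul_single, zero_add, mul_one, zpow_natCast,
        Units.val_pow_eq_pow_val, inv_mul_cancel₀ hcm]
    rw [e]

/-- substitution `τ ↦ φ τ` with `s(φ τ) = s'(τ) ^ d`. -/
theorem s28ca_hasQExp_comp_pow {N N' : ℕ} (d : ℕ) [NeZero d] (φ : ℍ → ℍ)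
    (hφ : ∀ τ : ℍ, 𝕢 (N : ℝ) (φ τ) = 𝕢 (N' : ℝ) τ ^ d)
    {g : ℍ → ℂ} {A : LaurentSeries ℂ} (h : s28ca_HasQExp N g A) :
    s28ca_HasQExp N' (fun τ => g (φ τ)) (ModularCurve.qExpand ℂ d A) := by
  obtain ⟨m, H, hH, hg, hT⟩ := h
  obtain ⟨hd, hq⟩ := s28ca_qfT_comp_pow hH d (NeZero.ne d)
  refine ⟨m * d, fun w => H (w ^ d), hd, fun τ => ?_, ?_⟩
  · show g (φ τ) * 𝕢 (N' : ℝ) τ ^ (m * d) = H (𝕢 (N' : ℝ) τ ^ d)
    rw [mul_comm m d, pow_mul, ← hφ]
    exact hg (φ τ)
  · rw [hq, s28ca_ofPowerSeries_expand, hT, map_mul, ModularCurve.qExpand_single]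
    have e : (d : ℤ) * (m : ℤ) = ((m * d : ℕ) : ℤ) := by
      push_cast
      ring
    rw [e]

theorem s28ca_qParam_dmul (p : ℕ) [NeZero p] (τ : ℍ) :
    𝕢 ((1 : ℕ) : ℝ) (dmul p τ) = 𝕢 ((1 : ℕ) : ℝ) τ ^ p := by
  simp only [Periodic.qParam, coe_dmul]
  rw [← Complex.exp_nat_mul]
  congr 1
  push_cast
  ring

theorem s28ca_qParam_dmul_level (p : ℕ) [NeZero p] (τ : ℍ) :
    𝕢 (p : ℝ) (dmul p τ) = 𝕢 ((1 : ℕ) : ℝ) τ := by
  have hp : (p : ℂ) ≠ 0 := by exact_mod_cast NeZero.ne p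
  simp only [Periodic.qParam, coe_dmul]
  congr 1
  push_cast
  field_simp

/-- `g(p τ)` has the expansion `A(q ^ p)`. -/
theorem s28ca_hasQExp_dmul (p : ℕ) [NeZero p] {g : ℍ → ℂ} {A : LaurentSeries ℂ}
    (h : s28ca_HasQExp 1 g A) :
    s28ca_HasQExp 1 (fun τ => g (dmul p τ)) (ModularCurve.qExpand ℂ p A) :=
  s28ca_hasQExp_comp_pow p (dmul p) (s28ca_qParam_dmul p) h

/-- an expansion of `g` in `s = q^{1/p}` is an expansion of `τ ↦ g (p τ)` in `q`. -/
theorem s28ca_hasQExp_dmul_level (p : ℕ) [NeZero p] {g : ℍ → ℂ} {A : LaurentSeries ℂ}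
    (h : s28ca_HasQExp p g A) : s28ca_HasQExp 1 (fun τ => g (dmul p τ)) A := by
  have := s28ca_hasQExp_comp_scale (N := p) (N' := 1) 1 (by simp) (dmul p)
    (fun τ => by rw [s28ca_qParam_dmul_level]; simp) h
  rwa [s28ca_scale_one] at this

/-! ### the discriminant -/

theorem s28ca_qfT_jfProd :
    qfT jfProd = PowerSeries.map (Int.castRingHom ℂ) ModularCurve.dedekindEtaUnit := by
  have e2 : jfProd =ᶠ[𝓝 0] qfP ^ 24 := by
    filter_upwards [Metric.ball_mem_nhds (0 : ℂ) one_pos] with q hq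
    have hq' : ‖q‖ < 1 := by simpa using hq
    simp only [Pi.pow_apply, qfP, jfProd]
    rw [(ModularForm.multipliable_one_sub_pow hq').tprod_pow 24]
  rw [qfT_congr e2, qfT_pow qfP_analyticAt, qfT_qfP, qf_map_dedekindEtaUnit]

theorem s28ca_jfProd_inv_differentiableOn :
    DifferentiableOn ℂ (fun w => (jfProd w)⁻¹) (Metric.ball 0 1) :=
  jfProd_differentiableOn.inv (fun q hq => jfProd_ne_zero (by simpa using hq))

theorem s28ca_qfT_jfProd_inv :
    qfT (fun w => (jfProd w)⁻¹) =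
      PowerSeries.map (Int.castRingHom ℂ) ModularCurve.dedekindEtaUnitInv := by
  have haP : AnalyticAt ℂ jfProd 0 := s28ca_analyticAt jfProd_differentiableOn
  have haI : AnalyticAt ℂ (fun w => (jfProd w)⁻¹) 0 :=
    s28ca_analyticAt s28ca_jfProd_inv_differentiableOn
  have e1 : ((fun w => (jfProd w)⁻¹) * jfProd) =ᶠ[𝓝 0] (fun _ => (1 : ℂ)) := by
    filter_upwards [Metric.ball_mem_nhds (0 : ℂ) one_pos] with q hq
    have hq' : ‖q‖ < 1 := by simpa using hq
    simp only [Pi.mul_apply]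
    exact inv_mul_cancel₀ (jfProd_ne_zero hq')
  have h1 : qfT (fun w => (jfProd w)⁻¹) * qfT jfProd = 1 := by
    rw [← qfT_mul haI haP, qfT_congr e1, qfT_const, map_one]
  rw [s28ca_qfT_jfProd] at h1
  have h5 : PowerSeries.map (Int.castRingHom ℂ) ModularCurve.dedekindEtaUnit *
      PowerSeries.map (Int.castRingHom ℂ) ModularCurve.dedekindEtaUnitInv = 1 := by
    rw [← map_mul, ModularCurve.dedekindEtaUnit_mul_inv, map_one]
  calc qfT (fun w => (jfProd w)⁻¹)
      = qfT (fun w => (jfProd w)⁻¹) *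
          (PowerSeries.map (Int.castRingHom ℂ) ModularCurve.dedekindEtaUnit *
            PowerSeries.map (Int.castRingHom ℂ) ModularCurve.dedekindEtaUnitInv) := by
        rw [h5, mul_one]
    _ = (qfT (fun w => (jfProd w)⁻¹) *
          PowerSeries.map (Int.castRingHom ℂ) ModularCurve.dedekindEtaUnit) *
            PowerSeries.map (Int.castRingHom ℂ) ModularCurve.dedekindEtaUnitInv := by ring
    _ = _ := by rw [h1, one_mul]

/-- the expansion of `Δ`. -/
theorem s28ca_hasQExp_delta : s28ca_HasQExp 1 ModularForm.discriminant (s28_Delta ℂ) := by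
  obtain ⟨hd, hs⟩ := s28ca_qfT_pow_mul jfProd_differentiableOn 1
  refine ⟨0, fun w => w ^ 1 * jfProd w, hd, fun τ => ?_, ?_⟩
  · have := jf_delta_eq τ
    simp only [pow_zero, mul_one, pow_one, Nat.cast_one]
    exact this
  · rw [hs, s28ca_qfT_jfProd]
    simp [s28_Delta]

/-- the expansion of `Δ⁻¹`. -/
theorem s28ca_hasQExp_deltaInv :
    s28ca_HasQExp 1 (fun τ => (ModularForm.discriminant τ)⁻¹) (s28_DeltaInv ℂ) := by
  refine ⟨1, fun w => (jfProd w)⁻¹, s28ca_jfProd_inv_differentiableOn, fun τ => ?_, ?_⟩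
  · have hq : 𝕢 1 (τ : ℂ) ≠ 0 := Periodic.qParam_ne_zero _
    have hP := jfProd_qParam_ne_zero τ
    simp only [pow_one, Nat.cast_one]
    rw [jf_delta_eq]
    field_simp
  · rw [s28ca_qfT_jfProd_inv, s28_DeltaInv, ← mul_assoc, HahnSeries.single_mul_single]
    simp

theorem s28ca_coeffMap_Delta {R S : Type*} [CommRing R] [CommRing S] (f : R →+* S) :
    ModularCurve.coeffMap f (s28_Delta R) = s28_Delta S := by
  unfold s28_Delta
  rw [map_mul, ModularCurve.coeffMap_single, map_one, ModularCurve.coeffMap_ofPowerSeries]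
  congr 2
  ext n
  simp

theorem s28ca_coeffMap_DeltaInv {R S : Type*} [CommRing R] [CommRing S] (f : R →+* S) :
    ModularCurve.coeffMap f (s28_DeltaInv R) = s28_DeltaInv S := by
  unfold s28_DeltaInv
  rw [map_mul, ModularCurve.coeffMap_single, map_one, ModularCurve.coeffMap_ofPowerSeries]
  congr 2
  ext n
  simp

/-! ### boundedness at `i∞` -/

theorem s28ca_qParam_level_pow (N : ℕ) [NeZero N] (z : ℂ) :
    𝕢 (N : ℝ) z ^ N = 𝕢 1 z := by
  have hN : (N : ℂ) ≠ 0 := by exact_mod_cast NeZero.ne N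
  simp only [Periodic.qParam]
  rw [← Complex.exp_nat_mul]
  congr 1
  push_cast
  field_simp

/-- a function with an expansion is bounded at `i∞` after multiplication by a power of `Δ`. -/
theorem s28ca_hasQExp_bdd {N : ℕ} [NeZero N] {g : ℍ → ℂ} {A : LaurentSeries ℂ}
    (h : s28ca_HasQExp N g A) :
    ∃ M : ℕ, IsBoundedAtImInfty (fun τ => g τ * ModularForm.discriminant τ ^ M) := by
  obtain ⟨m, H, hH, hg, -⟩ := h
  refine ⟨m, ?_⟩
  -- the function `F(s) = H(s) s^((N-1) m) jfProd(s^N)^m`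
  set F : ℂ → ℂ := fun w => H w * (w ^ ((N - 1) * m) * jfProd (w ^ N) ^ m) with hF
  have hmaps : Set.MapsTo (fun w : ℂ => w ^ N) (Metric.ball 0 1) (Metric.ball 0 1) := by
    intro w hw
    simp only [Metric.mem_ball, dist_zero_right] at hw ⊢
    rw [norm_pow]
    exact pow_lt_one₀ (norm_nonneg _) hw (NeZero.ne N)
  have hFd : DifferentiableOn ℂ F (Metric.ball 0 1) :=
    hH.mul (((differentiable_id.pow _).differentiableOn).mul
      ((jfProd_differentiableOn.comp ((differentiable_id.pow N).differentiableOn) hmaps).pow m))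
  have hFc : ContinuousAt F 0 :=
    (hFd.differentiableAt (Metric.ball_mem_nhds 0 one_pos)).continuousAt
  have hNpos : (0 : ℝ) < N := Nat.cast_pos.mpr (NeZero.pos N)
  have ht : Tendsto (fun τ : ℍ => F (𝕢 (N : ℝ) τ)) atImInfty (𝓝 (F 0)) :=
    hFc.tendsto.comp (UpperHalfPlane.qParam_tendsto_atImInfty hNpos)
  have hb : IsBoundedAtImInfty (fun τ : ℍ => F (𝕢 (N : ℝ) τ)) := ht.isBigO_one ℝ
  have e : (fun τ : ℍ => g τ * ModularForm.discriminant τ ^ m) =
      fun τ : ℍ => F (𝕢 (N : ℝ) τ) := by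
    funext τ
    simp only [hF]
    rw [← hg τ, jf_delta_eq, s28ca_qParam_level_pow, mul_pow]
    have hN1 : N = (N - 1) + 1 := (Nat.sub_add_cancel (NeZero.pos N)).symm
    have e2 : 𝕢 1 (τ : ℂ) ^ m = 𝕢 (N : ℝ) (τ : ℂ) ^ m * 𝕢 (N : ℝ) (τ : ℂ) ^ ((N - 1) * m) := by
      rw [← s28ca_qParam_level_pow N, ← pow_mul, ← pow_add]
      congr 1
      conv_lhs => rw [hN1]
      ring
    rw [e2]
    ring
  rw [e]
  exact hb

/-! ### coefficients of products, evaluation of polynomials -/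

theorem s28ca_hasQExp_polyCoeff {N : ℕ} {ι : Type*} (s : Finset ι) (f : ι → ℍ → ℂ)
    (A : ι → LaurentSeries ℂ) (h : ∀ i ∈ s, s28ca_HasQExp N (f i) (A i)) (k : ℕ) :
    s28ca_HasQExp N
      (fun τ => (∏ i ∈ s, (Polynomial.X - Polynomial.C (f i τ))).coeff k)
      ((∏ i ∈ s, (Polynomial.X - Polynomial.C (A i))).coeff k) := by
  classical
  induction s using Finset.induction_on generalizing k with
  | empty =>
    simp only [Finset.prod_empty, Polynomial.coeff_one]
    by_cases hk : k = 0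
    · simp only [hk, if_true]
      have := s28ca_hasQExp_const N 1
      rwa [map_one] at this
    · simp only [hk, if_false]
      have := s28ca_hasQExp_const N 0
      rwa [map_zero] at this
  | insert a s ha ih =>
    have ih' := ih (fun i hi => h i (Finset.mem_insert_of_mem hi))
    have hfa := h a (Finset.mem_insert_self a s)
    set PA : Polynomial (LaurentSeries ℂ) := ∏ i ∈ s, (Polynomial.X - Polynomial.C (A i))
      with hPA
    have hins : (∏ i ∈ insert a s, (Polynomial.X - Polynomial.C (A i))) =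
        (Polynomial.X - Polynomial.C (A a)) * PA := Finset.prod_insert ha
    have hinsf : ∀ τ, (∏ i ∈ insert a s, (Polynomial.X - Polynomial.C (f i τ))) =
        (Polynomial.X - Polynomial.C (f a τ)) *
          ∏ i ∈ s, (Polynomial.X - Polynomial.C (f i τ)) := fun τ => Finset.prod_insert ha
    rw [hins]
    cases k with
    | zero =>
      have e : ((Polynomial.X - Polynomial.C (A a)) * PA).coeff 0 = -(A a) * PA.coeff 0 := by
        rw [Polynomial.mul_coeff_zero]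
        simp
      rw [e]
      have h1 : s28ca_HasQExp N (fun τ => -(f a τ) *
          (∏ i ∈ s, (Polynomial.X - Polynomial.C (f i τ))).coeff 0) (-(A a) * PA.coeff 0) :=
        s28ca_hasQExp_mul (s28ca_hasQExp_neg hfa) (ih' 0)
      refine s28ca_hasQExp_congr h1 (fun τ => ?_)
      rw [hinsf, Polynomial.mul_coeff_zero]
      simp
    | succ k =>
      rw [Polynomial.coeff_X_sub_C_mul]
      have h1 : s28ca_HasQExp N (fun τ =>
          (∏ i ∈ s, (Polynomial.X - Polynomial.C (f i τ))).coeff k -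
            f a τ * (∏ i ∈ s, (Polynomial.X - Polynomial.C (f i τ))).coeff (k + 1))
          (PA.coeff k - A a * PA.coeff (k + 1)) :=
        s28ca_hasQExp_sub (ih' k) (s28ca_hasQExp_mul hfa (ih' (k + 1)))
      refine s28ca_hasQExp_congr h1 (fun τ => ?_)
      rw [hinsf, Polynomial.coeff_X_sub_C_mul]

theorem s28ca_hasQExp_eval {N : ℕ} (P : Polynomial ℂ) {g : ℍ → ℂ} {A : LaurentSeries ℂ}
    (h : s28ca_HasQExp N g A) :
    s28ca_HasQExp N (fun τ => P.eval (g τ))
      (P.eval₂ (HahnSeries.C : ℂ →+* LaurentSeries ℂ) A) := by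
  rw [Polynomial.eval₂_eq_sum_range]
  refine s28ca_hasQExp_congr (s28ca_hasQExp_sum (Finset.range (P.natDegree + 1))
    (fun i τ => P.coeff i * g τ ^ i) _
    (fun i _ => s28ca_hasQExp_mul (s28ca_hasQExp_const N (P.coeff i)) (s28ca_hasQExp_pow h i)))
    (fun τ => ?_)
  rw [Polynomial.eval_eq_sum_range]

/-! ### the conjugates of `j(p τ)` -/

/-- `ζ = exp (2πi / p)` as a unit. -/
noncomputable def s28ca_zeta (p : ℕ) : ℂˣ :=
  Units.mk0 (Complex.exp (2 * (Real.pi : ℂ) * Complex.I / (p : ℂ))) (Complex.exp_ne_zero _)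

theorem s28ca_zeta_coe (p : ℕ) : ((s28ca_zeta p : ℂˣ) : ℂ) = Complex.exp (2 * (Real.pi : ℂ) * Complex.I / (p : ℂ)) := rfl

theorem s28ca_zeta_prim (p : ℕ) [NeZero p] : IsPrimitiveRoot ((s28ca_zeta p : ℂˣ) : ℂ) p :=
  Complex.isPrimitiveRoot_exp p (NeZero.ne p)

theorem s28ca_zeta_pow_norm (p b : ℕ) : ‖(((s28ca_zeta p) ^ b : ℂˣ) : ℂ)‖ ≤ 1 := by
  rw [Units.val_pow_eq_pow_val, norm_pow, s28ca_zeta_coe]
  have h1 : ‖Complex.exp (2 * (Real.pi : ℂ) * Complex.I / (p : ℂ))‖ = 1 := by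
    have h2 : (2 * (Real.pi : ℂ) * Complex.I / (p : ℂ) : ℂ) = ((2 * Real.pi / p : ℝ) : ℂ) * Complex.I := by
      push_cast
      ring
    rw [h2, Complex.norm_exp_ofReal_mul_I]
  rw [h1, one_pow]

theorem s28ca_qParam_pt (p : ℕ) [NeZero p] (b : ℕ) (τ : ℍ) :
    𝕢 ((1 : ℕ) : ℝ) (s28ca_pt p (b : ℤ) τ) =
      (((s28ca_zeta p) ^ b : ℂˣ) : ℂ) * 𝕢 (p : ℝ) τ := by
  have hp : (p : ℂ) ≠ 0 := by exact_mod_cast NeZero.ne p
  rw [Units.val_pow_eq_pow_val, s28ca_zeta_coe, ← Complex.exp_nat_mul]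
  simp only [Periodic.qParam, s28ca_coe_pt]
  rw [← Complex.exp_add]
  congr 1
  push_cast
  field_simp
  ring

/-- the expansions of the conjugates in the variable `s = q^{1/p}`. -/
noncomputable def s28ca_A (p : ℕ) [NeZero p] : Option (Fin p) → LaurentSeries ℂ
  | none => ModularCurve.qExpand ℂ (p * p) (ModularCurve.jqModC ℂ)
  | some b => s28_scale ((s28ca_zeta p) ^ (b : ℕ)) (ModularCurve.jqModC ℂ)

theorem s28ca_f_hasQExp (p : ℕ) [NeZero p] (i : Option (Fin p)) :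
    s28ca_HasQExp p (s28ca_f p i) (s28ca_A p i) := by
  cases i with
  | none =>
    have h1 := s28ca_hasQExp_dmul p s28ca_hasQExp_jf
    have h2 := s28ca_hasQExp_level p p (one_mul p).symm h1
    rw [ModularCurve.qExpand_qExpand] at h2
    exact h2
  | some b =>
    exact s28ca_hasQExp_comp_scale _ (s28ca_zeta_pow_norm p b) (s28ca_pt p ((b : ℕ) : ℤ))
      (s28ca_qParam_pt p b) s28ca_hasQExp_jf

/-- the expansion of the coefficients `s28ca_g p k` in the variable `s = q^{1/p}`. -/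
theorem s28ca_g_hasQExp (p : ℕ) [NeZero p] (k : ℕ) :
    s28ca_HasQExp p (s28ca_g p k)
      ((∏ i : Option (Fin p), (Polynomial.X - Polynomial.C (s28ca_A p i))).coeff k) :=
  s28ca_hasQExp_polyCoeff Finset.univ (s28ca_f p) (s28ca_A p)
    (fun i _ => s28ca_f_hasQExp p i) k

/-- the boundedness input of the shared lemma `s28ca_exists_polyC`. -/
theorem s28ca_g_bdd (p : ℕ) [NeZero p] (k : ℕ) :
    ∃ M : ℕ, IsBoundedAtImInfty (fun τ => s28ca_g p k τ * ModularForm.discriminant τ ^ M) :=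
  s28ca_hasQExp_bdd (s28ca_g_hasQExp p k)

end Fermat.Agent.S28
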