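import Fermat.Agent.S28.VRing

/-!
# S28 / valuation core (V1c): the Gauss valuation on `ℚ(j)`

Every nonzero element `c` of `ℚ(j)` is `ℓ^s u` with `u` a unit of `𝒪` whose residue lies in
`𝔽_ℓ(j̄)`; hence `ρ (ℚ(j) ∩ 𝒪) ⊆ 𝔽_ℓ(j̄)`.
-/

set_option autoImplicit false

noncomputable section

namespace Fermat.Agent.S28

open ModularCurve HahnSeries Polynomial IntermediateField

/-! ### the `j`-series over `ℤ_(ℓ)`, `ℚ`, `𝔽_ℓ` -/

theorem s28v_iota_jq (ℓ : ℕ) : s28v_iota ℓ (jqModC (GaloisRep.ratLocalizedAt ℓ)) = jq := by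
  rw [s28v_iota, coeffMap_jqModC]
  rfl

theorem s28v_pi_jq (ℓ : ℕ) [Fact ℓ.Prime] :
    s28v_pi ℓ (jqModC (GaloisRep.ratLocalizedAt ℓ)) = jqModC (ZMod ℓ) :=
  coeffMap_jqModC _

theorem s28v_iota_jqN (ℓ : ℕ) (d : ℕ) [NeZero d] :
    s28v_iota ℓ (jqNModC (GaloisRep.ratLocalizedAt ℓ) d) = qExpand ℚ d jq := by
  rw [s28v_iota, coeffMap_jqNModC]
  rfl

theorem s28v_pi_jqN (ℓ : ℕ) [Fact ℓ.Prime] (d : ℕ) [NeZero d] :
    s28v_pi ℓ (jqNModC (GaloisRep.ratLocalizedAt ℓ) d) = jqNModC (ZMod ℓ) d :=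
  coeffMap_jqNModC _ _

theorem s28v_jq_mem_O (ℓ : ℕ) [Fact ℓ.Prime] : jq ∈ s28v_O ℓ := by
  rw [← s28v_iota_jq ℓ]
  exact s28v_iota_mem_O ℓ _

theorem s28v_jqN_mem_O (ℓ : ℕ) [Fact ℓ.Prime] (d : ℕ) [NeZero d] : qExpand ℚ d jq ∈ s28v_O ℓ := by
  rw [← s28v_iota_jqN ℓ]
  exact s28v_iota_mem_O ℓ _

theorem s28v_rhoFun_iota (ℓ : ℕ) [Fact ℓ.Prime] (a : LaurentSeries (GaloisRep.ratLocalizedAt ℓ)) :
    s28v_rhoFun ℓ (s28v_iota ℓ a) = s28v_pi ℓ a :=
  s28v_rho_iota ℓ a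

theorem s28v_rhoFun_jq (ℓ : ℕ) [Fact ℓ.Prime] : s28v_rhoFun ℓ jq = jqModC (ZMod ℓ) := by
  rw [← s28v_iota_jq ℓ, s28v_rhoFun_iota, s28v_pi_jq]

theorem s28v_rhoFun_jqN (ℓ : ℕ) [Fact ℓ.Prime] (d : ℕ) [NeZero d] :
    s28v_rhoFun ℓ (qExpand ℚ d jq) = jqNModC (ZMod ℓ) d := by
  rw [← s28v_iota_jqN ℓ, s28v_rhoFun_iota, s28v_pi_jqN]

/-! ### transcendence of `j` -/

theorem s28v_jq_transcendental (K : Type*) [Field K] : Transcendental K (jqModC K) := by
  intro halg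
  obtain ⟨P, hP0, hP⟩ := halg
  rw [Polynomial.aeval_eq_sum_range] at hP
  simp only [Algebra.smul_def, algebraMap_laurentSeries_eq_single] at hP
  have h2 := congrArg (fun x : LaurentSeries K => x.coeff (-(P.natDegree : ℤ))) hP
  simp only [HahnSeries.coeff_zero, HahnSeries.coeff_sum] at h2
  have hterm : ∀ i ∈ Finset.range (P.natDegree + 1),
      (HahnSeries.single (0 : ℤ) (P.coeff i) * jqModC K ^ i).coeff (-(P.natDegree : ℤ)) =
        if i = P.natDegree then P.coeff i else 0 := by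
    intro i hi
    rw [HahnSeries.coeff_single_zero_mul]
    by_cases hin : i = P.natDegree
    · rw [if_pos hin, hin, ModularCurve.coeff_jqModC_pow_self, mul_one]
    · rw [if_neg hin]
      have hlt : i < P.natDegree := by
        have := Finset.mem_range.mp hi
        omega
      rw [ModularCurve.coeff_jqModC_pow_of_lt K (by omega), mul_zero]
  rw [Finset.sum_congr rfl hterm, Finset.sum_ite_eq' _ _,
    if_pos (Finset.mem_range.mpr (Nat.lt_succ_self _))] at h2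
  exact hP0 (Polynomial.leadingCoeff_eq_zero.mp h2)

/-! ### integer polynomials in a parameter `τ ∈ ℤ⸨q⸩` (`τ = j` or `τ = 1/j`) -/

/-- the parameter over a commutative ring. -/
def s28v_par (A : Type*) [CommRing A] (τ : LaurentSeries ℤ) : LaurentSeries A :=
  coeffMap (Int.castRingHom A) τ

theorem s28v_coeffMap_par {A B : Type*} [CommRing A] [CommRing B] (f : A →+* B)
    (τ : LaurentSeries ℤ) : coeffMap f (s28v_par A τ) = s28v_par B τ := by
  rw [s28v_par, coeffMap_coeffMap, s28v_par]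
  exact coeffMap_congr (RingHom.ext_int _ _) τ

theorem s28v_par_jq (A : Type*) [CommRing A] : s28v_par A (jqModC ℤ) = jqModC A :=
  coeffMap_jqModC _

/-- evaluation of an integer polynomial at the parameter over a commutative ring. -/
def s28v_evalJ (A : Type*) [CommRing A] (τ : LaurentSeries ℤ) (P : ℤ[X]) : LaurentSeries A :=
  P.eval₂ (Int.castRingHom (LaurentSeries A)) (s28v_par A τ)

theorem s28v_evalJ_mul (A : Type*) [CommRing A] (τ : LaurentSeries ℤ) (P Q : ℤ[X]) :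
    s28v_evalJ A τ (P * Q) = s28v_evalJ A τ P * s28v_evalJ A τ Q :=
  Polynomial.eval₂_mul _ _

theorem s28v_evalJ_C (A : Type*) [CommRing A] (τ : LaurentSeries ℤ) (n : ℤ) :
    s28v_evalJ A τ (Polynomial.C n) = (n : LaurentSeries A) := by
  rw [s28v_evalJ, Polynomial.eval₂_C]
  rfl

theorem s28v_coeffMap_evalJ {A B : Type*} [CommRing A] [CommRing B] (f : A →+* B)
    (τ : LaurentSeries ℤ) (P : ℤ[X]) :
    coeffMap f (s28v_evalJ A τ P) = s28v_evalJ B τ P := by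
  rw [s28v_evalJ, Polynomial.hom_eval₂, s28v_coeffMap_par, s28v_evalJ]
  congr 1
  exact RingHom.ext_int _ _

theorem s28v_iota_evalJ (ℓ : ℕ) (τ : LaurentSeries ℤ) (P : ℤ[X]) :
    s28v_iota ℓ (s28v_evalJ (GaloisRep.ratLocalizedAt ℓ) τ P) = s28v_evalJ ℚ τ P :=
  s28v_coeffMap_evalJ _ τ P

theorem s28v_pi_evalJ (ℓ : ℕ) [Fact ℓ.Prime] (τ : LaurentSeries ℤ) (P : ℤ[X]) :
    s28v_pi ℓ (s28v_evalJ (GaloisRep.ratLocalizedAt ℓ) τ P) = s28v_evalJ (ZMod ℓ) τ P :=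
  s28v_coeffMap_evalJ _ τ P

theorem s28v_evalJ_eq_aeval (K : Type*) [Field K] (τ : LaurentSeries ℤ) (P : ℤ[X]) :
    s28v_evalJ K τ P = Polynomial.aeval (s28v_par K τ) (P.map (Int.castRingHom K)) := by
  rw [s28v_evalJ, Polynomial.aeval_def, Polynomial.eval₂_map]
  congr 1
  exact RingHom.ext_int _ _

theorem s28v_evalJ_mem_adjoin (K : Type*) [Field K] (τ : LaurentSeries ℤ) (P : ℤ[X]) :
    s28v_evalJ K τ P ∈ K⟮s28v_par K τ⟯ := by
  rw [s28v_evalJ_eq_aeval]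
  have h1 : Polynomial.aeval (s28v_par K τ) (P.map (Int.castRingHom K)) ∈
      Algebra.adjoin K {s28v_par K τ} := by
    rw [Algebra.adjoin_singleton_eq_range_aeval]
    exact ⟨_, rfl⟩
  exact IntermediateField.algebra_adjoin_le_adjoin K _ h1

theorem s28v_evalJ_ne_zero (K : Type*) [Field K] (τ : LaurentSeries ℤ)
    (hτ : Transcendental K (s28v_par K τ)) (P : ℤ[X])
    (hP : P.map (Int.castRingHom K) ≠ 0) : s28v_evalJ K τ P ≠ 0 := by
  rw [s28v_evalJ_eq_aeval]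
  intro h
  exact hτ ⟨_, hP, h⟩

/-- content normalisation of an integer polynomial at the prime `ℓ`. -/
theorem s28v_int_poly_normalize (ℓ : ℕ) [Fact ℓ.Prime] (P : ℤ[X]) (hP : P ≠ 0) :
    ∃ (a : ℕ) (P₀ : ℤ[X]), P = Polynomial.C ((ℓ : ℤ) ^ a) * P₀ ∧
      P₀.map (Int.castRingHom (ZMod ℓ)) ≠ 0 := by
  have hℓ : ℓ.Prime := Fact.out
  have hc : P.content ≠ 0 := fun h => hP (Polynomial.content_eq_zero_iff.mp h)
  have hfin : FiniteMultiplicity (ℓ : ℤ) P.content := by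
    rw [Int.finiteMultiplicity_iff]
    exact ⟨by simpa using hℓ.ne_one, hc⟩
  obtain ⟨d, hd, hnd⟩ := hfin.exists_eq_pow_mul_and_not_dvd
  refine ⟨multiplicity (ℓ : ℤ) P.content, Polynomial.C d * P.primPart, ?_, ?_⟩
  · conv_lhs => rw [P.eq_C_content_mul_primPart, hd]
    rw [map_mul, mul_assoc]
  · rw [Polynomial.map_mul, Polynomial.map_C]
    apply mul_ne_zero
    · rw [Ne, Polynomial.C_eq_zero]
      show ((d : ℤ) : ZMod ℓ) ≠ 0
      rw [Ne, ZMod.intCast_zmod_eq_zero_iff_dvd]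
      exact hnd
    · intro h0
      have hdvd : Polynomial.C (ℓ : ℤ) ∣ P.primPart := by
        rw [Polynomial.C_dvd_iff_dvd_coeff]
        intro n
        have := congrArg (fun q : (ZMod ℓ)[X] => q.coeff n) h0
        simp only [Polynomial.coeff_map, Polynomial.coeff_zero] at this
        exact (ZMod.intCast_zmod_eq_zero_iff_dvd _ _).mp this
      have hu := (Polynomial.isPrimitive_primPart P) (ℓ : ℤ) hdvd
      rw [Int.isUnit_iff] at hu
      have := hℓ.one_lt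
      omega

end Fermat.Agent.S28
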