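import Fermat.Agent.S28.CoreDefs

/-!
# S28 (Igusa): interface statements of the SIMPLIFIED tower (lead's route, msg #408)

Everything happens inside `L = LaurentSeries k`; degrees are `IntermediateField.relfinrank` of
intermediate fields of `L / k`.  `J = jqModC k`, `J_d = qExpand k d J`,
`κ_N = modularFunctionFieldFullC k N = k(J_d : d ∣ N)`, `D_N = [κ_N : k(J)] = s28_D k N`.

OWNER: helper9 (architect).  FROZEN once announced.
-/

set_option autoImplicit false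

noncomputable section

namespace Fermat.Agent.S28

open HahnSeries ModularCurve Polynomial IntermediateField

/-- `k(J)` inside `k((q))`. -/
def s28_kJ (k : Type*) [Field k] : IntermediateField k (LaurentSeries k) :=
  IntermediateField.adjoin k {jqModC k}

/-- `k(J_d)` inside `k((q))`, `J_d = J(q^d)`. -/
def s28_kJd (k : Type*) [Field k] (d : ℕ) [NeZero d] : IntermediateField k (LaurentSeries k) :=
  IntermediateField.adjoin k {qExpand k d (jqModC k)}

/-- the degree `D_N = [κ_N : k(J)]` (`0` if infinite). -/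
def s28_D (k : Type*) [Field k] (N : ℕ) : ℕ :=
  IntermediateField.relfinrank (s28_kJ k) (modularFunctionFieldFullC k N)

/-- **(CA\*)** the modular polynomial of prime level with its formal factorisation over `ℤ((s))`:
`Φ(j(s^p), Y) = (Y - j(s^(p^2))) * Q(Y)`, `Q` monic of degree `p` with coefficients series in
`s^p`, `Q(j(s)) = 0`. -/
def s28_stmt_CAs : Prop :=
  ∀ (p : ℕ) [NeZero p], p.Prime →
    ∃ (Φ : Polynomial (Polynomial ℤ)) (Q : Polynomial (LaurentSeries ℤ)),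
      Φ.Monic ∧ Φ.natDegree = p + 1 ∧ Q.Monic ∧ Q.natDegree = p ∧
      (∀ i, Q.coeff i ∈ (qExpand ℤ p).range) ∧
      Q.eval (jqModC ℤ) = 0 ∧
      Φ.map (s28_evalAt (qExpand ℤ p (jqModC ℤ))) =
        (Polynomial.X - Polynomial.C (qExpand ℤ (p * p) (jqModC ℤ))) * Q

/-- **(NB)** Borel exclusion at prime level (helper3's `s28nb_main`, verbatim). -/
def s28_stmt_NB : Prop :=
  ∀ (k : Type) [Field k] (p : ℕ) [NeZero p], p.Prime → (p : k) ≠ 0 →
    qExpand k p (jqModC k) ∉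
      (IntermediateField.adjoin k {jqModC k} : IntermediateField k (LaurentSeries k))

/-- **(UB)** the degree in characteristic `ℓ` is at most the degree in characteristic `0`
(lifting of independent families; helper6). -/
def s28_stmt_UB : Prop :=
  ∀ (ℓ : ℕ) [Fact ℓ.Prime] (N : ℕ) [NeZero N], ¬ ℓ ∣ N →
    FiniteDimensional (ZMod ℓ)⟮s28_jC (ZMod ℓ) N⟯ ↥(modularFunctionFieldFullC (ZMod ℓ) N) ∧
      Module.finrank (ZMod ℓ)⟮s28_jC (ZMod ℓ) N⟯ ↥(modularFunctionFieldFullC (ZMod ℓ) N) ≤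
        Module.finrank ℚ⟮IgusaScheme.jFull N⟯ ↥(modularFunctionFieldFull N)

/-- **(UBD)** `0 < D_N ≤ ψ(N)` over `𝔽_ℓ` (= (UB) + (C0) + conversion). -/
def s28_stmt_UBD : Prop :=
  ∀ (ℓ : ℕ) [Fact ℓ.Prime] (N : ℕ) [NeZero N], ¬ ℓ ∣ N →
    s28_D (ZMod ℓ) N ≠ 0 ∧ s28_D (ZMod ℓ) N ≤ dedekindPsi N

/-- **(PR)** prime level: `D_p = p + 1`. -/
def s28_stmt_PR : Prop :=
  ∀ (k : Type) [Field k] (p : ℕ) [NeZero p], p.Prime → (p : k) ≠ 0 → s28_D k p = p + 1

/-- **(SW)** `0 < [κ_p : k(J_p)] ≤ p + 1`. -/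
def s28_stmt_SW : Prop :=
  ∀ (k : Type) [Field k] (p : ℕ) [NeZero p], p.Prime →
    IntermediateField.relfinrank (s28_kJd k p) (modularFunctionFieldFullC k p) ≠ 0 ∧
      IntermediateField.relfinrank (s28_kJd k p) (modularFunctionFieldFullC k p) ≤ p + 1

/-- **(VB)** `D_{Mp} ≥ p D_M` (when `D_{Mp}` is finite, i.e. nonzero). -/
def s28_stmt_VB : Prop :=
  ∀ (k : Type) [Field k] (p : ℕ) [NeZero p] (M : ℕ) [NeZero M], p.Prime → (p : k) ≠ 0 →
    s28_D k (M * p) ≠ 0 → p * s28_D k M ≤ s28_D k (M * p)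

/-- **(TLz)** the tower over `𝔽_ℓ`: `ψ(N) ≤ D_N`. -/
def s28_stmt_TLz : Prop :=
  ∀ (ℓ : ℕ) [Fact ℓ.Prime] (N : ℕ) [NeZero N], ¬ ℓ ∣ N → dedekindPsi N ≤ s28_D (ZMod ℓ) N

end Fermat.Agent.S28
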