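import Fermat.Agent.S28.CAFormal
import Fermat.Agent.S28.CATri
import Fermat.Agent.S28.Core2

/-!
# S28 / (CA*): formal assembly of the modular polynomial from the analytic bridge  (helper2)

`s28ca_CAs_of_bridge`: if every coefficient of
`(Y - j(s^(p^2))) * ∏_{b < p} (Y - j(ζ^b s))` (a polynomial over `ℂ⸨s⸩`) is a complex polynomial
in `j(s^p)` (the analytic bridge (B)), then the conclusion of `s28_stmt_CAs` holds for `p`.

Inputs: `s28ca_F` (the norm polynomial is integral and has coefficients in `s^p`) and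
`s28ca_tri` (a complex polynomial in `j` with integral `q`-expansion is an integral polynomial).
-/

set_option autoImplicit false

noncomputable section

namespace Fermat.Agent.S28

open HahnSeries ModularCurve Polynomial

/-- `s28_evalAt` commutes with `qExpand`. -/
theorem s28ca_qExpand_evalAt (p : ℕ) [NeZero p] (x : LaurentSeries ℤ) (Q : Polynomial ℤ) :
    qExpand ℤ p (s28_evalAt x Q) = s28_evalAt (qExpand ℤ p x) Q := by
  unfold s28_evalAt
  rw [Polynomial.coe_eval₂RingHom, Polynomial.coe_eval₂RingHom, Polynomial.hom_eval₂]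
  congr 1
  exact RingHom.ext_int _ _

/-- `eval₂ C` commutes with `qExpand`. -/
theorem s28ca_qExpand_eval₂_C (p : ℕ) [NeZero p] (x : LaurentSeries ℂ) (P : Polynomial ℂ) :
    qExpand ℂ p (Polynomial.eval₂ (HahnSeries.C : ℂ →+* LaurentSeries ℂ) x P) =
      Polynomial.eval₂ (HahnSeries.C : ℂ →+* LaurentSeries ℂ) (qExpand ℂ p x) P := by
  rw [Polynomial.hom_eval₂]
  congr 1
  ext r : 1
  exact qExpand_C p r

/-- **formal assembly**: (CA*) for `p` from the analytic bridge. -/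
theorem s28ca_CAs_of_bridge (p : ℕ) [NeZero p] (ζ : ℂˣ) (hζ : IsPrimitiveRoot (ζ : ℂ) p)
    (hB : ∀ k : ℕ, ∃ P : Polynomial ℂ,
      Polynomial.eval₂ (HahnSeries.C : ℂ →+* LaurentSeries ℂ) (qExpand ℂ p (jqModC ℂ)) P =
        ((Polynomial.X - Polynomial.C (qExpand ℂ (p * p) (jqModC ℂ))) *
          ∏ b ∈ Finset.range p,
            (Polynomial.X - Polynomial.C (s28_scale (ζ ^ b) (jqModC ℂ)))).coeff k) :
    ∃ (Φ : Polynomial (Polynomial ℤ)) (Q : Polynomial (LaurentSeries ℤ)),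
      Φ.Monic ∧ Φ.natDegree = p + 1 ∧ Q.Monic ∧ Q.natDegree = p ∧
      (∀ i, Q.coeff i ∈ (qExpand ℤ p).range) ∧
      Q.eval (jqModC ℤ) = 0 ∧
      Φ.map (s28_evalAt (qExpand ℤ p (jqModC ℤ))) =
        (Polynomial.X - Polynomial.C (qExpand ℤ (p * p) (jqModC ℤ))) * Q := by
  classical
  obtain ⟨Ψ, hΨm, hΨd, hΨe, hΨp⟩ := s28ca_F p ζ hζ (jqModC ℤ)
  rw [coeffMap_jqModC] at hΨp
  -- the polynomial over `ℤ⸨q⸩` before substituting `q = s^p`
  set R₀ : Polynomial (LaurentSeries ℤ) :=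
    (Polynomial.X - Polynomial.C (qExpand ℤ p (jqModC ℤ))) * Ψ with hR₀
  have hR₀m : R₀.Monic := (Polynomial.monic_X_sub_C _).mul hΨm
  have hR₀d : R₀.natDegree = p + 1 := by
    rw [hR₀, (Polynomial.monic_X_sub_C _).natDegree_mul hΨm, Polynomial.natDegree_X_sub_C, hΨd,
      add_comm]
  have hRZ : R₀.map (qExpand ℤ p) =
      (Polynomial.X - Polynomial.C (qExpand ℤ (p * p) (jqModC ℤ))) * Ψ.map (qExpand ℤ p) := by
    rw [hR₀, Polynomial.map_mul, Polynomial.map_sub, Polynomial.map_X, Polynomial.map_C,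
      qExpand_qExpand]
  have hRC : R₀.map ((qExpand ℂ p).comp (coeffMap (Int.castRingHom ℂ))) =
      (Polynomial.X - Polynomial.C (qExpand ℂ (p * p) (jqModC ℂ))) *
          ∏ b ∈ Finset.range p,
            (Polynomial.X - Polynomial.C (s28_scale (ζ ^ b) (jqModC ℂ))) := by
    rw [hR₀, Polynomial.map_mul, Polynomial.map_sub, Polynomial.map_X, Polynomial.map_C,
      RingHom.comp_apply, coeffMap_qExpand, coeffMap_jqModC, qExpand_qExpand, hΨp]
  -- each coefficient of `R₀` is an integral polynomial in `j`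
  have hcoef : ∀ k : ℕ, ∃ Qk : Polynomial ℤ, s28_evalAt (jqModC ℤ) Qk = R₀.coeff k := by
    intro k
    obtain ⟨P, hP⟩ := hB k
    have h1 : Polynomial.eval₂ (HahnSeries.C : ℂ →+* LaurentSeries ℂ) (jqModC ℂ) P =
        coeffMap (Int.castRingHom ℂ) (R₀.coeff k) := by
      apply qExpand_injective (R := ℂ) p
      rw [s28ca_qExpand_eval₂_C, hP, ← hRC, Polynomial.coeff_map, RingHom.comp_apply]
    obtain ⟨Qk, -, hQk⟩ := s28ca_tri P (R₀.coeff k) h1
    exact ⟨Qk, hQk⟩
  choose Qc hQc using hcoef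
  set S : Polynomial (Polynomial ℤ) :=
    ∑ k ∈ Finset.range (p + 1), Polynomial.C (Qc k) * Polynomial.X ^ k with hS
  have hSdeg : S.degree < ((p + 1 : ℕ) : WithBot ℕ) := by
    rw [hS]
    refine lt_of_le_of_lt (Polynomial.degree_sum_le _ _) ?_
    rw [Finset.sup_lt_iff (WithBot.bot_lt_coe _)]
    intro k hk
    refine lt_of_le_of_lt (Polynomial.degree_C_mul_X_pow_le _ _) ?_
    exact_mod_cast Finset.mem_range.mp hk
  refine ⟨Polynomial.X ^ (p + 1) + S, Ψ.map (qExpand ℤ p), Polynomial.monic_X_pow_add hSdeg, ?_,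
    hΨm.map _, ?_, ?_, hΨe, ?_⟩
  · rw [Polynomial.natDegree_add_eq_left_of_degree_lt, Polynomial.natDegree_X_pow]
    rw [Polynomial.degree_X_pow]
    exact hSdeg
  · rw [hΨm.natDegree_map, hΨd]
  · intro i
    rw [Polynomial.coeff_map]
    exact ⟨_, rfl⟩
  · rw [← hRZ]
    have hm : (R₀.map (qExpand ℤ p)).Monic := hR₀m.map _
    have hd : (R₀.map (qExpand ℤ p)).natDegree = p + 1 := by
      rw [hR₀m.natDegree_map, hR₀d]
    conv_rhs => rw [hm.as_sum, hd]
    rw [Polynomial.map_add, Polynomial.map_pow, Polynomial.map_X, hS, Polynomial.map_sum]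
    congr 1
    refine Finset.sum_congr rfl fun k _ => ?_
    rw [Polynomial.map_mul, Polynomial.map_pow, Polynomial.map_X, Polynomial.map_C,
      Polynomial.coeff_map, ← hQc k, s28ca_qExpand_evalAt]

end Fermat.Agent.S28
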