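import Fermat.Agent.S28.CAQExp2
import Fermat.Agent.S28.CAInv
import Fermat.Agent.S28.CAPoly
import Fermat.Agent.S28.CAAssemble

/-!
# S28 / (CA): the analytic bridge (B) and the statement `s28_stmt_CAs`
(OWNER: helper8; off-main)

* `s28ca_bridge` : every coefficient of
  `(Y - j(s^(p^2))) ∏_{b < p} (Y - j(ζ^b s))`, `ζ = exp (2πi/p)`, is a complex polynomial in
  `j(s^p)`;
* `s28ca_main : s28_stmt_CAs` (with helper2's formal assembly `s28ca_CAs_of_bridge`).
-/

set_option autoImplicit false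

namespace Fermat.Agent.S28

open UpperHalfPlane Polynomial
open scoped MatrixGroups ModularForm Manifold
open Fermat.Agent.S24 ModularCurve

/-- the product over `Option (Fin p)` in the shape of `s28_FactorsAt`. -/
theorem s28ca_prod_A (p : ℕ) [NeZero p] :
    (∏ i : Option (Fin p), (X - C (s28ca_A p i))) =
      (X - C (qExpand ℂ (p * p) (jqModC ℂ))) *
        ∏ b ∈ Finset.range p, (X - C (s28_scale ((s28ca_zeta p) ^ b) (jqModC ℂ))) := by
  rw [Fintype.prod_option]
  congr 1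
  exact Fin.prod_univ_eq_prod_range
    (fun b : ℕ => (X - C (s28_scale ((s28ca_zeta p) ^ b) (jqModC ℂ)))) p

/-- the coefficient functions are polynomials in `j`. -/
theorem s28ca_g_eq_poly (p : ℕ) [NeZero p] (hp : p.Prime) (k : ℕ) :
    ∃ P : Polynomial ℂ, ∀ τ : ℍ, s28ca_g p k τ = P.eval (jf τ) := by
  obtain ⟨M, hM⟩ := s28ca_g_bdd p k
  obtain ⟨P, -, hP⟩ := s28ca_exists_polyC (s28ca_g p k) (s28ca_g_mdiff p k)
    (s28ca_g_inv p hp k) M hM
  exact ⟨P, hP⟩

/-- **the analytic bridge (B)**. -/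
theorem s28ca_bridge (p : ℕ) [NeZero p] (hp : p.Prime) (k : ℕ) :
    ∃ P : Polynomial ℂ,
      Polynomial.eval₂ (HahnSeries.C : ℂ →+* LaurentSeries ℂ) (qExpand ℂ p (jqModC ℂ)) P =
        ((X - C (qExpand ℂ (p * p) (jqModC ℂ))) *
          ∏ b ∈ Finset.range p,
            (X - C (s28_scale ((s28ca_zeta p) ^ b) (jqModC ℂ)))).coeff k := by
  obtain ⟨P, hP⟩ := s28ca_g_eq_poly p hp k
  refine ⟨P, ?_⟩
  have h1 : s28ca_HasQExp p (s28ca_g p k)
      (P.eval₂ (HahnSeries.C : ℂ →+* LaurentSeries ℂ) (qExpand ℂ p (jqModC ℂ))) :=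
    s28ca_hasQExp_congr (s28ca_hasQExp_eval P (s28ca_hasQExp_jf_level p))
      (fun τ => (hP τ).symm)
  have h2 := s28ca_g_hasQExp p k
  rw [s28ca_prod_A] at h2
  exact s28ca_hasQExp_unique h1 h2

/-- **(CA\*)**: the modular polynomial of prime level and its factorisation over `ℤ⸨s⸩`. -/
theorem s28ca_main : s28_stmt_CAs := fun p _ hp =>
  s28ca_CAs_of_bridge p (s28ca_zeta p) (s28ca_zeta_prim p) (s28ca_bridge p hp)

end Fermat.Agent.S28
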