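import Fermat.Agent.S28.Scale
import Fermat.Prelude.Def_ModularCurve_IgusaScheme

/-!
# S28 (Igusa): interface statements of the mathematical core  (OWNER: helper9, architect)

Everything here is a `Prop`-valued definition `s28_stmt_X`; producers prove it, consumers take it
as an explicit hypothesis.  Notation: `J = jqModC A` is `j` as a Laurent series in the variable
`s` over `A`, `qExpand A m f = f(s ^ m)`, `s28_scale ξ f = f(ξ s)`, `s28_theta = s d/ds`,
`s28_Delta A = Δ`, `s28_DeltaInv A = Δ⁻¹`.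

FROZEN once announced.  Tell helper9 if something is wrong.
-/

set_option autoImplicit false

noncomputable section

namespace Fermat.Agent.S28

open HahnSeries ModularCurve Polynomial IntermediateField

/-- evaluation of integer polynomials at a Laurent series. -/
def s28_evalAt {A : Type*} [CommRing A] (x : LaurentSeries A) :
    Polynomial ℤ →+* LaurentSeries A :=
  Polynomial.eval₂RingHom (Int.castRingHom (LaurentSeries A)) x

/-- the factorisation of the modular polynomial of prime level `p` over `A`, in the variable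
`s = q ^ (1/p)`:  `Φ(j(s^p), Y) = (Y - j(s^(p^2))) * ∏_{b < p} (Y - j(ζ^b s))`. -/
def s28_FactorsAt (p : ℕ) [NeZero p] (Φ : Polynomial (Polynomial ℤ)) (A : Type) [CommRing A]
    (ζ : Aˣ) : Prop :=
  Φ.map (s28_evalAt (qExpand A p (jqModC A))) =
    (Polynomial.X - Polynomial.C (qExpand A (p * p) (jqModC A))) *
      ∏ b ∈ Finset.range p, (Polynomial.X - Polynomial.C (s28_scale (ζ ^ b) (jqModC A)))

/-- **(CA)** the modular polynomial of prime level (analytic input, over `ℂ`). -/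
def s28_stmt_CA : Prop :=
  ∀ (p : ℕ) [NeZero p], p.Prime →
    ∃ Φ : Polynomial (Polynomial ℤ), Φ.Monic ∧ Φ.natDegree = p + 1 ∧
      ∃ ζ : ℂˣ, IsPrimitiveRoot (ζ : ℂ) p ∧ s28_FactorsAt p Φ ℂ ζ

/-- **(TR)** transfer of (CA) to every field with a primitive `p`-th root of unity. -/
def s28_stmt_CAall : Prop :=
  ∀ (p : ℕ) [NeZero p], p.Prime →
    ∃ Φ : Polynomial (Polynomial ℤ), Φ.Monic ∧ Φ.natDegree = p + 1 ∧
      ∀ (A : Type) [Field A] (ζ : Aˣ), IsPrimitiveRoot (ζ : A) p → s28_FactorsAt p Φ A ζ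

/-- **(CB)** `p ^ 12 Δ(q^p) / Δ(q)` is integral over `ℤ[j]` (analytic input). -/
def s28_stmt_CB : Prop :=
  ∀ (p : ℕ) [NeZero p], p.Prime →
    ∃ U : Polynomial (Polynomial ℤ), U.Monic ∧
      (U.map (s28_evalAt (jqModC ℤ))).eval
        ((p : LaurentSeries ℤ) ^ 12 * qExpand ℤ p (s28_Delta ℤ) * s28_DeltaInv ℤ) = 0

/-- **(CG)** the theta identity `(θ j)^6 = j^4 (j - 1728)^3 Δ` (analytic input). -/
def s28_stmt_CG : Prop :=
  (s28_theta (jqModC ℤ)) ^ 6 = (jqModC ℤ) ^ 4 * (jqModC ℤ - 1728) ^ 3 * s28_Delta ℤ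

/-- `j` as an element of the function field of level `N` over `k`. -/
def s28_jC (k : Type*) [Field k] (N : ℕ) : ↥(modularFunctionFieldFullC k N) :=
  ⟨jqModC k, jqModC_mem_full k N⟩

/-- **(C0)** the degree bound in characteristic `0` (from S24 by descent `ℚ̄ → ℚ`). -/
def s28_stmt_C0 : Prop :=
  ∀ (N : ℕ) [NeZero N],
    FiniteDimensional ℚ⟮IgusaScheme.jFull N⟯ ↥(modularFunctionFieldFull N) ∧
      Module.finrank ℚ⟮IgusaScheme.jFull N⟯ ↥(modularFunctionFieldFull N) ≤ dedekindPsi N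

/-- **(TL)** the tower: the degree lower bound over the algebraic closure of `𝔽_ℓ`. -/
def s28_stmt_TL : Prop :=
  ∀ (ℓ : ℕ) [Fact ℓ.Prime] (N : ℕ) [NeZero N], ¬ ℓ ∣ N →
    dedekindPsi N ≤
      Module.finrank (AlgebraicClosure (ZMod ℓ))⟮s28_jC (AlgebraicClosure (ZMod ℓ)) N⟯
        ↥(modularFunctionFieldFullC (AlgebraicClosure (ZMod ℓ)) N)

/-- **(TD)** descent of the degree lower bound from the algebraic closure to `𝔽_ℓ`. -/
def s28_stmt_TD : Prop :=
  ∀ (ℓ : ℕ) [Fact ℓ.Prime] (N : ℕ) [NeZero N], ¬ ℓ ∣ N →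
    Module.finrank (AlgebraicClosure (ZMod ℓ))⟮s28_jC (AlgebraicClosure (ZMod ℓ)) N⟯
        ↥(modularFunctionFieldFullC (AlgebraicClosure (ZMod ℓ)) N) ≤
      Module.finrank (ZMod ℓ)⟮s28_jC (ZMod ℓ) N⟯ ↥(modularFunctionFieldFullC (ZMod ℓ) N)

/-- **(IG)** Igusa + degree bound: the only input of the valuation core (helper6). -/
def s28_stmt_IG : Prop :=
  ∀ (ℓ : ℕ) [Fact ℓ.Prime] (N : ℕ) [NeZero N], ¬ ℓ ∣ N →
    FiniteDimensional ℚ⟮IgusaScheme.jFull N⟯ ↥(modularFunctionFieldFull N) ∧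
      Module.finrank ℚ⟮IgusaScheme.jFull N⟯ ↥(modularFunctionFieldFull N) ≤
        Module.finrank (ZMod ℓ)⟮s28_jC (ZMod ℓ) N⟯ ↥(modularFunctionFieldFullC (ZMod ℓ) N)

theorem s28_IG_of (h0 : s28_stmt_C0) (hTL : s28_stmt_TL) (hTD : s28_stmt_TD) : s28_stmt_IG := by
  intro ℓ _ N _ hℓ
  exact ⟨(h0 N).1, (h0 N).2.trans ((hTL ℓ N hℓ).trans (hTD ℓ N hℓ))⟩

end Fermat.Agent.S28
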