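import Fermat.Agent.S28.CharZero
import Fermat.Agent.S28.CoreDefs

/-!
# S28 / (C0): `s28_stmt_C0`
-/

set_option autoImplicit false

namespace Fermat.Agent.S28

/-- **(C0)**. -/
theorem s28c0_main : s28_stmt_C0 := fun N _ => s28c0_finrank N

end Fermat.Agent.S28
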