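import Mathlib
import Fermat.Prelude.Def_ModularCurve_IgusaScheme

/-!
# S28 — scheme plumbing

`s28_pl_main`: if the three chart algebras of the Igusa scheme stay integral domains after
base change to `K`, the base change of the Igusa scheme to `K` is an integral scheme.
-/

set_option autoImplicit false
set_option synthInstance.maxHeartbeats 400000
set_option maxHeartbeats 1000000

open AlgebraicGeometry CategoryTheory CategoryTheory.Limits ModularCurve ModularCurve.IgusaScheme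
open TensorProduct

noncomputable section

namespace Fermat.Agent.S28

/-- a space covered by two irreducible open subsets with nonempty intersection is irreducible. -/
theorem s28_pl_irreducibleSpace_of_cover {X : Type*} [TopologicalSpace X] (U V : Set X)
    (hU : IsOpen U) (hV : IsOpen V) (hUi : IsIrreducible U) (hVi : IsIrreducible V)
    (hUV : (U ∩ V).Nonempty) (hcov : U ∪ V = Set.univ) : IrreducibleSpace X := by
  have key : ∀ u : Set X, IsOpen u → u.Nonempty → (u ∩ (U ∩ V)).Nonempty := by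
    intro u hu ⟨x, hx⟩
    have hxUV : x ∈ U ∪ V := by rw [hcov]; trivial
    rcases hxUV with hxU | hxV
    · obtain ⟨y, hyU, hyu, hyV⟩ := hUi.2 u V hu hV ⟨x, hxU, hx⟩ hUV
      exact ⟨y, hyu, hyU, hyV⟩
    · obtain ⟨y, hyV, hyu, hyU⟩ := hVi.2 u U hu hU ⟨x, hxV, hx⟩
        (by rwa [Set.inter_comm] at hUV)
      exact ⟨y, hyu, hyU, hyV⟩
  obtain ⟨x0, hx0⟩ := hUV
  haveI : Nonempty X := ⟨x0⟩
  haveI : PreirreducibleSpace X := by
    constructor
    rintro u v hu hv ⟨x, -, hx⟩ ⟨y, -, hy⟩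
    obtain ⟨a, hau, haU, -⟩ := key u hu ⟨x, hx⟩
    obtain ⟨b, hbv, hbU, -⟩ := key v hv ⟨y, hy⟩
    obtain ⟨c, -, hcu, hcv⟩ := hUi.2 u v hu hv ⟨a, haU, hau⟩ ⟨b, hbU, hbv⟩
    exact ⟨c, trivial, hcu, hcv⟩
  exact { toNonempty := inferInstance }


section main

variable (N : ℕ) [NeZero N] (ℓ : ℕ) [Fact ℓ.Prime]


/-- the three-chart open cover of the Igusa scheme. -/
abbrev s28_pl_cover : (ModularCurve.IgusaScheme N ℓ).OpenCover :=
  Scheme.IsLocallyDirected.openCover (span (fFin N ℓ) (fInf N ℓ))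

theorem s28_pl_cover_left : (s28_pl_cover N ℓ).f WalkingSpan.left = ιFin N ℓ := rfl

theorem s28_pl_cover_right : (s28_pl_cover N ℓ).f WalkingSpan.right = ιInf N ℓ := rfl

theorem s28_pl_cover_none :
    (s28_pl_cover N ℓ).f WalkingSpan.zero = fFin N ℓ ≫ ιFin N ℓ :=
  (colimit.w (span (fFin N ℓ) (fInf N ℓ)) WalkingSpan.Hom.fst).symm


variable (K : Type) [Field K] [Algebra ↥(GaloisRep.ratLocalizedAt ℓ) K]

/-- base change of an affine chart with integral tensor product. -/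
theorem s28_pl_isIntegral_base (B : Type) [CommRing B] [Algebra ↥(GaloisRep.ratLocalizedAt ℓ) B] [IsDomain (B ⊗[↥(GaloisRep.ratLocalizedAt ℓ)] K)]
    (h : Spec (CommRingCat.of B) ⟶ Spec (CommRingCat.of ↥(GaloisRep.ratLocalizedAt ℓ)))
    (e : h = Spec.map (CommRingCat.ofHom (algebraMap ↥(GaloisRep.ratLocalizedAt ℓ) B))) :
    IsIntegral ↑(pullback h (Spec.map (CommRingCat.ofHom (algebraMap ↥(GaloisRep.ratLocalizedAt ℓ) K)))) := by
  subst e
  exact IsIntegral.of_isIso (pullbackSpecIso ↥(GaloisRep.ratLocalizedAt ℓ) B K).inv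

theorem s28_pl_comp_left : (s28_pl_cover N ℓ).f WalkingSpan.left ≫ igusaTo N ℓ =
    Spec.map (CommRingCat.ofHom (algebraMap ↥(GaloisRep.ratLocalizedAt ℓ) (chartAlgFin N ℓ))) :=
  ιFin_igusaTo N ℓ

theorem s28_pl_comp_right : (s28_pl_cover N ℓ).f WalkingSpan.right ≫ igusaTo N ℓ =
    Spec.map (CommRingCat.ofHom (algebraMap ↥(GaloisRep.ratLocalizedAt ℓ) (chartAlgInf N ℓ))) :=
  ιInf_igusaTo N ℓ

theorem s28_pl_mid_comp : (fFin N ℓ ≫ ιFin N ℓ) ≫ igusaTo N ℓ =
    Spec.map (CommRingCat.ofHom (algebraMap ↥(GaloisRep.ratLocalizedAt ℓ) (chartAlgMid N ℓ))) := by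
  rw [Category.assoc, ιFin_igusaTo, ← Spec.map_comp, ← CommRingCat.ofHom_comp]
  congr 2

theorem s28_pl_comp_none : (s28_pl_cover N ℓ).f WalkingSpan.zero ≫ igusaTo N ℓ =
    Spec.map (CommRingCat.ofHom (algebraMap ↥(GaloisRep.ratLocalizedAt ℓ) (chartAlgMid N ℓ))) :=
  (congrArg (· ≫ igusaTo N ℓ) (s28_pl_cover_none N ℓ)).trans (s28_pl_mid_comp N ℓ)


/-- every chart of the base-changed cover is integral. -/
theorem s28_pl_isIntegral_chart
    (hFin : IsDomain ((chartAlgFin N ℓ) ⊗[↥(GaloisRep.ratLocalizedAt ℓ)] K))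
    (hInf : IsDomain ((chartAlgInf N ℓ) ⊗[↥(GaloisRep.ratLocalizedAt ℓ)] K))
    (hMid : IsDomain ((chartAlgMid N ℓ) ⊗[↥(GaloisRep.ratLocalizedAt ℓ)] K)) :
    ∀ i : WalkingSpan, IsIntegral ↑(pullback ((s28_pl_cover N ℓ).f i ≫ igusaTo N ℓ)
      (Spec.map (CommRingCat.ofHom (algebraMap ↥(GaloisRep.ratLocalizedAt ℓ) K))))
  | .zero => s28_pl_isIntegral_base ℓ K (chartAlgMid N ℓ) _ (s28_pl_comp_none N ℓ)
  | .left => s28_pl_isIntegral_base ℓ K (chartAlgFin N ℓ) _ (s28_pl_comp_left N ℓ)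
  | .right => s28_pl_isIntegral_base ℓ K (chartAlgInf N ℓ) _ (s28_pl_comp_right N ℓ)


/-- the range of a chart of the base-changed cover. -/
theorem s28_pl_range_chart (i : WalkingSpan) :
    Set.range ((Scheme.Pullback.openCoverOfLeft (s28_pl_cover N ℓ) (igusaTo N ℓ)
      (Spec.map (CommRingCat.ofHom (algebraMap ↥(GaloisRep.ratLocalizedAt ℓ) K)))).f i) =
    (pullback.fst (igusaTo N ℓ)
      (Spec.map (CommRingCat.ofHom (algebraMap ↥(GaloisRep.ratLocalizedAt ℓ) K)))) ⁻¹'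
        Set.range ((s28_pl_cover N ℓ).f i) := by
  refine (Scheme.Pullback.range_map
    (f := (s28_pl_cover N ℓ).f i ≫ igusaTo N ℓ)
    (g := Spec.map (CommRingCat.ofHom (algebraMap ↥(GaloisRep.ratLocalizedAt ℓ) K)))
    (igusaTo N ℓ) (Spec.map (CommRingCat.ofHom (algebraMap ↥(GaloisRep.ratLocalizedAt ℓ) K)))
    ((s28_pl_cover N ℓ).f i) (𝟙 _) (𝟙 _) (by simp) (by simp)).trans ?_
  simp

/-- **(PL)** scheme plumbing: the base change of the Igusa scheme to `K` is integral as soon as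
the three chart algebras stay integral domains after base change. -/
theorem s28_pl_main
    (hFin : IsDomain ((chartAlgFin N ℓ) ⊗[↥(GaloisRep.ratLocalizedAt ℓ)] K))
    (hInf : IsDomain ((chartAlgInf N ℓ) ⊗[↥(GaloisRep.ratLocalizedAt ℓ)] K))
    (hMid : IsDomain ((chartAlgMid N ℓ) ⊗[↥(GaloisRep.ratLocalizedAt ℓ)] K)) :
    IsIntegral ↑(pullback (igusaTo N ℓ)
      (Spec.map (CommRingCat.ofHom (algebraMap ↥(GaloisRep.ratLocalizedAt ℓ) K)))) := by
  have hint := s28_pl_isIntegral_chart N ℓ K hFin hInf hMid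
  have hrange := s28_pl_range_chart N ℓ K
  set g := Spec.map (CommRingCat.ofHom (algebraMap ↥(GaloisRep.ratLocalizedAt ℓ) K)) with hg
  set 𝒱 := Scheme.Pullback.openCoverOfLeft (s28_pl_cover N ℓ) (igusaTo N ℓ) g with h𝒱
  haveI hred : ∀ i, IsReduced (𝒱.X i) := fun i => by
    haveI : IsIntegral (𝒱.X i) := hint i
    infer_instance
  haveI : IsReduced ↑(pullback (igusaTo N ℓ) g) := IsReduced.of_openCover _ 𝒱
  have hirr : ∀ i : WalkingSpan, IsIrreducible (Set.range (𝒱.f i)) := fun i => by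
    haveI : IsIntegral (𝒱.X i) := hint i
    rw [← Set.image_univ]
    exact (IrreducibleSpace.isIrreducible_univ _).image _ (𝒱.f i).continuous.continuousOn
  have hopen : ∀ i : WalkingSpan, IsOpen (Set.range (𝒱.f i)) := fun i =>
    (𝒱.f i).isOpenEmbedding.isOpen_range
  haveI : IrreducibleSpace ↑(pullback (igusaTo N ℓ) g) := by
    refine s28_pl_irreducibleSpace_of_cover (Set.range (𝒱.f WalkingSpan.left))
      (Set.range (𝒱.f WalkingSpan.right)) (hopen _) (hopen _) (hirr _) (hirr _) ?_ ?_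
    · -- nonempty intersection
      obtain ⟨x, hx⟩ := (hirr WalkingSpan.zero).nonempty
      refine ⟨x, ?_, ?_⟩
      · rw [hrange] at hx ⊢
        obtain ⟨y, hy⟩ := hx
        rw [Set.mem_preimage, ← hy]
        have : (s28_pl_cover N ℓ).f WalkingSpan.zero = fFin N ℓ ≫ ιFin N ℓ :=
          s28_pl_cover_none N ℓ
        exact ⟨(fFin N ℓ).base y, by rw [this]; rfl⟩
      · rw [hrange] at hx ⊢
        obtain ⟨y, hy⟩ := hx
        rw [Set.mem_preimage, ← hy]
        have : (s28_pl_cover N ℓ).f WalkingSpan.zero = fInf N ℓ ≫ ιInf N ℓ :=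
          (s28_pl_cover_none N ℓ).trans (glue_condition N ℓ)
        exact ⟨(fInf N ℓ).base y, by rw [this]; rfl⟩
    · -- cover
      ext x
      simp only [Set.mem_union, Set.mem_univ, iff_true]
      rw [hrange, hrange]
      exact mem_range_ιFin_or_mem_range_ιInf N ℓ _
  exact isIntegral_of_irreducibleSpace_of_isReduced _


/-- the middle chart of the base-changed cover is reduced as soon as the finite chart is
integral (it is an open subscheme of it). -/
theorem s28_pl_isReduced_zero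
    (hFin : IsDomain ((chartAlgFin N ℓ) ⊗[↥(GaloisRep.ratLocalizedAt ℓ)] K)) :
    IsReduced ↑(pullback ((s28_pl_cover N ℓ).f WalkingSpan.zero ≫ igusaTo N ℓ)
      (Spec.map (CommRingCat.ofHom (algebraMap ↥(GaloisRep.ratLocalizedAt ℓ) K)))) := by
  haveI : IsIntegral ↑(pullback ((s28_pl_cover N ℓ).f WalkingSpan.left ≫ igusaTo N ℓ)
      (Spec.map (CommRingCat.ofHom (algebraMap ↥(GaloisRep.ratLocalizedAt ℓ) K)))) :=
    s28_pl_isIntegral_base ℓ K (chartAlgFin N ℓ) _ (s28_pl_comp_left N ℓ)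
  have e : ((s28_pl_cover N ℓ).f WalkingSpan.zero ≫ igusaTo N ℓ) ≫ 𝟙 _ =
      fFin N ℓ ≫ ((s28_pl_cover N ℓ).f WalkingSpan.left ≫ igusaTo N ℓ) :=
    (Category.comp_id _).trans
      ((congrArg (· ≫ igusaTo N ℓ) (s28_pl_cover_none N ℓ)).trans (Category.assoc _ _ _))
  have e₂ : Spec.map (CommRingCat.ofHom (algebraMap ↥(GaloisRep.ratLocalizedAt ℓ) K)) ≫ 𝟙 _ =
      𝟙 _ ≫ Spec.map (CommRingCat.ofHom (algebraMap ↥(GaloisRep.ratLocalizedAt ℓ) K)) := by
    simp
  haveI hoi : IsOpenImmersion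
      (pullback.map _ (Spec.map (CommRingCat.ofHom (algebraMap ↥(GaloisRep.ratLocalizedAt ℓ) K)))
        _ (Spec.map (CommRingCat.ofHom (algebraMap ↥(GaloisRep.ratLocalizedAt ℓ) K)))
        (fFin N ℓ) (𝟙 _) (𝟙 _) e e₂) :=
    @Scheme.pullback_map_isOpenImmersion _ _ _ _ _ _ _ _ _ _ (fFin N ℓ) (𝟙 _) (𝟙 _) e e₂
      (isOpenImmersion_fFin N ℓ) inferInstance inferInstance
  exact @isReduced_of_isOpenImmersion _ _ _ hoi (@isReduced_of_isIntegral _ this)

/-- the middle chart of the base-changed cover is nonempty as soon as the tensor product is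
nontrivial. -/
theorem s28_pl_nonempty_zero
    (hMid : Nontrivial ((chartAlgMid N ℓ) ⊗[↥(GaloisRep.ratLocalizedAt ℓ)] K)) :
    Nonempty ↑(pullback ((s28_pl_cover N ℓ).f WalkingSpan.zero ≫ igusaTo N ℓ)
      (Spec.map (CommRingCat.ofHom (algebraMap ↥(GaloisRep.ratLocalizedAt ℓ) K)))) := by
  rw [s28_pl_comp_none]
  obtain ⟨x⟩ : Nonempty (PrimeSpectrum ((chartAlgMid N ℓ) ⊗[↥(GaloisRep.ratLocalizedAt ℓ)] K)) :=
    inferInstance
  exact ⟨(pullbackSpecIso ↥(GaloisRep.ratLocalizedAt ℓ) (chartAlgMid N ℓ) K).inv.base x⟩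

/-- **(PL′)** scheme plumbing, weak form: the base change of the Igusa scheme to `K` is integral
as soon as the two big chart algebras stay integral domains after base change and the middle
one stays nontrivial. -/
theorem s28_pl_main_weak
    (hFin : IsDomain ((chartAlgFin N ℓ) ⊗[↥(GaloisRep.ratLocalizedAt ℓ)] K))
    (hInf : IsDomain ((chartAlgInf N ℓ) ⊗[↥(GaloisRep.ratLocalizedAt ℓ)] K))
    (hMid : Nontrivial ((chartAlgMid N ℓ) ⊗[↥(GaloisRep.ratLocalizedAt ℓ)] K)) :
    IsIntegral ↑(pullback (igusaTo N ℓ)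
      (Spec.map (CommRingCat.ofHom (algebraMap ↥(GaloisRep.ratLocalizedAt ℓ) K)))) := by
  have hintL : IsIntegral ↑(pullback ((s28_pl_cover N ℓ).f WalkingSpan.left ≫ igusaTo N ℓ)
      (Spec.map (CommRingCat.ofHom (algebraMap ↥(GaloisRep.ratLocalizedAt ℓ) K)))) :=
    s28_pl_isIntegral_base ℓ K (chartAlgFin N ℓ) _ (s28_pl_comp_left N ℓ)
  have hintR : IsIntegral ↑(pullback ((s28_pl_cover N ℓ).f WalkingSpan.right ≫ igusaTo N ℓ)
      (Spec.map (CommRingCat.ofHom (algebraMap ↥(GaloisRep.ratLocalizedAt ℓ) K)))) :=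
    s28_pl_isIntegral_base ℓ K (chartAlgInf N ℓ) _ (s28_pl_comp_right N ℓ)
  have hredZ := s28_pl_isReduced_zero N ℓ K hFin
  have hneZ := s28_pl_nonempty_zero N ℓ K hMid
  have hrange := s28_pl_range_chart N ℓ K
  set g := Spec.map (CommRingCat.ofHom (algebraMap ↥(GaloisRep.ratLocalizedAt ℓ) K)) with hg
  set 𝒱 := Scheme.Pullback.openCoverOfLeft (s28_pl_cover N ℓ) (igusaTo N ℓ) g with h𝒱
  haveI hred : ∀ i, IsReduced (𝒱.X i) := fun i => by
    match i with
    | .zero => exact hredZ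
    | .left => haveI : IsIntegral (𝒱.X WalkingSpan.left) := hintL; infer_instance
    | .right => haveI : IsIntegral (𝒱.X WalkingSpan.right) := hintR; infer_instance
  haveI : IsReduced ↑(pullback (igusaTo N ℓ) g) := IsReduced.of_openCover _ 𝒱
  have hirrL : IsIrreducible (Set.range (𝒱.f WalkingSpan.left)) := by
    haveI : IsIntegral (𝒱.X WalkingSpan.left) := hintL
    rw [← Set.image_univ]
    exact (IrreducibleSpace.isIrreducible_univ _).image _
      (𝒱.f WalkingSpan.left).continuous.continuousOn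
  have hirrR : IsIrreducible (Set.range (𝒱.f WalkingSpan.right)) := by
    haveI : IsIntegral (𝒱.X WalkingSpan.right) := hintR
    rw [← Set.image_univ]
    exact (IrreducibleSpace.isIrreducible_univ _).image _
      (𝒱.f WalkingSpan.right).continuous.continuousOn
  have hopen : ∀ i : WalkingSpan, IsOpen (Set.range (𝒱.f i)) := fun i =>
    (𝒱.f i).isOpenEmbedding.isOpen_range
  haveI : IrreducibleSpace ↑(pullback (igusaTo N ℓ) g) := by
    refine s28_pl_irreducibleSpace_of_cover (Set.range (𝒱.f WalkingSpan.left))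
      (Set.range (𝒱.f WalkingSpan.right)) (hopen _) (hopen _) hirrL hirrR ?_ ?_
    · -- nonempty intersection
      obtain ⟨z⟩ := hneZ
      have hx : (𝒱.f WalkingSpan.zero).base z ∈ Set.range (𝒱.f WalkingSpan.zero) := ⟨z, rfl⟩
      refine ⟨(𝒱.f WalkingSpan.zero).base z, ?_, ?_⟩
      · rw [hrange] at hx ⊢
        obtain ⟨y, hy⟩ := hx
        rw [Set.mem_preimage, ← hy]
        have : (s28_pl_cover N ℓ).f WalkingSpan.zero = fFin N ℓ ≫ ιFin N ℓ :=
          s28_pl_cover_none N ℓ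
        exact ⟨(fFin N ℓ).base y, by rw [this]; rfl⟩
      · rw [hrange] at hx ⊢
        obtain ⟨y, hy⟩ := hx
        rw [Set.mem_preimage, ← hy]
        have : (s28_pl_cover N ℓ).f WalkingSpan.zero = fInf N ℓ ≫ ιInf N ℓ :=
          (s28_pl_cover_none N ℓ).trans (glue_condition N ℓ)
        exact ⟨(fInf N ℓ).base y, by rw [this]; rfl⟩
    · -- cover
      ext x
      simp only [Set.mem_union, Set.mem_univ, iff_true]
      rw [hrange, hrange]
      exact mem_range_ιFin_or_mem_range_ιInf N ℓ _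
  exact isIntegral_of_irreducibleSpace_of_isReduced _

end main

end Fermat.Agent.S28
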