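import Mathlib
import Fermat.Prelude.Def_ModularCurve_IgusaScheme

/-!
# S28 helper: basic facts on `GaloisRep.ratLocalizedAt ℓ`

Elementary facts about the subring `ℤ_(ℓ)` of `ℚ`: every element is a unit or divisible by `ℓ`,
and the kernel of any ring hom to a field of characteristic `ℓ` is `ℓ ℤ_(ℓ)`.
-/

set_option autoImplicit false

noncomputable section

namespace S28P

variable (ℓ : ℕ)

theorem s28p_mem_iff (q : ℚ) : q ∈ GaloisRep.ratLocalizedAt ℓ ↔ q.den.Coprime ℓ := Iff.rfl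

theorem s28p_natCast_mem (n : ℕ) : (n : ℚ) ∈ GaloisRep.ratLocalizedAt ℓ :=
  natCast_mem _ n

variable [Fact ℓ.Prime]

/-- An element of `ℤ_(ℓ)` whose numerator is prime to `ℓ` is a unit. -/
theorem s28p_isUnit_of_not_dvd_num (x : GaloisRep.ratLocalizedAt ℓ)
    (h : ¬ (ℓ : ℤ) ∣ (x : ℚ).num) : IsUnit x := by
  have hp : ℓ.Prime := Fact.out
  have hx0 : (x : ℚ) ≠ 0 := by
    intro h0
    apply h
    rw [h0]
    simp
  have hinv : (x : ℚ)⁻¹ ∈ GaloisRep.ratLocalizedAt ℓ := by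
    rw [s28p_mem_iff, Rat.inv_def]
    have hnum : ((x : ℚ).num.natAbs).Coprime ℓ := by
      rw [Nat.coprime_comm, hp.coprime_iff_not_dvd]
      intro hd
      exact h (Int.natCast_dvd.mpr hd)
    have hden : ((x : ℚ).den : ℤ) ≠ 0 := by exact_mod_cast (x : ℚ).den_nz
    have hdvd : (Rat.divInt ((x : ℚ).den : ℤ) (x : ℚ).num).den ∣ (x : ℚ).num.natAbs := by
      have := Rat.den_dvd ((x : ℚ).den : ℤ) (x : ℚ).num
      exact Int.natCast_dvd.mp this
    exact Nat.Coprime.coprime_dvd_left hdvd hnum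
  refine IsUnit.of_mul_eq_one ⟨(x : ℚ)⁻¹, hinv⟩ (Subtype.ext ?_)
  simp [hx0]

/-- Every element of `ℤ_(ℓ)` is a unit or a multiple of `ℓ`. -/
theorem s28p_isUnit_or_dvd (x : GaloisRep.ratLocalizedAt ℓ) :
    IsUnit x ∨ ∃ y : GaloisRep.ratLocalizedAt ℓ, x = (ℓ : GaloisRep.ratLocalizedAt ℓ) * y := by
  have hp : ℓ.Prime := Fact.out
  by_cases h : (ℓ : ℤ) ∣ (x : ℚ).num
  · right
    obtain ⟨m, hm⟩ := h
    have hmem : ((m : ℚ) / ((x : ℚ).den : ℚ)) ∈ GaloisRep.ratLocalizedAt ℓ := by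
      rw [s28p_mem_iff]
      have hx : (x : ℚ).den.Coprime ℓ := x.2
      have hdvd : ((m : ℚ) / ((x : ℚ).den : ℚ)).den ∣ (x : ℚ).den := by
        have h1 : ((m : ℚ) / ((x : ℚ).den : ℚ)) = Rat.divInt m ((x : ℚ).den : ℤ) := by
          rw [Rat.divInt_eq_div]; push_cast; rfl
        rw [h1]
        have := Rat.den_dvd m ((x : ℚ).den : ℤ)
        exact Int.natCast_dvd_natCast.mp this
      exact Nat.Coprime.coprime_dvd_left hdvd hx
    refine ⟨⟨_, hmem⟩, Subtype.ext ?_⟩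
    have hx : (x : ℚ) = ((x : ℚ).num : ℚ) / ((x : ℚ).den : ℚ) := (Rat.num_div_den _).symm
    show (x : ℚ) = ((ℓ : GaloisRep.ratLocalizedAt ℓ) : ℚ) * ((m : ℚ) / ((x : ℚ).den : ℚ))
    have hcast : (((ℓ : GaloisRep.ratLocalizedAt ℓ)) : ℚ) = (ℓ : ℚ) := by push_cast; rfl
    rw [hcast]
    calc (x : ℚ) = ((x : ℚ).num : ℚ) / ((x : ℚ).den : ℚ) := hx
      _ = (((ℓ : ℤ) * m : ℤ) : ℚ) / ((x : ℚ).den : ℚ) := by rw [← hm]
      _ = (ℓ : ℚ) * ((m : ℚ) / ((x : ℚ).den : ℚ)) := by push_cast; ring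
  · exact Or.inl (s28p_isUnit_of_not_dvd_num ℓ x h)

/-- The denominator of an element of `ℤ_(ℓ)` is a unit of `ℤ_(ℓ)`. -/
theorem s28p_isUnit_den (x : GaloisRep.ratLocalizedAt ℓ) :
    IsUnit (((x : ℚ).den : ℕ) : GaloisRep.ratLocalizedAt ℓ) := by
  have hp : ℓ.Prime := Fact.out
  apply s28p_isUnit_of_not_dvd_num
  have hx : (x : ℚ).den.Coprime ℓ := x.2
  have hcast : (((((x : ℚ).den : ℕ) : GaloisRep.ratLocalizedAt ℓ)) : ℚ) = ((x : ℚ).den : ℚ) := by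
    push_cast; rfl
  rw [hcast, Rat.num_natCast]
  intro hd
  have h1 : ℓ ∣ (x : ℚ).den := Int.natCast_dvd_natCast.mp hd
  have h2 := (Nat.coprime_comm.mp hx)
  rw [hp.coprime_iff_not_dvd] at h2
  exact h2 h1

theorem s28p_den_mul (x : GaloisRep.ratLocalizedAt ℓ) :
    (((x : ℚ).den : ℕ) : GaloisRep.ratLocalizedAt ℓ) * x =
      (((x : ℚ).num : ℤ) : GaloisRep.ratLocalizedAt ℓ) := by
  apply Subtype.ext
  push_cast
  show ((x : ℚ).den : ℚ) * (x : ℚ) = ((x : ℚ).num : ℚ)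
  exact Rat.den_mul_eq_num _

/-- Ring homomorphisms out of `ℤ_(ℓ)` are unique. -/
theorem s28p_ringHom_ext {R : Type*} [Semiring R] (f g : GaloisRep.ratLocalizedAt ℓ →+* R) :
    f = g := by
  ext x
  have hu := (s28p_isUnit_den ℓ x).map f
  have h1 : f (((x : ℚ).den : ℕ) : GaloisRep.ratLocalizedAt ℓ) * f x =
      f (((x : ℚ).den : ℕ) : GaloisRep.ratLocalizedAt ℓ) * g x := by
    have hg : f (((x : ℚ).den : ℕ) : GaloisRep.ratLocalizedAt ℓ) =
        g (((x : ℚ).den : ℕ) : GaloisRep.ratLocalizedAt ℓ) := by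
      rw [map_natCast, map_natCast]
    rw [← map_mul, hg, ← map_mul, s28p_den_mul]
    exact (RingHom.ext_int (f.comp (Int.castRingHom _)) (g.comp (Int.castRingHom _)) ▸ rfl :
      (f.comp (Int.castRingHom _)) ((x : ℚ).num) = (g.comp (Int.castRingHom _)) ((x : ℚ).num))
  exact hu.mul_left_cancel h1


variable {ℓ}

omit [Fact ℓ.Prime] in
/-- In a field of characteristic `ℓ` which is a `ℤ_(ℓ)`-algebra, `ℓ` maps to zero. -/
theorem s28p_algebraMap_prime (K : Type*) [Field K] [CharP K ℓ]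
    [Algebra (GaloisRep.ratLocalizedAt ℓ) K] :
    algebraMap (GaloisRep.ratLocalizedAt ℓ) K (ℓ : GaloisRep.ratLocalizedAt ℓ) = 0 := by
  rw [map_natCast]
  exact CharP.cast_eq_zero K ℓ

/-- The kernel of `ℤ_(ℓ) → K` is `ℓ ℤ_(ℓ)`. -/
theorem s28p_dvd_of_algebraMap_eq_zero (K : Type*) [Field K] [CharP K ℓ]
    [Algebra (GaloisRep.ratLocalizedAt ℓ) K] (x : GaloisRep.ratLocalizedAt ℓ)
    (hx : algebraMap (GaloisRep.ratLocalizedAt ℓ) K x = 0) :
    ∃ y : GaloisRep.ratLocalizedAt ℓ, x = (ℓ : GaloisRep.ratLocalizedAt ℓ) * y := by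
  rcases s28p_isUnit_or_dvd ℓ x with hu | hd
  · exact absurd hx (hu.map (algebraMap (GaloisRep.ratLocalizedAt ℓ) K)).ne_zero
  · exact hd

theorem s28p_isUnit_of_algebraMap_ne_zero (K : Type*) [Field K] [CharP K ℓ]
    [Algebra (GaloisRep.ratLocalizedAt ℓ) K] (x : GaloisRep.ratLocalizedAt ℓ)
    (hx : algebraMap (GaloisRep.ratLocalizedAt ℓ) K x ≠ 0) : IsUnit x := by
  rcases s28p_isUnit_or_dvd ℓ x with hu | ⟨y, rfl⟩
  · exact hu
  · exfalso
    apply hx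
    rw [map_mul, s28p_algebraMap_prime, zero_mul]

end S28P

end
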