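import Mathlib
import Fermat.Prelude.Def_ModularCurve_IgusaScheme
import Fermat.Prelude.Def_ModularCurve_LaurentCoeff
import Fermat.Agent.S28.Base

/-!
# S28 helper: abstract criterion for `B ⊗ K` to be a domain

Let `B` be a commutative `ℤ_(ℓ)`-algebra and `K` a field of characteristic `ℓ`.  If there is a ring
homomorphism `ρ : B → K((q))` which is the identity on constants, whose coefficients lie in the
prime field, and whose kernel is `ℓ B`, then `B ⊗[ℤ_(ℓ)] K` embeds in `K((q))`; in particular it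
is a domain.
-/

set_option autoImplicit false

noncomputable section

open TensorProduct

namespace S28P

variable (ℓ : ℕ) [Fact ℓ.Prime]
variable {B : Type} [CommRing B] [Algebra (GaloisRep.ratLocalizedAt ℓ) B]
variable (K : Type) [Field K] [CharP K ℓ] [Algebra (GaloisRep.ratLocalizedAt ℓ) K]

/-- The hypotheses on a reduction homomorphism `ρ : B → K((q))`. -/
structure s28p_IsReduction (ρ : B →+* LaurentSeries K) : Prop where
  map_algebraMap : ∀ a : GaloisRep.ratLocalizedAt ℓ,
    ρ (algebraMap (GaloisRep.ratLocalizedAt ℓ) B a) =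
      HahnSeries.C (algebraMap (GaloisRep.ratLocalizedAt ℓ) K a)
  coeff_mem : ∀ (b : B) (m : ℤ), ∃ a : GaloisRep.ratLocalizedAt ℓ,
    (ρ b).coeff m = algebraMap (GaloisRep.ratLocalizedAt ℓ) K a
  ker : ∀ b : B, ρ b = 0 → ∃ y : B, b = (ℓ : GaloisRep.ratLocalizedAt ℓ) • y

variable {ℓ K}

omit [Fact ℓ.Prime] [CharP K ℓ] in
theorem s28p_IsReduction.coeff_smul {ρ : B →+* LaurentSeries K} (hρ : s28p_IsReduction ℓ K ρ)
    (a : GaloisRep.ratLocalizedAt ℓ) (b : B) (m : ℤ) :
    (ρ (a • b)).coeff m = algebraMap (GaloisRep.ratLocalizedAt ℓ) K a * (ρ b).coeff m := by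
  rw [Algebra.smul_def, map_mul, hρ.map_algebraMap, HahnSeries.C_mul_eq_smul,
    HahnSeries.coeff_smul, smul_eq_mul]

omit [Fact ℓ.Prime] in
theorem s28p_IsReduction.tmul_eq_zero {ρ : B →+* LaurentSeries K} (hρ : s28p_IsReduction ℓ K ρ)
    (b : B) (k : K) (h : ρ b = 0) : b ⊗ₜ[GaloisRep.ratLocalizedAt ℓ] k = 0 := by
  obtain ⟨y, rfl⟩ := hρ.ker b h
  rw [TensorProduct.smul_tmul, Algebra.smul_def, s28p_algebraMap_prime, zero_mul,
    TensorProduct.tmul_zero]

theorem s28p_IsReduction.key {ρ : B →+* LaurentSeries K} (hρ : s28p_IsReduction ℓ K ρ) :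
    ∀ (n : ℕ) (b : Fin n → B) (k : Fin n → K),
      (∀ m : ℤ, ∑ i, (ρ (b i)).coeff m * k i = 0) →
        ∑ i, (b i) ⊗ₜ[GaloisRep.ratLocalizedAt ℓ] (k i) = 0 := by
  intro n
  induction n with
  | zero => intro b k _; simp
  | succ n ih =>
    intro b k hsum
    by_cases hind : ∀ a : Fin (n + 1) → GaloisRep.ratLocalizedAt ℓ,
        (∑ i, algebraMap (GaloisRep.ratLocalizedAt ℓ) K (a i) * k i = 0) →
          ∀ i, algebraMap (GaloisRep.ratLocalizedAt ℓ) K (a i) = 0
    · -- independent case: every `ρ (b i)` vanishes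
      refine Finset.sum_eq_zero fun i _ => ?_
      refine hρ.tmul_eq_zero (b i) (k i) ?_
      ext m
      rw [HahnSeries.coeff_zero]
      choose a ha using fun i => hρ.coeff_mem (b i) m
      have h0 := hsum m
      simp only [ha] at h0
      rw [ha i]
      exact hind a h0 i
    · -- dependent case: eliminate one index
      push Not at hind
      obtain ⟨a, ha, j, hj⟩ := hind
      have hu : IsUnit (a j) := s28p_isUnit_of_algebraMap_ne_zero K _ hj
      obtain ⟨u, hu⟩ := hu
      set c : Fin n → GaloisRep.ratLocalizedAt ℓ :=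
        fun i => ((u⁻¹ : (GaloisRep.ratLocalizedAt ℓ)ˣ) : GaloisRep.ratLocalizedAt ℓ) *
          a (j.succAbove i) with hc
      have hkj : k j = - ∑ i, algebraMap (GaloisRep.ratLocalizedAt ℓ) K (c i) * k (j.succAbove i) := by
        rw [Fin.sum_univ_succAbove _ j] at ha
        have h1 : algebraMap (GaloisRep.ratLocalizedAt ℓ) K (a j) * k j =
            - ∑ i, algebraMap (GaloisRep.ratLocalizedAt ℓ) K (a (j.succAbove i)) *
              k (j.succAbove i) := eq_neg_of_add_eq_zero_left ha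
        have h2 : algebraMap (GaloisRep.ratLocalizedAt ℓ) K
            ((u⁻¹ : (GaloisRep.ratLocalizedAt ℓ)ˣ) : GaloisRep.ratLocalizedAt ℓ) *
            algebraMap (GaloisRep.ratLocalizedAt ℓ) K (a j) = 1 := by
          rw [← map_mul, ← hu, Units.inv_mul, map_one]
        calc k j = (algebraMap (GaloisRep.ratLocalizedAt ℓ) K
              ((u⁻¹ : (GaloisRep.ratLocalizedAt ℓ)ˣ) : GaloisRep.ratLocalizedAt ℓ) *
              algebraMap (GaloisRep.ratLocalizedAt ℓ) K (a j)) * k j := by rw [h2, one_mul]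
          _ = algebraMap (GaloisRep.ratLocalizedAt ℓ) K
              ((u⁻¹ : (GaloisRep.ratLocalizedAt ℓ)ˣ) : GaloisRep.ratLocalizedAt ℓ) *
              (algebraMap (GaloisRep.ratLocalizedAt ℓ) K (a j) * k j) := by ring
          _ = _ := by
            rw [h1, mul_neg, Finset.mul_sum]
            congr 1
            refine Finset.sum_congr rfl fun i _ => ?_
            rw [hc, map_mul]
            ring
      set b' : Fin n → B := fun i => b (j.succAbove i) - c i • b j with hb'
      set k' : Fin n → K := fun i => k (j.succAbove i) with hk'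
      have hS : (b j) ⊗ₜ[GaloisRep.ratLocalizedAt ℓ] (k j) =
          - ∑ i, (c i • b j) ⊗ₜ[GaloisRep.ratLocalizedAt ℓ] (k' i) := by
        rw [hkj, TensorProduct.tmul_neg, TensorProduct.tmul_sum]
        congr 1
        refine Finset.sum_congr rfl fun i _ => ?_
        rw [← Algebra.smul_def, TensorProduct.tmul_smul, TensorProduct.smul_tmul']
      have hT : ∑ i, (b (j.succAbove i)) ⊗ₜ[GaloisRep.ratLocalizedAt ℓ] (k' i) =
          ∑ i, (b' i) ⊗ₜ[GaloisRep.ratLocalizedAt ℓ] (k' i) +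
            ∑ i, (c i • b j) ⊗ₜ[GaloisRep.ratLocalizedAt ℓ] (k' i) := by
        rw [← Finset.sum_add_distrib]
        refine Finset.sum_congr rfl fun i _ => ?_
        rw [← TensorProduct.add_tmul, hb']
        simp only [sub_add_cancel]
      have hrep : ∑ i, (b i) ⊗ₜ[GaloisRep.ratLocalizedAt ℓ] (k i) =
          ∑ i, (b' i) ⊗ₜ[GaloisRep.ratLocalizedAt ℓ] (k' i) := by
        rw [Fin.sum_univ_succAbove _ j, hS]
        show _ + ∑ i, (b (j.succAbove i)) ⊗ₜ[GaloisRep.ratLocalizedAt ℓ] (k' i) = _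
        rw [hT]
        abel
      rw [hrep]
      apply ih
      intro m
      have hm := hsum m
      rw [Fin.sum_univ_succAbove _ j, hkj] at hm
      have e1 : ∑ i, (ρ (b' i)).coeff m * k' i =
          ∑ i, (ρ (b (j.succAbove i))).coeff m * k (j.succAbove i) -
            (ρ (b j)).coeff m *
              ∑ i, algebraMap (GaloisRep.ratLocalizedAt ℓ) K (c i) * k (j.succAbove i) := by
        rw [Finset.mul_sum, ← Finset.sum_sub_distrib]
        refine Finset.sum_congr rfl fun i _ => ?_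
        rw [hb', hk']
        simp only
        rw [map_sub, HahnSeries.coeff_sub, hρ.coeff_smul]
        ring
      rw [e1, ← hm]
      ring

omit [Fact ℓ.Prime] [CharP K ℓ] in
theorem s28p_algebraMap_laurent (a : GaloisRep.ratLocalizedAt ℓ) :
    algebraMap (GaloisRep.ratLocalizedAt ℓ) (LaurentSeries K) a =
      HahnSeries.C (algebraMap (GaloisRep.ratLocalizedAt ℓ) K a) := by
  rw [HahnSeries.algebraMap_apply', PowerSeries.algebraMap_apply, HahnSeries.ofPowerSeries_C]

omit [Fact ℓ.Prime] [CharP K ℓ] in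
/-- Every tensor is a finite sum of pure tensors indexed by `Fin n`. -/
theorem s28p_exists_fin_rep (z : B ⊗[GaloisRep.ratLocalizedAt ℓ] K) :
    ∃ (n : ℕ) (b : Fin n → B) (k : Fin n → K),
      z = ∑ i, (b i) ⊗ₜ[GaloisRep.ratLocalizedAt ℓ] (k i) := by
  induction z using TensorProduct.induction_on with
  | zero => exact ⟨0, Fin.elim0, Fin.elim0, by simp⟩
  | tmul b k => exact ⟨1, fun _ => b, fun _ => k, by simp⟩
  | add x y hx hy =>
    obtain ⟨n₁, b₁, k₁, rfl⟩ := hx
    obtain ⟨n₂, b₂, k₂, rfl⟩ := hy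
    refine ⟨n₁ + n₂, Fin.append b₁ b₂, Fin.append k₁ k₂, ?_⟩
    rw [Fin.sum_univ_add]
    simp only [Fin.append_left, Fin.append_right]

/-- The induced ring homomorphism `B ⊗ K → K((q))`. -/
def s28p_IsReduction.tensorHom {ρ : B →+* LaurentSeries K} (hρ : s28p_IsReduction ℓ K ρ) :
    B ⊗[GaloisRep.ratLocalizedAt ℓ] K →ₐ[GaloisRep.ratLocalizedAt ℓ] LaurentSeries K :=
  Algebra.TensorProduct.productMap
    ({ ρ with
        commutes' := fun a => by
          show ρ (algebraMap (GaloisRep.ratLocalizedAt ℓ) B a) = _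
          rw [hρ.map_algebraMap, s28p_algebraMap_laurent] } :
      B →ₐ[GaloisRep.ratLocalizedAt ℓ] LaurentSeries K)
    ({ (HahnSeries.C : K →+* LaurentSeries K) with
        commutes' := fun a => by
          show HahnSeries.C (algebraMap (GaloisRep.ratLocalizedAt ℓ) K a) = _
          rw [s28p_algebraMap_laurent] } :
      K →ₐ[GaloisRep.ratLocalizedAt ℓ] LaurentSeries K)

omit [Fact ℓ.Prime] [CharP K ℓ] in
theorem s28p_IsReduction.tensorHom_tmul {ρ : B →+* LaurentSeries K} (hρ : s28p_IsReduction ℓ K ρ)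
    (b : B) (k : K) :
    hρ.tensorHom (b ⊗ₜ[GaloisRep.ratLocalizedAt ℓ] k) = ρ b * HahnSeries.C k :=
  Algebra.TensorProduct.productMap_apply_tmul _ _ b k

theorem s28p_IsReduction.tensorHom_injective {ρ : B →+* LaurentSeries K}
    (hρ : s28p_IsReduction ℓ K ρ) : Function.Injective hρ.tensorHom := by
  rw [injective_iff_map_eq_zero]
  intro z hz
  obtain ⟨n, b, k, rfl⟩ := s28p_exists_fin_rep z
  apply hρ.key n b k
  intro m
  have := congrArg (fun y : LaurentSeries K => y.coeff m) hz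
  simp only [map_sum, HahnSeries.coeff_zero] at this
  rw [← this, HahnSeries.coeff_sum]
  refine Finset.sum_congr rfl fun i _ => ?_
  rw [hρ.tensorHom_tmul, mul_comm (ρ (b i)), HahnSeries.C_mul_eq_smul, HahnSeries.coeff_smul,
    smul_eq_mul, mul_comm]

/-- **Abstract criterion**: `B ⊗[ℤ_(ℓ)] K` is a domain. -/
theorem s28p_IsReduction.isDomain_tensor {ρ : B →+* LaurentSeries K}
    (hρ : s28p_IsReduction ℓ K ρ) : IsDomain (B ⊗[GaloisRep.ratLocalizedAt ℓ] K) :=
  Function.Injective.isDomain hρ.tensorHom.toRingHom hρ.tensorHom_injective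

/-- The same with the tensor factors in the other order. -/
theorem s28p_IsReduction.isDomain_tensor' {ρ : B →+* LaurentSeries K}
    (hρ : s28p_IsReduction ℓ K ρ) : IsDomain (K ⊗[GaloisRep.ratLocalizedAt ℓ] B) :=
  haveI := hρ.isDomain_tensor
  (Algebra.TensorProduct.comm (GaloisRep.ratLocalizedAt ℓ) K B).toRingEquiv.toMulEquiv.isDomain

/-! ### Convenient constructors -/

omit [CharP K ℓ] in
/-- Compatibility with constants is automatic. -/
theorem s28p_map_algebraMap_auto (ρ : B →+* LaurentSeries K) (a : GaloisRep.ratLocalizedAt ℓ) :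
    ρ (algebraMap (GaloisRep.ratLocalizedAt ℓ) B a) =
      HahnSeries.C (algebraMap (GaloisRep.ratLocalizedAt ℓ) K a) := by
  have h := s28p_ringHom_ext ℓ (ρ.comp (algebraMap (GaloisRep.ratLocalizedAt ℓ) B))
    ((HahnSeries.C : K →+* LaurentSeries K).comp (algebraMap (GaloisRep.ratLocalizedAt ℓ) K))
  exact congrArg (fun f : GaloisRep.ratLocalizedAt ℓ →+* LaurentSeries K => f a) h

omit [CharP K ℓ] in
theorem s28p_IsReduction.mk' (ρ : B →+* LaurentSeries K)
    (hcoeff : ∀ (b : B) (m : ℤ), ∃ a : GaloisRep.ratLocalizedAt ℓ,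
      (ρ b).coeff m = algebraMap (GaloisRep.ratLocalizedAt ℓ) K a)
    (hker : ∀ b : B, ρ b = 0 → ∃ y : B, b = (ℓ : GaloisRep.ratLocalizedAt ℓ) • y) :
    s28p_IsReduction ℓ K ρ :=
  ⟨s28p_map_algebraMap_auto ρ, hcoeff, hker⟩

variable (K) in
/-- Reduction homomorphisms with values in `𝔽_ℓ((q))`: only the kernel condition is needed. -/
theorem s28p_isReduction_of_zmod (ρ₀ : B →+* LaurentSeries (ZMod ℓ))
    (hker : ∀ b : B, ρ₀ b = 0 → ∃ y : B, b = (ℓ : GaloisRep.ratLocalizedAt ℓ) • y) :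
    s28p_IsReduction ℓ K
      ((ModularCurve.coeffMap (ZMod.castHom (dvd_refl ℓ) K)).comp ρ₀) := by
  refine s28p_IsReduction.mk' _ (fun b m => ?_) (fun b hb => hker b ?_)
  · refine ⟨(((ρ₀ b).coeff m).val : GaloisRep.ratLocalizedAt ℓ), ?_⟩
    rw [map_natCast, RingHom.comp_apply, ModularCurve.coeffMap_coeff]
    conv_lhs => rw [← ZMod.natCast_zmod_val ((ρ₀ b).coeff m)]
    rw [map_natCast]
  · ext m
    have h1 := congrArg (fun y : LaurentSeries K => y.coeff m) hb
    simp only [RingHom.comp_apply, ModularCurve.coeffMap_coeff, HahnSeries.coeff_zero] at h1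
    rw [HahnSeries.coeff_zero]
    exact (map_eq_zero_iff _ (ZMod.castHom (dvd_refl ℓ) K).injective).mp h1

variable (K) in
/-- **Criterion with values in `𝔽_ℓ((q))`**: if `ρ₀ : B → 𝔽_ℓ((q))` is a ring homomorphism with
kernel contained in `ℓ B`, then `B ⊗[ℤ_(ℓ)] K` is a domain for every field `K` of
characteristic `ℓ`. -/
theorem s28p_isDomain_tensor_of_zmod (ρ₀ : B →+* LaurentSeries (ZMod ℓ))
    (hker : ∀ b : B, ρ₀ b = 0 → ∃ y : B, b = (ℓ : GaloisRep.ratLocalizedAt ℓ) • y) :
    IsDomain (B ⊗[GaloisRep.ratLocalizedAt ℓ] K) :=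
  (s28p_isReduction_of_zmod K ρ₀ hker).isDomain_tensor

variable (K) in
theorem s28p_isDomain_tensor_of_zmod' (ρ₀ : B →+* LaurentSeries (ZMod ℓ))
    (hker : ∀ b : B, ρ₀ b = 0 → ∃ y : B, b = (ℓ : GaloisRep.ratLocalizedAt ℓ) • y) :
    IsDomain (K ⊗[GaloisRep.ratLocalizedAt ℓ] B) :=
  (s28p_isReduction_of_zmod K ρ₀ hker).isDomain_tensor'

end S28P

end
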