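import Fermat.Agent.S28.VGauss

/-!
# S28 / valuation core (V1d): elements of `ℚ(τ)` are `ℓ^s · unit`, residues lie in `𝔽_ℓ(τ̄)`
-/

set_option autoImplicit false

noncomputable section

namespace Fermat.Agent.S28

open ModularCurve HahnSeries Polynomial IntermediateField

/-! ### `ρ` as a function: multiplicativity etc. -/

theorem s28v_rhoFun_mul (ℓ : ℕ) [Fact ℓ.Prime] {x y : LaurentSeries ℚ}
    (hx : x ∈ s28v_O ℓ) (hy : y ∈ s28v_O ℓ) :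
    s28v_rhoFun ℓ (x * y) = s28v_rhoFun ℓ x * s28v_rhoFun ℓ y := by
  obtain ⟨a, b, hb, hab⟩ := hx
  obtain ⟨a', b', hb', hab'⟩ := hy
  rw [s28v_rhoFun_eq ℓ hb hab, s28v_rhoFun_eq ℓ hb' hab',
    s28v_rhoFun_eq ℓ (a := a * a') (b := b * b') (by rw [map_mul]; exact mul_ne_zero hb hb')
      (by rw [map_mul, map_mul, ← hab, ← hab']; ring), map_mul, map_mul, mul_div_mul_comm]

theorem s28v_rhoFun_add (ℓ : ℕ) [Fact ℓ.Prime] {x y : LaurentSeries ℚ}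
    (hx : x ∈ s28v_O ℓ) (hy : y ∈ s28v_O ℓ) :
    s28v_rhoFun ℓ (x + y) = s28v_rhoFun ℓ x + s28v_rhoFun ℓ y := by
  obtain ⟨a, b, hb, hab⟩ := hx
  obtain ⟨a', b', hb', hab'⟩ := hy
  rw [s28v_rhoFun_eq ℓ hb hab, s28v_rhoFun_eq ℓ hb' hab',
    s28v_rhoFun_eq ℓ (a := a * b' + a' * b) (b := b * b')
      (by rw [map_mul]; exact mul_ne_zero hb hb')
      (by rw [map_mul, map_add, map_mul, map_mul, ← hab, ← hab']; ring),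
    map_mul, map_add, map_mul, map_mul, div_add_div _ _ hb hb',
    mul_comm (s28v_pi ℓ a') (s28v_pi ℓ b)]

theorem s28v_rhoFun_one (ℓ : ℕ) [Fact ℓ.Prime] : s28v_rhoFun ℓ 1 = 1 :=
  map_one (s28v_rho ℓ)

theorem s28v_rhoFun_zero (ℓ : ℕ) [Fact ℓ.Prime] : s28v_rhoFun ℓ 0 = 0 :=
  map_zero (s28v_rho ℓ)

theorem s28v_rhoFun_ellQ (ℓ : ℕ) [Fact ℓ.Prime] : s28v_rhoFun ℓ (s28v_ellQ ℓ) = 0 := by
  rw [s28v_ellQ, ← s28v_iota_ellS, s28v_rhoFun_iota, s28v_pi_ellS]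

theorem s28v_rhoFun_ellQ_mul (ℓ : ℕ) [Fact ℓ.Prime] {x : LaurentSeries ℚ} (hx : x ∈ s28v_O ℓ) :
    s28v_rhoFun ℓ (s28v_ellQ ℓ * x) = 0 := by
  rw [s28v_rhoFun_mul ℓ (s28v_ellQ_mem_O ℓ) hx, s28v_rhoFun_ellQ, zero_mul]

theorem s28v_rhoFun_ellQ_pow_mul (ℓ : ℕ) [Fact ℓ.Prime] {x : LaurentSeries ℚ} (hx : x ∈ s28v_O ℓ)
    (m : ℕ) (hm : 0 < m) : s28v_rhoFun ℓ (s28v_ellQ ℓ ^ m * x) = 0 := by
  obtain ⟨k, rfl⟩ : ∃ k, m = k + 1 := ⟨m - 1, by omega⟩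
  rw [pow_succ', mul_assoc]
  exact s28v_rhoFun_ellQ_mul ℓ ((s28v_O ℓ).mul_mem (s28v_ellQ_pow_mem_O ℓ k) hx)

theorem s28v_rhoFun_eq_zero_iff (ℓ : ℕ) [Fact ℓ.Prime] {x : LaurentSeries ℚ} (hx : x ∈ s28v_O ℓ) :
    s28v_rhoFun ℓ x = 0 ↔ ∃ y ∈ s28v_O ℓ, x = s28v_ellQ ℓ * y := by
  have := s28v_rho_eq_zero_iff ℓ ⟨x, hx⟩
  constructor
  · intro h
    obtain ⟨y, hy⟩ := this.mp h
    exact ⟨y, y.2, hy⟩
  · rintro ⟨y, hy, hxy⟩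
    exact this.mpr ⟨⟨y, hy⟩, hxy⟩

theorem s28v_inv_mem_O' (ℓ : ℕ) [Fact ℓ.Prime] {x : LaurentSeries ℚ} (hx : x ∈ s28v_O ℓ)
    (hρ : s28v_rhoFun ℓ x ≠ 0) : x⁻¹ ∈ s28v_O ℓ :=
  s28v_inv_mem_O ℓ ⟨x, hx⟩ hρ

theorem s28v_ne_zero_of_rhoFun (ℓ : ℕ) [Fact ℓ.Prime] {x : LaurentSeries ℚ}
    (hρ : s28v_rhoFun ℓ x ≠ 0) : x ≠ 0 := by
  rintro rfl
  exact hρ (s28v_rhoFun_zero ℓ)

theorem s28v_rhoFun_inv (ℓ : ℕ) [Fact ℓ.Prime] {x : LaurentSeries ℚ} (hx : x ∈ s28v_O ℓ)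
    (hρ : s28v_rhoFun ℓ x ≠ 0) : s28v_rhoFun ℓ x⁻¹ = (s28v_rhoFun ℓ x)⁻¹ := by
  have h1 := s28v_rhoFun_mul ℓ hx (s28v_inv_mem_O' ℓ hx hρ)
  rw [mul_inv_cancel₀ (s28v_ne_zero_of_rhoFun ℓ hρ), s28v_rhoFun_one] at h1
  exact eq_inv_of_mul_eq_one_right h1.symm

/-! ### the predicate `IsU` -/

/-- `c = ℓ^s u` with `u ∈ 𝒪`, `ρ u ≠ 0` and `ρ u ∈ 𝔽_ℓ(τ̄)`. -/
def s28v_IsU (ℓ : ℕ) [Fact ℓ.Prime] (τ : LaurentSeries ℤ) (c : LaurentSeries ℚ) : Prop :=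
  ∃ (s : ℤ) (u : LaurentSeries ℚ), u ∈ s28v_O ℓ ∧ c = s28v_ellQ ℓ ^ s * u ∧
    s28v_rhoFun ℓ u ≠ 0 ∧ s28v_rhoFun ℓ u ∈ (ZMod ℓ)⟮s28v_par (ZMod ℓ) τ⟯

theorem s28v_IsU.mul {ℓ : ℕ} [Fact ℓ.Prime] {τ : LaurentSeries ℤ} {c c' : LaurentSeries ℚ}
    (h : s28v_IsU ℓ τ c) (h' : s28v_IsU ℓ τ c') : s28v_IsU ℓ τ (c * c') := by
  obtain ⟨s, u, hu, rfl, hρ, hm⟩ := h
  obtain ⟨s', u', hu', rfl, hρ', hm'⟩ := h'
  refine ⟨s + s', u * u', (s28v_O ℓ).mul_mem hu hu', ?_, ?_, ?_⟩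
  · rw [zpow_add₀ (s28v_ellQ_ne_zero ℓ)]
    ring
  · rw [s28v_rhoFun_mul ℓ hu hu']
    exact mul_ne_zero hρ hρ'
  · rw [s28v_rhoFun_mul ℓ hu hu']
    exact mul_mem hm hm'

theorem s28v_IsU.inv {ℓ : ℕ} [Fact ℓ.Prime] {τ : LaurentSeries ℤ} {c : LaurentSeries ℚ}
    (h : s28v_IsU ℓ τ c) : s28v_IsU ℓ τ c⁻¹ := by
  obtain ⟨s, u, hu, rfl, hρ, hm⟩ := h
  refine ⟨-s, u⁻¹, s28v_inv_mem_O' ℓ hu hρ, ?_, ?_, ?_⟩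
  · rw [mul_inv, zpow_neg]
  · rw [s28v_rhoFun_inv ℓ hu hρ]
    exact inv_ne_zero hρ
  · rw [s28v_rhoFun_inv ℓ hu hρ]
    exact inv_mem hm

theorem s28v_IsU.ne_zero {ℓ : ℕ} [Fact ℓ.Prime] {τ : LaurentSeries ℤ} {c : LaurentSeries ℚ}
    (h : s28v_IsU ℓ τ c) : c ≠ 0 := by
  obtain ⟨s, u, hu, rfl, hρ, hm⟩ := h
  exact mul_ne_zero (zpow_ne_zero _ (s28v_ellQ_ne_zero ℓ)) (s28v_ne_zero_of_rhoFun ℓ hρ)

theorem s28v_intCast_ellQ (ℓ : ℕ) : ((ℓ : ℤ) : LaurentSeries ℚ) = s28v_ellQ ℓ := by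
  rw [s28v_ellQ]
  simp

/-- a nonzero integer polynomial in `τ` is `ℓ^a · unit`. -/
theorem s28v_isU_evalJ (ℓ : ℕ) [Fact ℓ.Prime] (τ : LaurentSeries ℤ)
    (hτ : Transcendental (ZMod ℓ) (s28v_par (ZMod ℓ) τ)) (P : ℤ[X]) (hP : P ≠ 0) :
    s28v_IsU ℓ τ (s28v_evalJ ℚ τ P) := by
  obtain ⟨a, P₀, rfl, hP₀⟩ := s28v_int_poly_normalize ℓ P hP
  refine ⟨a, s28v_evalJ ℚ τ P₀, ?_, ?_, ?_, ?_⟩
  · rw [← s28v_iota_evalJ ℓ]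
    exact s28v_iota_mem_O ℓ _
  · rw [s28v_evalJ_mul, s28v_evalJ_C, zpow_natCast, ← s28v_intCast_ellQ]
    push_cast
    rfl
  · rw [← s28v_iota_evalJ ℓ, s28v_rhoFun_iota, s28v_pi_evalJ]
    exact s28v_evalJ_ne_zero (ZMod ℓ) τ hτ P₀ hP₀
  · rw [← s28v_iota_evalJ ℓ, s28v_rhoFun_iota, s28v_pi_evalJ]
    exact s28v_evalJ_mem_adjoin (ZMod ℓ) τ P₀

/-- the value of a rational polynomial at `τ` is a quotient of values of integer polynomials. -/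
theorem s28v_aeval_rat (τ : LaurentSeries ℤ) (r : ℚ[X]) :
    ∃ (R₁ : ℤ[X]) (b : ℤ), b ≠ 0 ∧
      s28v_evalJ ℚ τ R₁ = s28v_evalJ ℚ τ (Polynomial.C b) * Polynomial.aeval (s28v_par ℚ τ) r := by
  obtain ⟨b, hbm, hb⟩ := IsLocalization.integerNormalization_spec (nonZeroDivisors ℤ) r
  refine ⟨IsLocalization.integerNormalization (nonZeroDivisors ℤ) r, (b : ℤ),
    nonZeroDivisors.ne_zero hbm, ?_⟩
  rw [s28v_evalJ_eq_aeval, s28v_evalJ_C]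
  have h1 : (Int.castRingHom ℚ) = algebraMap ℤ ℚ := rfl
  rw [h1, hb, map_zsmul, zsmul_eq_mul]

/-- every nonzero element of `ℚ(τ)` is `ℓ^s · unit`. -/
theorem s28v_isU_of_mem (ℓ : ℕ) [Fact ℓ.Prime] (τ : LaurentSeries ℤ)
    (hτ : Transcendental (ZMod ℓ) (s28v_par (ZMod ℓ) τ)) {c : LaurentSeries ℚ}
    (hc : c ∈ ℚ⟮s28v_par ℚ τ⟯) (hc0 : c ≠ 0) : s28v_IsU ℓ τ c := by
  obtain ⟨r, s, rfl⟩ := (IntermediateField.mem_adjoin_simple_iff ℚ c).mp hc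
  have hr0 : Polynomial.aeval (s28v_par ℚ τ) r ≠ 0 := fun h => hc0 (by rw [h, zero_div])
  have hs0 : Polynomial.aeval (s28v_par ℚ τ) s ≠ 0 := fun h => hc0 (by rw [h, div_zero])
  have key : ∀ t : ℚ[X], Polynomial.aeval (s28v_par ℚ τ) t ≠ 0 →
      s28v_IsU ℓ τ (Polynomial.aeval (s28v_par ℚ τ) t) := by
    intro t ht
    obtain ⟨R₁, b, hb, hR⟩ := s28v_aeval_rat τ t
    have hCb : s28v_IsU ℓ τ (s28v_evalJ ℚ τ (Polynomial.C b)) :=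
      s28v_isU_evalJ ℓ τ hτ _ (by rwa [Ne, Polynomial.C_eq_zero])
    have hR₁ : R₁ ≠ 0 := by
      rintro rfl
      have : s28v_evalJ ℚ τ (0 : ℤ[X]) = 0 := Polynomial.eval₂_zero _ _
      rw [this] at hR
      rcases mul_eq_zero.mp hR.symm with h | h
      · exact hCb.ne_zero h
      · exact ht h
    have hR₁U := s28v_isU_evalJ ℓ τ hτ R₁ hR₁
    have : Polynomial.aeval (s28v_par ℚ τ) t =
        s28v_evalJ ℚ τ R₁ * (s28v_evalJ ℚ τ (Polynomial.C b))⁻¹ := by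
      rw [hR, mul_comm, ← mul_assoc, inv_mul_cancel₀ hCb.ne_zero, one_mul]
    rw [this]
    exact hR₁U.mul hCb.inv
  rw [div_eq_mul_inv]
  exact (key r hr0).mul (key s hs0).inv

/-- **(G)** the residue of an element of `ℚ(τ) ∩ 𝒪` lies in `𝔽_ℓ(τ̄)`. -/
theorem s28v_rhoFun_mem_adjoin (ℓ : ℕ) [Fact ℓ.Prime] (τ : LaurentSeries ℤ)
    (hτ : Transcendental (ZMod ℓ) (s28v_par (ZMod ℓ) τ)) {c : LaurentSeries ℚ}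
    (hc : c ∈ ℚ⟮s28v_par ℚ τ⟯) (hcO : c ∈ s28v_O ℓ) :
    s28v_rhoFun ℓ c ∈ (ZMod ℓ)⟮s28v_par (ZMod ℓ) τ⟯ := by
  by_cases hc0 : c = 0
  · rw [hc0, s28v_rhoFun_zero]
    exact zero_mem _
  obtain ⟨s, u, hu, rfl, hρ, hm⟩ := s28v_isU_of_mem ℓ τ hτ hc hc0
  rcases lt_trichotomy s 0 with hs | hs | hs
  · -- impossible: `u = ℓ^(-s) c` would have residue `0`
    exfalso
    obtain ⟨m, hm'⟩ := Int.eq_ofNat_of_zero_le (by omega : 0 ≤ -s)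
    have hmpos : 0 < m := by omega
    have h1 : u = s28v_ellQ ℓ ^ m * (s28v_ellQ ℓ ^ s * u) := by
      rw [← mul_assoc, ← zpow_natCast, ← hm', ← zpow_add₀ (s28v_ellQ_ne_zero ℓ)]
      simp
    apply hρ
    rw [h1]
    exact s28v_rhoFun_ellQ_pow_mul ℓ hcO m hmpos
  · subst hs
    rw [zpow_zero, one_mul]
    exact hm
  · obtain ⟨m, hm'⟩ := Int.eq_ofNat_of_zero_le (by omega : 0 ≤ s)
    have hmpos : 0 < m := by omega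
    rw [hm', zpow_natCast, s28v_rhoFun_ellQ_pow_mul ℓ hu m hmpos]
    exact zero_mem _

end Fermat.Agent.S28
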