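import Fermat.Agent.S28.ChartKer
import Fermat.Agent.S28.VUnit
import Fermat.Agent.S28.TensorAbstract
import Fermat.Agent.S28.Plumbing

/-!
# S28 (Igusa) / (V3c): the three charts and the final assembly  (OWNER: helper1)

`s28w_main`: the frozen conclusion of S28 from (V2) and (MP) for `t = j` and `t = j⁻¹`.
-/

set_option autoImplicit false
set_option synthInstance.maxHeartbeats 400000
set_option maxHeartbeats 1000000

noncomputable section

namespace Fermat.Agent.S28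

open ModularCurve ModularCurve.IgusaScheme HahnSeries IntermediateField
open AlgebraicGeometry CategoryTheory CategoryTheory.Limits
open TensorProduct

variable (ℓ : ℕ) [Fact ℓ.Prime] (N : ℕ) [NeZero N]

theorem s28w_jFull_mem_O : ((jFull N : ↥(modularFunctionFieldFull N)) : LaurentSeries ℚ) ∈
    s28v_O ℓ :=
  s28v_jq_mem_O ℓ

theorem s28w_jFull_inv_mem_O :
    (((jFull N)⁻¹ : ↥(modularFunctionFieldFull N)) : LaurentSeries ℚ) ∈ s28v_O ℓ := by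
  show (jq)⁻¹ ∈ s28v_O ℓ
  refine s28v_inv_mem_O' ℓ (s28v_jq_mem_O ℓ) ?_
  rw [s28v_rhoFun_jq]
  exact jqModC_ne_zero_of_nontrivial (ZMod ℓ)

theorem s28w_hS_fin : ∀ s ∈ ({jFull N} : Set ↥(modularFunctionFieldFull N)),
    (s : LaurentSeries ℚ) ∈ s28v_O ℓ := by
  intro s hs
  rw [Set.mem_singleton_iff] at hs
  rw [hs]
  exact s28w_jFull_mem_O ℓ N

theorem s28w_hS_inf : ∀ s ∈ ({(jFull N)⁻¹} : Set ↥(modularFunctionFieldFull N)),
    (s : LaurentSeries ℚ) ∈ s28v_O ℓ := by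
  intro s hs
  rw [Set.mem_singleton_iff] at hs
  rw [hs]
  exact s28w_jFull_inv_mem_O ℓ N

theorem s28w_hS_mid : ∀ s ∈ ({jFull N, (jFull N)⁻¹} : Set ↥(modularFunctionFieldFull N)),
    (s : LaurentSeries ℚ) ∈ s28v_O ℓ := by
  intro s hs
  rcases hs with hs | hs
  · rw [hs]
    exact s28w_jFull_mem_O ℓ N
  · rw [Set.mem_singleton_iff] at hs
    rw [hs]
    exact s28w_jFull_inv_mem_O ℓ N

variable (K : Type) [Field K] [CharP K ℓ] [Algebra ↥(GaloisRep.ratLocalizedAt ℓ) K]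

theorem s28w_isDomain_fin (hV2 : s28w_stmt_V2 N ℓ) (hMP : s28w_stmt_MP ℓ jq) :
    IsDomain ((chartAlgFin N ℓ) ⊗[↥(GaloisRep.ratLocalizedAt ℓ)] K) :=
  S28P.s28p_isDomain_tensor_of_zmod K (s28w_rho ℓ N {jFull N} (s28w_hS_fin ℓ N))
    (s28w_ker ℓ N (jFull N) (s28w_hS_fin ℓ N) hV2 hMP)

theorem s28w_isDomain_inf (hV2 : s28w_stmt_V2 N ℓ) (hMP : s28w_stmt_MP ℓ jq⁻¹) :
    IsDomain ((chartAlgInf N ℓ) ⊗[↥(GaloisRep.ratLocalizedAt ℓ)] K) :=
  S28P.s28p_isDomain_tensor_of_zmod K (s28w_rho ℓ N {(jFull N)⁻¹} (s28w_hS_inf ℓ N))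
    (s28w_ker ℓ N (jFull N)⁻¹ (s28w_hS_inf ℓ N) hV2 hMP)

theorem s28w_nontrivial_mid :
    Nontrivial ((chartAlgMid N ℓ) ⊗[↥(GaloisRep.ratLocalizedAt ℓ)] K) := by
  letI : Algebra ↥(GaloisRep.ratLocalizedAt ℓ) (LaurentSeries K) :=
    ((HahnSeries.C : K →+* LaurentSeries K).comp
      (algebraMap ↥(GaloisRep.ratLocalizedAt ℓ) K)).toAlgebra
  let ρK : ↥(chartAlgMid N ℓ) →+* LaurentSeries K :=
    (ModularCurve.coeffMap (ZMod.castHom (dvd_refl ℓ) K)).comp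
      (s28w_rho ℓ N {jFull N, (jFull N)⁻¹} (s28w_hS_mid ℓ N))
  let f : ↥(chartAlgMid N ℓ) →ₐ[↥(GaloisRep.ratLocalizedAt ℓ)] LaurentSeries K :=
    { toRingHom := ρK
      commutes' := fun a => S28P.s28p_map_algebraMap_auto ρK a }
  let g : K →ₐ[↥(GaloisRep.ratLocalizedAt ℓ)] LaurentSeries K :=
    { toRingHom := (HahnSeries.C : K →+* LaurentSeries K)
      commutes' := fun a => rfl }
  let h : (chartAlgMid N ℓ) ⊗[↥(GaloisRep.ratLocalizedAt ℓ)] K →ₐ[↥(GaloisRep.ratLocalizedAt ℓ)]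
      LaurentSeries K :=
    Algebra.TensorProduct.productMap f g
  exact h.toRingHom.domain_nontrivial

/-- **(V3) + (PL) + (P2)**: the frozen conclusion of S28 from (V2) and (MP). -/
theorem s28w_main (hV2 : s28w_stmt_V2 N ℓ) (hMPj : s28w_stmt_MP ℓ jq)
    (hMPi : s28w_stmt_MP ℓ jq⁻¹) :
    IsIntegral ↑(pullback (igusaTo N ℓ)
      (Spec.map (CommRingCat.ofHom (algebraMap ↥(GaloisRep.ratLocalizedAt ℓ) K)))) :=
  s28_pl_main_weak N ℓ K (s28w_isDomain_fin ℓ N K hV2 hMPj) (s28w_isDomain_inf ℓ N K hV2 hMPi)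
    (s28w_nontrivial_mid ℓ N K)

end Fermat.Agent.S28
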