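import Fermat.Agent.S28.TLMain
import Fermat.Agent.S28.CoreDefs

/-!
# S28 (Igusa), tower: conversion between `relrank` inside `k((q))` and `finrank` over `k⟮j⟯`

OWNER: lead.  Prefix `s28tl_`.
-/

set_option autoImplicit false

noncomputable section

namespace Fermat.Agent.S28

open HahnSeries ModularCurve IntermediateField Cardinal

variable (k : Type) [Field k]

theorem s28tl_map_adjoin_jC (N : ℕ) [NeZero N] :
    (k⟮s28_jC k N⟯).map (modularFunctionFieldFullC k N).val = s28vb_base k := by
  rw [adjoin_map, Set.image_singleton]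
  rfl

theorem s28tl_map_top (N : ℕ) [NeZero N] :
    (⊤ : IntermediateField k ↥(modularFunctionFieldFullC k N)).map
      (modularFunctionFieldFullC k N).val = modularFunctionFieldFullC k N := by
  rw [← AlgHom.fieldRange_eq_map, fieldRange_val]

/-- the rank over `k⟮j⟯` (inside the function field) is the `relrank` inside `k((q))`. -/
theorem s28tl_rank_eq (N : ℕ) [NeZero N] :
    Module.rank ↥(k⟮s28_jC k N⟯) ↥(modularFunctionFieldFullC k N) =
      (s28vb_base k).relrank (modularFunctionFieldFullC k N) := by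
  rw [← relrank_top_right, ← relrank_map_map (k⟮s28_jC k N⟯) ⊤ (modularFunctionFieldFullC k N).val,
    s28tl_map_adjoin_jC, s28tl_map_top]

theorem s28tl_finrank_eq (N : ℕ) [NeZero N] :
    Module.finrank ↥(k⟮s28_jC k N⟯) ↥(modularFunctionFieldFullC k N) =
      (s28vb_base k).relfinrank (modularFunctionFieldFullC k N) := by
  rw [relfinrank_eq_toNat_relrank, ← s28tl_rank_eq]
  rfl

variable {k}

/-- **(TL)**, `finrank` form. -/
theorem s28tl_main_finrank {ℓ : ℕ} (hℓ : ℓ.Prime) (H : s28tl_Inputs k ℓ) (N : ℕ) [NeZero N]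
    (hN : ¬ ℓ ∣ N) :
    dedekindPsi N ≤ Module.finrank ↥(k⟮s28_jC k N⟯) ↥(modularFunctionFieldFullC k N) := by
  rw [s28tl_finrank_eq]
  exact s28tl_main hℓ H N hN

/-- the upper bound (UB) in cardinal form from `FiniteDimensional` + a `finrank` bound. -/
theorem s28tl_UB_of_finrank (N : ℕ) [NeZero N] (n : ℕ)
    (hfin : FiniteDimensional ↥(k⟮s28_jC k N⟯) ↥(modularFunctionFieldFullC k N))
    (hle : Module.finrank ↥(k⟮s28_jC k N⟯) ↥(modularFunctionFieldFullC k N) ≤ n) :
    (s28vb_base k).relrank (modularFunctionFieldFullC k N) ≤ ((n : ℕ) : Cardinal) := by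
  rw [← s28tl_rank_eq, ← Module.finrank_eq_rank]
  exact_mod_cast hle

end Fermat.Agent.S28
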