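import Fermat.Agent.S28.Prime
import Fermat.Agent.S28.TLConv

/-!
# S28 (Igusa): the degree inequality (IG) from (CA*), (NB), (C0), (UB)

OWNER: helper9.  Prefix `s28ig_`.
-/

set_option autoImplicit false

noncomputable section

namespace Fermat.Agent.S28

open HahnSeries ModularCurve IntermediateField Cardinal

theorem s28ig_natCast_ne_zero (ℓ : ℕ) [Fact ℓ.Prime] (p : ℕ) (hp : p.Prime) (hpℓ : p ≠ ℓ) :
    ((p : ℕ) : ZMod ℓ) ≠ 0 := by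
  intro h
  rw [ZMod.natCast_eq_zero_iff] at h
  exact hpℓ ((Nat.prime_dvd_prime_iff_eq (Fact.out : ℓ.Prime) hp).mp h).symm

/-- the inputs of lead's tower over `𝔽_ℓ`. -/
theorem s28ig_inputs (hCAs : s28_stmt_CAs) (hNB : s28_stmt_NB) (hC0 : s28_stmt_C0)
    (hUB : s28_stmt_UB) (ℓ : ℕ) [Fact ℓ.Prime] : s28tl_Inputs (ZMod ℓ) ℓ where
  UB M _ hM := s28tl_UB_of_finrank M (dedekindPsi M) (hUB ℓ M hM).1
    ((hUB ℓ M hM).2.trans (hC0 M).2)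
  PR p _ hp hpℓ := s28pr_PR (ZMod ℓ) p hCAs hNB hp (s28ig_natCast_ne_zero ℓ p hp hpℓ)
  SW p _ hp _ := s28pr_SW (ZMod ℓ) p hCAs hp

/-- **(IG)**. -/
theorem s28ig_main (hCAs : s28_stmt_CAs) (hNB : s28_stmt_NB) (hC0 : s28_stmt_C0)
    (hUB : s28_stmt_UB) : s28_stmt_IG := by
  intro ℓ _ N _ hℓN
  exact ⟨(hC0 N).1, (hC0 N).2.trans
    (s28tl_main_finrank (Fact.out : ℓ.Prime) (s28ig_inputs hCAs hNB hC0 hUB ℓ) N hℓN)⟩

end Fermat.Agent.S28
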