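import Fermat.Agent.S28.VRing
import Fermat.Prelude.Def_ModularCurve_IgusaScheme

/-!
# S28 (Igusa) / (V3): interface of the chart step  (OWNER: helper1)

Everything lives inside `E = LaurentSeries ℚ`.  Integrality is stated in the elementary form
`s28w_IsInt R z`: `z` is a root of a monic polynomial of `E[X]` whose coefficients lie in the
set `R`; `s28w_isInt_iff` converts to Mathlib's `IsIntegral` over a subring.

* `s28w_A0 ℓ = 𝒪 ∩ ℚ(j)`, `s28w_Zt ℓ t = ℤ_(ℓ)[t]`, `s28w_Qt t = ℚ[t]`;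
* `s28w_stmt_V2 N ℓ` (producer: valuation core): every element of `𝒪 ∩ F_N` is integral over
  `𝒪 ∩ ℚ(j)`;
* `s28w_stmt_MP ℓ t` (producer: minimal polynomial argument), used for `t = j` and `t = j⁻¹`:
  integral over `𝒪 ∩ ℚ(j)` and over `ℚ[t]` implies integral over `ℤ_(ℓ)[t]`.
-/

set_option autoImplicit false

noncomputable section

namespace Fermat.Agent.S28

open ModularCurve HahnSeries IntermediateField

/-- elementary integrality: `z` is a root of a monic polynomial with coefficients in `R`. -/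
def s28w_IsInt {E : Type*} [CommRing E] (R : Set E) (z : E) : Prop :=
  ∃ p : Polynomial E, p.Monic ∧ (∀ i, p.coeff i ∈ R) ∧ p.eval z = 0

theorem s28w_IsInt.mono {E : Type*} [CommRing E] {R R' : Set E} (h : R ⊆ R') {z : E}
    (hz : s28w_IsInt R z) : s28w_IsInt R' z := by
  obtain ⟨p, hp, hc, h0⟩ := hz
  exact ⟨p, hp, fun i => h (hc i), h0⟩

/-- conversion to Mathlib's `IsIntegral` over a subring. -/
theorem s28w_isInt_iff {E : Type*} [CommRing E] (R : Subring E) (z : E) :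
    s28w_IsInt (R : Set E) z ↔ IsIntegral R z := by
  constructor
  · rintro ⟨p, hp, hc, h0⟩
    have hl : p ∈ Polynomial.lifts (algebraMap R E) :=
      (Polynomial.lifts_iff_coeff_lifts p).mpr fun i => ⟨⟨p.coeff i, hc i⟩, rfl⟩
    obtain ⟨q, hq, -, hqm⟩ := Polynomial.lifts_and_natDegree_eq_and_monic hl hp
    refine ⟨q, hqm, ?_⟩
    rw [Polynomial.eval₂_eq_eval_map, hq, h0]
  · rintro ⟨q, hqm, h0⟩
    refine ⟨q.map (algebraMap R E), hqm.map _, fun i => ?_, ?_⟩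
    · rw [Polynomial.coeff_map]
      exact (q.coeff i).2
    · rw [← Polynomial.eval₂_eq_eval_map]
      exact h0

/-- the constants `ℤ_(ℓ) → ℚ⸨q⸩`. -/
def s28w_const (ℓ : ℕ) : GaloisRep.ratLocalizedAt ℓ →+* LaurentSeries ℚ :=
  (HahnSeries.C : ℚ →+* LaurentSeries ℚ).comp (GaloisRep.ratLocalizedAt ℓ).subtype

/-- `A₀ = 𝒪 ∩ ℚ(j)`. -/
def s28w_A0 (ℓ : ℕ) [Fact ℓ.Prime] : Set (LaurentSeries ℚ) :=
  {c | c ∈ s28v_O ℓ ∧ c ∈ ℚ⟮jq⟯}

/-- `ℤ_(ℓ)[t]`. -/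
def s28w_Zt (ℓ : ℕ) (t : LaurentSeries ℚ) : Set (LaurentSeries ℚ) :=
  {c | ∃ P : Polynomial (GaloisRep.ratLocalizedAt ℓ), c = Polynomial.eval₂ (s28w_const ℓ) t P}

/-- `ℚ[t]`. -/
def s28w_Qt (t : LaurentSeries ℚ) : Set (LaurentSeries ℚ) :=
  {c | ∃ P : Polynomial ℚ, c = Polynomial.eval₂ (HahnSeries.C : ℚ →+* LaurentSeries ℚ) t P}

/-- **(V2)** every element of `𝒪 ∩ F_N` is integral over `A₀ = 𝒪 ∩ ℚ(j)`. -/
def s28w_stmt_V2 (N : ℕ) [NeZero N] (ℓ : ℕ) [Fact ℓ.Prime] : Prop :=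
  ∀ y : LaurentSeries ℚ, y ∈ modularFunctionFieldFull N → y ∈ s28v_O ℓ →
    s28w_IsInt (s28w_A0 ℓ) y

/-- **(MP)** integral over `𝒪 ∩ ℚ(j)` and over `ℚ[t]` implies integral over `ℤ_(ℓ)[t]`. -/
def s28w_stmt_MP (ℓ : ℕ) [Fact ℓ.Prime] (t : LaurentSeries ℚ) : Prop :=
  ∀ z : LaurentSeries ℚ, s28w_IsInt (s28w_A0 ℓ) z → s28w_IsInt (s28w_Qt t) z →
    s28w_IsInt (s28w_Zt ℓ t) z

end Fermat.Agent.S28
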