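import Fermat.Agent.S28.MPAbstract
import Fermat.Agent.S28.VUnit
import Fermat.Agent.S28.ChartDefs

/-!
# S28 (Igusa) / (MP): the minimal polynomial argument for `t = j` and `t = j⁻¹`  (helper3)

`s28mp_jq ℓ : s28w_stmt_MP ℓ jq` and `s28mp_jqInv ℓ : s28w_stmt_MP ℓ jq⁻¹`: an element of
`ℚ⸨q⸩` which is integral over `𝒪 ∩ ℚ(j)` and over `ℚ[t]` is integral over `ℤ_(ℓ)[t]`.
-/

set_option autoImplicit false

noncomputable section

namespace Fermat.Agent.S28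

open ModularCurve HahnSeries IntermediateField

theorem s28mp_algebraMap_eq_C (K : Type*) [Field K] :
    algebraMap K (LaurentSeries K) = (HahnSeries.C : K →+* LaurentSeries K) :=
  RingHom.ext fun c => by
    rw [ModularCurve.algebraMap_laurentSeries_eq_single]
    rfl

theorem s28mp_aeval_eq {K : Type*} [Field K] (t : LaurentSeries K) (P : Polynomial K) :
    Polynomial.aeval t P = Polynomial.eval₂ (HahnSeries.C : K →+* LaurentSeries K) t P := by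
  rw [Polynomial.aeval_def, s28mp_algebraMap_eq_C]

theorem s28mp_iota_eval₂ (ℓ : ℕ) (a : LaurentSeries (GaloisRep.ratLocalizedAt ℓ))
    (Q : Polynomial (GaloisRep.ratLocalizedAt ℓ)) :
    s28v_iota ℓ (Polynomial.eval₂ HahnSeries.C a Q) =
      Polynomial.eval₂ HahnSeries.C (s28v_iota ℓ a)
        (Q.map (GaloisRep.ratLocalizedAt ℓ).subtype) := by
  rw [Polynomial.hom_eval₂, Polynomial.eval₂_map]
  congr 1
  exact RingHom.ext fun r => s28v_iota_C ℓ r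

theorem s28mp_pi_eval₂ (ℓ : ℕ) [Fact ℓ.Prime] (a : LaurentSeries (GaloisRep.ratLocalizedAt ℓ))
    (Q : Polynomial (GaloisRep.ratLocalizedAt ℓ)) :
    s28v_pi ℓ (Polynomial.eval₂ HahnSeries.C a Q) =
      Polynomial.eval₂ HahnSeries.C (s28v_pi ℓ a) (Q.map (s28v_res ℓ)) := by
  rw [Polynomial.hom_eval₂, Polynomial.eval₂_map]
  congr 1
  exact RingHom.ext fun r => s28v_pi_C ℓ r

/-- clearing the `ℓ`-part of the denominator of a rational number. -/
theorem s28mp_exists_pow_mul_mem (ℓ : ℕ) [Fact ℓ.Prime] (c : ℚ) :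
    ∃ m : ℕ, (ℓ : ℚ) ^ m * c ∈ GaloisRep.ratLocalizedAt ℓ := by
  have hℓ : ℓ.Prime := Fact.out
  obtain ⟨e, d, hd, hden⟩ := Nat.exists_eq_pow_mul_and_not_dvd c.den_nz ℓ hℓ.ne_one
  refine ⟨e, ?_⟩
  have hcop : d.Coprime ℓ := ((Nat.Prime.coprime_iff_not_dvd hℓ).mpr hd).symm
  have h := s28v_mem_of_div ℓ c.num d hcop
  have hd0 : (d : ℚ) ≠ 0 := by
    intro h0
    have hd' : d = 0 := by exact_mod_cast h0
    rw [hd', mul_zero] at hden
    exact c.den_nz hden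
  have hℓ0 : (ℓ : ℚ) ≠ 0 := by exact_mod_cast hℓ.ne_zero
  have e1 : (ℓ : ℚ) ^ e * c = (c.num : ℚ) / (d : ℚ) := by
    calc (ℓ : ℚ) ^ e * c = (ℓ : ℚ) ^ e * ((c.num : ℚ) / (c.den : ℚ)) := by
          rw [Rat.num_div_den]
      _ = (ℓ : ℚ) ^ e * ((c.num : ℚ) / (((ℓ ^ e * d : ℕ)) : ℚ)) := by rw [← hden]
      _ = (c.num : ℚ) / (d : ℚ) := by
          push_cast
          field_simp
  rw [e1]
  exact h

/-- clearing the `ℓ`-part of the denominators of a rational polynomial. -/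
theorem s28mp_exists_pow_mul_lift (ℓ : ℕ) [Fact ℓ.Prime] (P : Polynomial ℚ) :
    ∃ (m : ℕ) (Q : Polynomial (GaloisRep.ratLocalizedAt ℓ)),
      Q.map (GaloisRep.ratLocalizedAt ℓ).subtype = Polynomial.C ((ℓ : ℚ) ^ m) * P := by
  induction P using Polynomial.induction_on' with
  | add p q hp hq =>
    obtain ⟨m₁, Q₁, h₁⟩ := hp
    obtain ⟨m₂, Q₂, h₂⟩ := hq
    refine ⟨m₁ + m₂, Polynomial.C ((s28v_ell ℓ) ^ m₂) * Q₁ +
      Polynomial.C ((s28v_ell ℓ) ^ m₁) * Q₂, ?_⟩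
    have hcoe : (GaloisRep.ratLocalizedAt ℓ).subtype (s28v_ell ℓ) = (ℓ : ℚ) := s28v_ell_coe ℓ
    have e1 : ∀ k : ℕ, (GaloisRep.ratLocalizedAt ℓ).subtype (s28v_ell ℓ ^ k) = (ℓ : ℚ) ^ k :=
      fun k => by rw [map_pow, hcoe]
    rw [Polynomial.map_add, Polynomial.map_mul, Polynomial.map_mul, Polynomial.map_C,
      Polynomial.map_C, h₁, h₂, e1, e1, _root_.pow_add, map_mul]
    ring
  | monomial n c =>
    obtain ⟨m, hm⟩ := s28mp_exists_pow_mul_mem ℓ c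
    refine ⟨m, Polynomial.monomial n ⟨(ℓ : ℚ) ^ m * c, hm⟩, ?_⟩
    rw [Polynomial.map_monomial, Polynomial.C_mul_monomial]
    rfl

/-- Gauss lemma, inductive form. -/
theorem s28mp_gauss_aux (ℓ : ℕ) [Fact ℓ.Prime] (a : LaurentSeries (GaloisRep.ratLocalizedAt ℓ))
    (hπ : Transcendental (ZMod ℓ) (s28v_pi ℓ a)) :
    ∀ (m : ℕ) (P : Polynomial ℚ) (Q : Polynomial (GaloisRep.ratLocalizedAt ℓ)),
      Q.map (GaloisRep.ratLocalizedAt ℓ).subtype = Polynomial.C ((ℓ : ℚ) ^ m) * P →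
      Polynomial.eval₂ HahnSeries.C (s28v_iota ℓ a) P ∈ s28v_O ℓ →
      ∃ Q' : Polynomial (GaloisRep.ratLocalizedAt ℓ),
        Q'.map (GaloisRep.ratLocalizedAt ℓ).subtype = P := by
  intro m
  induction m with
  | zero =>
    intro P Q hQ _
    exact ⟨Q, by rw [hQ, pow_zero, map_one, one_mul]⟩
  | succ m ih =>
    intro P Q hQ hP
    have h1 : s28v_iota ℓ (Polynomial.eval₂ HahnSeries.C a Q) =
        s28v_ellQ ℓ * (s28v_ellQ ℓ ^ m *
          Polynomial.eval₂ HahnSeries.C (s28v_iota ℓ a) P) := by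
      rw [s28mp_iota_eval₂, hQ, Polynomial.eval₂_mul, Polynomial.eval₂_C, pow_succ, map_mul,
        map_pow, s28v_ellQ]
      ring
    have h2 : s28v_pi ℓ (Polynomial.eval₂ HahnSeries.C a Q) = 0 := by
      rw [← s28v_rhoFun_iota, h1]
      exact s28v_rhoFun_ellQ_mul ℓ ((s28v_O ℓ).mul_mem (s28v_ellQ_pow_mem_O ℓ m) hP)
    rw [s28mp_pi_eval₂] at h2
    have h3 : Q.map (s28v_res ℓ) = 0 := by
      by_contra hne
      exact hπ ⟨_, hne, by rw [s28mp_aeval_eq]; exact h2⟩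
    have h4 : Polynomial.C (s28v_ell ℓ) ∣ Q := by
      rw [Polynomial.C_dvd_iff_dvd_coeff]
      intro i
      have h5 : s28v_res ℓ (Q.coeff i) = 0 := by
        have h6 := congrArg (fun f : Polynomial (ZMod ℓ) => f.coeff i) h3
        simpa [Polynomial.coeff_map] using h6
      obtain ⟨y, hy⟩ := (s28v_res_eq_zero_iff ℓ _).mp h5
      exact ⟨y, hy⟩
    obtain ⟨Q₁, rfl⟩ := h4
    refine ih P Q₁ ?_ hP
    have hcoe : (GaloisRep.ratLocalizedAt ℓ).subtype (s28v_ell ℓ) = (ℓ : ℚ) := s28v_ell_coe ℓ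
    rw [Polynomial.map_mul, Polynomial.map_C, hcoe, pow_succ, map_mul] at hQ
    have hℓ : ℓ.Prime := Fact.out
    have hℓ0 : (Polynomial.C (ℓ : ℚ)) ≠ 0 := by
      rw [Ne, Polynomial.C_eq_zero]
      exact_mod_cast hℓ.ne_zero
    apply mul_left_cancel₀ hℓ0
    rw [hQ]
    ring

/-- Gauss lemma: a rational polynomial whose value at `t = ι a` lies in `𝒪` has coefficients in
`ℤ_(ℓ)`, when the reduction of `a` is transcendental over `𝔽_ℓ`. -/
theorem s28mp_gauss (ℓ : ℕ) [Fact ℓ.Prime] (a : LaurentSeries (GaloisRep.ratLocalizedAt ℓ))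
    (hπ : Transcendental (ZMod ℓ) (s28v_pi ℓ a)) (P : Polynomial ℚ)
    (h : Polynomial.aeval (s28v_iota ℓ a) P ∈ s28v_O ℓ) :
    ∃ Q : Polynomial (GaloisRep.ratLocalizedAt ℓ),
      Q.map (GaloisRep.ratLocalizedAt ℓ).subtype = P := by
  obtain ⟨m, Q, hQ⟩ := s28mp_exists_pow_mul_lift ℓ P
  rw [s28mp_aeval_eq] at h
  exact s28mp_gauss_aux ℓ a hπ m P Q hQ h

/-- (MP) for a parameter `t = ι a` with transcendental reduction. -/
theorem s28mp_of_model (ℓ : ℕ) [Fact ℓ.Prime] (a : LaurentSeries (GaloisRep.ratLocalizedAt ℓ))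
    (hπ : Transcendental (ZMod ℓ) (s28v_pi ℓ a)) (ht : Transcendental ℚ (s28v_iota ℓ a))
    (hA0 : ℚ⟮jq⟯ = ℚ⟮s28v_iota ℓ a⟯) :
    s28w_stmt_MP ℓ (s28v_iota ℓ a) := by
  intro z h1 h2
  have hval : ∀ x ∈ ℚ⟮s28v_iota ℓ a⟯, x ∈ s28v_O ℓ ∨ x⁻¹ ∈ s28v_O ℓ := by
    intro x hx
    apply s28v_mem_or_inv_mem ℓ
    have hle : ℚ⟮s28v_iota ℓ a⟯ ≤ s28v_L ℓ := by
      rw [IntermediateField.adjoin_le_iff, Set.singleton_subset_iff]
      exact s28v_iota_mem_L ℓ a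
    exact hle hx
  obtain ⟨p, hp, hc, h0⟩ := s28mp_abstract (GaloisRep.ratLocalizedAt ℓ) (s28v_iota ℓ a) ht
    (s28v_O ℓ) hval (fun P hP => s28mp_gauss ℓ a hπ P hP) z
    (by
      obtain ⟨p, hp, hc, h0⟩ := h1
      exact ⟨p, hp, fun i => ⟨(hc i).1, hA0 ▸ (hc i).2⟩, h0⟩)
    (by
      obtain ⟨p, hp, hc, h0⟩ := h2
      refine ⟨p, hp, fun i => ?_, h0⟩
      obtain ⟨P, hP⟩ := hc i
      exact ⟨P, by rw [s28mp_aeval_eq]; exact hP⟩)
  refine ⟨p, hp, fun i => ?_, h0⟩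
  obtain ⟨Q, hQ⟩ := hc i
  refine ⟨Q, ?_⟩
  rw [hQ, s28mp_aeval_eq, Polynomial.eval₂_map]
  rfl

/-- **(MP)** for `t = j`. -/
theorem s28mp_jq (ℓ : ℕ) [Fact ℓ.Prime] : s28w_stmt_MP ℓ jq := by
  have h := s28mp_of_model ℓ (jqModC (GaloisRep.ratLocalizedAt ℓ))
    (by rw [s28v_pi_jq]; exact s28v_jq_transcendental (ZMod ℓ))
    (by rw [s28v_iota_jq]; exact s28v_jq_transcendental ℚ)
    (by rw [s28v_iota_jq])
  rwa [s28v_iota_jq] at h

/-- the inverse of `j` as a Laurent series over any commutative ring. -/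
def s28mp_jInv (A : Type*) [CommRing A] : LaurentSeries A :=
  HahnSeries.single (1 : ℤ) 1 *
    HahnSeries.ofPowerSeries ℤ A ((PowerSeries.invOfUnit jNum 1).map (Int.castRingHom A))

theorem s28mp_jq_mul_jInv (A : Type*) [CommRing A] : jqModC A * s28mp_jInv A = 1 := by
  rw [jqModC, s28mp_jInv]
  have h1 : (HahnSeries.single (-1 : ℤ) (1 : A) *
        HahnSeries.ofPowerSeries ℤ A (jNum.map (Int.castRingHom A))) *
      (HahnSeries.single (1 : ℤ) (1 : A) *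
        HahnSeries.ofPowerSeries ℤ A ((PowerSeries.invOfUnit jNum 1).map (Int.castRingHom A))) =
      (HahnSeries.single (-1 : ℤ) (1 : A) * HahnSeries.single (1 : ℤ) (1 : A)) *
        (HahnSeries.ofPowerSeries ℤ A (jNum.map (Int.castRingHom A)) *
          HahnSeries.ofPowerSeries ℤ A
            ((PowerSeries.invOfUnit jNum 1).map (Int.castRingHom A))) := by
    ring
  rw [h1, HahnSeries.single_mul_single, ← map_mul, ← map_mul,
    PowerSeries.mul_invOfUnit jNum 1 (by rw [constantCoeff_jNum]; rfl)]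
  simp

theorem s28mp_coeffMap_jInv {A B : Type*} [CommRing A] [CommRing B] (f : A →+* B) :
    coeffMap f (s28mp_jInv A) = s28mp_jInv B := by
  rw [s28mp_jInv, s28mp_jInv, map_mul, coeffMap_single, map_one, coeffMap_ofPowerSeries,
    ← RingHom.comp_apply (PowerSeries.map f) (PowerSeries.map (Int.castRingHom A)),
    ← PowerSeries.map_comp, RingHom.ext_int (f.comp (Int.castRingHom A)) (Int.castRingHom B)]

theorem s28mp_jInv_eq_inv (K : Type*) [Field K] : s28mp_jInv K = (jqModC K)⁻¹ :=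
  eq_inv_of_mul_eq_one_right (s28mp_jq_mul_jInv K)

theorem s28mp_iota_jInv (ℓ : ℕ) :
    s28v_iota ℓ (s28mp_jInv (GaloisRep.ratLocalizedAt ℓ)) = jq⁻¹ := by
  rw [s28v_iota, s28mp_coeffMap_jInv, s28mp_jInv_eq_inv]
  rfl

theorem s28mp_pi_jInv (ℓ : ℕ) [Fact ℓ.Prime] :
    s28v_pi ℓ (s28mp_jInv (GaloisRep.ratLocalizedAt ℓ)) = (jqModC (ZMod ℓ))⁻¹ := by
  rw [s28v_pi, s28mp_coeffMap_jInv, s28mp_jInv_eq_inv]

theorem s28mp_transcendental_inv (K : Type*) [Field K] : Transcendental K (jqModC K)⁻¹ :=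
  fun h => s28v_jq_transcendental K (IsAlgebraic.inv_iff.mp h)

theorem s28mp_adjoin_inv : ℚ⟮jq⟯ = ℚ⟮jq⁻¹⟯ := by
  apply le_antisymm
  · rw [IntermediateField.adjoin_le_iff, Set.singleton_subset_iff]
    have h := inv_mem (IntermediateField.mem_adjoin_simple_self ℚ (jq⁻¹))
    rwa [inv_inv] at h
  · rw [IntermediateField.adjoin_le_iff, Set.singleton_subset_iff]
    exact inv_mem (IntermediateField.mem_adjoin_simple_self ℚ jq)

/-- **(MP)** for `t = j⁻¹`. -/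
theorem s28mp_jqInv (ℓ : ℕ) [Fact ℓ.Prime] : s28w_stmt_MP ℓ jq⁻¹ := by
  have h := s28mp_of_model ℓ (s28mp_jInv (GaloisRep.ratLocalizedAt ℓ))
    (by rw [s28mp_pi_jInv]; exact s28mp_transcendental_inv (ZMod ℓ))
    (by rw [s28mp_iota_jInv]; exact s28mp_transcendental_inv ℚ)
    (by rw [s28mp_iota_jInv]; exact s28mp_adjoin_inv)
  rwa [s28mp_iota_jInv] at h

end Fermat.Agent.S28

end
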