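import Fermat.Agent.S28.ThetaAnalytic
import Fermat.Agent.S28.CoreDefs

/-!
# S28 (Igusa) / (CG): the theta identity `(θ j)⁶ = j⁴ (j - 1728)³ Δ`  (OWNER: helper1)

`s28cg_main : s28_stmt_CG`, and the same identity over every commutative ring
(`s28cg_main_ring`).
-/

set_option autoImplicit false

open UpperHalfPlane hiding I
open EisensteinSeries ModularForm HahnSeries ModularCurve
open Fermat.Agent.S20 Fermat.Agent.S24
open scoped MatrixGroups ModularForm

noncomputable section

namespace Fermat.Agent.S28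

theorem s28cg_qL_discriminant : qL ModularForm.discriminant = s28_Delta ℂ := by
  unfold qL s28_Delta
  rw [qExpansion_discriminant, map_mul, HahnSeries.ofPowerSeries_X]

theorem s28cg_h2 :
    (1728 : LaurentSeries ℂ) * qL ModularForm.discriminant = qL E₄ ^ 3 - qL E₆ ^ 2 := by
  have h := congrArg (HahnSeries.ofPowerSeries ℤ ℂ) s28cg_P2
  rw [map_mul, map_sub, map_pow, map_pow, map_ofNat] at h
  exact h

theorem s28cg_h3 :
    2 * qL E₄ * s28_theta (qL E₆) - 3 * qL E₆ * s28_theta (qL E₄) =
      -1728 * qL ModularForm.discriminant := by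
  have h := congrArg (HahnSeries.ofPowerSeries ℤ ℂ) s28cg_P3
  rw [map_sub, map_mul, map_mul, map_mul, map_mul, map_mul, map_neg, map_ofNat, map_ofNat,
    map_ofNat, ← s28cg_theta_ofPowerSeries, ← s28cg_theta_ofPowerSeries] at h
  exact h

theorem s28cg_1728_ne_zero : (1728 : LaurentSeries ℂ) ≠ 0 := by
  have h : (1728 : LaurentSeries ℂ) = algebraMap ℂ (LaurentSeries ℂ) 1728 :=
    (map_ofNat _ 1728).symm
  rw [h]
  exact (map_ne_zero _).mpr (by norm_num)

/-- the theta identity over `ℂ`. -/
theorem s28cg_main_complex :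
    (s28_theta (jqModC ℂ)) ^ 6 = (jqModC ℂ) ^ 4 * (jqModC ℂ - 1728) ^ 3 * s28_Delta ℂ := by
  rw [← s28cg_qL_discriminant]
  exact s28cg_core s28_theta s28cg_theta_mul (jqModC ℂ) (qL E₄) (qL E₆)
    (qL ModularForm.discriminant) qL_discriminant_ne_zero s28cg_1728_ne_zero
    jq_mul_qL_discriminant s28cg_h2 s28cg_h3

/-- **(CG)** the theta identity `(θ j)⁶ = j⁴ (j - 1728)³ Δ` in `ℤ⸨q⸩`. -/
theorem s28cg_main : s28_stmt_CG := by
  unfold s28_stmt_CG
  apply s28cg_coeffMap_injective (Int.castRingHom ℂ) Int.cast_injective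
  rw [map_pow, s28cg_coeffMap_theta, map_mul, map_mul, map_pow, map_pow, map_sub,
    coeffMap_jqModC, map_ofNat, s28cg_coeffMap_Delta]
  exact s28cg_main_complex

/-- the theta identity over every commutative ring. -/
theorem s28cg_main_ring (A : Type*) [CommRing A] :
    (s28_theta (jqModC A)) ^ 6 = (jqModC A) ^ 4 * (jqModC A - 1728) ^ 3 * s28_Delta A := by
  have h := congrArg (coeffMap (Int.castRingHom A)) s28cg_main
  rw [map_pow, s28cg_coeffMap_theta, map_mul, map_mul, map_pow, map_pow, map_sub,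
    coeffMap_jqModC, map_ofNat, s28cg_coeffMap_Delta] at h
  exact h

end Fermat.Agent.S28
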