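import Fermat.Agent.S28.TowerInd
import Fermat.Agent.S28.CharZeroMain

/-!
# S28 / glue: (IG) from (C0), (UB), (PR), (VB)  (OWNER: helper4)

OFF-MAIN work for the S28 sprint.

* `s28ar_D_eq_finrank` : the conversion `s28_D k N = finrank k⟮s28_jC k N⟯ κ_N`
  (`relfinrank` inside `k((q))` versus `finrank` over the intermediate field of `κ_N / k`
  generated by `J`);
* `s28ar_UBD : (UB) → (UBD)` (uses `s28c0_main`);
* `s28ar_IG : (UB) → (PR) → (VB) → (IG)`.
-/

set_option autoImplicit false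

namespace Fermat.Agent.S28

open ModularCurve IntermediateField

/-- the image of `k⟮s28_jC k N⟯` in `k((q))` is `k(J)`. -/
theorem s28ar_map_adjoin_jC (k : Type*) [Field k] (N : ℕ) :
    (k⟮s28_jC k N⟯).map (modularFunctionFieldFullC k N).val = s28_kJ k := by
  rw [IntermediateField.adjoin_map, Set.image_singleton]
  rfl

/-- conversion between the two ways of writing the degree `[κ_N : k(J)]`. -/
theorem s28ar_D_eq_finrank (k : Type*) [Field k] (N : ℕ) :
    s28_D k N = Module.finrank k⟮s28_jC k N⟯ ↥(modularFunctionFieldFullC k N) := by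
  unfold s28_D
  rw [← IntermediateField.relfinrank_top_right,
    ← IntermediateField.relfinrank_map_map (k⟮s28_jC k N⟯) ⊤ (modularFunctionFieldFullC k N).val,
    s28ar_map_adjoin_jC, ← AlgHom.fieldRange_eq_map, IntermediateField.fieldRange_val]

/-- **(UBD)** from (UB) and (C0). -/
theorem s28ar_UBD (hUB : s28_stmt_UB) : s28_stmt_UBD := by
  intro ℓ hℓ N hN hℓN
  obtain ⟨hfd, hle⟩ := hUB ℓ N hℓN
  obtain ⟨-, h0⟩ := s28c0_main N
  rw [s28ar_D_eq_finrank]
  refine ⟨?_, hle.trans h0⟩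
  have := hfd
  exact (Module.finrank_pos (R := (ZMod ℓ)⟮s28_jC (ZMod ℓ) N⟯)
    (M := ↥(modularFunctionFieldFullC (ZMod ℓ) N))).ne'

/-- **(IG)** from (UB), (PR), (VB) (and (C0), which is proved). -/
theorem s28ar_IG (hUB : s28_stmt_UB) (hPR : s28_stmt_PR) (hVB : s28_stmt_VB) : s28_stmt_IG := by
  intro ℓ hℓ N hN hℓN
  obtain ⟨hfd, h0⟩ := s28c0_main N
  refine ⟨hfd, h0.trans ?_⟩
  rw [← s28ar_D_eq_finrank]
  exact s28ar_TLz (s28ar_UBD hUB) hPR hVB ℓ N hℓN

end Fermat.Agent.S28
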