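import Fermat.Agent.S28.VLin
import Fermat.Agent.S28.IGGlue

/-!
# S28 / (UB): the degree in characteristic `ℓ` is at most the degree in characteristic `0`
(OWNER: helper4, on top of helper6's valuation core `VRes … VLin`)

OFF-MAIN work for the S28 sprint.

* `s28ub_lift` : every element of `κ_N = 𝔽_ℓ(J_d : d ∣ N)` is the residue `ρ Y` of some
  `Y ∈ 𝒪 ∩ F_N` (`F_N = ℚ(j_d : d ∣ N)`), by induction on the field generated;
* `s28ub_card_le` : an `𝔽_ℓ(J)`-independent family of `κ_N` has at most `[F_N : ℚ(j)]` members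
  (lift it and use helper6's `s28v_lemmaA`);
* `s28ub_main : s28_stmt_UB`.
-/

set_option autoImplicit false

namespace Fermat.Agent.S28

open ModularCurve HahnSeries IntermediateField

/-- constants lift. -/
theorem s28ub_lift_const (ℓ : ℕ) [Fact ℓ.Prime] (N : ℕ) (c : ZMod ℓ) :
    ∃ Y : LaurentSeries ℚ, Y ∈ s28v_O ℓ ∧ Y ∈ modularFunctionFieldFull N ∧
      s28v_rhoFun ℓ Y = algebraMap (ZMod ℓ) (LaurentSeries (ZMod ℓ)) c := by
  obtain ⟨n, rfl⟩ := ZMod.intCast_surjective c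
  refine ⟨s28v_iota ℓ (HahnSeries.C ((n : ℤ) : GaloisRep.ratLocalizedAt ℓ)),
    s28v_iota_mem_O ℓ _, ?_, ?_⟩
  · rw [s28v_iota_C]
    have h : (HahnSeries.C ((((n : ℤ) : GaloisRep.ratLocalizedAt ℓ)) : ℚ) : LaurentSeries ℚ) =
        algebraMap ℚ (LaurentSeries ℚ) ((n : ℤ) : ℚ) := by
      rw [algebraMap_laurentSeries_eq_single, HahnSeries.C_apply]
      congr 1
    rw [h]
    exact IntermediateField.algebraMap_mem _ _
  · rw [s28v_rhoFun_iota, s28v_pi_C, map_intCast, algebraMap_laurentSeries_eq_single,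
      HahnSeries.C_apply]

/-- **lifting**: every element of `κ_N` is the residue of an element of `𝒪 ∩ F_N`. -/
theorem s28ub_lift (ℓ : ℕ) [Fact ℓ.Prime] (N : ℕ) (y : LaurentSeries (ZMod ℓ))
    (hy : y ∈ modularFunctionFieldFullC (ZMod ℓ) N) :
    ∃ Y : LaurentSeries ℚ, Y ∈ s28v_O ℓ ∧ Y ∈ modularFunctionFieldFull N ∧
      s28v_rhoFun ℓ Y = y := by
  unfold modularFunctionFieldFullC at hy
  induction hy using IntermediateField.adjoin_induction with
  | mem x hx =>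
    obtain ⟨d, hne, hd, rfl⟩ := hx
    have := hne
    exact ⟨qExpand ℚ d jq, s28v_jqN_mem_O ℓ d, jqd_mem_full N hd, s28v_rhoFun_jqN ℓ d⟩
  | algebraMap c => exact s28ub_lift_const ℓ N c
  | add x y hx hy ihx ihy =>
    obtain ⟨X, hXO, hXF, rfl⟩ := ihx
    obtain ⟨Y, hYO, hYF, rfl⟩ := ihy
    exact ⟨X + Y, add_mem hXO hYO, add_mem hXF hYF, s28v_rhoFun_add ℓ hXO hYO⟩
  | inv x hx ih =>
    obtain ⟨X, hXO, hXF, rfl⟩ := ih
    by_cases h0 : s28v_rhoFun ℓ X = 0
    · exact ⟨0, zero_mem _, zero_mem _, by rw [h0, inv_zero, s28v_rhoFun_zero]⟩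
    · exact ⟨X⁻¹, s28v_inv_mem_O' ℓ hXO h0, inv_mem hXF, s28v_rhoFun_inv ℓ hXO h0⟩
  | mul x y hx hy ihx ihy =>
    obtain ⟨X, hXO, hXF, rfl⟩ := ihx
    obtain ⟨Y, hYO, hYF, rfl⟩ := ihy
    exact ⟨X * Y, mul_mem hXO hYO, mul_mem hXF hYF, s28v_rhoFun_mul ℓ hXO hYO⟩

/-- elements of `ℚ⟮jFull N⟯` lie in `ℚ(j)` inside `ℚ((q))`. -/
theorem s28ub_coe_mem_adjoin_jq (N : ℕ) [NeZero N] (c : ↥(modularFunctionFieldFull N))
    (hc : c ∈ ℚ⟮IgusaScheme.jFull N⟯) :
    (c : LaurentSeries ℚ) ∈ (ℚ⟮jq⟯ : IntermediateField ℚ (LaurentSeries ℚ)) := by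
  induction hc using IntermediateField.adjoin_induction with
  | mem x hx =>
    rw [Set.mem_singleton_iff] at hx
    subst hx
    exact mem_adjoin_simple_self ℚ jq
  | algebraMap r =>
    have h : ((algebraMap ℚ ↥(modularFunctionFieldFull N) r : ↥(modularFunctionFieldFull N)) :
        LaurentSeries ℚ) = algebraMap ℚ (LaurentSeries ℚ) r :=
      DFunLike.congr_fun (RingHom.ext_rat
        ((modularFunctionFieldFull N).toSubfield.subtype.comp
          (algebraMap ℚ ↥(modularFunctionFieldFull N)))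
        (algebraMap ℚ (LaurentSeries ℚ))) r
    rw [h]
    exact IntermediateField.algebraMap_mem _ _
  | add x y hx hy ihx ihy => exact add_mem ihx ihy
  | inv x hx ih => exact inv_mem ih
  | mul x y hx hy ihx ihy => exact mul_mem ihx ihy

/-- **(UB), family form.** -/
theorem s28ub_card_le (ℓ : ℕ) [Fact ℓ.Prime] (N : ℕ) [NeZero N] {n : ℕ}
    (f : Fin n → ↥(modularFunctionFieldFullC (ZMod ℓ) N))
    (hf : LinearIndependent (ZMod ℓ)⟮s28_jC (ZMod ℓ) N⟯ f) :
    n ≤ Module.finrank ℚ⟮IgusaScheme.jFull N⟯ ↥(modularFunctionFieldFull N) := by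
  classical
  choose Y hYO hYF hYρ using
    fun i => s28ub_lift ℓ N (f i : LaurentSeries (ZMod ℓ)) (f i).2
  set g : Fin n → ↥(modularFunctionFieldFull N) := fun i => ⟨Y i, hYF i⟩ with hg
  have hτ : Transcendental (ZMod ℓ) (s28v_par (ZMod ℓ) (jqModC ℤ)) := by
    rw [s28v_par_jq]
    exact s28v_jq_transcendental _
  have hparQ : s28v_par ℚ (jqModC ℤ) = jq := by
    rw [s28v_par_jq]
    rfl
  have hind : ∀ d : Fin n → LaurentSeries (ZMod ℓ),
      (∀ i, d i ∈ (ZMod ℓ)⟮s28v_par (ZMod ℓ) (jqModC ℤ)⟯) →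
      ∑ i, d i * s28v_rhoFun ℓ (Y i) = 0 → ∀ i, d i = 0 := by
    intro d hd hsum
    have hd' : ∀ i, ∃ e : (ZMod ℓ)⟮s28_jC (ZMod ℓ) N⟯,
        ((e : ↥(modularFunctionFieldFullC (ZMod ℓ) N)) : LaurentSeries (ZMod ℓ)) = d i := by
      intro i
      have h1 := hd i
      rw [s28v_par_jq] at h1
      have h2 : d i ∈ s28_kJ (ZMod ℓ) := h1
      rw [← s28ar_map_adjoin_jC (ZMod ℓ) N] at h2
      obtain ⟨e, he, hed⟩ := h2
      exact ⟨⟨e, he⟩, hed⟩
    choose e he using hd'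
    have h3 : ∑ i, e i • f i = 0 := by
      apply Subtype.ext
      rw [AddSubmonoidClass.coe_finsetSum]
      rw [show ((0 : ↥(modularFunctionFieldFullC (ZMod ℓ) N)) : LaurentSeries (ZMod ℓ)) = 0
        from rfl, ← hsum]
      refine Finset.sum_congr rfl fun i _ => ?_
      rw [hYρ i, ← he i]
      rfl
    have h4 := (Fintype.linearIndependent_iff.mp hf) e h3
    intro i
    rw [← he i, h4 i]
    rfl
  have hgli : LinearIndependent ℚ⟮IgusaScheme.jFull N⟯ g := by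
    rw [Fintype.linearIndependent_iff]
    intro c hc i
    have hcmem : ∀ i, ((c i : ↥(modularFunctionFieldFull N)) : LaurentSeries ℚ) ∈
        ℚ⟮s28v_par ℚ (jqModC ℤ)⟯ := by
      intro i
      rw [hparQ]
      exact s28ub_coe_mem_adjoin_jq N _ (c i).2
    have hsum : ∑ i, ((c i : ↥(modularFunctionFieldFull N)) : LaurentSeries ℚ) * Y i = 0 := by
      have h5 := congrArg (Subtype.val) hc
      rw [AddSubmonoidClass.coe_finsetSum] at h5
      exact h5
    have key := s28v_lemmaA ℓ (jqModC ℤ) hτ Y hYO hind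
      (fun i => ((c i : ↥(modularFunctionFieldFull N)) : LaurentSeries ℚ)) hcmem hsum i
    exact Subtype.ext (Subtype.ext key)
  have : FiniteDimensional ℚ⟮IgusaScheme.jFull N⟯ ↥(modularFunctionFieldFull N) :=
    (s28c0_main N).1
  have h6 := hgli.fintype_card_le_finrank
  rwa [Fintype.card_fin] at h6

/-- **(UB)**. -/
theorem s28ub_main : s28_stmt_UB := by
  intro ℓ hℓ N hN _
  have hrank : Module.rank (ZMod ℓ)⟮s28_jC (ZMod ℓ) N⟯
      ↥(modularFunctionFieldFullC (ZMod ℓ) N) ≤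
      ((Module.finrank ℚ⟮IgusaScheme.jFull N⟯ ↥(modularFunctionFieldFull N) : ℕ) : Cardinal) := by
    apply rank_le
    intro s hs
    have h1 : LinearIndependent (ZMod ℓ)⟮s28_jC (ZMod ℓ) N⟯
        (fun i : Fin s.card =>
          ((s.equivFin.symm i : s) : ↥(modularFunctionFieldFullC (ZMod ℓ) N))) :=
      hs.comp s.equivFin.symm s.equivFin.symm.injective
    exact s28ub_card_le ℓ N _ h1
  refine ⟨?_, Module.finrank_le_of_rank_le hrank⟩
  have : Module.Free (ZMod ℓ)⟮s28_jC (ZMod ℓ) N⟯ ↥(modularFunctionFieldFullC (ZMod ℓ) N) :=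
    Module.Free.of_divisionRing _ _
  rw [FiniteDimensional, ← Module.rank_lt_aleph0_iff]
  exact lt_of_le_of_lt hrank Cardinal.natCast_lt_aleph0

end Fermat.Agent.S28

namespace Fermat.Agent.S28

open ModularCurve

/-- (LIFT) in the exact hypothesis shape of lead's `s28v2_main`. -/
theorem s28ub_lift_V2 (ℓ : ℕ) [Fact ℓ.Prime] (N : ℕ) :
    ∀ z : LaurentSeries (ZMod ℓ), z ∈ modularFunctionFieldFullC (ZMod ℓ) N →
      ∃ y : LaurentSeries ℚ, y ∈ modularFunctionFieldFull N ∧ y ∈ s28v_O ℓ ∧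
        s28v_rhoFun ℓ y = z := by
  intro z hz
  obtain ⟨Y, hYO, hYF, hY⟩ := s28ub_lift ℓ N z hz
  exact ⟨Y, hYF, hYO, hY⟩

end Fermat.Agent.S28
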