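import Fermat.Agent.S28.VBridge
import Fermat.Agent.S28.ChartDefs

/-!
# S28 / valuation core (V2): `𝒪 ∩ F_N` is integral over `A₀ = 𝒪 ∩ ℚ(j)`

Input: `s28_stmt_IG` (Igusa's degree equality).  Output: `s28v_V2 : s28w_stmt_V2 N ℓ`
(helper1's contract form).
-/

set_option autoImplicit false

noncomputable section

namespace Fermat.Agent.S28

open ModularCurve HahnSeries Polynomial IntermediateField

/-- `A₀ = 𝒪 ∩ ℚ(j)` as a subring. -/
def s28v_A0 (ℓ : ℕ) [Fact ℓ.Prime] : Subring (LaurentSeries ℚ) :=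
  s28v_O ℓ ⊓ (ℚ⟮jq⟯).toSubring

theorem s28v_mem_A0_iff (ℓ : ℕ) [Fact ℓ.Prime] (c : LaurentSeries ℚ) :
    c ∈ s28v_A0 ℓ ↔ c ∈ s28v_O ℓ ∧ c ∈ ℚ⟮jq⟯ := Iff.rfl

theorem s28v_A0_coe (ℓ : ℕ) [Fact ℓ.Prime] :
    (s28v_A0 ℓ : Set (LaurentSeries ℚ)) = s28w_A0 ℓ := rfl

theorem s28v_jq_adjoin_le_full (N : ℕ) [NeZero N] : ℚ⟮jq⟯ ≤ modularFunctionFieldFull N := by
  rw [IntermediateField.adjoin_le_iff]
  rintro x rfl
  exact (IgusaScheme.jFull N).2

/-- a basis of `F_N` over `ℚ(j)` inside `𝒪` whose residues are `𝔽_ℓ(J)`-independent. -/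
theorem s28v_exists_coords (hIG : s28_stmt_IG) (ℓ : ℕ) [Fact ℓ.Prime] (N : ℕ) [NeZero N]
    (hℓN : ¬ ℓ ∣ N) :
    ∃ (n : ℕ) (y : Fin n → LaurentSeries ℚ), (∀ i, y i ∈ s28v_O ℓ) ∧
      (∀ i, y i ∈ modularFunctionFieldFull N) ∧
      (∀ d : Fin n → LaurentSeries (ZMod ℓ),
        (∀ i, d i ∈ (ZMod ℓ)⟮s28v_par (ZMod ℓ) (jqModC ℤ)⟯) →
        ∑ i, d i * s28v_rhoFun ℓ (y i) = 0 → ∀ i, d i = 0) ∧
      ∀ x ∈ modularFunctionFieldFull N, ∃ c : Fin n → LaurentSeries ℚ,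
        (∀ i, c i ∈ ℚ⟮s28v_par ℚ (jqModC ℤ)⟯) ∧ x = ∑ i, c i * y i := by
  obtain ⟨hfin, hle⟩ := hIG ℓ N hℓN
  obtain ⟨hfinℓ, hle'⟩ := s28v_UB ℓ N hfin
  have hn := le_antisymm hle' hle
  have hfree : Module.Free (ZMod ℓ)⟮s28_jC (ZMod ℓ) N⟯ ↥(modularFunctionFieldFullC (ZMod ℓ) N) :=
    Module.Free.of_divisionRing _ _
  let b := Module.finBasis (ZMod ℓ)⟮s28_jC (ZMod ℓ) N⟯ ↥(modularFunctionFieldFullC (ZMod ℓ) N)
  have hb : LinearIndependent (ZMod ℓ)⟮s28_jC (ZMod ℓ) N⟯ (fun i => b i) := b.linearIndependent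
  choose y hyO hyF hyρ using fun i => s28v_exists_lift ℓ N (b i).2
  have hli := s28v_lift_linInd ℓ N (fun i => b i) hb y hyO hyF hyρ
  have hspan := hli.span_eq_top_of_card_eq_finrank' (by rw [Fintype.card_fin, hn])
  refine ⟨_, y, hyO, hyF, ?_, ?_⟩
  · intro d hd hsum
    have hz' := (s28v_linInd_iff (modularFunctionFieldFullC (ZMod ℓ) N) (fun _ => rfl)
      (s28_jC (ZMod ℓ) N) (fun i => b i)).mp hb
    refine hz' d ?_ ?_
    · intro i
      have := hd i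
      rw [s28v_par_jq] at this
      exact this
    · rw [← hsum]
      exact Finset.sum_congr rfl fun i _ => by rw [hyρ i]
  · intro x hx
    have hmem : (⟨x, hx⟩ : ↥(modularFunctionFieldFull N)) ∈
        Submodule.span ℚ⟮IgusaScheme.jFull N⟯
          (Set.range fun i => (⟨y i, hyF i⟩ : ↥(modularFunctionFieldFull N))) := by
      rw [hspan]
      exact Submodule.mem_top
    obtain ⟨c, hc⟩ := (Submodule.mem_span_range_iff_exists_fun _).mp hmem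
    refine ⟨fun i => ((c i : ↥(modularFunctionFieldFull N)) : LaurentSeries ℚ), ?_, ?_⟩
    · intro i
      rw [s28v_par_jq_rat]
      exact (s28v_mem_adjoin_coe_iff (modularFunctionFieldFull N) (s28v_compat_rat _)
        (IgusaScheme.jFull N) _).mpr ⟨c i, (c i).2, rfl⟩
    · have := congrArg (Subtype.val : ↥(modularFunctionFieldFull N) → LaurentSeries ℚ) hc
      rw [IntermediateField.coe_sum] at this
      exact this.symm.trans (Finset.sum_congr rfl fun i _ => rfl)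

/-- **(V2)** every element of `𝒪 ∩ F_N` is integral over `A₀ = 𝒪 ∩ ℚ(j)`. -/
theorem s28v_V2 (hIG : s28_stmt_IG) (ℓ : ℕ) [Fact ℓ.Prime] (N : ℕ) [NeZero N]
    (hℓN : ¬ ℓ ∣ N) : s28w_stmt_V2 N ℓ := by
  intro x hxF hxO
  obtain ⟨n, y, hyO, hyF, hind, hspan⟩ := s28v_exists_coords hIG ℓ N hℓN
  rw [← s28v_A0_coe, s28w_isInt_iff]
  -- the subalgebra `𝒪 ∩ F` over `A₀`
  let S : Subalgebra (s28v_A0 ℓ) (LaurentSeries ℚ) :=
    { carrier := {z | z ∈ s28v_O ℓ ∧ z ∈ modularFunctionFieldFull N}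
      mul_mem' := fun ha hb => ⟨(s28v_O ℓ).mul_mem ha.1 hb.1, mul_mem ha.2 hb.2⟩
      one_mem' := ⟨(s28v_O ℓ).one_mem, one_mem _⟩
      add_mem' := fun ha hb => ⟨(s28v_O ℓ).add_mem ha.1 hb.1, add_mem ha.2 hb.2⟩
      zero_mem' := ⟨(s28v_O ℓ).zero_mem, zero_mem _⟩
      algebraMap_mem' := fun a => ⟨a.2.1, s28v_jq_adjoin_le_full N a.2.2⟩ }
  have hS : S.toSubmodule = Submodule.span (s28v_A0 ℓ) (Set.range y) := by
    apply le_antisymm
    · rintro z ⟨hzO, hzF⟩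
      obtain ⟨c, hc, rfl⟩ := hspan z hzF
      have hcO := s28v_lemmaB ℓ (jqModC ℤ) (s28v_hτ_j ℓ) y hyO hind c hc hzO
      refine Submodule.sum_mem _ fun i _ => ?_
      have hci : c i ∈ s28v_A0 ℓ := ⟨hcO i, by
        have := hc i
        rw [s28v_par_jq_rat] at this
        exact this⟩
      have : c i * y i = (⟨c i, hci⟩ : s28v_A0 ℓ) • y i := rfl
      rw [this]
      exact Submodule.smul_mem _ _ (Submodule.subset_span ⟨i, rfl⟩)
    · rw [Submodule.span_le]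
      rintro _ ⟨i, rfl⟩
      exact ⟨hyO i, hyF i⟩
  have hfg : S.toSubmodule.FG := by
    rw [hS]
    exact Submodule.fg_span (Set.finite_range y)
  exact IsIntegral.of_mem_of_fg S hfg x ⟨hxO, hxF⟩

end Fermat.Agent.S28
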