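import Fermat.Agent.S20.CosetIndex

/-!
# S28 / (AR): the arithmetic of the tower induction  (OWNER: helper4)

OFF-MAIN work for the S28 sprint.  Two things:

* the two `ψ` identities in the `M * p` form used by the tower lemma (they are already proved on
  main in `Fermat.Agent.S20.CosetIndex`, in the `p * N` form);
* `s28ar_induction`: the purely arithmetic strong induction of the simplified (TL) plan: if a
  function `D : ℕ → ℕ` (the degrees `[κ_N : k(J)]`) satisfies (UB), (PR), (VB), (DV) on a
  divisor-closed set of levels, then `ψ N ≤ D N` on that set.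
-/

set_option autoImplicit false

namespace Fermat.Agent.S28

open ModularCurve

theorem s28ar_psi_pos (N : ℕ) (hN : N ≠ 0) : 0 < dedekindPsi N := by
  unfold dedekindPsi
  have h1 : (1 : ℕ) ∈ N.divisors.filter Squarefree := by
    simp [hN]
  have h2 : N / 1 ≤ ∑ d ∈ N.divisors with Squarefree d, N / d :=
    Finset.single_le_sum (f := fun d => N / d) (fun _ _ => Nat.zero_le _) h1
  rw [Nat.div_one] at h2
  exact lt_of_lt_of_le (Nat.pos_of_ne_zero hN) h2

theorem s28ar_psi_mul_prime_of_dvd {M p : ℕ} (hp : p.Prime) (hM : M ≠ 0) (h : p ∣ M) :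
    dedekindPsi (M * p) = p * dedekindPsi M := by
  rw [mul_comm M p]
  exact Fermat.Agent.S20.coset_index_psi_mul_of_dvd hp hM h

theorem s28ar_psi_mul_prime_of_not_dvd {M p : ℕ} (hp : p.Prime) (hM : M ≠ 0) (h : ¬ p ∣ M) :
    dedekindPsi (M * p) = (p + 1) * dedekindPsi M := by
  rw [mul_comm M p]
  exact Fermat.Agent.S20.coset_index_psi_mul_of_not_dvd hp hM h

theorem s28ar_psi_prime {p : ℕ} (hp : p.Prime) : dedekindPsi p = p + 1 := by
  have := s28ar_psi_mul_prime_of_not_dvd (M := 1) hp one_ne_zero
    (fun h => hp.one_lt.ne' (Nat.dvd_one.mp h))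
  rwa [one_mul, dedekindPsi_one, mul_one] at this

/-- The arithmetic core of the tower lemma.  `G` is the set of admissible levels (closed under
divisors), `D N` the degree at level `N`.

* (UB) `D M ≤ ψ M`;
* (PR) `p + 1 ≤ D p` for primes;
* (VB) `p * D M ≤ D (M * p)`;
* (DV) `D M ∣ D (M * p)` (tower law).

Then `ψ N ≤ D N` for every admissible `N > 0`. -/
theorem s28ar_induction (G : ℕ → Prop) (hG : ∀ M N : ℕ, M ∣ N → G N → G M) (D : ℕ → ℕ)
    (hD1 : 1 ≤ D 1)
    (hUB : ∀ M : ℕ, 0 < M → G M → D M ≤ dedekindPsi M)
    (hPR : ∀ p : ℕ, p.Prime → G p → p + 1 ≤ D p)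
    (hVB : ∀ M p : ℕ, 0 < M → p.Prime → G (M * p) → p * D M ≤ D (M * p))
    (hDV : ∀ M p : ℕ, 0 < M → p.Prime → G (M * p) → D M ∣ D (M * p)) :
    ∀ N : ℕ, 0 < N → G N → dedekindPsi N ≤ D N := by
  intro N
  induction N using Nat.strong_induction_on with
  | _ N ih =>
    intro hN hGN
    by_cases h1 : N = 1
    · subst h1
      rw [dedekindPsi_one]
      exact hD1
    by_cases hsq : Squarefree N
    · by_cases hpr : N.Prime
      · rw [s28ar_psi_prime hpr]
        exact hPR N hpr hGN
      · -- squarefree, at least two prime factors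
        have hp : (N.minFac).Prime := Nat.minFac_prime h1
        obtain ⟨M, hM⟩ : N.minFac ∣ N := Nat.minFac_dvd N
        set p := N.minFac with hpdef
        have hM0 : M ≠ 0 := by
          rintro rfl
          rw [mul_zero] at hM
          omega
        have hM1 : M ≠ 1 := by
          rintro rfl
          rw [mul_one] at hM
          exact hpr (hM ▸ hp)
        have hp' : (M.minFac).Prime := Nat.minFac_prime hM1
        obtain ⟨K, hK⟩ : M.minFac ∣ M := Nat.minFac_dvd M
        set p' := M.minFac with hp'def
        have hK0 : K ≠ 0 := by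
          rintro rfl
          rw [mul_zero] at hK
          exact hM0 hK
        -- squarefreeness
        have hsqN : Squarefree (p * M) := hM ▸ hsq
        have hcopM : Nat.Coprime p M := (Nat.squarefree_mul_iff.mp hsqN).1
        have hsqM : Squarefree M := (Nat.squarefree_mul_iff.mp hsqN).2.2
        have hsqM' : Squarefree (p' * K) := hK ▸ hsqM
        have hcopK : Nat.Coprime p' K := (Nat.squarefree_mul_iff.mp hsqM').1
        have hpM : ¬ p ∣ M := (Nat.Prime.coprime_iff_not_dvd hp).mp hcopM
        have hp'K : ¬ p' ∣ K := (Nat.Prime.coprime_iff_not_dvd hp').mp hcopK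
        have hpK : ¬ p ∣ K := fun h => hpM (hK ▸ h.mul_left p')
        have hpp' : p ≠ p' := by
          intro h
          exact hpM (h ▸ (hK ▸ dvd_mul_right p' K))
        have hp'N : p' ∣ N := by
          rw [hM, hK]
          exact (dvd_mul_right p' K).mul_left p
        have hle : p ≤ p' := Nat.minFac_le_of_dvd hp'.two_le hp'N
        have hlt : p < p' := lt_of_le_of_ne hle hpp'
        have hp'pK : ¬ p' ∣ K * p := by
          intro h
          rcases (Nat.Prime.dvd_mul hp').mp h with h | h
          · exact hp'K h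
          · exact hpp' ((Nat.prime_dvd_prime_iff_eq hp' hp).mp h).symm
        -- the levels
        have hNM : N = M * p := by rw [hM, mul_comm]
        have hNK : N = (K * p) * p' := by rw [hM, hK]; ring
        have hMK : M = K * p' := by rw [hK, mul_comm]
        have hKp0 : K * p ≠ 0 := mul_ne_zero hK0 hp.ne_zero
        have hGM : G M := hG M N ⟨p, hNM⟩ hGN
        have hGKp : G (K * p) := hG (K * p) N ⟨p', hNK⟩ hGN
        have hMltN : M < N := by
          rw [hNM]
          simpa using Nat.mul_lt_mul_of_pos_left hp.one_lt (Nat.pos_of_ne_zero hM0)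
        have hKpltN : K * p < N := by
          rw [hNK]
          simpa using Nat.mul_lt_mul_of_pos_left hp'.one_lt (Nat.pos_of_ne_zero hKp0)
        -- ψ values
        have hψK : 0 < dedekindPsi K := s28ar_psi_pos K hK0
        have hψM : dedekindPsi M = (p' + 1) * dedekindPsi K := by
          rw [hMK]
          exact s28ar_psi_mul_prime_of_not_dvd hp' hK0 hp'K
        have hψKp : dedekindPsi (K * p) = (p + 1) * dedekindPsi K :=
          s28ar_psi_mul_prime_of_not_dvd hp hK0 hpK
        have hψN : dedekindPsi N = (p + 1) * ((p' + 1) * dedekindPsi K) := by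
          rw [hNM, s28ar_psi_mul_prime_of_not_dvd hp hM0 hpM, hψM]
        -- degrees
        have hDM : D M = (p' + 1) * dedekindPsi K :=
          le_antisymm (hψM ▸ hUB M (Nat.pos_of_ne_zero hM0) hGM)
            (hψM ▸ ih M hMltN (Nat.pos_of_ne_zero hM0) hGM)
        have hDKp : (p + 1) * dedekindPsi K ≤ D (K * p) :=
          hψKp ▸ ih (K * p) hKpltN (Nat.pos_of_ne_zero hKp0) hGKp
        obtain ⟨c, hc⟩ : D M ∣ D (M * p) :=
          hDV M p (Nat.pos_of_ne_zero hM0) hp (hNM ▸ hGN)
        have hvb : p' * D (K * p) ≤ D ((K * p) * p') :=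
          hVB (K * p) p' (Nat.pos_of_ne_zero hKp0) hp' (hNK ▸ hGN)
        rw [← hNM] at hc
        rw [← hNK] at hvb
        rw [hψN, hc, hDM]
        -- `p' (p+1) ψK ≤ (p'+1) ψK c`
        have hkey : p' * ((p + 1) * dedekindPsi K) ≤ (p' + 1) * dedekindPsi K * c := by
          calc p' * ((p + 1) * dedekindPsi K) ≤ p' * D (K * p) := Nat.mul_le_mul_left _ hDKp
            _ ≤ D N := hvb
            _ = (p' + 1) * dedekindPsi K * c := by rw [hc, hDM]
        have hc' : p + 1 ≤ c := by
          by_contra hcon
          have hcp : c ≤ p := by omega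
          have h3 : (p' + 1) * dedekindPsi K * c ≤ (p' + 1) * dedekindPsi K * p :=
            Nat.mul_le_mul_left _ hcp
          have h4 : (p' + 1) * dedekindPsi K * p < p' * ((p + 1) * dedekindPsi K) := by
            have : (p' + 1) * p < p' * (p + 1) := by nlinarith
            calc (p' + 1) * dedekindPsi K * p = ((p' + 1) * p) * dedekindPsi K := by ring
              _ < (p' * (p + 1)) * dedekindPsi K := Nat.mul_lt_mul_of_pos_right this hψK
              _ = p' * ((p + 1) * dedekindPsi K) := by ring
          omega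
        calc (p + 1) * ((p' + 1) * dedekindPsi K) = (p' + 1) * dedekindPsi K * (p + 1) := by ring
          _ ≤ (p' + 1) * dedekindPsi K * c := Nat.mul_le_mul_left _ hc'
    · -- not squarefree
      rw [Nat.squarefree_iff_prime_squarefree] at hsq
      push Not at hsq
      obtain ⟨q, hq, R, hR⟩ := hsq
      have hR0 : R ≠ 0 := by
        rintro rfl
        rw [mul_zero] at hR
        omega
      have hM0 : q * R ≠ 0 := mul_ne_zero hq.ne_zero hR0
      have hNM : N = (q * R) * q := by rw [hR]; ring
      have hGM : G (q * R) := hG (q * R) N ⟨q, hNM⟩ hGN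
      have hlt : q * R < N := by
        rw [hNM]
        simpa using Nat.mul_lt_mul_of_pos_left hq.one_lt (Nat.pos_of_ne_zero hM0)
      have hih := ih (q * R) hlt (Nat.pos_of_ne_zero hM0) hGM
      have hvb := hVB (q * R) q (Nat.pos_of_ne_zero hM0) hq (hNM ▸ hGN)
      rw [← hNM] at hvb
      calc dedekindPsi N = q * dedekindPsi (q * R) := by
            rw [hNM]
            exact s28ar_psi_mul_prime_of_dvd hq hM0 (dvd_mul_right q R)
        _ ≤ q * D (q * R) := Nat.mul_le_mul_left _ hih
        _ ≤ D N := hvb

end Fermat.Agent.S28
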