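import Fermat.Agent.S28.CADefs

/-!
# S28 / (CA-2a): the action of `S` and `T` on the points `p τ`, `(τ + b) / p`  (helper2)
-/

set_option autoImplicit false

namespace Fermat.Agent.S28

open UpperHalfPlane Polynomial
open scoped MatrixGroups ModularForm Manifold
open Fermat.Agent.S24

variable (p : ℕ) [NeZero p]

lemma s28ca_p_ne_zero : (p : ℂ) ≠ 0 := by exact_mod_cast NeZero.ne p

lemma s28ca_pt_T (b : ℤ) (τ : ℍ) :
    s28ca_pt p b (ModularGroup.T • τ) = s28ca_pt p (b + 1) τ := by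
  apply UpperHalfPlane.ext
  rw [s28ca_coe_pt, s28ca_coe_pt, modular_T_smul, coe_vadd]
  push_cast
  ring

lemma s28ca_pt_add_mul (b n : ℤ) (τ : ℍ) :
    s28ca_pt p (b + n * p) τ = ModularGroup.T ^ n • s28ca_pt p b τ := by
  have hp := s28ca_p_ne_zero p
  apply UpperHalfPlane.ext
  rw [modular_T_zpow_smul, coe_vadd, s28ca_coe_pt, s28ca_coe_pt]
  push_cast
  field_simp
  ring

/-- `jf ((τ + b) / p)` only depends on `b` modulo `p`. -/
lemma s28ca_jf_pt_congr {b b' : ℤ} (h : (p : ℤ) ∣ b' - b) (τ : ℍ) :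
    jf (s28ca_pt p b' τ) = jf (s28ca_pt p b τ) := by
  obtain ⟨n, hn⟩ := h
  have h1 : b' = b + n * p := by linarith
  rw [h1, s28ca_pt_add_mul, jf_smul]

lemma s28ca_dmul_T (τ : ℍ) :
    dmul p (ModularGroup.T • τ) = ModularGroup.T ^ (p : ℤ) • dmul p τ := by
  apply UpperHalfPlane.ext
  rw [modular_T_zpow_smul, coe_vadd, coe_dmul, coe_dmul, modular_T_smul, coe_vadd]
  push_cast
  ring

lemma s28ca_coe_S_smul (τ : ℍ) : ((ModularGroup.S • τ : ℍ) : ℂ) = (-(τ : ℂ))⁻¹ := by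
  rw [modular_S_smul]

lemma s28ca_dmul_S (τ : ℍ) :
    dmul p (ModularGroup.S • τ) = ModularGroup.S • s28ca_pt p 0 τ := by
  have hp := s28ca_p_ne_zero p
  have hτ : (τ : ℂ) ≠ 0 := ne_zero τ
  apply UpperHalfPlane.ext
  rw [coe_dmul, s28ca_coe_S_smul, s28ca_coe_S_smul, s28ca_coe_pt]
  push_cast
  rw [add_zero]
  field_simp

lemma s28ca_pt_zero_S (τ : ℍ) :
    s28ca_pt p 0 (ModularGroup.S • τ) = ModularGroup.S • dmul p τ := by
  have hp := s28ca_p_ne_zero p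
  have hτ : (τ : ℂ) ≠ 0 := ne_zero τ
  apply UpperHalfPlane.ext
  rw [s28ca_coe_pt, s28ca_coe_S_smul, s28ca_coe_S_smul, coe_dmul]
  push_cast
  rw [add_zero]
  field_simp

/-- The matrix `[b, -c; p, -b']` of determinant `b b' + 1 - ... = 1` when `b b' + 1 = p c`. -/
def s28ca_gam (b b' c : ℤ) (h : b * b' + 1 = p * c) : SL(2, ℤ) :=
  ⟨!![b, -c; (p : ℤ), -b'], by
    rw [Matrix.det_fin_two_of]
    linarith⟩

lemma s28ca_pt_S (b b' c : ℤ) (h : b * b' + 1 = p * c) (τ : ℍ) :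
    s28ca_pt p b (ModularGroup.S • τ) = s28ca_gam p b b' c h • s28ca_pt p b' τ := by
  have hp := s28ca_p_ne_zero p
  have hτ : (τ : ℂ) ≠ 0 := ne_zero τ
  have hc : ((b : ℂ) * b' + 1 = p * c) := by exact_mod_cast h
  apply UpperHalfPlane.ext
  rw [coe_specialLinearGroup_apply, s28ca_coe_pt, s28ca_coe_S_smul, s28ca_coe_pt]
  simp only [s28ca_gam, Matrix.of_apply, Matrix.cons_val', Matrix.cons_val_zero,
    Matrix.cons_val_one, Matrix.empty_val', Matrix.cons_val_fin_one, algebraMap_int_eq,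
    Int.coe_castRingHom, Int.cast_neg, Int.cast_natCast]
  push_cast
  have hden : (p : ℂ) * (((τ : ℂ) + b') / p) + -(b' : ℂ) = τ := by
    field_simp
    ring
  rw [hden]
  field_simp
  linear_combination (-1 : ℂ) * hc

lemma s28ca_jf_pt_S (b b' : ℤ) (h : (p : ℤ) ∣ b * b' + 1) (τ : ℍ) :
    jf (s28ca_pt p b (ModularGroup.S • τ)) = jf (s28ca_pt p b' τ) := by
  obtain ⟨c, hc⟩ := h
  rw [s28ca_pt_S p b b' c hc, jf_smul]

lemma s28ca_jf_dmul_T (τ : ℍ) : jf (dmul p (ModularGroup.T • τ)) = jf (dmul p τ) := by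
  rw [s28ca_dmul_T, jf_smul]

lemma s28ca_jf_dmul_S (τ : ℍ) : jf (dmul p (ModularGroup.S • τ)) = jf (s28ca_pt p 0 τ) := by
  rw [s28ca_dmul_S, jf_smul]

lemma s28ca_jf_pt_zero_S (τ : ℍ) : jf (s28ca_pt p 0 (ModularGroup.S • τ)) = jf (dmul p τ) := by
  rw [s28ca_pt_zero_S, jf_smul]

end Fermat.Agent.S28
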