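import Fermat.Agent.S24.JFun
import Fermat.Agent.S24.AnDefs
import Fermat.Agent.S28.CADefs

/-!
# S28 / (CB): the `p + 1` conjugates of `p ^ 12 Δ(p τ) / Δ(τ)`  (helper7)

* `s28cb_psi p b τ = Δ((τ + b) / p) / Δ(τ)` (`b : ℤ`, depends only on `b mod p`);
* `s28cb_phiInf p τ = p ^ 12 Δ(p τ) / Δ(τ)`;
* `s28cb_phi p : Option (ZMod p) → ℍ → ℂ`, the family indexed by `ℙ¹(𝔽_p)`;
* `s28cb_poly p τ = ∏ i, (X - C (s28cb_phi p i τ))`;
* the family is permuted by `S` and `T`, hence `s28cb_poly` is `SL₂(ℤ)`-invariant.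
-/

set_option autoImplicit false

namespace Fermat.Agent.S28

open UpperHalfPlane Polynomial
open Fermat.Agent.S24
open scoped MatrixGroups

/-- `Δ` transforms with weight `12` under an integral Möbius transformation of determinant `1`,
stated without matrices. -/
theorem s28cb_delta_moebius (a b c d : ℤ) (h : a * d - b * c = 1) (z w : ℍ)
    (hw : (w : ℂ) * ((c : ℂ) * z + d) = (a : ℂ) * z + b) :
    ModularForm.discriminant w = ((c : ℂ) * z + d) ^ 12 * ModularForm.discriminant z := by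
  let γ : SL(2, ℤ) := ⟨!![a, b; c, d], by rw [Matrix.det_fin_two_of]; exact h⟩
  have e00 : (γ : Matrix (Fin 2) (Fin 2) ℤ) 0 0 = a := rfl
  have e01 : (γ : Matrix (Fin 2) (Fin 2) ℤ) 0 1 = b := rfl
  have e10 : (γ : Matrix (Fin 2) (Fin 2) ℤ) 1 0 = c := rfl
  have e11 : (γ : Matrix (Fin 2) (Fin 2) ℤ) 1 1 = d := rfl
  have hden : denom γ z = (c : ℂ) * z + d := by
    rw [ModularGroup.denom_apply, e10, e11]
  have hne : (c : ℂ) * z + d ≠ 0 := by
    rw [← hden]; exact denom_ne_zero _ z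
  have hγ : γ • z = w := by
    apply UpperHalfPlane.ext
    rw [UpperHalfPlane.coe_specialLinearGroup_apply, e00, e01, e10, e11]
    rw [div_eq_iff]
    · simpa using hw.symm
    · simpa using hne
  rw [← hγ, jf_delta_smul, hden]
  norm_cast

/-- `Δ(z + k) = Δ(z)`. -/
theorem s28cb_delta_translate (k : ℤ) (z w : ℍ) (hw : (w : ℂ) = z + k) :
    ModularForm.discriminant w = ModularForm.discriminant z := by
  have h := s28cb_delta_moebius 1 k 0 1 (by ring) z w (by rw [hw]; push_cast; ring)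
  rw [h]
  push_cast
  ring

/-- `Δ(-1/z) = z ^ 12 Δ(z)`. -/
theorem s28cb_delta_invert (z w : ℍ) (hw : (w : ℂ) * z = -1) :
    ModularForm.discriminant w = (z : ℂ) ^ 12 * ModularForm.discriminant z := by
  have h := s28cb_delta_moebius 0 (-1) 1 0 (by ring) z w (by push_cast; rw [← hw]; ring)
  rw [h]
  push_cast
  ring

theorem s28cb_coe_T_smul (τ : ℍ) : ((ModularGroup.T • τ : ℍ) : ℂ) = τ + 1 := by
  rw [UpperHalfPlane.modular_T_smul, UpperHalfPlane.coe_vadd]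
  push_cast
  ring

theorem s28cb_coe_S_smul (τ : ℍ) : ((ModularGroup.S • τ : ℍ) : ℂ) * τ = -1 := by
  rw [UpperHalfPlane.modular_S_smul]
  have hτ : (τ : ℂ) ≠ 0 := ne_zero τ
  show (-(τ : ℂ))⁻¹ * τ = -1
  field_simp

/-- `Δ((τ + b) / p) / Δ(τ)`. -/
noncomputable def s28cb_psi (p : ℕ) [NeZero p] (b : ℤ) (τ : ℍ) : ℂ :=
  ModularForm.discriminant (s28ca_pt p b τ) / ModularForm.discriminant τ

/-- `p ^ 12 Δ(p τ) / Δ(τ)`. -/
noncomputable def s28cb_phiInf (p : ℕ) [NeZero p] (τ : ℍ) : ℂ :=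
  (p : ℂ) ^ 12 * ModularForm.discriminant (dmul p τ) / ModularForm.discriminant τ

/-- The `p + 1` conjugates of `p ^ 12 Δ(p τ) / Δ(τ)`, indexed by `ℙ¹(𝔽_p)`. -/
noncomputable def s28cb_phi (p : ℕ) [NeZero p] : Option (ZMod p) → ℍ → ℂ
  | none => s28cb_phiInf p
  | some b => s28cb_psi p ((b.val : ℕ) : ℤ)

/-- The polynomial `∏ i, (X - φ_i(τ))`. -/
noncomputable def s28cb_poly (p : ℕ) [NeZero p] (τ : ℍ) : Polynomial ℂ :=
  ∏ i : Option (ZMod p), (X - C (s28cb_phi p i τ))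

end Fermat.Agent.S28
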