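import Fermat.Agent.S28.CBInv
import Fermat.Agent.S28.CAFormal
import Fermat.Agent.S28.CATri

/-!
# S28 / (CB): the formal part  (helper7)

`s28cb_formal`: if every coefficient of `∏ i, (Y - A_i)` (`A_i` the expansions of the `p + 1`
conjugates of `p ^ 12 Δ(p τ) / Δ(τ)` in `s = q^{1/p}`) is a polynomial in `j(s^p)`, then
`u = p ^ 12 Δ(s^p) / Δ(s)` is a root of a monic polynomial over `ℤ[j]`.  Uses (F) (helper2) and
the triangular lemma (helper2).
-/

set_option autoImplicit false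

noncomputable section

namespace Fermat.Agent.S28

open ModularCurve Polynomial

variable (p : ℕ) [NeZero p]

/-- `x = Δ(s) / Δ(s^p) ∈ ℤ⸨s⸩`. -/
def s28cb_x : LaurentSeries ℤ := s28_Delta ℤ * qExpand ℤ p (s28_DeltaInv ℤ)

/-- `u = p ^ 12 Δ(s^p) / Δ(s) ∈ ℤ⸨s⸩`. -/
def s28cb_u : LaurentSeries ℤ :=
  (p : LaurentSeries ℤ) ^ 12 * qExpand ℤ p (s28_Delta ℤ) * s28_DeltaInv ℤ

/-- the expansions (in `s = q^{1/p}`) of the `p + 1` conjugates. -/
def s28cb_A (ζ : ℂˣ) : Option (ZMod p) → LaurentSeries ℂ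
  | none => qExpand ℂ p (coeffMap (Int.castRingHom ℂ) (s28cb_u p))
  | some b => s28_scale (ζ ^ (b.val : ℕ)) (coeffMap (Int.castRingHom ℂ) (s28cb_x p))

theorem s28cb_prod_zmod {M : Type*} [CommMonoid M] (f : ℕ → M) :
    ∏ b : ZMod p, f b.val = ∏ b ∈ Finset.range p, f b := by
  refine Finset.prod_nbij' (fun b => b.val) (fun n => (n : ZMod p)) ?_ ?_ ?_ ?_ ?_
  · intro b _
    exact Finset.mem_range.mpr (ZMod.val_lt b)
  · intro n _
    exact Finset.mem_univ _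
  · intro b _
    exact ZMod.natCast_zmod_val b
  · intro n hn
    exact ZMod.val_natCast_of_lt (Finset.mem_range.mp hn)
  · intro b _
    rfl

theorem s28cb_prod_A (ζ : ℂˣ) (hζ : IsPrimitiveRoot (ζ : ℂ) p) :
    ∃ Ψ : Polynomial (LaurentSeries ℤ), Ψ.Monic ∧ Ψ.natDegree = p + 1 ∧
      Ψ.eval (s28cb_u p) = 0 ∧
      ∏ i : Option (ZMod p), (X - C (s28cb_A p ζ i)) =
        Ψ.map ((qExpand ℂ p).comp (coeffMap (Int.castRingHom ℂ))) := by
  obtain ⟨Ψ, hm, hdeg, -, hprod⟩ := s28ca_F p ζ hζ (s28cb_x p)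
  refine ⟨(X - C (s28cb_u p)) * Ψ, (monic_X_sub_C _).mul hm, ?_, ?_, ?_⟩
  · rw [((monic_X_sub_C (s28cb_u p)).natDegree_mul hm), natDegree_X_sub_C, hdeg, add_comm]
  · rw [eval_mul, eval_sub, eval_X, eval_C, sub_self, zero_mul]
  · rw [Fintype.prod_option, Polynomial.map_mul, Polynomial.map_sub, Polynomial.map_X,
      Polynomial.map_C, ← hprod]
    congr 1
    exact s28cb_prod_zmod p
      (fun b => X - C (s28_scale (ζ ^ b) (coeffMap (Int.castRingHom ℂ) (s28cb_x p))))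

/-- **formal part of (CB)**: if the coefficients of `∏ (Y - A_i)` are polynomials in `j(s^p)`,
then `u` is integral over `ℤ[j]`. -/
theorem s28cb_formal (ζ : ℂˣ) (hζ : IsPrimitiveRoot (ζ : ℂ) p)
    (h : ∀ k : ℕ, ∃ P : Polynomial ℂ,
      qExpand ℂ p (Polynomial.eval₂ (HahnSeries.C : ℂ →+* LaurentSeries ℂ) (jqModC ℂ) P) =
        (∏ i : Option (ZMod p), (X - C (s28cb_A p ζ i))).coeff k) :
    ∃ U : Polynomial (Polynomial ℤ), U.Monic ∧
      (U.map (s28_evalAt (jqModC ℤ))).eval (s28cb_u p) = 0 := by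
  obtain ⟨Ψ, hm, hdeg, hroot, hprod⟩ := s28cb_prod_A p ζ hζ
  have hQ : ∀ k : ℕ, ∃ Q : Polynomial ℤ, s28_evalAt (jqModC ℤ) Q = Ψ.coeff k := by
    intro k
    obtain ⟨P, hP⟩ := h k
    rw [hprod, Polynomial.coeff_map, RingHom.comp_apply] at hP
    have h1 := qExpand_injective (R := ℂ) p hP
    obtain ⟨Q, -, hQ⟩ := s28ca_tri P (Ψ.coeff k) h1
    exact ⟨Q, hQ⟩
  choose Q hQ using hQ
  set V : Polynomial (Polynomial ℤ) :=
    ∑ k ∈ Finset.range (p + 1), C (Q k) * X ^ k with hV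
  have hVdeg : V.degree < ((p + 1 : ℕ) : WithBot ℕ) := by
    rw [hV]
    refine lt_of_le_of_lt (Polynomial.degree_sum_le _ _) ?_
    rw [Finset.sup_lt_iff (WithBot.bot_lt_coe _)]
    intro k hk
    refine lt_of_le_of_lt (Polynomial.degree_C_mul_X_pow_le _ _) ?_
    exact_mod_cast Finset.mem_range.mp hk
  refine ⟨X ^ (p + 1) + V, Polynomial.monic_X_pow_add hVdeg, ?_⟩
  have hmap : (X ^ (p + 1) + V).map (s28_evalAt (jqModC ℤ)) = Ψ := by
    rw [Polynomial.map_add, Polynomial.map_pow, Polynomial.map_X, hV, Polynomial.map_sum]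
    conv_rhs => rw [hm.as_sum, hdeg]
    congr 1
    refine Finset.sum_congr rfl fun k _ => ?_
    rw [Polynomial.map_mul, Polynomial.map_C, Polynomial.map_pow, Polynomial.map_X, hQ]
  rw [hmap, hroot]

end Fermat.Agent.S28
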