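import Fermat.Agent.S28.CBDefs

/-!
# S28 / (CB): the conjugates of `p ^ 12 Δ(p τ) / Δ(τ)` are permuted by `SL₂(ℤ)`  (helper7)
-/

set_option autoImplicit false

namespace Fermat.Agent.S28

open UpperHalfPlane Polynomial
open Fermat.Agent.S24
open scoped MatrixGroups

section

variable (p : ℕ) [NeZero p]

theorem s28cb_pcast_ne_zero : (p : ℂ) ≠ 0 := by exact_mod_cast NeZero.ne p

theorem s28cb_psi_add_mul (b k : ℤ) (τ : ℍ) :
    s28cb_psi p (b + p * k) τ = s28cb_psi p b τ := by
  have hp := s28cb_pcast_ne_zero p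
  have h : ModularForm.discriminant (s28ca_pt p (b + p * k) τ) =
      ModularForm.discriminant (s28ca_pt p b τ) := by
    refine s28cb_delta_translate k _ _ ?_
    rw [s28ca_coe_pt, s28ca_coe_pt]
    push_cast
    field_simp
    ring
  rw [s28cb_psi, s28cb_psi, h]

theorem s28cb_psi_congr {b b' : ℤ} (h : (b : ZMod p) = (b' : ZMod p)) (τ : ℍ) :
    s28cb_psi p b τ = s28cb_psi p b' τ := by
  obtain ⟨k, hk⟩ := (ZMod.intCast_eq_intCast_iff_dvd_sub b b' p).mp h
  have : b' = b + p * k := by linarith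
  rw [this, s28cb_psi_add_mul]

theorem s28cb_phi_some_intCast (β : ℤ) (τ : ℍ) :
    s28cb_phi p (some (β : ZMod p)) τ = s28cb_psi p β τ := by
  show s28cb_psi p (((β : ZMod p).val : ℕ) : ℤ) τ = _
  refine s28cb_psi_congr p ?_ τ
  rw [Int.cast_natCast, ZMod.natCast_zmod_val]

theorem s28cb_phi_some (b : ZMod p) (τ : ℍ) :
    s28cb_phi p (some b) τ = s28cb_psi p ((b.val : ℕ) : ℤ) τ := rfl

theorem s28cb_phi_none (τ : ℍ) : s28cb_phi p none τ = s28cb_phiInf p τ := rfl

/-! ### The action of `T` -/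

/-- the permutation of `ℙ¹(𝔽_p)` induced by `T`. -/
def s28cb_sigmaT : Option (ZMod p) → Option (ZMod p)
  | none => none
  | some b => some (b + 1)

omit [NeZero p] in
theorem s28cb_sigmaT_bijective : Function.Bijective (s28cb_sigmaT p) := by
  refine Function.bijective_iff_has_inverse.mpr
    ⟨fun i => match i with | none => none | some b => some (b - 1), ?_, ?_⟩
  · rintro (_ | b)
    · rfl
    · show some (b + 1 - 1) = some b
      rw [add_sub_cancel_right]
  · rintro (_ | b)
    · rfl
    · show some (b - 1 + 1) = some b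
      rw [sub_add_cancel]

theorem s28cb_phi_T (i : Option (ZMod p)) (τ : ℍ) :
    s28cb_phi p i (ModularGroup.T • τ) = s28cb_phi p (s28cb_sigmaT p i) τ := by
  have hp := s28cb_pcast_ne_zero p
  have hT : ModularForm.discriminant (ModularGroup.T • τ) = ModularForm.discriminant τ :=
    s28cb_delta_translate 1 _ _ (by rw [s28cb_coe_T_smul]; push_cast; ring)
  rcases i with _ | b
  · show s28cb_phiInf p _ = s28cb_phiInf p _
    have h1 : ModularForm.discriminant (dmul p (ModularGroup.T • τ)) =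
        ModularForm.discriminant (dmul p τ) := by
      refine s28cb_delta_translate p _ _ ?_
      rw [coe_dmul, coe_dmul, s28cb_coe_T_smul]
      push_cast
      ring
    rw [s28cb_phiInf, s28cb_phiInf, hT, h1]
  · show s28cb_phi p (some b) _ = s28cb_phi p (some (b + 1)) τ
    have hb : (b + 1 : ZMod p) = (((((b.val : ℕ) : ℤ) + 1 : ℤ) : ℤ) : ZMod p) := by
      push_cast
      rw [ZMod.natCast_zmod_val]
    have h1 : s28ca_pt p ((b.val : ℕ) : ℤ) (ModularGroup.T • τ) =
        s28ca_pt p (((b.val : ℕ) : ℤ) + 1) τ := by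
      apply UpperHalfPlane.ext
      rw [s28ca_coe_pt, s28ca_coe_pt, s28cb_coe_T_smul]
      push_cast
      ring
    rw [hb, s28cb_phi_some_intCast, s28cb_phi_some, s28cb_psi, s28cb_psi, hT, h1]


/-! ### The action of `S` -/

/-- the permutation of `ℙ¹(𝔽_p)` induced by `S`. -/
noncomputable def s28cb_sigmaS : Option (ZMod p) → Option (ZMod p)
  | none => some 0
  | some b => if b = 0 then none else some (-b⁻¹)

omit [NeZero p] in
theorem s28cb_sigmaS_involutive (hp : p.Prime) : Function.Involutive (s28cb_sigmaS p) := by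
  have : Fact p.Prime := ⟨hp⟩
  rintro (_ | b)
  · show s28cb_sigmaS p (some 0) = none
    simp [s28cb_sigmaS]
  · by_cases hb : b = 0
    · subst hb
      simp [s28cb_sigmaS]
    · have h1 : s28cb_sigmaS p (some b) = some (-b⁻¹) := by simp [s28cb_sigmaS, hb]
      have h2 : (-b⁻¹ : ZMod p) ≠ 0 := neg_ne_zero.mpr (inv_ne_zero hb)
      rw [h1]
      show (if (-b⁻¹ : ZMod p) = 0 then none else some (-(-b⁻¹)⁻¹)) = some b
      rw [if_neg h2, inv_neg, neg_neg, inv_inv]

theorem s28cb_phi_S (hp : p.Prime) (i : Option (ZMod p)) (τ : ℍ) :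
    s28cb_phi p i (ModularGroup.S • τ) = s28cb_phi p (s28cb_sigmaS p i) τ := by
  have : Fact p.Prime := ⟨hp⟩
  have hpc := s28cb_pcast_ne_zero p
  have hτ : (τ : ℂ) ≠ 0 := ne_zero τ
  have hΔ := ModularForm.discriminant_ne_zero τ
  have hSτ := s28cb_coe_S_smul τ
  have hS : ModularForm.discriminant (ModularGroup.S • τ) =
      (τ : ℂ) ^ 12 * ModularForm.discriminant τ :=
    s28cb_delta_invert _ _ hSτ
  have hSτ' : ((ModularGroup.S • τ : ℍ) : ℂ) = -1 / τ := by
    rw [eq_div_iff hτ, hSτ]
  have h00 : ((0 : ℤ) : ZMod p) = 0 := Int.cast_zero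
  rcases i with _ | b
  · -- `∞ ↦ 0`
    show s28cb_phiInf p _ = s28cb_phi p (some 0) τ
    rw [← h00, s28cb_phi_some_intCast, s28cb_phiInf, s28cb_psi, hS]
    have h1 : ModularForm.discriminant (dmul p (ModularGroup.S • τ)) =
        ((s28ca_pt p 0 τ : ℍ) : ℂ) ^ 12 * ModularForm.discriminant (s28ca_pt p 0 τ) := by
      refine s28cb_delta_invert _ _ ?_
      rw [coe_dmul, s28ca_coe_pt, hSτ']
      push_cast
      field_simp
      ring
    rw [h1, s28ca_coe_pt]
    push_cast
    field_simp
    ring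
  · by_cases hb : b = 0
    · -- `0 ↦ ∞`
      subst hb
      have h0 : s28cb_sigmaS p (some 0) = none := by simp [s28cb_sigmaS]
      rw [h0]
      show s28cb_phi p (some 0) _ = s28cb_phiInf p τ
      rw [← h00, s28cb_phi_some_intCast, s28cb_phiInf, s28cb_psi, hS]
      have h1 : ModularForm.discriminant (s28ca_pt p 0 (ModularGroup.S • τ)) =
          ((dmul p τ : ℍ) : ℂ) ^ 12 * ModularForm.discriminant (dmul p τ) := by
        refine s28cb_delta_invert _ _ ?_
        rw [coe_dmul, s28ca_coe_pt, hSτ']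
        push_cast
        field_simp
        ring
      rw [h1, coe_dmul]
      field_simp
    · -- `b ↦ -1/b`
      have h1 : s28cb_sigmaS p (some b) = some (-b⁻¹) := by simp [s28cb_sigmaS, hb]
      rw [h1]
      set β : ℤ := ((b.val : ℕ) : ℤ) with hβ
      set β' : ℤ := (((-b⁻¹ : ZMod p).val : ℕ) : ℤ) with hβ'
      have hβc : ((β : ℤ) : ZMod p) = b := by
        rw [hβ, Int.cast_natCast, ZMod.natCast_zmod_val]
      have hβ'c : ((β' : ℤ) : ZMod p) = -b⁻¹ := by
        rw [hβ', Int.cast_natCast, ZMod.natCast_zmod_val]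
      have hdvd : (p : ℤ) ∣ β * β' + 1 := by
        rw [← ZMod.intCast_zmod_eq_zero_iff_dvd]
        push_cast
        rw [hβc, hβ'c]
        field_simp
        ring
      obtain ⟨c, hc⟩ := hdvd
      show s28cb_psi p β _ = s28cb_psi p β' τ
      rw [s28cb_psi, s28cb_psi, hS]
      have h2 : ModularForm.discriminant (s28ca_pt p β (ModularGroup.S • τ)) =
          (τ : ℂ) ^ 12 * ModularForm.discriminant (s28ca_pt p β' τ) := by
        have hcC : (β : ℂ) * β' + 1 = p * c := by exact_mod_cast hc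
        have h := s28cb_delta_moebius β (-c) p (-β') (by linarith) (s28ca_pt p β' τ)
          (s28ca_pt p β (ModularGroup.S • τ)) ?_
        · rw [h, s28ca_coe_pt]
          have e : ((((p : ℕ) : ℤ) : ℂ) * (((τ : ℂ) + (β' : ℂ)) / (p : ℂ)) + ((-β' : ℤ) : ℂ)) = τ := by
            push_cast
            field_simp
            ring
          rw [e]
        · rw [s28ca_coe_pt, s28ca_coe_pt, hSτ']
          push_cast
          field_simp
          linear_combination (-(τ : ℂ)) * hcC
      rw [h2]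
      field_simp


/-! ### Invariance of the polynomial -/

theorem s28cb_poly_T (τ : ℍ) : s28cb_poly p (ModularGroup.T • τ) = s28cb_poly p τ := by
  rw [s28cb_poly, s28cb_poly]
  simp_rw [s28cb_phi_T]
  exact (s28cb_sigmaT_bijective p).prod_comp (fun i => X - C (s28cb_phi p i τ))

theorem s28cb_poly_S (hp : p.Prime) (τ : ℍ) :
    s28cb_poly p (ModularGroup.S • τ) = s28cb_poly p τ := by
  rw [s28cb_poly, s28cb_poly]
  simp_rw [s28cb_phi_S p hp]
  exact (s28cb_sigmaS_involutive p hp).bijective.prod_comp (fun i => X - C (s28cb_phi p i τ))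

omit [NeZero p] in
/-- a function on `ℍ` invariant under `S` and `T` is invariant under `SL₂(ℤ)`. -/
theorem s28cb_invariant_of_S_T {α : Type*} (F : ℍ → α)
    (hS : ∀ τ, F (ModularGroup.S • τ) = F τ) (hT : ∀ τ, F (ModularGroup.T • τ) = F τ)
    (γ : SL(2, ℤ)) (τ : ℍ) : F (γ • τ) = F τ := by
  have hγ : γ ∈ Subgroup.closure ({ModularGroup.S, ModularGroup.T} : Set SL(2, ℤ)) := by
    rw [SpecialLinearGroup.SL2Z_generators]
    exact Subgroup.mem_top γ
  induction hγ using Subgroup.closure_induction generalizing τ with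
  | mem x hx =>
    rcases hx with rfl | rfl
    · exact hS τ
    · exact hT τ
  | one => rw [one_smul]
  | mul x y _ _ hx hy => rw [mul_smul, hx, hy]
  | inv x _ hx =>
    have := hx (x⁻¹ • τ)
    rw [smul_inv_smul] at this
    exact this.symm

theorem s28cb_poly_smul (hp : p.Prime) (γ : SL(2, ℤ)) (τ : ℍ) :
    s28cb_poly p (γ • τ) = s28cb_poly p τ :=
  s28cb_invariant_of_S_T (s28cb_poly p) (s28cb_poly_S p hp) (s28cb_poly_T p) γ τ

end
end Fermat.Agent.S28
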