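import Fermat.Agent.S24.DegreeBound
import Fermat.Agent.S24.Count
import Fermat.Prelude.Def_ModularCurve_IgusaScheme

/-!
# S28 / (C0): the degree bound in characteristic zero over `ℚ`

`[ℚ(j(q^d) : d ∣ N) : ℚ(j)] ≤ ψ(N)`, by descent from the bound over `ℚ̄` proved for S24
(`Fermat.Agent.S24.db_card_le`, `card_Q`).

* `s28c0_card_le_poly`: a family `v` in `modularFunctionFieldFull N` which is independent over
  the polynomials in `j` has at most `ψ(N)` elements;
* `s28c0_card_le`: the same for linear independence over `ℚ⟮jq⟯`.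
-/

set_option autoImplicit false

namespace Fermat.Agent.S28

open HahnSeries IntermediateField ModularCurve Polynomial
open Fermat.Agent.S24 Fermat.Agent.S20

/-- Linear disjointness of `ℚ⸨q⸩` and `ℚ̄` over `ℚ`. -/
theorem s28c0_descent {ι : Type*} [Fintype ι] (u : ι → LaurentSeries ℚ)
    (hu : LinearIndependent ℚ u) :
    LinearIndependent Kb (fun i => coeffEmb Kb (u i)) := by
  classical
  let b := Module.Basis.ofVectorSpace ℚ Kb
  rw [Fintype.linearIndependent_iff]
  intro c hc
  have hcoord : ∀ β, ∀ i, b.repr (c i) β = 0 := by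
    intro β
    have hrel : ∑ i, (b.repr (c i) β) • u i = 0 := by
      apply HahnSeries.ext
      funext k
      have h1 : (∑ i, c i • coeffEmb Kb (u i)).coeff k = 0 := by rw [hc]; rfl
      have h2 : (∑ i, c i • coeffEmb Kb (u i)).coeff k
          = ∑ i, c i * algebraMap ℚ Kb ((u i).coeff k) := by
        rw [← HahnSeries.coeff.addMonoidHom_apply, map_sum]
        refine Finset.sum_congr rfl fun i _ => ?_
        rw [HahnSeries.coeff.addMonoidHom_apply, HahnSeries.coeff_smul, smul_eq_mul]
        rfl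
      rw [h2] at h1
      have h3 : b.repr (∑ i, c i * algebraMap ℚ Kb ((u i).coeff k)) β = 0 := by
        rw [h1, map_zero]
        rfl
      rw [map_sum, Finsupp.finsetSum_apply] at h3
      have h4 : ∀ i, b.repr (c i * algebraMap ℚ Kb ((u i).coeff k)) β
          = (u i).coeff k * b.repr (c i) β := by
        intro i
        have : c i * algebraMap ℚ Kb ((u i).coeff k) = ((u i).coeff k) • c i := by
          rw [Algebra.smul_def, mul_comm]
        rw [this, map_smul, Finsupp.smul_apply, smul_eq_mul]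
      rw [Finset.sum_congr rfl fun i _ => h4 i] at h3
      show (∑ i, (b.repr (c i) β) • u i).coeff k = 0
      rw [← HahnSeries.coeff.addMonoidHom_apply, map_sum, ← h3]
      refine Finset.sum_congr rfl fun i _ => ?_
      rw [HahnSeries.coeff.addMonoidHom_apply, HahnSeries.coeff_smul, smul_eq_mul, mul_comm]
    intro i
    exact (Fintype.linearIndependent_iff.mp hu) _ hrel i
  intro i
  have : b.repr (c i) = 0 := Finsupp.ext fun β => hcoord β i
  exact (b.repr.map_eq_zero_iff).mp this


/-- scalar multiplication on Laurent series is multiplication by the constant. -/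
theorem s28c0_algebraMap_mul (K : Type*) [Field K] (a : K) (x : LaurentSeries K) :
    algebraMap K (LaurentSeries K) a * x = a • x := by
  rw [algebraMap_laurentSeries_eq_single]
  exact HahnSeries.C_mul_eq_smul (r := a) (x := x)

/-- `ℚ`-linear independence of the family `j ^ l * v i` from polynomial independence. -/
theorem s28c0_indep_pow_mul {n : ℕ} (v : Fin n → LaurentSeries ℚ)
    (hli : ∀ P : Fin n → ℚ[X], ∑ i, aeval jq (P i) * v i = 0 → ∀ i, P i = 0) (L : ℕ) :
    LinearIndependent ℚ (fun x : Fin (L + 1) × Fin n => jq ^ (x.1 : ℕ) * v x.2) := by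
  classical
  rw [Fintype.linearIndependent_iff]
  intro a ha
  set P : Fin n → ℚ[X] := fun i => ∑ l : Fin (L + 1), monomial (l : ℕ) (a (l, i)) with hP
  have hPz : ∀ i, P i = 0 := by
    apply hli
    rw [← ha, Fintype.sum_prod_type, Finset.sum_comm]
    refine Finset.sum_congr rfl fun i _ => ?_
    rw [hP, map_sum, Finset.sum_mul]
    refine Finset.sum_congr rfl fun l _ => ?_
    rw [aeval_monomial, mul_assoc]
    exact s28c0_algebraMap_mul ℚ _ _
  rintro ⟨l, i⟩
  have h1 := congrArg (fun Q : ℚ[X] => Q.coeff (l : ℕ)) (hPz i)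
  simp only [hP, finsetSum_coeff, coeff_monomial, Polynomial.coeff_zero] at h1
  rw [Finset.sum_eq_single l] at h1
  · simpa using h1
  · intro m _ hm
    rw [if_neg]
    exact fun h => hm (Fin.ext h)
  · intro h
    exact absurd (Finset.mem_univ l) h

/-- Polynomial independence over `ℚ̄` from polynomial independence over `ℚ`. -/
theorem s28c0_poly_indep_Kb {n : ℕ} (v : Fin n → LaurentSeries ℚ)
    (hli : ∀ P : Fin n → ℚ[X], ∑ i, aeval jq (P i) * v i = 0 → ∀ i, P i = 0)
    (P : Fin n → Kb[X])
    (hP : ∑ i, aeval (coeffEmb Kb jq) (P i) * coeffEmb Kb (v i) = 0) : ∀ i, P i = 0 := by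
  classical
  obtain ⟨L, hL⟩ : ∃ L : ℕ, ∀ i, (P i).natDegree < L + 1 := by
    refine ⟨Finset.univ.sup fun i => (P i).natDegree, fun i => ?_⟩
    exact Nat.lt_succ_of_le (Finset.le_sup (f := fun i => (P i).natDegree) (Finset.mem_univ i))
  have hQ := s28c0_indep_pow_mul v hli L
  have hK := s28c0_descent _ hQ
  rw [Fintype.linearIndependent_iff] at hK
  have hrel : ∑ x : Fin (L + 1) × Fin n,
      (P x.2).coeff (x.1 : ℕ) • coeffEmb Kb (jq ^ (x.1 : ℕ) * v x.2) = 0 := by
    rw [← hP, Fintype.sum_prod_type, Finset.sum_comm]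
    refine Finset.sum_congr rfl fun i _ => ?_
    rw [aeval_def, eval₂_eq_sum_range' _ (hL i), Finset.sum_mul, Finset.sum_range]
    refine Finset.sum_congr rfl fun l _ => ?_
    rw [map_mul, map_pow, mul_assoc]
    exact (s28c0_algebraMap_mul Kb _ _).symm
  have hz := hK _ hrel
  intro i
  ext l
  rw [Polynomial.coeff_zero]
  by_cases hl : l < L + 1
  · exact hz (⟨l, hl⟩, i)
  · exact coeff_eq_zero_of_natDegree_lt (lt_of_lt_of_le (hL i) (not_lt.mp hl))


/-- the coercion of `jF N` -/
theorem s28c0_coe_jF (N : ℕ) : ((jF N : FN N) : LaurentSeries Kb) = coeffEmb Kb jq := by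
  show coeffEmb Kb (qExpand ℚ 1 jq) = coeffEmb Kb jq
  rw [qExpand_one_apply]

open scoped IntermediateField.algebraAdjoinAdjoin in
/-- **(C0), polynomial form.**  A family in `ℚ(j(q^d) : d ∣ N)` which is independent over the
polynomials in `j` has at most `ψ(N)` elements. -/
theorem s28c0_card_le_poly (N : ℕ) [NeZero N] {n : ℕ} (v : Fin n → LaurentSeries ℚ)
    (hv : ∀ i, v i ∈ modularFunctionFieldFull N)
    (hli : ∀ P : Fin n → ℚ[X], ∑ i, aeval jq (P i) * v i = 0 → ∀ i, P i = 0) :
    n ≤ dedekindPsi N := by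
  classical
  set w : Fin n → FN N :=
    fun i => ⟨coeffEmb Kb (v i), coeffEmb_mem_laurentBaseChange Kb (hv i)⟩ with hwdef
  have hw : LinearIndependent Kb⟮jF N⟯ w := by
    rw [← LinearIndependent.iff_fractionRing (R := Algebra.adjoin Kb {jF N}) (K := Kb⟮jF N⟯)]
    rw [Fintype.linearIndependent_iff]
    intro a ha
    have hex : ∀ i, ∃ P : Kb[X], aeval (jF N) P = (a i : FN N) := by
      intro i
      have h0 : ((a i : Algebra.adjoin Kb {jF N}) : FN N) ∈
          (aeval (R := Kb) (jF N)).range := by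
        rw [← Algebra.adjoin_singleton_eq_range_aeval]
        exact (a i).2
      exact h0
    choose P hPa using hex
    have hP0 : ∀ i, P i = 0 := by
      apply s28c0_poly_indep_Kb v hli P
      have h1 : ∑ i, aeval (jF N) (P i) * w i = 0 := by
        rw [← ha]
        refine Finset.sum_congr rfl fun i _ => ?_
        rw [hPa i]
        rfl
      have h2 : ((∑ i, aeval (jF N) (P i) * w i : FN N) : LaurentSeries Kb)
          = ((0 : FN N) : LaurentSeries Kb) := by rw [h1]
      rw [AddSubmonoidClass.coe_finsetSum] at h2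
      rw [← s28c0_coe_jF N]
      rw [show ((0 : FN N) : LaurentSeries Kb) = 0 from rfl] at h2
      rw [← h2]
      refine Finset.sum_congr rfl fun i _ => ?_
      have h3 : ((aeval (jF N) (P i) : FN N) : LaurentSeries Kb)
          = aeval ((jF N : FN N) : LaurentSeries Kb) (P i) :=
        (Polynomial.aeval_algHom_apply (IntermediateField.val _) (jF N) (P i)).symm
      rw [← h3]
      rfl
    intro i
    apply Subtype.ext
    rw [← hPa i, hP0 i, map_zero]
    rfl
  have h := db_card_le N w hw
  rwa [coset_card] at h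


/-- `j` is transcendental over `ℚ`. -/
theorem s28c0_transcendental_jq : Transcendental ℚ jq := by
  intro halg
  obtain ⟨P, hP0, hP⟩ := halg
  rw [aeval_def, eval₂_eq_sum_range] at hP
  have h2 := congrArg (fun x : LaurentSeries ℚ => x.coeff (-(P.natDegree : ℤ))) hP
  simp only [HahnSeries.coeff_zero] at h2
  have hterm : ∀ i ∈ Finset.range (P.natDegree + 1),
      (algebraMap ℚ (LaurentSeries ℚ) (P.coeff i) * jq ^ i).coeff (-(P.natDegree : ℤ)) =
        if i = P.natDegree then P.coeff i else 0 := by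
    intro i hi
    rw [algebraMap_apply_eq_single, HahnSeries.coeff_single_zero_mul]
    by_cases hin : i = P.natDegree
    · rw [if_pos hin, hin, coeff_jq_pow_self, mul_one]
    · rw [if_neg hin]
      have hlt : i < P.natDegree := by
        have := Finset.mem_range.mp hi
        omega
      rw [coeff_jq_pow_of_lt (by omega), mul_zero]
  have h3 : (∑ i ∈ Finset.range (P.natDegree + 1),
      algebraMap ℚ (LaurentSeries ℚ) (P.coeff i) * jq ^ i).coeff
      (-(P.natDegree : ℤ)) = P.coeff P.natDegree := by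
    rw [HahnSeries.coeff_sum, Finset.sum_congr rfl hterm, Finset.sum_ite_eq' _ _]
    rw [if_pos (Finset.mem_range.mpr (Nat.lt_succ_self _))]
  rw [h3] at h2
  exact hP0 (Polynomial.leadingCoeff_eq_zero.mp h2)

/-- the coercion `ℚ(j) → ℚ⸨q⸩` as a ring homomorphism. -/
noncomputable def s28c0_phi (N : ℕ) [NeZero N] : ℚ⟮IgusaScheme.jFull N⟯ →+* LaurentSeries ℚ :=
  (algebraMap ↥(modularFunctionFieldFull N) (LaurentSeries ℚ)).comp
    (algebraMap ℚ⟮IgusaScheme.jFull N⟯ ↥(modularFunctionFieldFull N))

theorem s28c0_phi_apply (N : ℕ) [NeZero N] (c : ℚ⟮IgusaScheme.jFull N⟯) :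
    s28c0_phi N c = ((c : ↥(modularFunctionFieldFull N)) : LaurentSeries ℚ) := rfl

theorem s28c0_phi_eval (N : ℕ) [NeZero N] (P : ℚ[X]) :
    s28c0_phi N (P.eval₂ (algebraMap ℚ ℚ⟮IgusaScheme.jFull N⟯)
      (AdjoinSimple.gen ℚ (IgusaScheme.jFull N))) = aeval jq P := by
  rw [Polynomial.hom_eval₂, aeval_def]
  congr 1
  exact RingHom.ext_rat _ _

/-- **(C0), family form.** -/
theorem s28c0_card_le (N : ℕ) [NeZero N] {n : ℕ} (f : Fin n → ↥(modularFunctionFieldFull N))
    (hf : LinearIndependent ℚ⟮IgusaScheme.jFull N⟯ f) : n ≤ dedekindPsi N := by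
  classical
  apply s28c0_card_le_poly N (fun i => (f i : LaurentSeries ℚ)) (fun i => (f i).2)
  intro P hP
  set c : Fin n → ℚ⟮IgusaScheme.jFull N⟯ := fun i =>
    (P i).eval₂ (algebraMap ℚ ℚ⟮IgusaScheme.jFull N⟯)
      (AdjoinSimple.gen ℚ (IgusaScheme.jFull N)) with hc
  have h2 : ∑ i, c i • f i = 0 := by
    apply Subtype.ext
    rw [AddSubmonoidClass.coe_finsetSum]
    rw [show ((0 : ↥(modularFunctionFieldFull N)) : LaurentSeries ℚ) = 0 from rfl, ← hP]
    refine Finset.sum_congr rfl fun i _ => ?_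
    rw [← s28c0_phi_eval N (P i)]
    rfl
  have h3 := (Fintype.linearIndependent_iff.mp hf) c h2
  intro i
  have h4 : aeval jq (P i) = 0 := by
    rw [← s28c0_phi_eval N (P i)]
    have : c i = 0 := h3 i
    rw [hc] at this
    simp only at this
    rw [this, map_zero]
  by_contra hne
  exact s28c0_transcendental_jq ⟨P i, hne, h4⟩

/-- **(C0)** `[ℚ(j(q^d) : d ∣ N) : ℚ(j)] ≤ ψ(N)`. -/
theorem s28c0_finrank (N : ℕ) [NeZero N] :
    FiniteDimensional ℚ⟮IgusaScheme.jFull N⟯ ↥(modularFunctionFieldFull N) ∧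
      Module.finrank ℚ⟮IgusaScheme.jFull N⟯ ↥(modularFunctionFieldFull N) ≤ dedekindPsi N := by
  have hrank : Module.rank ℚ⟮IgusaScheme.jFull N⟯ ↥(modularFunctionFieldFull N) ≤
      (dedekindPsi N : Cardinal) := by
    apply rank_le
    intro s hs
    have h1 : LinearIndependent ℚ⟮IgusaScheme.jFull N⟯
        (fun i : Fin s.card => ((s.equivFin.symm i : s) : ↥(modularFunctionFieldFull N))) :=
      hs.comp s.equivFin.symm s.equivFin.symm.injective
    exact s28c0_card_le N _ h1
  refine ⟨?_, Module.finrank_le_of_rank_le hrank⟩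
  rw [FiniteDimensional, ← Module.rank_lt_aleph0_iff]
  exact lt_of_le_of_lt hrank Cardinal.natCast_lt_aleph0

end Fermat.Agent.S28
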