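import Fermat.Agent.S28.ChartDefs
import Fermat.Agent.S28.VGauss
import Fermat.Agent.S28.Base

/-!
# S28 (Igusa) / (V3a): the charts lie in the valuation ring  (OWNER: helper1)

* `s28w_full_le_L`: `F_N ≤ L`;
* `s28w_mem_O_of_isInt`: `𝒪` is integrally closed in `L`;
* `s28w_chart_le_O`: `chartAlg N ℓ S ⊆ 𝒪` as soon as `S ⊆ 𝒪`;
* `s28w_isInt_mul`: elementary integrality is stable under multiplication by elements of the
  base.
-/

set_option autoImplicit false
set_option synthInstance.maxHeartbeats 400000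
set_option maxHeartbeats 1000000

noncomputable section

namespace Fermat.Agent.S28

open ModularCurve ModularCurve.IgusaScheme HahnSeries IntermediateField

section general

variable {E : Type*} [CommRing E]

/-- elementary integrality is stable under multiplication by an element of the base, for a base
which is closed under multiplication and contains `1`. -/
theorem s28w_isInt_mul {R : Set E} (h1 : (1 : E) ∈ R) (hmul : ∀ a ∈ R, ∀ b ∈ R, a * b ∈ R)
    {r z : E} (hr : r ∈ R) (hz : s28w_IsInt R z) : s28w_IsInt R (r * z) := by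
  obtain ⟨p, hp, hc, h0⟩ := hz
  have hpow : ∀ k : ℕ, r ^ k ∈ R := by
    intro k
    induction k with
    | zero => rw [pow_zero]; exact h1
    | succ k ih => rw [pow_succ]; exact hmul _ ih _ hr
  refine ⟨Polynomial.scaleRoots p r, (Polynomial.monic_scaleRoots_iff r).mpr hp, fun i => ?_, ?_⟩
  · rw [Polynomial.coeff_scaleRoots]
    exact hmul _ (hc i) _ (hpow _)
  · rw [Polynomial.scaleRoots_eval_mul, h0, mul_zero]

end general

variable (ℓ : ℕ) [Fact ℓ.Prime]

/-- `𝒪` is integrally closed in `L`. -/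
theorem s28w_mem_O_of_isInt {z : LaurentSeries ℚ} (hzL : z ∈ s28v_L ℓ)
    (hz : s28w_IsInt (s28v_O ℓ : Set (LaurentSeries ℚ)) z) : z ∈ s28v_O ℓ := by
  rcases s28v_mem_or_inv_mem ℓ hzL with h | h
  · exact h
  obtain ⟨p, hp, hc, h0⟩ := hz
  by_cases hz0 : z = 0
  · rw [hz0]; exact zero_mem _
  have hn : p.natDegree ≠ 0 := by
    intro hn0
    have h1 : p = 1 := hp.natDegree_eq_zero.mp hn0
    rw [h1, Polynomial.eval_one] at h0
    exact one_ne_zero h0
  obtain ⟨m, hm⟩ : ∃ m, p.natDegree = m + 1 := Nat.exists_eq_succ_of_ne_zero hn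
  rw [Polynomial.eval_eq_sum_range, hm, Finset.sum_range_succ, ← hm, hp.coeff_natDegree,
    one_mul, hm] at h0
  have h1 : z ^ (m + 1) = - ∑ i ∈ Finset.range (m + 1), p.coeff i * z ^ i :=
    eq_neg_of_add_eq_zero_right h0
  have h2 : z = z ^ (m + 1) * (z⁻¹) ^ m := by
    rw [pow_succ, mul_comm (z ^ m) z, mul_assoc, ← mul_pow, mul_inv_cancel₀ hz0, one_pow, mul_one]
  have key : z = - ∑ i ∈ Finset.range (m + 1), p.coeff i * (z⁻¹) ^ (m - i) := by
    conv_lhs => rw [h2, h1]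
    rw [neg_mul, Finset.sum_mul]
    congr 1
    refine Finset.sum_congr rfl fun i hi => ?_
    have hi' : i ≤ m := Nat.lt_succ_iff.mp (Finset.mem_range.mp hi)
    have h3 : (z⁻¹) ^ m = (z⁻¹) ^ (m - i) * (z⁻¹) ^ i := by
      rw [← _root_.pow_add, Nat.sub_add_cancel hi']
    rw [mul_assoc, h3, mul_comm ((z⁻¹) ^ (m - i)), ← mul_assoc (z ^ i), ← mul_pow,
      mul_inv_cancel₀ hz0, one_pow, one_mul]
  rw [key]
  exact neg_mem (sum_mem fun i _ => mul_mem (hc i) (pow_mem h _))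

variable (N : ℕ) [NeZero N]

/-- `F_N ≤ L`. -/
theorem s28w_full_le_L : modularFunctionFieldFull N ≤ s28v_L ℓ := by
  rw [modularFunctionFieldFull, adjoin_le_iff]
  rintro x ⟨d, hne, -, rfl⟩
  haveI := hne
  exact s28v_O_le_L ℓ (s28v_jqN_mem_O ℓ d)

/-- the constants of `ℤ_(ℓ)` inside `F_N`, viewed in `ℚ⸨q⸩`. -/
theorem s28w_coe_algebraMap (a : GaloisRep.ratLocalizedAt ℓ) :
    ((algebraMap (GaloisRep.ratLocalizedAt ℓ) ↥(modularFunctionFieldFull N) a :
      ↥(modularFunctionFieldFull N)) : LaurentSeries ℚ) = s28w_const ℓ a := by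
  have h := S28P.s28p_ringHom_ext ℓ
    (((modularFunctionFieldFull N).val :
        ↥(modularFunctionFieldFull N) →+* LaurentSeries ℚ).comp
      (algebraMap (GaloisRep.ratLocalizedAt ℓ) ↥(modularFunctionFieldFull N)))
    (s28w_const ℓ)
  exact congrArg (fun f : GaloisRep.ratLocalizedAt ℓ →+* LaurentSeries ℚ => f a) h

theorem s28w_const_mem_O (a : GaloisRep.ratLocalizedAt ℓ) : s28w_const ℓ a ∈ s28v_O ℓ := by
  have h : s28w_const ℓ a = s28v_iota ℓ (HahnSeries.C a) := (s28v_iota_C ℓ a).symm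
  rw [h]
  exact s28v_iota_mem_O ℓ _

/-- `ℤ_(ℓ)[S] ⊆ 𝒪` if `S ⊆ 𝒪`. -/
theorem s28w_adjoin_le_O (S : Set ↥(modularFunctionFieldFull N))
    (hS : ∀ s ∈ S, (s : LaurentSeries ℚ) ∈ s28v_O ℓ)
    (x : ↥(modularFunctionFieldFull N))
    (hx : x ∈ Algebra.adjoin (GaloisRep.ratLocalizedAt ℓ) S) :
    (x : LaurentSeries ℚ) ∈ s28v_O ℓ := by
  induction hx using Algebra.adjoin_induction with
  | mem y hy => exact hS y hy
  | algebraMap a =>
    rw [s28w_coe_algebraMap]
    exact s28w_const_mem_O ℓ a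
  | add y z _ _ hy hz => exact add_mem hy hz
  | mul y z _ _ hy hz => exact mul_mem hy hz

/-- the inclusion `ℤ_(ℓ)[S] → ℚ⸨q⸩`. -/
def s28w_adjoinHom (S : Set ↥(modularFunctionFieldFull N)) :
    ↥(Algebra.adjoin (GaloisRep.ratLocalizedAt ℓ) S) →+* LaurentSeries ℚ :=
  ((modularFunctionFieldFull N).val : ↥(modularFunctionFieldFull N) →+* LaurentSeries ℚ).comp
    (algebraMap ↥(Algebra.adjoin (GaloisRep.ratLocalizedAt ℓ) S) ↥(modularFunctionFieldFull N))

theorem s28w_adjoinHom_apply (S : Set ↥(modularFunctionFieldFull N))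
    (c : ↥(Algebra.adjoin (GaloisRep.ratLocalizedAt ℓ) S)) :
    s28w_adjoinHom ℓ N S c = ((c : ↥(modularFunctionFieldFull N)) : LaurentSeries ℚ) := rfl

/-- an element of a chart algebra is elementary-integral over the image of `ℤ_(ℓ)[S]`. -/
theorem s28w_chart_isInt (S : Set ↥(modularFunctionFieldFull N))
    (x : ↥(modularFunctionFieldFull N)) (hx : x ∈ chartAlg N ℓ S) :
    s28w_IsInt (Set.range (s28w_adjoinHom ℓ N S)) (x : LaurentSeries ℚ) := by
  obtain ⟨p, hp, h0⟩ := (mem_chartAlg_iff N ℓ).mp hx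
  refine ⟨p.map (s28w_adjoinHom ℓ N S), hp.map _, fun i => ?_, ?_⟩
  · rw [Polynomial.coeff_map]
    exact ⟨_, rfl⟩
  · rw [Polynomial.eval_map]
    have h := Polynomial.hom_eval₂ p
      (algebraMap ↥(Algebra.adjoin (GaloisRep.ratLocalizedAt ℓ) S)
        ↥(modularFunctionFieldFull N))
      ((modularFunctionFieldFull N).val : ↥(modularFunctionFieldFull N) →+* LaurentSeries ℚ) x
    rw [h0, map_zero] at h
    exact h.symm

/-- conversely, an element of `F_N` which is elementary-integral over the image of `ℤ_(ℓ)[S]`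
lies in the chart algebra. -/
theorem s28w_mem_chart_of_isInt (S : Set ↥(modularFunctionFieldFull N))
    (y : ↥(modularFunctionFieldFull N))
    (hy : s28w_IsInt (Set.range (s28w_adjoinHom ℓ N S)) (y : LaurentSeries ℚ)) :
    y ∈ chartAlg N ℓ S := by
  obtain ⟨p, hp, hc, h0⟩ := hy
  have hl : p ∈ Polynomial.lifts (s28w_adjoinHom ℓ N S) :=
    (Polynomial.lifts_iff_coeff_lifts p).mpr fun i => hc i
  obtain ⟨q, hq, -, hqm⟩ := Polynomial.lifts_and_natDegree_eq_and_monic hl hp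
  refine (mem_chartAlg_iff N ℓ).mpr ⟨q, hqm, ?_⟩
  have h := Polynomial.hom_eval₂ q
    (algebraMap ↥(Algebra.adjoin (GaloisRep.ratLocalizedAt ℓ) S)
      ↥(modularFunctionFieldFull N))
    ((modularFunctionFieldFull N).val : ↥(modularFunctionFieldFull N) →+* LaurentSeries ℚ) y
  have h2 : Polynomial.eval₂ (s28w_adjoinHom ℓ N S) (y : LaurentSeries ℚ) q = 0 := by
    rw [Polynomial.eval₂_eq_eval_map, hq]
    exact h0
  have h3 : ((modularFunctionFieldFull N).val : ↥(modularFunctionFieldFull N) →+* LaurentSeries ℚ)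
      (Polynomial.eval₂ (algebraMap ↥(Algebra.adjoin (GaloisRep.ratLocalizedAt ℓ) S)
        ↥(modularFunctionFieldFull N)) y q) = 0 := h.trans h2
  exact Subtype.ext h3

/-- `chartAlg N ℓ S ⊆ 𝒪` if `S ⊆ 𝒪`. -/
theorem s28w_chart_le_O (S : Set ↥(modularFunctionFieldFull N))
    (hS : ∀ s ∈ S, (s : LaurentSeries ℚ) ∈ s28v_O ℓ)
    (x : ↥(modularFunctionFieldFull N)) (hx : x ∈ chartAlg N ℓ S) :
    (x : LaurentSeries ℚ) ∈ s28v_O ℓ := by
  refine s28w_mem_O_of_isInt ℓ (s28w_full_le_L ℓ N x.2) ?_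
  refine (s28w_chart_isInt ℓ N S x hx).mono ?_
  rintro _ ⟨c, rfl⟩
  exact s28w_adjoin_le_O ℓ N S hS c.1 c.2

end Fermat.Agent.S28
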