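import Fermat.Agent.S28.ChartInt

/-!
# S28 (Igusa) / (V3b): the reduction maps of the charts and their kernels  (OWNER: helper1)

* `s28w_rho`: the reduction map `chartAlg N ℓ S →+* 𝔽_ℓ⸨q⸩` for `S ⊆ 𝒪`;
* `s28w_ker`: for a one-generator chart `S = {s}`, the kernel of the reduction map is `ℓ · chart`,
  given (V2) and (MP) for `t = s`.
-/

set_option autoImplicit false
set_option synthInstance.maxHeartbeats 400000
set_option maxHeartbeats 1000000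

noncomputable section

namespace Fermat.Agent.S28

open ModularCurve ModularCurve.IgusaScheme HahnSeries IntermediateField

variable (ℓ : ℕ) [Fact ℓ.Prime] (N : ℕ) [NeZero N]

/-! ### the sets `ℤ_(ℓ)[t]` and `ℚ[t]` -/

theorem s28w_Zt_subset_Qt (t : LaurentSeries ℚ) : s28w_Zt ℓ t ⊆ s28w_Qt t := by
  rintro _ ⟨P, rfl⟩
  refine ⟨P.map (GaloisRep.ratLocalizedAt ℓ).subtype, ?_⟩
  rw [Polynomial.eval₂_map]
  rfl

theorem s28w_one_mem_Qt (t : LaurentSeries ℚ) : (1 : LaurentSeries ℚ) ∈ s28w_Qt t :=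
  ⟨1, by rw [Polynomial.eval₂_one]⟩

theorem s28w_mul_mem_Qt (t : LaurentSeries ℚ) :
    ∀ a ∈ s28w_Qt t, ∀ b ∈ s28w_Qt t, a * b ∈ s28w_Qt t := by
  rintro _ ⟨P, rfl⟩ _ ⟨Q, rfl⟩
  exact ⟨P * Q, by rw [Polynomial.eval₂_mul]⟩

theorem s28w_C_mem_Qt (t : LaurentSeries ℚ) (r : ℚ) :
    (HahnSeries.C r : LaurentSeries ℚ) ∈ s28w_Qt t :=
  ⟨Polynomial.C r, by rw [Polynomial.eval₂_C]⟩

/-! ### one-generator charts -/

theorem s28w_val_comp_algebraMap :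
    ((modularFunctionFieldFull N).val :
        ↥(modularFunctionFieldFull N) →+* LaurentSeries ℚ).comp
      (algebraMap (GaloisRep.ratLocalizedAt ℓ) ↥(modularFunctionFieldFull N)) = s28w_const ℓ :=
  S28P.s28p_ringHom_ext ℓ _ _

theorem s28w_coe_aeval (s : ↥(modularFunctionFieldFull N))
    (P : Polynomial (GaloisRep.ratLocalizedAt ℓ)) :
    ((Polynomial.aeval s P : ↥(modularFunctionFieldFull N)) : LaurentSeries ℚ) =
      Polynomial.eval₂ (s28w_const ℓ) (s : LaurentSeries ℚ) P := by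
  have h := Polynomial.hom_eval₂ P
    (algebraMap (GaloisRep.ratLocalizedAt ℓ) ↥(modularFunctionFieldFull N))
    ((modularFunctionFieldFull N).val : ↥(modularFunctionFieldFull N) →+* LaurentSeries ℚ) s
  rw [s28w_val_comp_algebraMap] at h
  rw [Polynomial.aeval_def]
  exact h

theorem s28w_range_subset_Zt (s : ↥(modularFunctionFieldFull N)) :
    Set.range (s28w_adjoinHom ℓ N {s}) ⊆ s28w_Zt ℓ (s : LaurentSeries ℚ) := by
  rintro _ ⟨c, rfl⟩
  have hc : (c : ↥(modularFunctionFieldFull N)) ∈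
      (Polynomial.aeval (R := GaloisRep.ratLocalizedAt ℓ) s).range := by
    rw [← Algebra.adjoin_singleton_eq_range_aeval]
    exact c.2
  obtain ⟨P, hP⟩ := hc
  refine ⟨P, ?_⟩
  rw [s28w_adjoinHom_apply, ← hP]
  exact s28w_coe_aeval ℓ N s P

theorem s28w_Zt_subset_range (s : ↥(modularFunctionFieldFull N)) :
    s28w_Zt ℓ (s : LaurentSeries ℚ) ⊆ Set.range (s28w_adjoinHom ℓ N {s}) := by
  rintro _ ⟨P, rfl⟩
  have hc : Polynomial.aeval s P ∈ Algebra.adjoin (GaloisRep.ratLocalizedAt ℓ)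
      ({s} : Set ↥(modularFunctionFieldFull N)) := by
    rw [Algebra.adjoin_singleton_eq_range_aeval]
    exact ⟨P, rfl⟩
  refine ⟨⟨Polynomial.aeval s P, hc⟩, ?_⟩
  rw [s28w_adjoinHom_apply]
  exact s28w_coe_aeval ℓ N s P

/-! ### the reduction maps -/

/-- the inclusion of a chart into `𝒪`. -/
def s28w_toO (S : Set ↥(modularFunctionFieldFull N))
    (hS : ∀ s ∈ S, (s : LaurentSeries ℚ) ∈ s28v_O ℓ) :
    ↥(chartAlg N ℓ S) →+* ↥(s28v_O ℓ) where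
  toFun x := ⟨((x : ↥(modularFunctionFieldFull N)) : LaurentSeries ℚ),
    s28w_chart_le_O ℓ N S hS x.1 x.2⟩
  map_one' := rfl
  map_mul' _ _ := rfl
  map_zero' := rfl
  map_add' _ _ := rfl

theorem s28w_toO_coe (S : Set ↥(modularFunctionFieldFull N))
    (hS : ∀ s ∈ S, (s : LaurentSeries ℚ) ∈ s28v_O ℓ) (x : ↥(chartAlg N ℓ S)) :
    ((s28w_toO ℓ N S hS x : ↥(s28v_O ℓ)) : LaurentSeries ℚ) =
      ((x : ↥(modularFunctionFieldFull N)) : LaurentSeries ℚ) := rfl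

/-- the reduction map of a chart. -/
def s28w_rho (S : Set ↥(modularFunctionFieldFull N))
    (hS : ∀ s ∈ S, (s : LaurentSeries ℚ) ∈ s28v_O ℓ) :
    ↥(chartAlg N ℓ S) →+* LaurentSeries (ZMod ℓ) :=
  (s28v_rho ℓ).comp (s28w_toO ℓ N S hS)

theorem s28w_ellQ_mem_full : s28v_ellQ ℓ ∈ modularFunctionFieldFull N := by
  have h : s28v_ellQ ℓ = algebraMap ℚ (LaurentSeries ℚ) (ℓ : ℚ) := by
    rw [algebraMap_apply_eq_single]
    rfl
  rw [h]
  exact (modularFunctionFieldFull N).algebraMap_mem _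

/-- **kernel of the reduction map** of a one-generator chart. -/
theorem s28w_ker (s : ↥(modularFunctionFieldFull N))
    (hs : ∀ s' ∈ ({s} : Set ↥(modularFunctionFieldFull N)), (s' : LaurentSeries ℚ) ∈ s28v_O ℓ)
    (hV2 : s28w_stmt_V2 N ℓ) (hMP : s28w_stmt_MP ℓ (s : LaurentSeries ℚ))
    (b : ↥(chartAlg N ℓ {s})) (hb : s28w_rho ℓ N {s} hs b = 0) :
    ∃ y : ↥(chartAlg N ℓ {s}), b = (ℓ : GaloisRep.ratLocalizedAt ℓ) • y := by
  obtain ⟨y₀, hy₀⟩ := (s28v_rho_eq_zero_iff ℓ (s28w_toO ℓ N {s} hs b)).mp hb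
  rw [s28w_toO_coe] at hy₀
  have hℓ := s28v_ellQ_ne_zero ℓ
  have hy₁ : (y₀ : LaurentSeries ℚ) =
      (s28v_ellQ ℓ)⁻¹ * ((b : ↥(modularFunctionFieldFull N)) : LaurentSeries ℚ) := by
    rw [hy₀, ← mul_assoc, inv_mul_cancel₀ hℓ, one_mul]
  have hyF : (y₀ : LaurentSeries ℚ) ∈ modularFunctionFieldFull N := by
    rw [hy₁]
    exact mul_mem (inv_mem (s28w_ellQ_mem_full ℓ N)) (b : ↥(modularFunctionFieldFull N)).2
  have hA0 := hV2 (y₀ : LaurentSeries ℚ) hyF y₀.2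
  have hbQ : s28w_IsInt (s28w_Qt (s : LaurentSeries ℚ))
      ((b : ↥(modularFunctionFieldFull N)) : LaurentSeries ℚ) :=
    (s28w_chart_isInt ℓ N {s} b.1 b.2).mono
      ((s28w_range_subset_Zt ℓ N s).trans (s28w_Zt_subset_Qt ℓ _))
  have hinv : (s28v_ellQ ℓ)⁻¹ = HahnSeries.C ((ℓ : ℚ)⁻¹) := by
    rw [s28v_ellQ, map_inv₀]
  have hQ : s28w_IsInt (s28w_Qt (s : LaurentSeries ℚ)) (y₀ : LaurentSeries ℚ) := by
    rw [hy₁, hinv]
    exact s28w_isInt_mul (s28w_one_mem_Qt _) (s28w_mul_mem_Qt _) (s28w_C_mem_Qt _ _) hbQ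
  have hZ := hMP (y₀ : LaurentSeries ℚ) hA0 hQ
  have hy_chart : (⟨(y₀ : LaurentSeries ℚ), hyF⟩ : ↥(modularFunctionFieldFull N)) ∈
      chartAlg N ℓ {s} :=
    s28w_mem_chart_of_isInt ℓ N {s} ⟨(y₀ : LaurentSeries ℚ), hyF⟩
      (hZ.mono (s28w_Zt_subset_range ℓ N s))
  refine ⟨⟨⟨(y₀ : LaurentSeries ℚ), hyF⟩, hy_chart⟩, ?_⟩
  apply Subtype.ext
  apply Subtype.ext
  show ((b : ↥(modularFunctionFieldFull N)) : LaurentSeries ℚ) =
    (((ℓ : GaloisRep.ratLocalizedAt ℓ) •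
      (⟨(y₀ : LaurentSeries ℚ), hyF⟩ : ↥(modularFunctionFieldFull N)) :
        ↥(modularFunctionFieldFull N)) : LaurentSeries ℚ)
  rw [Algebra.smul_def]
  show _ = ((algebraMap (GaloisRep.ratLocalizedAt ℓ) ↥(modularFunctionFieldFull N)
    (ℓ : GaloisRep.ratLocalizedAt ℓ) : ↥(modularFunctionFieldFull N)) : LaurentSeries ℚ) *
      (y₀ : LaurentSeries ℚ)
  rw [s28w_coe_algebraMap, hy₀]
  congr 1

end Fermat.Agent.S28
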