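import Mathlib

/-!
# S28 (Igusa) / (MP): the minimal polynomial argument, abstract form  (helper3)

`Ω` is a field of characteristic `0`, `t ∈ Ω` is transcendental over `ℚ`, `O` is a subring of `Ω`
which is a valuation ring on `ℚ(t)`, and `R₀ ⊆ ℚ` is a subring such that every polynomial
`P ∈ ℚ[X]` with `P(t) ∈ O` has coefficients in `R₀` (Gauss lemma).  If `z ∈ Ω` is integral over
`O ∩ ℚ(t)` and over `ℚ[t]`, then `z` is integral over `R₀[t]`.

Proof: `ℚ[X]` and the valuation subring `V = ψ⁻¹(O)` of `RatFunc ℚ` (`ψ : X ↦ t`) are integrally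
closed with fraction field `RatFunc ℚ`, so the minimal polynomial of `z` over `RatFunc ℚ` has
coefficients in `ℚ[X] ∩ V`, which is `R₀[X]` by the Gauss lemma.
-/

set_option autoImplicit false

noncomputable section

namespace Fermat.Agent.S28

open Polynomial

section Abstract

variable {Ω : Type*} [Field Ω] [Algebra ℚ Ω]

theorem s28mp_aeval_mem_adjoin (t : Ω) (P : Polynomial ℚ) :
    Polynomial.aeval t P ∈ IntermediateField.adjoin ℚ {t} := by
  have h1 : Polynomial.aeval t P ∈ Algebra.adjoin ℚ {t} := by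
    rw [Algebra.adjoin_singleton_eq_range_aeval]
    exact ⟨_, rfl⟩
  exact IntermediateField.algebra_adjoin_le_adjoin ℚ _ h1

/-- the abstract minimal polynomial argument. -/
theorem s28mp_abstract (R₀ : Subring ℚ) (t : Ω) (ht : Transcendental ℚ t) (O : Subring Ω)
    (hval : ∀ x ∈ IntermediateField.adjoin ℚ {t}, x ∈ O ∨ x⁻¹ ∈ O)
    (hGauss : ∀ P : Polynomial ℚ, Polynomial.aeval t P ∈ O →
      ∃ Q : Polynomial R₀, Q.map R₀.subtype = P)
    (z : Ω)
    (h1 : ∃ p : Polynomial Ω, p.Monic ∧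
      (∀ i, p.coeff i ∈ O ∧ p.coeff i ∈ IntermediateField.adjoin ℚ {t}) ∧ p.eval z = 0)
    (h2 : ∃ p : Polynomial Ω, p.Monic ∧
      (∀ i, ∃ P : Polynomial ℚ, p.coeff i = Polynomial.aeval t P) ∧ p.eval z = 0) :
    ∃ p : Polynomial Ω, p.Monic ∧
      (∀ i, ∃ Q : Polynomial R₀, p.coeff i = Polynomial.aeval t (Q.map R₀.subtype)) ∧
      p.eval z = 0 := by
  classical
  have hφ : Function.Injective (Polynomial.aeval (R := ℚ) t) :=
    transcendental_iff_injective.mp ht
  let ψ : RatFunc ℚ →ₐ[ℚ] Ω := IsFractionRing.liftAlgHom (K := RatFunc ℚ) hφ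
  have hψ : ∀ P : Polynomial ℚ, ψ (algebraMap (Polynomial ℚ) (RatFunc ℚ) P) =
      Polynomial.aeval t P := fun P => by
    rw [IsFractionRing.liftAlgHom_apply, IsFractionRing.lift_algebraMap]
    rfl
  have hψmem : ∀ r : RatFunc ℚ, ψ r ∈ IntermediateField.adjoin ℚ {t} := by
    intro r
    obtain ⟨p, q, hq, rfl⟩ := IsFractionRing.div_surjective (A := Polynomial ℚ) r
    rw [map_div₀, hψ, hψ]
    exact div_mem (s28mp_aeval_mem_adjoin t p) (s28mp_aeval_mem_adjoin t q)
  have hrange : ∀ x ∈ IntermediateField.adjoin ℚ {t}, ∃ r : RatFunc ℚ, ψ r = x := by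
    have hE : IntermediateField.adjoin ℚ {t} ≤ ψ.fieldRange := by
      rw [IntermediateField.adjoin_le_iff, Set.singleton_subset_iff]
      exact ⟨algebraMap (Polynomial ℚ) (RatFunc ℚ) Polynomial.X,
        (hψ Polynomial.X).trans (Polynomial.aeval_X t)⟩
    intro x hx
    obtain ⟨r, hr⟩ := hE hx
    exact ⟨r, hr⟩
  letI algK : Algebra (RatFunc ℚ) Ω := (ψ : RatFunc ℚ →+* Ω).toAlgebra
  letI algP : Algebra (Polynomial ℚ) Ω := (Polynomial.aeval (R := ℚ) t).toRingHom.toAlgebra
  haveI towerP : IsScalarTower (Polynomial ℚ) (RatFunc ℚ) Ω :=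
    IsScalarTower.of_algebraMap_eq (fun P => (hψ P).symm)
  let V : ValuationSubring (RatFunc ℚ) :=
    { (O.comap (ψ : RatFunc ℚ →+* Ω)) with
      mem_or_inv_mem' := fun r => by
        rcases hval (ψ r) (hψmem r) with h | h
        · exact Or.inl h
        · right
          show ψ r⁻¹ ∈ O
          rw [map_inv₀]
          exact h }
  have hV : ∀ r : RatFunc ℚ, r ∈ V ↔ ψ r ∈ O := fun r => Iff.rfl
  letI algV : Algebra V Ω := ((ψ : RatFunc ℚ →+* Ω).comp V.subtype).toAlgebra
  haveI towerV : IsScalarTower V (RatFunc ℚ) Ω :=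
    IsScalarTower.of_algebraMap_eq (fun _ => rfl)
  -- integrality over `V`
  have hz1 : IsIntegral V z := by
    obtain ⟨p, hp, hc, h0⟩ := h1
    have hl : p ∈ Polynomial.lifts (algebraMap V Ω) := by
      rw [Polynomial.lifts_iff_coeff_lifts]
      intro i
      obtain ⟨r, hr⟩ := hrange _ (hc i).2
      have hrV : r ∈ V := by
        rw [hV, hr]
        exact (hc i).1
      exact ⟨⟨r, hrV⟩, hr⟩
    obtain ⟨q, hq, -, hqm⟩ := Polynomial.lifts_and_natDegree_eq_and_monic hl hp
    refine ⟨q, hqm, ?_⟩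
    rw [Polynomial.eval₂_eq_eval_map, hq, h0]
  -- integrality over `ℚ[X]`
  have hz2 : IsIntegral (Polynomial ℚ) z := by
    obtain ⟨p, hp, hc, h0⟩ := h2
    have hl : p ∈ Polynomial.lifts (algebraMap (Polynomial ℚ) Ω) := by
      rw [Polynomial.lifts_iff_coeff_lifts]
      intro i
      obtain ⟨P, hP⟩ := hc i
      exact ⟨P, hP.symm⟩
    obtain ⟨q, hq, -, hqm⟩ := Polynomial.lifts_and_natDegree_eq_and_monic hl hp
    refine ⟨q, hqm, ?_⟩
    rw [Polynomial.eval₂_eq_eval_map, hq, h0]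
  have e1 : minpoly (RatFunc ℚ) z =
      (minpoly (Polynomial ℚ) z).map (algebraMap (Polynomial ℚ) (RatFunc ℚ)) :=
    minpoly.isIntegrallyClosed_eq_field_fractions' (RatFunc ℚ) hz2
  have e2 : minpoly (RatFunc ℚ) z = (minpoly V z).map (algebraMap V (RatFunc ℚ)) :=
    minpoly.isIntegrallyClosed_eq_field_fractions' (RatFunc ℚ) hz1
  refine ⟨(minpoly (Polynomial ℚ) z).map (algebraMap (Polynomial ℚ) Ω),
    (minpoly.monic hz2).map _, fun i => ?_, ?_⟩
  · have h3 : algebraMap (Polynomial ℚ) (RatFunc ℚ) ((minpoly (Polynomial ℚ) z).coeff i) =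
        (((minpoly V z).coeff i : V) : RatFunc ℚ) := by
      have := congrArg (fun f : Polynomial (RatFunc ℚ) => f.coeff i) (e1.symm.trans e2)
      simpa [Polynomial.coeff_map] using this
    have h4 : Polynomial.aeval t ((minpoly (Polynomial ℚ) z).coeff i) ∈ O := by
      rw [← hψ, h3]
      exact ((minpoly V z).coeff i).2
    obtain ⟨Q, hQ⟩ := hGauss _ h4
    refine ⟨Q, ?_⟩
    rw [Polynomial.coeff_map, hQ]
    rfl
  · rw [← Polynomial.eval₂_eq_eval_map]
    exact minpoly.aeval (Polynomial ℚ) z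

end Abstract

end Fermat.Agent.S28

end
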