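import Fermat.Agent.S28.VBIndep

/-!
# S28 (Igusa), tower step (VB):  `[κ_(Mp) : k(J)] ≥ p * [κ_M : k(J)]`

OWNER: lead.  Prefix `s28vb_`.

`κ_N = modularFunctionFieldFullC k N`, `J = jqModC k`, `V = q ↦ q^p`.
Inputs (prime level): `(PR)  p + 1 ≤ [κ_p : k(J)]`,  `(SW)  [κ_p : k(J_p)] ≤ p + 1`.
-/

set_option autoImplicit false

noncomputable section

namespace Fermat.Agent.S28

open HahnSeries ModularCurve IntermediateField

variable (k : Type) [Field k]

/-- the subfield `k(J)` of `k((q))`. -/
abbrev s28vb_base : IntermediateField k (LaurentSeries k) :=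
  IntermediateField.adjoin k {jqModC k}

theorem s28vb_base_le (N : ℕ) [NeZero N] : s28vb_base k ≤ modularFunctionFieldFullC k N := by
  rw [s28vb_base, adjoin_le_iff]
  rintro x rfl
  exact jqModC_mem_full k N

theorem s28vb_map_base_le (p : ℕ) [NeZero p] :
    (s28vb_base k).map (qExpandAlgHomC k p) ≤ modularFunctionFieldFullC k p := by
  rw [s28vb_base, adjoin_map, adjoin_le_iff]
  rintro x ⟨y, rfl, rfl⟩
  exact jqModCd_mem_full k p dvd_rfl

/-- the key lower bound: `p ≤ [κ : κ']` whenever `κ' ⊆ k((q^p))` and `J ∈ κ`. -/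
theorem s28vb_le_relrank (p : ℕ) [NeZero p] (κ' κ : IntermediateField k (LaurentSeries k))
    (h : κ' ≤ κ) (hJ : jqModC k ∈ κ)
    (hκ' : ∀ x ∈ κ', ∃ d : LaurentSeries k, qExpand k p d = x) :
    (p : Cardinal) ≤ κ'.relrank κ := by
  classical
  rw [relrank_eq_rank_of_le h]
  let v : Fin p → ↥(extendScalars h) := fun i => ⟨jqModC k ^ (i : ℕ), pow_mem hJ _⟩
  have hv : LinearIndependent ↥κ' v := by
    refine LinearIndependent.of_comp (extendScalars h).val.toLinearMap ?_
    rw [Fintype.linearIndependent_iff]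
    intro g hg
    choose d hd using fun i => hκ' (g i : LaurentSeries k) (g i).2
    have hsum : ∑ i : Fin p, qExpand k p (d i) * jqModC k ^ (i : ℕ) = 0 := by
      rw [← hg]
      refine Finset.sum_congr rfl fun i _ => ?_
      rw [hd i]
      rfl
    intro i
    have h0 := s28vb_indep p d hsum i
    have : (g i : LaurentSeries k) = 0 := by rw [← hd i, h0, map_zero]
    exact Subtype.ext this
  have := hv.cardinal_le_rank
  simpa using this

theorem s28vb_main (p M : ℕ) [NeZero p] [NeZero M]
    (hPR : ((p + 1 : ℕ) : Cardinal) ≤ (s28vb_base k).relrank (modularFunctionFieldFullC k p))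
    (hSW : ((s28vb_base k).map (qExpandAlgHomC k p)).relrank (modularFunctionFieldFullC k p) ≤
      ((p + 1 : ℕ) : Cardinal)) :
    (p : Cardinal) * (s28vb_base k).relrank (modularFunctionFieldFullC k M) ≤
      (s28vb_base k).relrank (modularFunctionFieldFullC k (M * p)) := by
  set A₀ := s28vb_base k with hA₀
  set V := qExpandAlgHomC k p with hV
  set κM := modularFunctionFieldFullC k M with hκM
  set κp := modularFunctionFieldFullC k p with hκp
  set κ := modularFunctionFieldFullC k (M * p) with hκ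
  have h1 : A₀.map V ≤ κM.map V := by
    intro x hx
    obtain ⟨y, hy, rfl⟩ := hx
    exact ⟨y, s28vb_base_le k M hy, rfl⟩
  have h2 : κM.map V ≤ κ := full_degeneracyC_map_le k M p
  have h3 : A₀.map V ≤ κp := s28vb_map_base_le k p
  have h4 : κp ≤ κ := full_degeneracyC_le k (Dvd.intro_left M rfl)
  have h5 : A₀ ≤ κp := s28vb_base_le k p
  have e1 : (A₀.map V).relrank (κM.map V) = A₀.relrank κM := relrank_map_map A₀ κM V
  have h6 : (p : Cardinal) ≤ (κM.map V).relrank κ := by
    refine s28vb_le_relrank k p _ _ h2 (jqModC_mem_full k (M * p)) ?_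
    rintro x ⟨y, -, rfl⟩
    exact ⟨y, rfl⟩
  calc (p : Cardinal) * A₀.relrank κM
      = (A₀.map V).relrank (κM.map V) * p := by rw [e1, mul_comm]
    _ ≤ (A₀.map V).relrank (κM.map V) * (κM.map V).relrank κ := by gcongr
    _ = (A₀.map V).relrank κ := relrank_mul_relrank h1 h2
    _ = (A₀.map V).relrank κp * κp.relrank κ := (relrank_mul_relrank h3 h4).symm
    _ ≤ ((p + 1 : ℕ) : Cardinal) * κp.relrank κ := by gcongr
    _ ≤ A₀.relrank κp * κp.relrank κ := by gcongr
    _ = A₀.relrank κ := relrank_mul_relrank h5 h4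

end Fermat.Agent.S28
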