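import Fermat.Agent.S28.Core2
import Fermat.Agent.S28.VBMain

/-!
# S28 (Igusa), prime level: `(PR)  p + 1 ≤ [κ_p : k(J)]` and `(SW)  [κ_p : k(J_p)] ≤ p + 1`

OWNER: helper9.  Prefix `s28pr_`.  Inputs: `s28_stmt_CAs` (formal factorisation of the modular
polynomial over `ℤ((s))`), `s28_stmt_NB` (Borel exclusion), lead's `s28vb_indep`.

Dichotomy: the minimal polynomial `m` of `x = J(q^(p^2))` over `K₁ = k(J_p)` divides
`Φ(J_p, Y) = (Y - x) Q(Y)`; `Q` is the minimal polynomial of `J` over `k((q^p)) ⊇ K₁`, so a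
monic factor over `K₁` which kills `J` has degree `≥ p`; hence `deg m ∈ {1, p + 1}`, and
`deg m = 1` means `x ∈ K₁`, i.e. `J_p ∈ k(J)`, which is excluded by (NB).
-/

set_option autoImplicit false

noncomputable section

namespace Fermat.Agent.S28

open HahnSeries ModularCurve IntermediateField Cardinal

section Core

variable {k L : Type*} [Field k] [Field L] [Algebra k L]

/-- the abstract dichotomy: if `Φ₁ = (Y - x) Q` over `L`, `Φ₁` monic of degree `p + 1` over `K₁`,
`Q` monic of degree `p` with coefficients in `R₀ ⊇ K₁`, `Q(J) = 0`, `J` of degree `≥ p` over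
`R₀` and `x ∉ K₁`, then `x` has degree `p + 1` over `K₁`. -/
theorem s28pr_core (K₁ : IntermediateField k L) (R₀ : Subring L)
    (hK : ∀ y ∈ K₁, y ∈ R₀) (p : ℕ) (hp : 0 < p) (J x : L)
    (hOI : ∀ P : Polynomial L, (∀ i, P.coeff i ∈ R₀) → P.natDegree < p → P.eval J = 0 → P = 0)
    (hx : x ∉ K₁)
    (Φ₁ : Polynomial K₁) (hΦm : Φ₁.Monic) (hΦd : Φ₁.natDegree = p + 1)
    (Q : Polynomial L) (hQm : Q.Monic) (hQd : Q.natDegree = p) (hQc : ∀ i, Q.coeff i ∈ R₀)
    (hQJ : Q.eval J = 0)
    (hfac : Φ₁.map (algebraMap K₁ L) = (Polynomial.X - Polynomial.C x) * Q) :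
    IsIntegral K₁ x ∧ (minpoly K₁ x).natDegree = p + 1 := by
  classical
  have hroot : Polynomial.aeval x Φ₁ = 0 := by
    rw [Polynomial.aeval_def, ← Polynomial.eval_map, hfac]
    simp
  have hint : IsIntegral K₁ x := ⟨Φ₁, hΦm, hroot⟩
  refine ⟨hint, ?_⟩
  have hm : (minpoly K₁ x).Monic := minpoly.monic hint
  obtain ⟨g, hg⟩ := minpoly.dvd K₁ x hroot
  have hgm : g.Monic := hm.of_mul_monic_left (hg ▸ hΦm)
  have hdeg : (minpoly K₁ x).natDegree + g.natDegree = p + 1 := by
    rw [← hΦd, hg, hm.natDegree_mul hgm]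
  have hmapcoeff : ∀ (P : Polynomial K₁) (i : ℕ), (P.map (algebraMap K₁ L)).coeff i ∈ R₀ := by
    intro P i
    rw [Polynomial.coeff_map]
    exact hK _ (P.coeff i).2
  have hmem : ∀ c : K₁, algebraMap K₁ L c ∈ K₁ := fun c => c.2
  have hprod : (minpoly K₁ x).map (algebraMap K₁ L) * g.map (algebraMap K₁ L) =
      (Polynomial.X - Polynomial.C x) * Q := by
    rw [← Polynomial.map_mul, ← hg, hfac]
  have hev : ((minpoly K₁ x).map (algebraMap K₁ L)).eval J * (g.map (algebraMap K₁ L)).eval J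
      = 0 := by
    rw [← Polynomial.eval_mul, hprod, Polynomial.eval_mul, hQJ, mul_zero]
  -- a monic polynomial over `K₁` killing `J` has degree `≥ p`
  have hge : ∀ P : Polynomial K₁, P.Monic → (P.map (algebraMap K₁ L)).eval J = 0 →
      p ≤ P.natDegree := by
    intro P hP h0
    by_contra hlt
    rw [not_le] at hlt
    have hz := hOI (P.map (algebraMap K₁ L)) (hmapcoeff P)
      (by rw [hP.natDegree_map]; exact hlt) h0
    exact (hP.map (algebraMap K₁ L)).ne_zero hz
  have hxmem : ∀ c : K₁, x = algebraMap K₁ L c → False := fun c hc => hx (hc ▸ c.2)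
  rcases mul_eq_zero.mp hev with h1 | h1
  · have hpm := hge _ hm h1
    rcases Nat.lt_or_ge p (minpoly K₁ x).natDegree with h2 | h2
    · omega
    · exfalso
      have hmp : (minpoly K₁ x).natDegree = p := le_antisymm h2 hpm
      -- `m = Q` over `L`
      have hmL : ((minpoly K₁ x).map (algebraMap K₁ L)).Monic := hm.map _
      have hmLd : ((minpoly K₁ x).map (algebraMap K₁ L)).natDegree = p := by
        rw [hm.natDegree_map, hmp]
      have hD : (minpoly K₁ x).map (algebraMap K₁ L) - Q = 0 := by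
        apply hOI
        · intro i
          rw [Polynomial.coeff_sub]
          exact R₀.sub_mem (hmapcoeff _ i) (hQc i)
        · by_cases hz : (minpoly K₁ x).map (algebraMap K₁ L) - Q = 0
          · rw [hz]; simpa using hp
          · have hdd : ((minpoly K₁ x).map (algebraMap K₁ L)).degree = Q.degree := by
              rw [Polynomial.degree_eq_natDegree hmL.ne_zero,
                Polynomial.degree_eq_natDegree hQm.ne_zero, hmLd, hQd]
            have hll : ((minpoly K₁ x).map (algebraMap K₁ L)).leadingCoeff = Q.leadingCoeff := by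
              rw [hmL.leadingCoeff, hQm.leadingCoeff]
            have := Polynomial.degree_sub_lt_left hdd hmL.ne_zero hll
            rw [Polynomial.degree_eq_natDegree hmL.ne_zero, hmLd] at this
            exact (Polynomial.natDegree_lt_iff_degree_lt hz).mpr this
        · rw [Polynomial.eval_sub, h1, hQJ, sub_zero]
      have hmQ : (minpoly K₁ x).map (algebraMap K₁ L) = Q := sub_eq_zero.mp hD
      rw [hmQ, mul_comm] at hprod
      have hgL : g.map (algebraMap K₁ L) = Polynomial.X - Polynomial.C x :=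
        mul_right_cancel₀ hQm.ne_zero hprod
      have hc := congrArg (fun P => Polynomial.coeff P 0) hgL
      simp only [Polynomial.coeff_map, Polynomial.coeff_sub, Polynomial.coeff_X_zero,
        Polynomial.coeff_C_zero, zero_sub] at hc
      refine hxmem (-(g.coeff 0)) ?_
      rw [map_neg, hc, neg_neg]
  · exfalso
    have hpg := hge _ hgm h1
    have hpos := minpoly.natDegree_pos hint
    have h1' : (minpoly K₁ x).natDegree = 1 := by omega
    obtain ⟨c, hc⟩ := (minpoly.natDegree_eq_one_iff).mp h1'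
    exact hxmem c hc.symm

end Core

section Transfer

theorem s28pr_evalAt_comp {A B : Type*} [CommRing A] [CommRing B]
    (f : LaurentSeries A →+* LaurentSeries B) (x : LaurentSeries A) :
    f.comp (s28_evalAt x) = s28_evalAt (f x) := by
  apply Polynomial.ringHom_ext
  · intro a
    simp [s28_evalAt]
  · simp [s28_evalAt]

/-- (CA*) over a field. -/
theorem s28pr_CAs_field (h : s28_stmt_CAs) (k : Type*) [Field k] (p : ℕ) [NeZero p]
    (hp : p.Prime) :
    ∃ (Φ : Polynomial (Polynomial ℤ)) (Q : Polynomial (LaurentSeries k)),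
      Φ.Monic ∧ Φ.natDegree = p + 1 ∧ Q.Monic ∧ Q.natDegree = p ∧
      (∀ i, Q.coeff i ∈ (qExpand k p).range) ∧ Q.eval (jqModC k) = 0 ∧
      Φ.map (s28_evalAt (qExpand k p (jqModC k))) =
        (Polynomial.X - Polynomial.C (qExpand k (p * p) (jqModC k))) * Q := by
  obtain ⟨Φ, Q, hΦm, hΦd, hQm, hQd, hQc, hQJ, hfac⟩ := h p hp
  refine ⟨Φ, Q.map (coeffMap (Int.castRingHom k)), hΦm, hΦd, hQm.map _, ?_, ?_, ?_, ?_⟩
  · rw [hQm.natDegree_map, hQd]
  · intro i
    obtain ⟨y, hy⟩ := hQc i
    refine ⟨coeffMap (Int.castRingHom k) y, ?_⟩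
    rw [Polynomial.coeff_map, ← hy, coeffMap_qExpand]
  · rw [← coeffMap_jqModC (Int.castRingHom k), Polynomial.eval_map, Polynomial.eval₂_at_apply,
      hQJ, map_zero]
  · have := congrArg (Polynomial.map (coeffMap (Int.castRingHom k))) hfac
    rw [Polynomial.map_map, s28pr_evalAt_comp, coeffMap_qExpand, coeffMap_jqModC,
      Polynomial.map_mul, Polynomial.map_sub, Polynomial.map_X, Polynomial.map_C,
      coeffMap_qExpand, coeffMap_jqModC] at this
    exact this

end Transfer

section Concrete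

variable (k : Type) [Field k] (p : ℕ) [NeZero p]

/-- `k(J_p)`, as the image of `k(J)` under `q ↦ q^p`. -/
abbrev s28pr_K1 : IntermediateField k (LaurentSeries k) :=
  (s28vb_base k).map (qExpandAlgHomC k p)

theorem s28pr_Jp_mem : qExpand k p (jqModC k) ∈ s28pr_K1 k p :=
  ⟨jqModC k, IntermediateField.subset_adjoin k _ (Set.mem_singleton _), rfl⟩

theorem s28pr_K1_range (y : LaurentSeries k) (hy : y ∈ s28pr_K1 k p) :
    y ∈ (qExpand k p).range := by
  obtain ⟨z, -, rfl⟩ := hy
  exact ⟨z, rfl⟩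

/-- `(OI)` in polynomial form. -/
theorem s28pr_OI (P : Polynomial (LaurentSeries k)) (hP : ∀ i, P.coeff i ∈ (qExpand k p).range)
    (hdeg : P.natDegree < p) (h0 : P.eval (jqModC k) = 0) : P = 0 := by
  classical
  choose d hd using hP
  have hsum : ∑ i : Fin p, qExpand k p (d i) * jqModC k ^ (i : ℕ) = 0 := by
    rw [Fin.sum_univ_eq_sum_range (fun i => qExpand k p (d i) * jqModC k ^ i) p, ← h0,
      Polynomial.eval_eq_sum_range' hdeg]
    exact Finset.sum_congr rfl fun i _ => by rw [hd i]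
  have hz := s28vb_indep p (fun i : Fin p => d i) hsum
  refine Polynomial.ext fun i => ?_
  rw [Polynomial.coeff_zero]
  rcases Nat.lt_or_ge i p with hi | hi
  · rw [← hd i, hz ⟨i, hi⟩, map_zero]
  · exact Polynomial.coeff_eq_zero_of_natDegree_lt (lt_of_lt_of_le hdeg hi)

/-- `J(q^(p^2)) ∉ k(J_p)` from Borel exclusion. -/
theorem s28pr_not_mem (hNB : s28_stmt_NB) (hp : p.Prime) (hpk : (p : k) ≠ 0) :
    qExpand k (p * p) (jqModC k) ∉ s28pr_K1 k p := by
  rintro ⟨z, hz, hzx⟩
  have h1 : qExpand k p z = qExpand k p (qExpand k p (jqModC k)) := by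
    rw [qExpand_qExpand]
    exact hzx
  have h2 : z = qExpand k p (jqModC k) := qExpand_injective p h1
  exact hNB k p hp hpk (h2 ▸ hz)

/-- the modular polynomial with coefficients in `k(J_p)`. -/
def s28pr_ev1 : Polynomial ℤ →+* ↥(s28pr_K1 k p) :=
  Polynomial.eval₂RingHom (Int.castRingHom ↥(s28pr_K1 k p))
    ⟨qExpand k p (jqModC k), s28pr_Jp_mem k p⟩

theorem s28pr_ev1_comp :
    (algebraMap ↥(s28pr_K1 k p) (LaurentSeries k)).comp (s28pr_ev1 k p) =
      s28_evalAt (qExpand k p (jqModC k)) := by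
  apply Polynomial.ringHom_ext
  · intro a
    simp [s28_evalAt, s28pr_ev1]
  · simp [s28_evalAt, s28pr_ev1]


theorem s28pr_minpoly (hCAs : s28_stmt_CAs) (hNB : s28_stmt_NB) (hp : p.Prime)
    (hpk : (p : k) ≠ 0) :
    IsIntegral ↥(s28pr_K1 k p) (qExpand k (p * p) (jqModC k)) ∧
      (minpoly ↥(s28pr_K1 k p) (qExpand k (p * p) (jqModC k))).natDegree = p + 1 := by
  obtain ⟨Φ, Q, hΦm, hΦd, hQm, hQd, hQc, hQJ, hfac⟩ := s28pr_CAs_field hCAs k p hp
  refine s28pr_core (s28pr_K1 k p) (qExpand k p).range (s28pr_K1_range k p) p hp.pos (jqModC k) _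
    (s28pr_OI k p) (s28pr_not_mem k p hNB hp hpk) (Φ.map (s28pr_ev1 k p)) (hΦm.map _)
    (by rw [hΦm.natDegree_map, hΦd]) Q hQm hQd hQc hQJ ?_
  rw [Polynomial.map_map, s28pr_ev1_comp, hfac]

/-- **(PR)** `p + 1 ≤ [κ_p : k(J)]`, cardinal form (lead's `s28tl_Inputs.PR`). -/
theorem s28pr_PR (hCAs : s28_stmt_CAs) (hNB : s28_stmt_NB) (hp : p.Prime)
    (hpk : (p : k) ≠ 0) :
    ((p + 1 : ℕ) : Cardinal) ≤ (s28vb_base k).relrank (modularFunctionFieldFullC k p) := by
  obtain ⟨hint, hdeg⟩ := s28pr_minpoly k p hCAs hNB hp hpk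
  have hle : s28pr_K1 k p ≤ (modularFunctionFieldFullC k p).map (qExpandAlgHomC k p) := by
    intro x hx
    obtain ⟨y, hy, rfl⟩ := hx
    exact ⟨y, s28vb_base_le k p hy, rfl⟩
  rw [← relrank_map_map (s28vb_base k) (modularFunctionFieldFullC k p) (qExpandAlgHomC k p),
    relrank_eq_rank_of_le hle]
  have hx : qExpand k (p * p) (jqModC k) ∈ extendScalars hle := by
    rw [mem_extendScalars]
    refine ⟨qExpand k p (jqModC k), jqModCd_mem_full k p dvd_rfl, ?_⟩
    exact qExpand_qExpand p p (jqModC k)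
  have hsub : (s28pr_K1 k p)⟮qExpand k (p * p) (jqModC k)⟯ ≤ extendScalars hle := by
    rw [adjoin_le_iff, Set.singleton_subset_iff]
    exact hx
  have hr : Module.rank ↥(s28pr_K1 k p) ↥((s28pr_K1 k p)⟮qExpand k (p * p) (jqModC k)⟯) ≤
      Module.rank ↥(s28pr_K1 k p) ↥(extendScalars hle) :=
    LinearMap.rank_le_of_injective (IntermediateField.inclusion hsub).toLinearMap
      (IntermediateField.inclusion_injective hsub)
  refine le_trans ?_ hr
  have hfd := IntermediateField.adjoin.finiteDimensional hint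
  rw [← Module.finrank_eq_rank, IntermediateField.adjoin.finrank hint, hdeg]

/-- **(SW)** `[κ_p : k(J_p)] ≤ p + 1`, cardinal form (lead's `s28tl_Inputs.SW`). -/
theorem s28pr_SW (hCAs : s28_stmt_CAs) (hp : p.Prime) :
    ((s28vb_base k).map (qExpandAlgHomC k p)).relrank (modularFunctionFieldFullC k p) ≤
      ((p + 1 : ℕ) : Cardinal) := by
  obtain ⟨Φ, Q, hΦm, hΦd, hQm, hQd, hQc, hQJ, hfac⟩ := s28pr_CAs_field hCAs k p hp
  have hle : s28pr_K1 k p ≤ modularFunctionFieldFullC k p := s28vb_map_base_le k p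
  rw [relrank_eq_rank_of_le hle]
  have hroot : Polynomial.aeval (jqModC k) (Φ.map (s28pr_ev1 k p)) = 0 := by
    rw [Polynomial.aeval_def, ← Polynomial.eval_map, Polynomial.map_map, s28pr_ev1_comp, hfac,
      Polynomial.eval_mul, hQJ, mul_zero]
  have hint : IsIntegral ↥(s28pr_K1 k p) (jqModC k) := ⟨Φ.map (s28pr_ev1 k p), hΦm.map _, hroot⟩
  have hfull : modularFunctionFieldFullC k p ≤
      ((s28pr_K1 k p)⟮jqModC k⟯).restrictScalars k := by
    rw [modularFunctionFieldFullC, adjoin_le_iff]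
    rintro z ⟨d, hne, hdvd, rfl⟩
    rw [SetLike.mem_coe, mem_restrictScalars]
    rcases (Nat.dvd_prime hp).mp hdvd with h1 | h1
    · subst h1
      rw [qExpand_one_apply]
      exact mem_adjoin_simple_self (↥(s28pr_K1 k p)) (jqModC k)
    · subst h1
      exact IntermediateField.algebraMap_mem ((s28pr_K1 k d)⟮jqModC k⟯)
        (⟨_, s28pr_Jp_mem k d⟩ : ↥(s28pr_K1 k d))
  have hsub : extendScalars hle ≤ (s28pr_K1 k p)⟮jqModC k⟯ := by
    intro y hy
    rw [mem_extendScalars] at hy
    exact hfull hy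
  have hr : Module.rank ↥(s28pr_K1 k p) ↥(extendScalars hle) ≤
      Module.rank ↥(s28pr_K1 k p) ↥((s28pr_K1 k p)⟮jqModC k⟯) :=
    LinearMap.rank_le_of_injective (IntermediateField.inclusion hsub).toLinearMap
      (IntermediateField.inclusion_injective hsub)
  refine hr.trans ?_
  have hfd := IntermediateField.adjoin.finiteDimensional hint
  rw [← Module.finrank_eq_rank, IntermediateField.adjoin.finrank hint]
  have hd : (minpoly ↥(s28pr_K1 k p) (jqModC k)).natDegree ≤ p + 1 := by
    rw [← hΦd, ← hΦm.natDegree_map (s28pr_ev1 k p)]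
    exact Polynomial.natDegree_le_of_dvd (minpoly.dvd _ _ hroot) (hΦm.map _).ne_zero
  exact_mod_cast hd

end Concrete

end Fermat.Agent.S28
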