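import Mathlib

/-!
# S28 (Igusa), tower: the arithmetic induction

OWNER: lead.  Prefix `s28tl_`.

`ψ` satisfies the recursion of the Dedekind psi function, `D N` is the degree of the level-`N`
field mod `ℓ` over `k(J)`.  From the upper bound `D ≤ ψ`, divisibility in towers, the prime level
bound `p + 1 ≤ D p` and the step `p * D M ≤ D (M p)` we get `ψ ≤ D`.
-/

set_option autoImplicit false

namespace Fermat.Agent.S28

theorem s28tl_arith (ℓ : ℕ) (ψ D : ℕ → ℕ)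
    (hψ1 : ψ 1 = 1)
    (hψdvd : ∀ p N : ℕ, p.Prime → N ≠ 0 → p ∣ N → ψ (p * N) = p * ψ N)
    (hψndvd : ∀ p N : ℕ, p.Prime → N ≠ 0 → ¬ p ∣ N → ψ (p * N) = (p + 1) * ψ N)
    (hUB : ∀ N : ℕ, N ≠ 0 → ¬ ℓ ∣ N → D N ≤ ψ N)
    (hpos : ∀ N : ℕ, N ≠ 0 → ¬ ℓ ∣ N → 0 < D N)
    (hdvd : ∀ M N : ℕ, N ≠ 0 → ¬ ℓ ∣ N → M ∣ N → D M ∣ D N)
    (hPR : ∀ p : ℕ, p.Prime → p ≠ ℓ → p + 1 ≤ D p)
    (hVB : ∀ p M : ℕ, p.Prime → p ≠ ℓ → M ≠ 0 → ¬ ℓ ∣ M → p * D M ≤ D (M * p)) :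
    ∀ N : ℕ, N ≠ 0 → ¬ ℓ ∣ N → ψ N ≤ D N := by
  intro N
  induction N using Nat.strong_induction_on with
  | _ N ih =>
  intro hN hℓ
  have hne_of_dvd : ∀ p : ℕ, p ∣ N → p ≠ ℓ := fun p hp h => hℓ (h ▸ hp)
  have hℓ_of_dvd : ∀ M : ℕ, M ∣ N → ¬ ℓ ∣ M := fun M hM h => hℓ (h.trans hM)
  by_cases h1 : N = 1
  · subst h1
    rw [hψ1]
    exact hpos 1 one_ne_zero hℓ
  by_cases hsq : Squarefree N
  · -- squarefree case
    obtain ⟨p, hpdef⟩ : ∃ p, p = N.minFac := ⟨_, rfl⟩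
    have hp : p.Prime := hpdef ▸ Nat.minFac_prime h1
    have hpN : p ∣ N := hpdef ▸ Nat.minFac_dvd N
    obtain ⟨M, hM⟩ := hpN
    have hM0 : M ≠ 0 := by rintro rfl; exact hN (by rw [hM, mul_zero])
    have hsqM : Nat.Coprime p M ∧ Squarefree p ∧ Squarefree M := by
      rw [← Nat.squarefree_mul_iff, ← hM]; exact hsq
    have hpM : ¬ p ∣ M := (Nat.Prime.coprime_iff_not_dvd hp).mp hsqM.1
    have hMN : M ∣ N := ⟨p, by rw [hM, mul_comm]⟩
    have hMlt : M < N := by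
      rw [hM]
      exact lt_mul_of_one_lt_left (Nat.pos_of_ne_zero hM0) hp.one_lt
    by_cases hM1 : M = 1
    · have hNp : N = p := by rw [hM, hM1, mul_one]
      have : ψ N = p + 1 := by
        rw [hM, hM1, hψndvd p 1 hp one_ne_zero (by simpa using hp.ne_one), hψ1, mul_one]
      rw [this, hNp]
      exact hPR p hp (hne_of_dvd p (hpdef ▸ Nat.minFac_dvd N))
    · obtain ⟨p', hp'def⟩ : ∃ p', p' = M.minFac := ⟨_, rfl⟩
      have hp' : p'.Prime := hp'def ▸ Nat.minFac_prime hM1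
      have hp'M : p' ∣ M := hp'def ▸ Nat.minFac_dvd M
      obtain ⟨M'', hM''⟩ := hp'M
      have hM''0 : M'' ≠ 0 := by rintro rfl; exact hM0 (by rw [hM'', mul_zero])
      have hsqM'' : Nat.Coprime p' M'' ∧ Squarefree p' ∧ Squarefree M'' := by
        rw [← Nat.squarefree_mul_iff, ← hM'']; exact hsqM.2.2
      have hp'M'' : ¬ p' ∣ M'' := (Nat.Prime.coprime_iff_not_dvd hp').mp hsqM''.1
      have hp'M : p' ∣ M := hp'def ▸ Nat.minFac_dvd M
      have hp'N : p' ∣ N := hp'M.trans hMN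
      have hpp' : p ≠ p' := fun h => hpM (h ▸ hp'M)
      have hple : p ≤ p' := hpdef ▸ Nat.minFac_le_of_dvd hp'.two_le hp'N
      have hplt : p < p' := lt_of_le_of_ne hple hpp'
      have hpM'' : ¬ p ∣ M'' := fun h => hpM (h.trans ⟨p', by rw [hM'', mul_comm]⟩)
      -- M' = p * M''
      have hM'0 : p * M'' ≠ 0 := mul_ne_zero hp.ne_zero hM''0
      have hNM' : N = (p * M'') * p' := by rw [hM, hM'']; ring
      have hM'N : p * M'' ∣ N := ⟨p', hNM'⟩
      have hM'lt : p * M'' < N := by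
        rw [hNM']
        exact lt_mul_of_one_lt_right (Nat.pos_of_ne_zero hM'0) hp'.one_lt
      have hM''N : M'' ∣ N := (Dvd.intro_left p rfl).trans hM'N
      have ihM := ih M hMlt hM0 (hℓ_of_dvd M hMN)
      have ihM' := ih (p * M'') hM'lt hM'0 (hℓ_of_dvd _ hM'N)
      have hDM : D M = ψ M := le_antisymm (hUB M hM0 (hℓ_of_dvd M hMN)) ihM
      have hψM : ψ M = (p' + 1) * ψ M'' := by rw [hM'', hψndvd p' M'' hp' hM''0 hp'M'']
      have hψM' : ψ (p * M'') = (p + 1) * ψ M'' := hψndvd p M'' hp hM''0 hpM''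
      have hψN : ψ N = (p + 1) * ψ M := by rw [hM, hψndvd p M hp hM0 hpM]
      have hψ''pos : 0 < ψ M'' :=
        lt_of_lt_of_le (hpos M'' hM''0 (hℓ_of_dvd _ hM''N)) (hUB M'' hM''0 (hℓ_of_dvd _ hM''N))
      have hVB' : p' * D (p * M'') ≤ D N := by
        have := hVB p' (p * M'') hp' (hne_of_dvd p' hp'N) hM'0 (hℓ_of_dvd _ hM'N)
        rwa [← hNM'] at this
      obtain ⟨c, hc⟩ := hdvd M N hN hℓ hMN
      have hUBN := hUB N hN hℓ
      rw [hψN]
      rw [hc, hDM, mul_comm (ψ M) c]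
      refine Nat.mul_le_mul_right _ ?_
      by_contra hcp
      rw [not_le] at hcp
      have hcp' : c ≤ p := Nat.lt_succ_iff.mp hcp
      have h1' : p' * ((p + 1) * ψ M'') ≤ c * ((p' + 1) * ψ M'') := by
        calc p' * ((p + 1) * ψ M'') = p' * ψ (p * M'') := by rw [hψM']
          _ ≤ p' * D (p * M'') := Nat.mul_le_mul_left _ ihM'
          _ ≤ D N := hVB'
          _ = c * ((p' + 1) * ψ M'') := by rw [hc, hDM, hψM, mul_comm]
      have h2' : p' * (p + 1) * ψ M'' ≤ p * (p' + 1) * ψ M'' := by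
        calc p' * (p + 1) * ψ M'' = p' * ((p + 1) * ψ M'') := by ring
          _ ≤ c * ((p' + 1) * ψ M'') := h1'
          _ ≤ p * ((p' + 1) * ψ M'') := Nat.mul_le_mul_right _ hcp'
          _ = p * (p' + 1) * ψ M'' := by ring
      have h3' : p' * (p + 1) ≤ p * (p' + 1) := Nat.le_of_mul_le_mul_right h2' hψ''pos
      nlinarith
  · -- not squarefree
    rw [Nat.squarefree_iff_prime_squarefree] at hsq
    push_neg at hsq
    obtain ⟨r, hr, t, ht⟩ := hsq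
    have hMdef : N = r * (r * t) := by rw [ht]; ring
    have hM0 : r * t ≠ 0 := by
      intro h
      exact hN (by rw [hMdef, h, mul_zero])
    have hMN : r * t ∣ N := ⟨r, by rw [hMdef]; ring⟩
    have hMlt : r * t < N := by
      rw [hMdef]
      exact lt_mul_of_one_lt_left (Nat.pos_of_ne_zero hM0) hr.one_lt
    have ihM := ih (r * t) hMlt hM0 (hℓ_of_dvd _ hMN)
    have hψN : ψ N = r * ψ (r * t) := by
      rw [hMdef, hψdvd r (r * t) hr hM0 (Dvd.intro t rfl)]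
    have hVB' : r * D (r * t) ≤ D N := by
      have := hVB r (r * t) hr (hne_of_dvd r ⟨r * t, hMdef⟩) hM0 (hℓ_of_dvd _ hMN)
      rwa [show r * t * r = N by rw [hMdef]; ring] at this
    rw [hψN]
    exact (Nat.mul_le_mul_left _ ihM).trans hVB'

end Fermat.Agent.S28
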