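import Fermat.Agent.S28.VBMain
import Fermat.Agent.S28.TLArith
import Fermat.Agent.S20.CosetIndex

/-!
# S28 (Igusa), tower: `ψ(N) ≤ [κ_N : k(J)]` from the prime-level inputs

OWNER: lead.  Prefix `s28tl_`.

Everything happens inside `L = LaurentSeries k`, degrees are `IntermediateField.relrank`
(cardinals) of intermediate fields of `L / k`.
-/

set_option autoImplicit false

noncomputable section

namespace Fermat.Agent.S28

open HahnSeries ModularCurve IntermediateField Cardinal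

variable (k : Type) [Field k]

/-- the degree `[κ_N : k(J)]` as a natural number (`0` for `N = 0`). -/
def s28tl_D (N : ℕ) : ℕ :=
  if h : N = 0 then 0 else
    haveI : NeZero N := ⟨h⟩
    (s28vb_base k).relfinrank (modularFunctionFieldFullC k N)

theorem s28tl_D_eq (N : ℕ) [NeZero N] :
    s28tl_D k N = (s28vb_base k).relfinrank (modularFunctionFieldFullC k N) := by
  unfold s28tl_D
  rw [dif_neg (NeZero.ne N)]

theorem s28tl_relrank_ne_zero (A B : IntermediateField k (LaurentSeries k)) (h : A ≤ B) :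
    A.relrank B ≠ 0 := by
  rw [relrank_eq_rank_of_le h]
  exact (rank_pos (R := ↥A) (M := ↥(extendScalars h))).ne'

variable {k}

/-- the hypotheses of the tower, in cardinal form. -/
structure s28tl_Inputs (k : Type) [Field k] (ℓ : ℕ) : Prop where
  UB : ∀ (M : ℕ) [NeZero M], ¬ ℓ ∣ M →
    (s28vb_base k).relrank (modularFunctionFieldFullC k M) ≤ ((dedekindPsi M : ℕ) : Cardinal)
  PR : ∀ (p : ℕ) [NeZero p], p.Prime → p ≠ ℓ →
    ((p + 1 : ℕ) : Cardinal) ≤ (s28vb_base k).relrank (modularFunctionFieldFullC k p)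
  SW : ∀ (p : ℕ) [NeZero p], p.Prime → p ≠ ℓ →
    ((s28vb_base k).map (qExpandAlgHomC k p)).relrank (modularFunctionFieldFullC k p) ≤
      ((p + 1 : ℕ) : Cardinal)

theorem s28tl_lt_aleph0 {ℓ : ℕ} (H : s28tl_Inputs k ℓ) (M : ℕ) [NeZero M] (hM : ¬ ℓ ∣ M) :
    (s28vb_base k).relrank (modularFunctionFieldFullC k M) < ℵ₀ :=
  lt_of_le_of_lt (H.UB M hM) (nat_lt_aleph0 _)

theorem s28tl_cast_D {ℓ : ℕ} (H : s28tl_Inputs k ℓ) (M : ℕ) [NeZero M] (hM : ¬ ℓ ∣ M) :
    ((s28tl_D k M : ℕ) : Cardinal) = (s28vb_base k).relrank (modularFunctionFieldFullC k M) := by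
  rw [s28tl_D_eq, relfinrank_eq_toNat_relrank]
  exact cast_toNat_of_lt_aleph0 (s28tl_lt_aleph0 H M hM)

/-- **(TL)** the tower, cardinal form. -/
theorem s28tl_main {ℓ : ℕ} (hℓ : ℓ.Prime) (H : s28tl_Inputs k ℓ) (N : ℕ) [NeZero N]
    (hN : ¬ ℓ ∣ N) :
    dedekindPsi N ≤ (s28vb_base k).relfinrank (modularFunctionFieldFullC k N) := by
  rw [← s28tl_D_eq]
  refine s28tl_arith ℓ dedekindPsi (s28tl_D k) dedekindPsi_one ?_ ?_ ?_ ?_ ?_ ?_ ?_ N
    (NeZero.ne N) hN
  · intro p M hp hM hpM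
    exact Fermat.Agent.S20.coset_index_psi_mul_of_dvd hp hM hpM
  · intro p M hp hM hpM
    exact Fermat.Agent.S20.coset_index_psi_mul_of_not_dvd hp hM hpM
  · -- UB
    intro M hM hℓM
    haveI : NeZero M := ⟨hM⟩
    have h := H.UB M hℓM
    rw [← s28tl_cast_D H M hℓM] at h
    exact_mod_cast h
  · -- positivity
    intro M hM hℓM
    haveI : NeZero M := ⟨hM⟩
    have h := s28tl_cast_D H M hℓM
    rcases Nat.eq_zero_or_pos (s28tl_D k M) with h0 | h0
    · rw [h0, Nat.cast_zero] at h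
      exact absurd h.symm (s28tl_relrank_ne_zero k _ _ (s28vb_base_le k M))
    · exact h0
  · -- divisibility
    intro M N' hN' hℓN' hMN
    haveI : NeZero N' := ⟨hN'⟩
    have hM : M ≠ 0 := fun h => hN' (by rw [h] at hMN; exact zero_dvd_iff.mp hMN)
    haveI : NeZero M := ⟨hM⟩
    rw [s28tl_D_eq, s28tl_D_eq]
    exact Dvd.intro _ (relfinrank_mul_relfinrank (s28vb_base_le k M) (full_degeneracyC_le k hMN))
  · -- PR
    intro p hp hpℓ
    haveI : NeZero p := ⟨hp.ne_zero⟩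
    have hℓp : ¬ ℓ ∣ p := fun h => hpℓ ((Nat.prime_dvd_prime_iff_eq hℓ hp).mp h).symm
    have h := H.PR p hp hpℓ
    rw [← s28tl_cast_D H p hℓp] at h
    exact_mod_cast h
  · -- VB
    intro p M hp hpℓ hM hℓM
    haveI : NeZero p := ⟨hp.ne_zero⟩
    haveI : NeZero M := ⟨hM⟩
    have hℓp : ¬ ℓ ∣ p := fun h => hpℓ ((Nat.prime_dvd_prime_iff_eq hℓ hp).mp h).symm
    have hℓMp : ¬ ℓ ∣ M * p := fun h => (hℓ.dvd_mul.mp h).elim hℓM hℓp
    have h := s28vb_main k p M (H.PR p hp hpℓ) (H.SW p hp hpℓ)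
    rw [← s28tl_cast_D H M hℓM, ← s28tl_cast_D H (M * p) hℓMp] at h
    exact_mod_cast h

end Fermat.Agent.S28
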