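import Fermat.Agent.S28.ThetaFormal
import Fermat.Agent.S20.RankinCohen
import Fermat.Agent.S24.QExpFormal
import Fermat.Agent.S24.JFunInfty

/-!
# S28 (Igusa) / (CG): the analytic input of the theta identity  (OWNER: helper1)

The power series identities
* `1728 Δ = E₄³ - E₆²`,
* `2 E₄ θE₆ - 3 E₆ θE₄ = -1728 Δ` (Rankin–Cohen),
for the `q`-expansions, from the pointwise identities on the upper half plane.
-/

set_option autoImplicit false

open UpperHalfPlane hiding I
open Real Complex Derivative Filter Function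
open scoped Manifold MatrixGroups ModularForm Topology
open EisensteinSeries ModularForm ModularFormClass SlashInvariantFormClass
open Fermat.Agent.S20 Fermat.Agent.S24

noncomputable section

namespace Fermat.Agent.S28

local notation "𝕢" => Periodic.qParam

/-- two functions analytic at `0` which agree at all `q(z)`, `z ∈ ℍ`, have the same Taylor
series. -/
theorem s28cg_qfT_eq {G H : ℂ → ℂ} (hG : AnalyticAt ℂ G 0) (hH : AnalyticAt ℂ H 0)
    (h : ∀ z : ℍ, G (𝕢 1 z) = H (𝕢 1 z)) : qfT G = qfT H := by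
  refine qfT_congr ((hG.frequently_eq_iff_eventually_eq hH).mp ?_)
  refine Eventually.frequently ?_
  rw [eventually_nhdsWithin_iff]
  filter_upwards [Metric.ball_mem_nhds (0 : ℂ) one_pos] with q hq hq0
  obtain ⟨z, rfl⟩ := jf_exists_qParam (q := q) (by simpa using hq) hq0
  exact h z

/-- the Taylor series of `q G'(q)`. -/
theorem s28cg_qfT_id_mul_deriv {G : ℂ → ℂ} (hG : AnalyticAt ℂ G 0) :
    qfT ((fun q : ℂ => q) * deriv G) = s28cg_thetaP (qfT G) := by
  have aid : AnalyticAt ℂ (fun q : ℂ => q) 0 := analyticAt_id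
  rw [qfT_mul aid hG.deriv, qfT_id]
  ext n
  rw [s28cg_thetaP_coeff]
  rcases n with _ | m
  · simp
  · rw [PowerSeries.coeff_succ_X_mul, qfT_coeff, qfT_coeff, iteratedDeriv_succ',
      Nat.factorial_succ]
    have h1 : ((m + 1 : ℕ) : ℂ) ≠ 0 := by exact_mod_cast Nat.succ_ne_zero m
    have h2 : ((m.factorial : ℕ) : ℂ) ≠ 0 := by exact_mod_cast Nat.factorial_ne_zero m
    push_cast
    field_simp

theorem s28cg_analyticAt_cusp {k : ℤ} (f : ModularForm 𝒮ℒ k) :
    AnalyticAt ℂ (cuspFunction 1 f) 0 :=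
  ModularFormClass.analyticAt_cuspFunction_zero f one_pos one_mem_strictPeriods_SL

theorem s28cg_analyticAt_cusp_delta :
    AnalyticAt ℂ (cuspFunction 1 ModularForm.discriminant) 0 :=
  ModularFormClass.analyticAt_cuspFunction_zero CuspForm.discriminant one_pos
    one_mem_strictPeriods_SL

theorem s28cg_eq_cusp {k : ℤ} (f : ModularForm 𝒮ℒ k) (z : ℍ) :
    cuspFunction 1 f (𝕢 1 z) = f z :=
  SlashInvariantFormClass.eq_cuspFunction (h := 1) f z one_mem_strictPeriods_SL one_ne_zero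

theorem s28cg_eq_cusp_delta (z : ℍ) :
    cuspFunction 1 ModularForm.discriminant (𝕢 1 z) = ModularForm.discriminant z :=
  SlashInvariantFormClass.eq_cuspFunction (h := 1) CuspForm.discriminant z
    one_mem_strictPeriods_SL one_ne_zero

/-- `1728 Δ = E₄³ - E₆²` for the `q`-expansions. -/
theorem s28cg_P2 :
    1728 * qExpansion 1 ModularForm.discriminant = qExpansion 1 E₄ ^ 3 - qExpansion 1 E₆ ^ 2 := by
  have a4 := s28cg_analyticAt_cusp E₄
  have a6 := s28cg_analyticAt_cusp E₆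
  have aΔ := s28cg_analyticAt_cusp_delta
  have ac : AnalyticAt ℂ (fun _ : ℂ => (1728 : ℂ)) 0 := analyticAt_const
  have key : qfT ((fun _ : ℂ => (1728 : ℂ)) * cuspFunction 1 ModularForm.discriminant) =
      qfT (cuspFunction 1 E₄ ^ 3 - cuspFunction 1 E₆ ^ 2) := by
    refine s28cg_qfT_eq (ac.mul aΔ) ((a4.pow 3).sub (a6.pow 2)) fun z => ?_
    simp only [Pi.mul_apply, Pi.sub_apply, Pi.pow_apply]
    rw [s28cg_eq_cusp_delta, s28cg_eq_cusp, s28cg_eq_cusp,
      ModularForm.discriminant_eq_E₄_cube_sub_E₆_sq z]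
    ring
  rw [qfT_mul ac aΔ, qfT_sub (a4.pow 3) (a6.pow 2), qfT_pow a4, qfT_pow a6, qfT_const,
    map_ofNat] at key
  rw [qf_qExpansion_eq, qf_qExpansion_eq, qf_qExpansion_eq]
  exact key

/-- the Rankin–Cohen identity `2 E₄ θE₆ - 3 E₆ θE₄ = -1728 Δ` for the `q`-expansions. -/
theorem s28cg_P3 :
    2 * qExpansion 1 E₄ * s28cg_thetaP (qExpansion 1 E₆) -
        3 * qExpansion 1 E₆ * s28cg_thetaP (qExpansion 1 E₄) =
      -1728 * qExpansion 1 ModularForm.discriminant := by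
  have a4 := s28cg_analyticAt_cusp E₄
  have a6 := s28cg_analyticAt_cusp E₆
  have aΔ := s28cg_analyticAt_cusp_delta
  have ac2 : AnalyticAt ℂ (fun _ : ℂ => (2 : ℂ)) 0 := analyticAt_const
  have ac3 : AnalyticAt ℂ (fun _ : ℂ => (3 : ℂ)) 0 := analyticAt_const
  have ac : AnalyticAt ℂ (fun _ : ℂ => (-1728 : ℂ)) 0 := analyticAt_const
  have aid : AnalyticAt ℂ (fun q : ℂ => q) 0 := analyticAt_id
  have ad4 : AnalyticAt ℂ ((fun q : ℂ => q) * deriv (cuspFunction 1 E₄)) 0 := aid.mul a4.deriv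
  have ad6 : AnalyticAt ℂ ((fun q : ℂ => q) * deriv (cuspFunction 1 E₆)) 0 := aid.mul a6.deriv
  have key : qfT (((fun _ : ℂ => (2 : ℂ)) * cuspFunction 1 E₄) *
        ((fun q : ℂ => q) * deriv (cuspFunction 1 E₆)) -
      ((fun _ : ℂ => (3 : ℂ)) * cuspFunction 1 E₆) *
        ((fun q : ℂ => q) * deriv (cuspFunction 1 E₄))) =
      qfT ((fun _ : ℂ => (-1728 : ℂ)) * cuspFunction 1 ModularForm.discriminant) := by
    refine s28cg_qfT_eq (((ac2.mul a4).mul ad6).sub ((ac3.mul a6).mul ad4)) (ac.mul aΔ)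
      fun z => ?_
    simp only [Pi.mul_apply, Pi.sub_apply]
    rw [s28cg_eq_cusp_delta, s28cg_eq_cusp, s28cg_eq_cusp, ← rc_D_eq_qderiv E₆ z,
      ← rc_D_eq_qderiv E₄ z]
    exact rc_bracket z
  rw [qfT_sub ((ac2.mul a4).mul ad6) ((ac3.mul a6).mul ad4), qfT_mul (ac2.mul a4) ad6,
    qfT_mul (ac3.mul a6) ad4, qfT_mul ac2 a4, qfT_mul ac3 a6, qfT_mul ac aΔ,
    s28cg_qfT_id_mul_deriv a4, s28cg_qfT_id_mul_deriv a6, qfT_const, qfT_const, qfT_const,
    map_ofNat, map_ofNat, map_neg, map_ofNat] at key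
  rw [qf_qExpansion_eq, qf_qExpansion_eq, qf_qExpansion_eq]
  exact key

end Fermat.Agent.S28
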