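import Fermat.Agent.S28.Arith
import Fermat.Agent.S28.Core2

/-!
# S28 / (TL): the tower induction over `𝔽_ℓ`  (OWNER: helper4)

OFF-MAIN work for the S28 sprint.  `s28ar_TLz : (UBD) → (PR) → (VB) → (TLz)`, by the arithmetic
induction `s28ar_induction` and the tower law `D_M ∣ D_N` for `M ∣ N`.
-/

set_option autoImplicit false

namespace Fermat.Agent.S28

open ModularCurve IntermediateField

theorem s28ar_kJ_le (k : Type*) [Field k] (N : ℕ) :
    s28_kJ k ≤ modularFunctionFieldFullC k N := by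
  rw [s28_kJ, adjoin_le_iff]
  rintro x hx
  rw [Set.mem_singleton_iff] at hx
  subst hx
  exact jqModC_mem_full k N

/-- tower law: `D_M ∣ D_N` for `M ∣ N`. -/
theorem s28ar_D_dvd (k : Type*) [Field k] {M N : ℕ} [NeZero M] [NeZero N] (h : M ∣ N) :
    s28_D k M ∣ s28_D k N := by
  unfold s28_D
  exact ⟨_, (IntermediateField.relfinrank_mul_relfinrank (s28ar_kJ_le k M)
    (full_degeneracyC_le k h)).symm⟩

theorem s28ar_D_one (k : Type*) [Field k] : s28_D k 1 = 1 := by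
  unfold s28_D
  rw [IntermediateField.relfinrank_eq_one_iff, modularFunctionFieldFullC, adjoin_le_iff]
  rintro x ⟨d, hne, hd, rfl⟩
  have hd1 : d = 1 := Nat.dvd_one.mp hd
  subst hd1
  rw [qExpand_one_apply]
  exact subset_adjoin k _ (Set.mem_singleton _)

/-- **(TLz)** from (UBD), (PR), (VB). -/
theorem s28ar_TLz (hUBD : s28_stmt_UBD) (hPR : s28_stmt_PR) (hVB : s28_stmt_VB) :
    s28_stmt_TLz := by
  intro ℓ hℓ N hN hℓN
  have hℓp : ℓ.Prime := hℓ.out
  refine s28ar_induction (fun M => ¬ ℓ ∣ M) (fun M N' hMN hN' h => hN' (h.trans hMN))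
    (s28_D (ZMod ℓ)) ?_ ?_ ?_ ?_ ?_ N (Nat.pos_of_ne_zero (NeZero.ne N)) hℓN
  · rw [s28ar_D_one]
  · intro M hM hG
    have : NeZero M := ⟨hM.ne'⟩
    exact (hUBD ℓ M hG).2
  · intro p hp hG
    have : NeZero p := ⟨hp.ne_zero⟩
    have hpk : ((p : ℕ) : ZMod ℓ) ≠ 0 := by
      rw [Ne, ZMod.natCast_eq_zero_iff]
      exact hG
    exact (hPR (ZMod ℓ) p hp hpk).ge
  · intro M p hM hp hG
    have : NeZero p := ⟨hp.ne_zero⟩
    have : NeZero M := ⟨hM.ne'⟩
    have : NeZero (M * p) := ⟨mul_ne_zero hM.ne' hp.ne_zero⟩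
    have hpk : ((p : ℕ) : ZMod ℓ) ≠ 0 := by
      rw [Ne, ZMod.natCast_eq_zero_iff]
      exact fun h => hG (h.mul_left M)
    exact hVB (ZMod ℓ) p M hp hpk (hUBD ℓ (M * p) hG).1
  · intro M p hM hp hG
    have : NeZero M := ⟨hM.ne'⟩
    have : NeZero (M * p) := ⟨mul_ne_zero hM.ne' hp.ne_zero⟩
    exact s28ar_D_dvd (ZMod ℓ) (dvd_mul_right M p)

end Fermat.Agent.S28
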