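import Mathlib
import Fermat.Prelude.Def_ModularCurve_X0ModL

/-!
# S28 (Igusa), tower step (VB): linear independence of `1, J, …, J^(p-1)` over `k((q^p))`

OWNER: lead.  Prefix `s28vb_`.
-/

set_option autoImplicit false

noncomputable section

namespace Fermat.Agent.S28

open HahnSeries ModularCurve

section Order

variable {k : Type*} [Field k]

/-- a finite sum of Laurent series whose nonzero terms have pairwise distinct orders and which has
a nonzero term is nonzero. -/
theorem s28vb_sum_ne_zero {ι : Type*} [DecidableEq ι] (s : Finset ι) (t : ι → LaurentSeries k)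
    (hinj : ∀ i ∈ s, ∀ j ∈ s, t i ≠ 0 → t j ≠ 0 → (t i).orderTop = (t j).orderTop → i = j)
    (hne : ∃ i ∈ s, t i ≠ 0) : ∑ i ∈ s, t i ≠ 0 := by
  classical
  -- choose a nonzero term of minimal order
  have hs' : (s.filter fun i => t i ≠ 0).Nonempty := by
    obtain ⟨i, hi, hti⟩ := hne
    exact ⟨i, Finset.mem_filter.mpr ⟨hi, hti⟩⟩
  obtain ⟨i₀, hi₀, hmin⟩ := Finset.exists_min_image (s.filter fun i => t i ≠ 0)
    (fun i => (t i).orderTop) hs'
  rw [Finset.mem_filter] at hi₀
  have hlt : ∀ i ∈ s.erase i₀, (t i₀).orderTop < (t i).orderTop := by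
    intro i hi
    rw [Finset.mem_erase] at hi
    by_cases hti : t i = 0
    · rw [hti, orderTop_zero]
      exact lt_of_le_of_ne le_top (fun h => hi₀.2 (orderTop_eq_top.mp h))
    · have hle := hmin i (Finset.mem_filter.mpr ⟨hi.2, hti⟩)
      refine lt_of_le_of_ne hle fun h => hi.1 ?_
      exact (hinj i₀ hi₀.1 i hi.2 hi₀.2 hti h).symm
  have hrest : ∀ (u : Finset ι), (∀ i ∈ u, (t i₀).orderTop < (t i).orderTop) →
      (t i₀).orderTop < (∑ i ∈ u, t i).orderTop := by
    intro u
    induction u using Finset.induction_on with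
    | empty =>
      intro _
      rw [Finset.sum_empty, orderTop_zero]
      exact lt_of_le_of_ne le_top (fun h => hi₀.2 (orderTop_eq_top.mp h))
    | insert a u ha ih =>
      intro h
      rw [Finset.sum_insert ha]
      refine lt_of_lt_of_le ?_ min_orderTop_le_orderTop_add
      exact lt_min (h a (Finset.mem_insert_self a u))
        (ih fun i hi => h i (Finset.mem_insert_of_mem hi))
  have hsum : ∑ i ∈ s, t i = t i₀ + ∑ i ∈ s.erase i₀, t i :=
    (Finset.add_sum_erase s t hi₀.1).symm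
  intro h0
  have h1 : (t i₀ + ∑ i ∈ s.erase i₀, t i).orderTop = (t i₀).orderTop :=
    orderTop_add_eq_left (hrest _ hlt)
  rw [← hsum, h0, orderTop_zero] at h1
  exact hi₀.2 (orderTop_eq_top.mp h1.symm)

end Order

end Fermat.Agent.S28

namespace Fermat.Agent.S28

open HahnSeries ModularCurve

section Indep

variable (k : Type*) [Field k]

theorem s28vb_orderTop_jq_pow (i : ℕ) : (jqModC k ^ i).orderTop = ((-(i : ℤ) : ℤ) : WithTop ℤ) := by
  refine orderTop_eq_of_le ?_ ?_
  · rw [HahnSeries.mem_support, coeff_jqModC_pow_self]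
    exact one_ne_zero
  · intro g hg
    by_contra hlt
    rw [not_le] at hlt
    exact hg (coeff_jqModC_pow_of_lt k hlt)

theorem s28vb_jq_pow_ne_zero (i : ℕ) : jqModC k ^ i ≠ 0 := by
  intro h
  have := s28vb_orderTop_jq_pow k i
  rw [h, orderTop_zero] at this
  exact WithTop.top_ne_coe this

variable {k}

theorem s28vb_dvd_order_qExpand (p : ℕ) [NeZero p] (d : LaurentSeries k)
    (hd : qExpand k p d ≠ 0) : (p : ℤ) ∣ (qExpand k p d).order := by
  by_contra h
  exact (coeff_order_eq_zero.not.mpr hd) (qExpand_coeff_of_not_dvd p d h)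

/-- `1, J, …, J^(p-1)` are linearly independent over the image of `q ↦ q^p`. -/
theorem s28vb_indep (p : ℕ) [NeZero p] (d : Fin p → LaurentSeries k)
    (h : ∑ i : Fin p, qExpand k p (d i) * jqModC k ^ (i : ℕ) = 0) : ∀ i, d i = 0 := by
  classical
  by_contra hne
  push_neg at hne
  obtain ⟨i₁, hi₁⟩ := hne
  have hV : ∀ i, qExpand k p (d i) = 0 → d i = 0 := fun i hi =>
    qExpand_injective p (by rw [hi, map_zero])
  have hord : ∀ i : Fin p, qExpand k p (d i) * jqModC k ^ (i : ℕ) ≠ 0 →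
      (qExpand k p (d i) * jqModC k ^ (i : ℕ)).orderTop =
        (((qExpand k p (d i)).order - (i : ℤ) : ℤ) : WithTop ℤ) := by
    intro i hi
    have hc : qExpand k p (d i) ≠ 0 := left_ne_zero_of_mul hi
    rw [orderTop_mul, s28vb_orderTop_jq_pow, ← order_eq_orderTop_of_ne_zero hc, ← WithTop.coe_add,
      sub_eq_add_neg]
  refine s28vb_sum_ne_zero (Finset.univ : Finset (Fin p))
    (fun i => qExpand k p (d i) * jqModC k ^ (i : ℕ)) ?_ ?_ h
  · intro i _ j _ hi hj hij
    rw [hord i hi, hord j hj, WithTop.coe_eq_coe] at hij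
    obtain ⟨a, ha⟩ := s28vb_dvd_order_qExpand p (d i) (left_ne_zero_of_mul hi)
    obtain ⟨b, hb⟩ := s28vb_dvd_order_qExpand p (d j) (left_ne_zero_of_mul hj)
    rw [ha, hb] at hij
    have hdiv : (p : ℤ) ∣ (i : ℤ) - (j : ℤ) := ⟨a - b, by linarith⟩
    have hi' : ((i : ℕ) : ℤ) < p := by exact_mod_cast i.2
    have hj' : ((j : ℕ) : ℤ) < p := by exact_mod_cast j.2
    have hi0 : (0 : ℤ) ≤ ((i : ℕ) : ℤ) := Int.natCast_nonneg _
    have hj0 : (0 : ℤ) ≤ ((j : ℕ) : ℤ) := Int.natCast_nonneg _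
    have : ((i : ℕ) : ℤ) - ((j : ℕ) : ℤ) = 0 := by
      refine Int.eq_zero_of_abs_lt_dvd hdiv ?_
      rw [abs_lt]
      constructor <;> linarith
    apply Fin.ext
    have : ((i : ℕ) : ℤ) = ((j : ℕ) : ℤ) := by linarith
    exact_mod_cast this
  · refine ⟨i₁, Finset.mem_univ _, mul_ne_zero (fun h0 => hi₁ (hV i₁ h0)) (s28vb_jq_pow_ne_zero k _)⟩

end Indep

end Fermat.Agent.S28
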