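import Fermat.Agent.S28.VLin
import Fermat.Agent.S28.CoreDefs

/-!
# S28 / valuation core (V2b): the function fields inside `L`, lifting, and the bound (UB)

* `s28v_full_le_L`   : `F_N ⊆ L`;
* `s28v_exists_lift` : every element of `F_{N,ℓ}` is the residue of an element of `𝒪 ∩ F_N`;
* `s28v_linInd_iff`  : explicit form of linear independence over `K⟮t⟯` inside an
  intermediate field;
* `s28v_UB`          : `[F_{N,ℓ} : 𝔽_ℓ(J)] ≤ [F_N : ℚ(j)]` (and finiteness).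
-/

set_option autoImplicit false

noncomputable section

namespace Fermat.Agent.S28

open ModularCurve HahnSeries Polynomial IntermediateField

/-- `F_N ⊆ L`. -/
theorem s28v_full_le_L (ℓ : ℕ) [Fact ℓ.Prime] (N : ℕ) [NeZero N] :
    modularFunctionFieldFull N ≤ s28v_L ℓ := by
  rw [modularFunctionFieldFull, IntermediateField.adjoin_le_iff]
  rintro x ⟨d, hne, -, rfl⟩
  have := hne
  rw [← s28v_iota_jqN ℓ d]
  exact s28v_iota_mem_L ℓ _

theorem s28v_rhoFun_intCast (ℓ : ℕ) [Fact ℓ.Prime] (n : ℤ) :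
    s28v_rhoFun ℓ (n : LaurentSeries ℚ) = (n : LaurentSeries (ZMod ℓ)) := by
  have h := map_intCast (s28v_rho ℓ) n
  rw [s28v_rho_apply] at h
  rw [← h]
  rfl

/-- the residues of `𝒪 ∩ F_N` form a subfield. -/
def s28v_resField (ℓ : ℕ) [Fact ℓ.Prime] (N : ℕ) [NeZero N] :
    IntermediateField (ZMod ℓ) (LaurentSeries (ZMod ℓ)) where
  carrier := {z | ∃ y, y ∈ s28v_O ℓ ∧ y ∈ modularFunctionFieldFull N ∧ s28v_rhoFun ℓ y = z}
  mul_mem' := by
    rintro _ _ ⟨y, hy, hyF, rfl⟩ ⟨y', hy', hyF', rfl⟩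
    exact ⟨y * y', (s28v_O ℓ).mul_mem hy hy', mul_mem hyF hyF', s28v_rhoFun_mul ℓ hy hy'⟩
  one_mem' := ⟨1, (s28v_O ℓ).one_mem, one_mem _, s28v_rhoFun_one ℓ⟩
  add_mem' := by
    rintro _ _ ⟨y, hy, hyF, rfl⟩ ⟨y', hy', hyF', rfl⟩
    exact ⟨y + y', (s28v_O ℓ).add_mem hy hy', add_mem hyF hyF', s28v_rhoFun_add ℓ hy hy'⟩
  zero_mem' := ⟨0, (s28v_O ℓ).zero_mem, zero_mem _, s28v_rhoFun_zero ℓ⟩
  algebraMap_mem' := by
    intro c
    obtain ⟨n, rfl⟩ := ZMod.intCast_surjective c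
    refine ⟨(n : LaurentSeries ℚ), intCast_mem _ n, intCast_mem _ n, ?_⟩
    rw [s28v_rhoFun_intCast, map_intCast]
  inv_mem' := by
    rintro _ ⟨y, hy, hyF, rfl⟩
    by_cases h : s28v_rhoFun ℓ y = 0
    · rw [h, inv_zero]
      exact ⟨0, (s28v_O ℓ).zero_mem, zero_mem _, s28v_rhoFun_zero ℓ⟩
    · exact ⟨y⁻¹, s28v_inv_mem_O' ℓ hy h, inv_mem hyF, s28v_rhoFun_inv ℓ hy h⟩

/-- every element of `F_{N,ℓ}` is the residue of an element of `𝒪 ∩ F_N`. -/
theorem s28v_exists_lift (ℓ : ℕ) [Fact ℓ.Prime] (N : ℕ) [NeZero N]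
    {z : LaurentSeries (ZMod ℓ)} (hz : z ∈ modularFunctionFieldFullC (ZMod ℓ) N) :
    ∃ y, y ∈ s28v_O ℓ ∧ y ∈ modularFunctionFieldFull N ∧ s28v_rhoFun ℓ y = z := by
  have h : modularFunctionFieldFullC (ZMod ℓ) N ≤ s28v_resField ℓ N := by
    rw [modularFunctionFieldFullC, IntermediateField.adjoin_le_iff]
    rintro x ⟨d, hne, hd, rfl⟩
    have := hne
    exact ⟨qExpand ℚ d jq, s28v_jqN_mem_O ℓ d, jqd_mem_full N hd, s28v_rhoFun_jqN ℓ d⟩
  exact h hz

/-! ### bridging `LinearIndependent` over `K⟮t⟯` with explicit coordinates -/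

/-- the inclusion of an intermediate field as an algebra hom for an arbitrary compatible
algebra structure. -/
def s28v_valHom {K Ω : Type*} [Field K] [Field Ω] [Algebra K Ω]
    (F : IntermediateField K Ω) [Algebra K ↥F]
    (hcompat : ∀ a : K, ((algebraMap K ↥F a : ↥F) : Ω) = algebraMap K Ω a) : ↥F →ₐ[K] Ω where
  toFun x := (x : Ω)
  map_one' := rfl
  map_mul' _ _ := rfl
  map_zero' := rfl
  map_add' _ _ := rfl
  commutes' := hcompat

theorem s28v_mem_adjoin_coe_iff {K Ω : Type*} [Field K] [Field Ω] [Algebra K Ω]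
    (F : IntermediateField K Ω) [Algebra K ↥F]
    (hcompat : ∀ a : K, ((algebraMap K ↥F a : ↥F) : Ω) = algebraMap K Ω a) (t : F) (x : Ω) :
    x ∈ K⟮(t : Ω)⟯ ↔ ∃ c : F, c ∈ K⟮t⟯ ∧ (c : Ω) = x := by
  have h := IntermediateField.adjoin_map K ({t} : Set F) (s28v_valHom F hcompat)
  rw [Set.image_singleton] at h
  have h' : K⟮(t : Ω)⟯ = (K⟮t⟯).map (s28v_valHom F hcompat) := h.symm
  rw [h']
  exact IntermediateField.mem_map (f := s28v_valHom F hcompat) (S := K⟮t⟯) (y := x)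

theorem s28v_linInd_iff {K Ω : Type*} [Field K] [Field Ω] [Algebra K Ω]
    (F : IntermediateField K Ω) [Algebra K ↥F]
    (hcompat : ∀ a : K, ((algebraMap K ↥F a : ↥F) : Ω) = algebraMap K Ω a) (t : F) {n : ℕ}
    (z : Fin n → F) :
    LinearIndependent K⟮t⟯ z ↔
      ∀ d : Fin n → Ω, (∀ i, d i ∈ K⟮(t : Ω)⟯) → ∑ i, d i * (z i : Ω) = 0 → ∀ i, d i = 0 := by
  rw [Fintype.linearIndependent_iff]
  constructor
  · intro h d hd hsum
    choose c hc hcd using fun i => (s28v_mem_adjoin_coe_iff F hcompat t (d i)).mp (hd i)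
    have h1 : ∑ i, (⟨c i, hc i⟩ : K⟮t⟯) • z i = 0 := by
      apply Subtype.ext
      rw [IntermediateField.coe_sum, IntermediateField.coe_zero, ← hsum]
      refine Finset.sum_congr rfl fun i _ => ?_
      rw [← hcd i]
      rfl
    intro i
    have h2 := h _ h1 i
    rw [← hcd i]
    have h3 : c i = 0 := congrArg Subtype.val h2
    rw [h3]
    rfl
  · intro h g hsum i
    have h1 := h (fun i => ((g i : F) : Ω))
      (fun i => (s28v_mem_adjoin_coe_iff F hcompat t _).mpr ⟨g i, (g i).2, rfl⟩) (by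
        have := congrArg (Subtype.val : F → Ω) hsum
        rw [IntermediateField.coe_sum, IntermediateField.coe_zero] at this
        rw [← this]
        rfl) i
    apply Subtype.ext
    apply Subtype.ext
    exact h1

theorem s28v_compat_rat (F : IntermediateField ℚ (LaurentSeries ℚ)) (a : ℚ) :
    ((algebraMap ℚ ↥F a : ↥F) : LaurentSeries ℚ) = algebraMap ℚ (LaurentSeries ℚ) a :=
  RingHom.congr_fun (Subsingleton.elim ((algebraMap ↥F (LaurentSeries ℚ)).comp (algebraMap ℚ ↥F))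
    (algebraMap ℚ (LaurentSeries ℚ))) a

theorem s28v_par_jq_rat : s28v_par ℚ (jqModC ℤ) = jq := by
  rw [s28v_par_jq]
  rfl

theorem s28v_hτ_j (ℓ : ℕ) [Fact ℓ.Prime] :
    Transcendental (ZMod ℓ) (s28v_par (ZMod ℓ) (jqModC ℤ)) := by
  rw [s28v_par_jq]
  exact s28v_jq_transcendental _

/-- lifts of an independent family are independent. -/
theorem s28v_lift_linInd (ℓ : ℕ) [Fact ℓ.Prime] (N : ℕ) [NeZero N] {m : ℕ}
    (z : Fin m → ↥(modularFunctionFieldFullC (ZMod ℓ) N))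
    (hz : LinearIndependent (ZMod ℓ)⟮s28_jC (ZMod ℓ) N⟯ z)
    (y : Fin m → LaurentSeries ℚ) (hyO : ∀ i, y i ∈ s28v_O ℓ)
    (hyF : ∀ i, y i ∈ modularFunctionFieldFull N)
    (hyρ : ∀ i, s28v_rhoFun ℓ (y i) = (z i : LaurentSeries (ZMod ℓ))) :
    LinearIndependent ℚ⟮IgusaScheme.jFull N⟯
      (fun i => (⟨y i, hyF i⟩ : ↥(modularFunctionFieldFull N))) := by
  refine (s28v_linInd_iff (modularFunctionFieldFull N) (s28v_compat_rat _)
    (IgusaScheme.jFull N) _).mpr ?_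
  intro c hc hsum
  have hz' := (s28v_linInd_iff (modularFunctionFieldFullC (ZMod ℓ) N) (fun _ => rfl)
    (s28_jC (ZMod ℓ) N) z).mp hz
  refine s28v_lemmaA ℓ (jqModC ℤ) (s28v_hτ_j ℓ) y hyO ?_ c ?_ hsum
  · intro d hd hsum'
    refine hz' d ?_ ?_
    · intro i
      have := hd i
      rw [s28v_par_jq] at this
      exact this
    · rw [← hsum']
      exact Finset.sum_congr rfl fun i _ => by rw [hyρ i]
  · intro i
    rw [s28v_par_jq_rat]
    exact hc i

/-- **(UB)**: the degree in characteristic `ℓ` is at most the degree in characteristic `0`. -/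
theorem s28v_UB (ℓ : ℕ) [Fact ℓ.Prime] (N : ℕ) [NeZero N]
    (hfin : FiniteDimensional ℚ⟮IgusaScheme.jFull N⟯ ↥(modularFunctionFieldFull N)) :
    FiniteDimensional (ZMod ℓ)⟮s28_jC (ZMod ℓ) N⟯ ↥(modularFunctionFieldFullC (ZMod ℓ) N) ∧
      Module.finrank (ZMod ℓ)⟮s28_jC (ZMod ℓ) N⟯ ↥(modularFunctionFieldFullC (ZMod ℓ) N) ≤
        Module.finrank ℚ⟮IgusaScheme.jFull N⟯ ↥(modularFunctionFieldFull N) := by
  have key : ∀ (m : ℕ) (z : Fin m → ↥(modularFunctionFieldFullC (ZMod ℓ) N)),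
      LinearIndependent (ZMod ℓ)⟮s28_jC (ZMod ℓ) N⟯ z →
        m ≤ Module.finrank ℚ⟮IgusaScheme.jFull N⟯ ↥(modularFunctionFieldFull N) := by
    intro m z hz
    choose y hyO hyF hyρ using fun i => s28v_exists_lift ℓ N (z i).2
    have hli := s28v_lift_linInd ℓ N z hz y hyO hyF hyρ
    simpa using hli.fintype_card_le_finrank
  have hrank : Module.rank (ZMod ℓ)⟮s28_jC (ZMod ℓ) N⟯ ↥(modularFunctionFieldFullC (ZMod ℓ) N) ≤
      ((Module.finrank ℚ⟮IgusaScheme.jFull N⟯ ↥(modularFunctionFieldFull N) : ℕ) : Cardinal) := by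
    refine rank_le fun s hs => ?_
    have := key s.card (fun i => ((s.equivFin.symm i : s) : ↥(modularFunctionFieldFullC (ZMod ℓ) N)))
      (hs.comp _ s.equivFin.symm.injective)
    exact this
  refine ⟨?_, Module.finrank_le_of_rank_le hrank⟩
  exact IsNoetherian.iff_fg.mp
    (IsNoetherian.iff_rank_lt_aleph0.mpr (lt_of_le_of_lt hrank (Cardinal.natCast_lt_aleph0)))

end Fermat.Agent.S28
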