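import Fermat.Agent.S28.VUnit

/-!
# S28 / valuation core (V2a): lifting linear independence, integrality of coordinates

Explicit (coordinate) forms:
* `s28v_scale`   : a nonzero vector of `ℚ(τ)ⁿ` can be scaled by `ℓ^t` into `𝒪ⁿ` with a unit entry;
* `s28v_lemmaA`  : if the residues `ρ yᵢ` are `𝔽_ℓ(τ̄)`-independent, the `yᵢ` are `ℚ(τ)`-independent;
* `s28v_lemmaB`  : ... and then `∑ cᵢ yᵢ ∈ 𝒪` (`cᵢ ∈ ℚ(τ)`) forces `cᵢ ∈ 𝒪`.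
-/

set_option autoImplicit false

noncomputable section

namespace Fermat.Agent.S28

open ModularCurve HahnSeries Polynomial IntermediateField

theorem s28v_rhoFun_sum (ℓ : ℕ) [Fact ℓ.Prime] {ι : Type*} (S : Finset ι)
    (f : ι → LaurentSeries ℚ) (hf : ∀ i ∈ S, f i ∈ s28v_O ℓ) :
    s28v_rhoFun ℓ (∑ i ∈ S, f i) = ∑ i ∈ S, s28v_rhoFun ℓ (f i) := by
  classical
  induction S using Finset.induction_on with
  | empty => simp [s28v_rhoFun_zero]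
  | insert a S ha ih =>
    rw [Finset.sum_insert ha, Finset.sum_insert ha,
      s28v_rhoFun_add ℓ (hf a (Finset.mem_insert_self a S))
        ((s28v_O ℓ).sum_mem fun i hi => hf i (Finset.mem_insert_of_mem hi)),
      ih fun i hi => hf i (Finset.mem_insert_of_mem hi)]

theorem s28v_ellQ_mem_adjoin (ℓ : ℕ) (x : LaurentSeries ℚ) : s28v_ellQ ℓ ∈ ℚ⟮x⟯ := by
  have : s28v_ellQ ℓ = algebraMap ℚ (LaurentSeries ℚ) (ℓ : ℚ) := by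
    rw [s28v_ellQ, algebraMap_laurentSeries_eq_single, HahnSeries.C_apply]
  rw [this]
  exact IntermediateField.algebraMap_mem _ _

theorem s28v_ellQ_zpow_mem_O (ℓ : ℕ) [Fact ℓ.Prime] {s : ℤ} (hs : 0 ≤ s) :
    s28v_ellQ ℓ ^ s ∈ s28v_O ℓ := by
  obtain ⟨m, rfl⟩ := Int.eq_ofNat_of_zero_le hs
  rw [zpow_natCast]
  exact s28v_ellQ_pow_mem_O ℓ m

/-- scaling a nonzero vector of `ℚ(τ)ⁿ` into `𝒪ⁿ` with a unit entry. -/
theorem s28v_scale (ℓ : ℕ) [Fact ℓ.Prime] (τ : LaurentSeries ℤ)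
    (hτ : Transcendental (ZMod ℓ) (s28v_par (ZMod ℓ) τ)) {n : ℕ} (c : Fin n → LaurentSeries ℚ)
    (hc : ∀ i, c i ∈ ℚ⟮s28v_par ℚ τ⟯) (hne : ∃ i, c i ≠ 0) :
    ∃ t : ℤ, (∀ i, s28v_ellQ ℓ ^ t * c i ∈ s28v_O ℓ) ∧
      ∃ i, s28v_rhoFun ℓ (s28v_ellQ ℓ ^ t * c i) ≠ 0 := by
  classical
  have hℓ := s28v_ellQ_ne_zero ℓ
  have H : ∀ i, ∃ s : ℤ, c i ≠ 0 → ∃ u ∈ s28v_O ℓ, c i = s28v_ellQ ℓ ^ s * u ∧
      s28v_rhoFun ℓ u ≠ 0 := by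
    intro i
    by_cases h0 : c i = 0
    · exact ⟨0, fun h => absurd h0 h⟩
    · obtain ⟨s, u, hu, hcu, hρ, -⟩ := s28v_isU_of_mem ℓ τ hτ (hc i) h0
      exact ⟨s, fun _ => ⟨u, hu, hcu, hρ⟩⟩
  choose s hs using H
  have hI : (Finset.univ.filter fun i => c i ≠ 0).Nonempty := by
    obtain ⟨i, hi⟩ := hne
    exact ⟨i, by simp [hi]⟩
  obtain ⟨i₀, hi₀, hmin⟩ := Finset.exists_min_image _ s hI
  have hi₀' : c i₀ ≠ 0 := by simpa using hi₀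
  refine ⟨-s i₀, ?_, i₀, ?_⟩
  · intro i
    by_cases h0 : c i = 0
    · rw [h0, mul_zero]
      exact (s28v_O ℓ).zero_mem
    · obtain ⟨u, hu, hcu, -⟩ := hs i h0
      have hle : s i₀ ≤ s i := hmin i (by simp [h0])
      have : s28v_ellQ ℓ ^ (-s i₀) * c i = s28v_ellQ ℓ ^ (s i - s i₀) * u := by
        conv_lhs => rw [hcu]
        rw [← mul_assoc, ← zpow_add₀ hℓ]
        congr 2
        ring
      rw [this]
      exact (s28v_O ℓ).mul_mem (s28v_ellQ_zpow_mem_O ℓ (by omega)) hu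
  · obtain ⟨u, hu, hcu, hρ⟩ := hs i₀ hi₀'
    have : s28v_ellQ ℓ ^ (-s i₀) * c i₀ = u := by
      conv_lhs => rw [hcu]
      rw [← mul_assoc, ← zpow_add₀ hℓ]
      simp
    rw [this]
    exact hρ

/-- **Lemma A**: lifting linear independence from the residue field. -/
theorem s28v_lemmaA (ℓ : ℕ) [Fact ℓ.Prime] (τ : LaurentSeries ℤ)
    (hτ : Transcendental (ZMod ℓ) (s28v_par (ZMod ℓ) τ)) {n : ℕ} (y : Fin n → LaurentSeries ℚ)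
    (hy : ∀ i, y i ∈ s28v_O ℓ)
    (hind : ∀ d : Fin n → LaurentSeries (ZMod ℓ), (∀ i, d i ∈ (ZMod ℓ)⟮s28v_par (ZMod ℓ) τ⟯) →
      ∑ i, d i * s28v_rhoFun ℓ (y i) = 0 → ∀ i, d i = 0)
    (c : Fin n → LaurentSeries ℚ) (hc : ∀ i, c i ∈ ℚ⟮s28v_par ℚ τ⟯)
    (hsum : ∑ i, c i * y i = 0) : ∀ i, c i = 0 := by
  by_contra hcon
  push Not at hcon
  obtain ⟨t, ht, i₀, hi₀⟩ := s28v_scale ℓ τ hτ c hc hcon
  have h1 : ∑ i, (s28v_ellQ ℓ ^ t * c i) * y i = 0 := by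
    have : ∑ i, (s28v_ellQ ℓ ^ t * c i) * y i = s28v_ellQ ℓ ^ t * ∑ i, c i * y i := by
      rw [Finset.mul_sum]
      exact Finset.sum_congr rfl fun i _ => mul_assoc _ _ _
    rw [this, hsum, mul_zero]
  have h2 := s28v_rhoFun_sum ℓ Finset.univ (fun i => (s28v_ellQ ℓ ^ t * c i) * y i)
    (fun i _ => (s28v_O ℓ).mul_mem (ht i) (hy i))
  rw [h1, s28v_rhoFun_zero] at h2
  have h3 : ∑ i, s28v_rhoFun ℓ (s28v_ellQ ℓ ^ t * c i) * s28v_rhoFun ℓ (y i) = 0 := by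
    rw [h2]
    exact Finset.sum_congr rfl fun i _ => (s28v_rhoFun_mul ℓ (ht i) (hy i)).symm
  have h4 := hind (fun i => s28v_rhoFun ℓ (s28v_ellQ ℓ ^ t * c i))
    (fun i => s28v_rhoFun_mem_adjoin ℓ τ hτ
      (mul_mem (zpow_mem (s28v_ellQ_mem_adjoin ℓ _) t) (hc i)) (ht i)) h3
  exact hi₀ (h4 i₀)

/-- **Lemma B**: integrality of the coordinates. -/
theorem s28v_lemmaB (ℓ : ℕ) [Fact ℓ.Prime] (τ : LaurentSeries ℤ)
    (hτ : Transcendental (ZMod ℓ) (s28v_par (ZMod ℓ) τ)) {n : ℕ} (y : Fin n → LaurentSeries ℚ)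
    (hy : ∀ i, y i ∈ s28v_O ℓ)
    (hind : ∀ d : Fin n → LaurentSeries (ZMod ℓ), (∀ i, d i ∈ (ZMod ℓ)⟮s28v_par (ZMod ℓ) τ⟯) →
      ∑ i, d i * s28v_rhoFun ℓ (y i) = 0 → ∀ i, d i = 0)
    (c : Fin n → LaurentSeries ℚ) (hc : ∀ i, c i ∈ ℚ⟮s28v_par ℚ τ⟯)
    (hx : ∑ i, c i * y i ∈ s28v_O ℓ) : ∀ i, c i ∈ s28v_O ℓ := by
  by_cases hne : ∃ i, c i ≠ 0
  swap
  · push Not at hne
    intro i
    rw [hne i]
    exact (s28v_O ℓ).zero_mem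
  obtain ⟨t, ht, i₀, hi₀⟩ := s28v_scale ℓ τ hτ c hc hne
  have hℓ := s28v_ellQ_ne_zero ℓ
  rcases le_or_gt t 0 with htle | htpos
  · intro i
    have : c i = s28v_ellQ ℓ ^ (-t) * (s28v_ellQ ℓ ^ t * c i) := by
      rw [← mul_assoc, ← zpow_add₀ hℓ]
      simp
    rw [this]
    exact (s28v_O ℓ).mul_mem (s28v_ellQ_zpow_mem_O ℓ (by omega)) (ht i)
  · exfalso
    obtain ⟨m, rfl⟩ := Int.eq_ofNat_of_zero_le htpos.le
    have hmpos : 0 < m := by omega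
    have h1 : ∑ i, (s28v_ellQ ℓ ^ (m : ℤ) * c i) * y i =
        s28v_ellQ ℓ ^ m * ∑ i, c i * y i := by
      rw [Finset.mul_sum, zpow_natCast]
      exact Finset.sum_congr rfl fun i _ => mul_assoc _ _ _
    have h2 := s28v_rhoFun_sum ℓ Finset.univ (fun i => (s28v_ellQ ℓ ^ (m : ℤ) * c i) * y i)
      (fun i _ => (s28v_O ℓ).mul_mem (ht i) (hy i))
    rw [h1, s28v_rhoFun_ellQ_pow_mul ℓ hx m hmpos] at h2
    have h3 : ∑ i, s28v_rhoFun ℓ (s28v_ellQ ℓ ^ (m : ℤ) * c i) * s28v_rhoFun ℓ (y i) = 0 := by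
      rw [h2]
      exact Finset.sum_congr rfl fun i _ => (s28v_rhoFun_mul ℓ (ht i) (hy i)).symm
    have h4 := hind (fun i => s28v_rhoFun ℓ (s28v_ellQ ℓ ^ (m : ℤ) * c i))
      (fun i => s28v_rhoFun_mem_adjoin ℓ τ hτ
        (mul_mem (zpow_mem (s28v_ellQ_mem_adjoin ℓ _) _) (hc i)) (ht i)) h3
    exact hi₀ (h4 i₀)

end Fermat.Agent.S28
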