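import Mathlib
import Fermat.Prelude.Def_ModularCurve_IgusaScheme
import Fermat.Prelude.Def_ModularCurve_X0ModL

/-!
# S28 / valuation core (V0): the residue map `ℤ_(ℓ) → 𝔽_ℓ`

`s28v_res ℓ : ratLocalizedAt ℓ →+* ZMod ℓ`, its kernel (`= ℓ · ℤ_(ℓ)`), uniqueness of ring
homomorphisms out of `ℤ_(ℓ)`, and the fact that a nonzero element of `ℤ_(ℓ)` is divisible by only
finitely many powers of `ℓ`.
-/

set_option autoImplicit false

noncomputable section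

namespace Fermat.Agent.S28

open ModularCurve

/-- membership in `ℤ_(ℓ)`. -/
theorem s28v_mem_iff (ℓ : ℕ) (q : ℚ) : q ∈ GaloisRep.ratLocalizedAt ℓ ↔ q.den.Coprime ℓ :=
  Iff.rfl

theorem s28v_mem_of_div (ℓ : ℕ) (m : ℤ) (d : ℕ) (hd : d.Coprime ℓ) :
    (m : ℚ) / (d : ℚ) ∈ GaloisRep.ratLocalizedAt ℓ := by
  rw [s28v_mem_iff]
  have h1 : (((m : ℚ) / ((d : ℤ) : ℚ)).den : ℤ) ∣ (d : ℤ) := by
    rw [← Rat.divInt_eq_div]
    exact Rat.den_dvd m d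
  have h2 : ((m : ℚ) / (d : ℚ)).den ∣ d := by
    have : ((m : ℚ) / (d : ℚ)) = ((m : ℚ) / ((d : ℤ) : ℚ)) := by push_cast; rfl
    rw [this]
    exact Int.natCast_dvd_natCast.mp h1
  exact Nat.Coprime.coprime_dvd_left h2 hd

/-- the inclusion `ℤ_(ℓ) → ℤ_ℓ`. -/
def s28v_toPadicInt (ℓ : ℕ) [Fact ℓ.Prime] : GaloisRep.ratLocalizedAt ℓ →+* ℤ_[ℓ] :=
  RingHom.codRestrict ((Rat.castHom ℚ_[ℓ]).comp (GaloisRep.ratLocalizedAt ℓ).subtype)
    (PadicInt.subring ℓ) (fun x => by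
      show ‖((x : ℚ) : ℚ_[ℓ])‖ ≤ 1
      apply Padic.norm_rat_le_one
      have hx : (x : ℚ).den.Coprime ℓ := x.2
      intro hdvd
      have h1 : ℓ ∣ Nat.gcd (x : ℚ).den ℓ := Nat.dvd_gcd hdvd dvd_rfl
      rw [hx] at h1
      exact (Fact.out : ℓ.Prime).one_lt.ne' (Nat.dvd_one.mp h1))

/-- the residue map `ℤ_(ℓ) → 𝔽_ℓ`. -/
def s28v_res (ℓ : ℕ) [Fact ℓ.Prime] : GaloisRep.ratLocalizedAt ℓ →+* ZMod ℓ :=
  (PadicInt.toZMod).comp (s28v_toPadicInt ℓ)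

/-- the element `ℓ` of `ℤ_(ℓ)`. -/
def s28v_ell (ℓ : ℕ) : GaloisRep.ratLocalizedAt ℓ := ((ℓ : ℕ) : GaloisRep.ratLocalizedAt ℓ)

@[simp] theorem s28v_ell_coe (ℓ : ℕ) :
    ((s28v_ell ℓ : GaloisRep.ratLocalizedAt ℓ) : ℚ) = (ℓ : ℚ) := by
  simp [s28v_ell]

theorem s28v_res_ell (ℓ : ℕ) [Fact ℓ.Prime] : s28v_res ℓ (s28v_ell ℓ) = 0 := by
  rw [s28v_ell, map_natCast]
  exact ZMod.natCast_self ℓ

theorem s28v_ell_ne_zero (ℓ : ℕ) [Fact ℓ.Prime] : s28v_ell ℓ ≠ 0 := by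
  intro h
  have := congrArg (Subtype.val) h
  rw [s28v_ell_coe] at this
  have hℓ : ℓ.Prime := Fact.out
  exact hℓ.ne_zero (by exact_mod_cast this)

/-- `x · den = num` in `ℤ_(ℓ)`. -/
theorem s28v_mul_den (ℓ : ℕ) (x : GaloisRep.ratLocalizedAt ℓ) :
    x * (((x : ℚ).den : ℕ) : GaloisRep.ratLocalizedAt ℓ) =
      (((x : ℚ).num : ℤ) : GaloisRep.ratLocalizedAt ℓ) := by
  apply Subtype.ext
  push_cast
  exact Rat.mul_den_eq_num (x : ℚ)

/-- Two ring homomorphisms from `ℤ_(ℓ)` to a field of characteristic `ℓ` agree. -/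
theorem s28v_ringHom_ext (ℓ : ℕ) [Fact ℓ.Prime] {K : Type*} [Field K] [CharP K ℓ]
    (f g : GaloisRep.ratLocalizedAt ℓ →+* K) : f = g := by
  ext x
  have hf := congrArg f (s28v_mul_den ℓ x)
  have hg := congrArg g (s28v_mul_den ℓ x)
  rw [map_mul, map_natCast, map_intCast] at hf hg
  have hden : (((x : ℚ).den : ℕ) : K) ≠ 0 := by
    intro h0
    rw [CharP.cast_eq_zero_iff K ℓ] at h0
    have hx : (x : ℚ).den.Coprime ℓ := x.2
    have h1 : ℓ ∣ Nat.gcd (x : ℚ).den ℓ := Nat.dvd_gcd h0 dvd_rfl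
    rw [hx] at h1
    exact (Fact.out : ℓ.Prime).one_lt.ne' (Nat.dvd_one.mp h1)
  exact mul_right_cancel₀ hden (hf.trans hg.symm)

/-- the kernel of the residue map is `ℓ · ℤ_(ℓ)`. -/
theorem s28v_res_eq_zero_iff (ℓ : ℕ) [Fact ℓ.Prime] (x : GaloisRep.ratLocalizedAt ℓ) :
    s28v_res ℓ x = 0 ↔ ∃ y : GaloisRep.ratLocalizedAt ℓ, x = s28v_ell ℓ * y := by
  have hℓ : ℓ.Prime := Fact.out
  constructor
  · intro h
    have h1 := congrArg (s28v_res ℓ) (s28v_mul_den ℓ x)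
    rw [map_mul, h, zero_mul, map_intCast] at h1
    have h2 : (ℓ : ℤ) ∣ (x : ℚ).num := (ZMod.intCast_zmod_eq_zero_iff_dvd _ _).mp h1.symm
    obtain ⟨m, hm⟩ := h2
    refine ⟨⟨(m : ℚ) / ((x : ℚ).den : ℚ), s28v_mem_of_div ℓ m _ x.2⟩, ?_⟩
    apply Subtype.ext
    show (x : ℚ) = ((s28v_ell ℓ : GaloisRep.ratLocalizedAt ℓ) : ℚ) * ((m : ℚ) / ((x : ℚ).den : ℚ))
    rw [s28v_ell_coe]
    have hx : (x : ℚ) = ((x : ℚ).num : ℚ) / ((x : ℚ).den : ℚ) := (Rat.num_div_den _).symm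
    calc (x : ℚ) = ((x : ℚ).num : ℚ) / ((x : ℚ).den : ℚ) := hx
      _ = (((ℓ : ℤ) * m : ℤ) : ℚ) / ((x : ℚ).den : ℚ) := by rw [hm]
      _ = (ℓ : ℚ) * ((m : ℚ) / ((x : ℚ).den : ℚ)) := by push_cast; ring
  · rintro ⟨y, rfl⟩
    rw [map_mul, s28v_res_ell, zero_mul]

/-- A nonzero element of `ℤ_(ℓ)` is `ℓ^s · u` with `res u ≠ 0`. -/
theorem s28v_exists_pow_mul_unit (ℓ : ℕ) [Fact ℓ.Prime] (x : GaloisRep.ratLocalizedAt ℓ)
    (hx : x ≠ 0) :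
    ∃ (s : ℕ) (u : GaloisRep.ratLocalizedAt ℓ), x = s28v_ell ℓ ^ s * u ∧ s28v_res ℓ u ≠ 0 := by
  have hℓ : ℓ.Prime := Fact.out
  -- induction on the absolute value of the numerator
  suffices H : ∀ n : ℕ, ∀ x : GaloisRep.ratLocalizedAt ℓ, x ≠ 0 → ((x : ℚ).num).natAbs ≤ n →
      ∃ (s : ℕ) (u : GaloisRep.ratLocalizedAt ℓ), x = s28v_ell ℓ ^ s * u ∧ s28v_res ℓ u ≠ 0 from
    H _ x hx le_rfl
  intro n
  induction n with
  | zero =>
    intro x hx hn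
    exfalso
    apply hx
    apply Subtype.ext
    have : (x : ℚ).num = 0 := Int.natAbs_eq_zero.mp (Nat.le_zero.mp hn)
    exact Rat.num_eq_zero.mp this
  | succ n ih =>
    intro x hx hn
    by_cases hr : s28v_res ℓ x = 0
    · obtain ⟨y, rfl⟩ := (s28v_res_eq_zero_iff ℓ x).mp hr
      have hy : y ≠ 0 := by
        rintro rfl
        exact hx (mul_zero _)
      have hnum : ((y : ℚ).num).natAbs ≤ n := by
        -- num (ℓ y) = ℓ * num y since den y is prime to ℓ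
        have hcop : Nat.Coprime ℓ (y : ℚ).den := Nat.Coprime.symm y.2
        have h1 : ((s28v_ell ℓ * y : GaloisRep.ratLocalizedAt ℓ) : ℚ) = (ℓ : ℚ) * (y : ℚ) := by
          push_cast
          rw [s28v_ell_coe]
        have h2 : ((ℓ : ℚ) * (y : ℚ)).num = (ℓ : ℤ) * (y : ℚ).num := by
          have h3 : ((ℓ : ℚ) * (y : ℚ)) = (((ℓ : ℤ) * (y : ℚ).num : ℤ) : ℚ) / (((y : ℚ).den : ℤ) : ℚ) := by
            push_cast
            rw [mul_div_assoc, Rat.num_div_den]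
          rw [h3]
          apply Rat.num_div_eq_of_coprime (by exact_mod_cast (y : ℚ).den_pos)
          have hyc : Nat.Coprime ((y : ℚ).num).natAbs (y : ℚ).den := (y : ℚ).reduced
          rw [Int.natAbs_mul, Int.natAbs_natCast]
          exact Nat.Coprime.mul_left hcop hyc
        rw [h1, h2, Int.natAbs_mul, Int.natAbs_natCast] at hn
        have hpos : 0 < ((y : ℚ).num).natAbs := by
          rw [Int.natAbs_pos]
          intro h0
          exact hy (Subtype.ext (Rat.num_eq_zero.mp h0))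
        have h2le : 2 * ((y : ℚ).num).natAbs ≤ ℓ * ((y : ℚ).num).natAbs :=
          Nat.mul_le_mul_right _ hℓ.two_le
        omega
      obtain ⟨s, u, hu, hres⟩ := ih y hy hnum
      refine ⟨s + 1, u, ?_, hres⟩
      rw [hu, pow_succ]
      ring
    · exact ⟨0, x, by simp, hr⟩

end Fermat.Agent.S28
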