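import Fermat.Agent.S28.VSeries

/-!
# S28 / valuation core (V1b): the valuation ring `𝒪` of the `ℓ`-adic Gauss valuation

* `s28v_L ℓ` : the fraction field of `ℤ_(ℓ)⸨q⸩` inside `ℚ⸨q⸩` (an intermediate field);
* `s28v_O ℓ` : `{x | ∃ a b, π b ≠ 0 ∧ ι b * x = ι a}` (a subring of `ℚ⸨q⸩`);
* `s28v_rho ℓ : 𝒪 →+* 𝔽_ℓ⸨q⸩`, `ρ x = π a / π b`;
* `ker ρ = ℓ 𝒪`, units of `𝒪` are the elements with `ρ x ≠ 0`, every nonzero `x ∈ L` is
  `ℓ^s · unit` (`s ∈ ℤ`).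
-/

set_option autoImplicit false

noncomputable section

namespace Fermat.Agent.S28

open ModularCurve HahnSeries

local notation "Rℓ" ℓ => GaloisRep.ratLocalizedAt ℓ

theorem s28v_iota_C (ℓ : ℕ) (r : GaloisRep.ratLocalizedAt ℓ) :
    s28v_iota ℓ (HahnSeries.C r) = HahnSeries.C (r : ℚ) := by
  rw [HahnSeries.C_apply, HahnSeries.C_apply, s28v_iota, coeffMap_single]
  rfl

theorem s28v_pi_C (ℓ : ℕ) [Fact ℓ.Prime] (r : GaloisRep.ratLocalizedAt ℓ) :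
    s28v_pi ℓ (HahnSeries.C r) = HahnSeries.C (s28v_res ℓ r) := by
  rw [HahnSeries.C_apply, HahnSeries.C_apply, s28v_pi, coeffMap_single]

/-- the fraction field of `ℤ_(ℓ)⸨q⸩` inside `ℚ⸨q⸩`. -/
def s28v_L (ℓ : ℕ) : IntermediateField ℚ (LaurentSeries ℚ) where
  carrier := {x | ∃ a b : LaurentSeries (GaloisRep.ratLocalizedAt ℓ),
    b ≠ 0 ∧ s28v_iota ℓ b * x = s28v_iota ℓ a}
  mul_mem' := by
    rintro x y ⟨a, b, hb, hab⟩ ⟨a', b', hb', hab'⟩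
    refine ⟨a * a', b * b', mul_ne_zero hb hb', ?_⟩
    rw [map_mul, map_mul, ← hab, ← hab']
    ring
  one_mem' := ⟨1, 1, one_ne_zero, by rw [map_one, mul_one]⟩
  add_mem' := by
    rintro x y ⟨a, b, hb, hab⟩ ⟨a', b', hb', hab'⟩
    refine ⟨a * b' + a' * b, b * b', mul_ne_zero hb hb', ?_⟩
    rw [map_mul, map_add, map_mul, map_mul, ← hab, ← hab']
    ring
  zero_mem' := ⟨0, 1, one_ne_zero, by rw [map_one, map_zero, mul_zero]⟩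
  algebraMap_mem' := by
    intro c
    refine ⟨HahnSeries.C ((c.num : ℤ) : GaloisRep.ratLocalizedAt ℓ),
      HahnSeries.C ((c.den : ℕ) : GaloisRep.ratLocalizedAt ℓ), ?_, ?_⟩
    · intro h
      have := congrArg (fun x : LaurentSeries (GaloisRep.ratLocalizedAt ℓ) => x.coeff 0) h
      simp only [HahnSeries.C_apply, HahnSeries.coeff_single_same, HahnSeries.coeff_zero] at this
      have h2 := congrArg Subtype.val this
      simp only [SubringClass.coe_natCast, ZeroMemClass.coe_zero] at h2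
      exact c.den_ne_zero (by exact_mod_cast h2)
    · rw [s28v_iota_C, s28v_iota_C, algebraMap_laurentSeries_eq_single, ← HahnSeries.C_apply,
        ← map_mul]
      congr 1
      push_cast
      rw [mul_comm]
      exact Rat.mul_den_eq_num c
  inv_mem' := by
    rintro x ⟨a, b, hb, hab⟩
    by_cases hx : x = 0
    · subst hx
      rw [inv_zero]
      exact ⟨0, 1, one_ne_zero, by rw [map_one, map_zero, mul_zero]⟩
    · have hιb : s28v_iota ℓ b ≠ 0 := fun h => hb ((s28v_iota_eq_zero_iff ℓ b).mp h)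
      have ha : a ≠ 0 := by
        rintro rfl
        rw [map_zero] at hab
        rcases mul_eq_zero.mp hab with h | h
        · exact hιb h
        · exact hx h
      refine ⟨b, a, ha, ?_⟩
      rw [← hab, mul_assoc, mul_inv_cancel₀ hx, mul_one]

theorem s28v_mem_L_iff (ℓ : ℕ) (x : LaurentSeries ℚ) :
    x ∈ s28v_L ℓ ↔ ∃ a b : LaurentSeries (GaloisRep.ratLocalizedAt ℓ),
      b ≠ 0 ∧ s28v_iota ℓ b * x = s28v_iota ℓ a := Iff.rfl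

theorem s28v_iota_mem_L (ℓ : ℕ) (a : LaurentSeries (GaloisRep.ratLocalizedAt ℓ)) :
    s28v_iota ℓ a ∈ s28v_L ℓ :=
  ⟨a, 1, one_ne_zero, by rw [map_one, one_mul]⟩

/-- the valuation ring of the `ℓ`-adic Gauss valuation. -/
def s28v_O (ℓ : ℕ) [Fact ℓ.Prime] : Subring (LaurentSeries ℚ) where
  carrier := {x | ∃ a b : LaurentSeries (GaloisRep.ratLocalizedAt ℓ),
    s28v_pi ℓ b ≠ 0 ∧ s28v_iota ℓ b * x = s28v_iota ℓ a}
  mul_mem' := by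
    rintro x y ⟨a, b, hb, hab⟩ ⟨a', b', hb', hab'⟩
    refine ⟨a * a', b * b', by rw [map_mul]; exact mul_ne_zero hb hb', ?_⟩
    rw [map_mul, map_mul, ← hab, ← hab']
    ring
  one_mem' := ⟨1, 1, by rw [map_one]; exact one_ne_zero, by rw [map_one, mul_one]⟩
  add_mem' := by
    rintro x y ⟨a, b, hb, hab⟩ ⟨a', b', hb', hab'⟩
    refine ⟨a * b' + a' * b, b * b', by rw [map_mul]; exact mul_ne_zero hb hb', ?_⟩
    rw [map_mul, map_add, map_mul, map_mul, ← hab, ← hab']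
    ring
  zero_mem' := ⟨0, 1, by rw [map_one]; exact one_ne_zero, by rw [map_one, map_zero, mul_zero]⟩
  neg_mem' := by
    rintro x ⟨a, b, hb, hab⟩
    exact ⟨-a, b, hb, by rw [map_neg, mul_neg, hab]⟩

theorem s28v_mem_O_iff (ℓ : ℕ) [Fact ℓ.Prime] (x : LaurentSeries ℚ) :
    x ∈ s28v_O ℓ ↔ ∃ a b : LaurentSeries (GaloisRep.ratLocalizedAt ℓ),
      s28v_pi ℓ b ≠ 0 ∧ s28v_iota ℓ b * x = s28v_iota ℓ a := Iff.rfl

theorem s28v_pi_ne_zero_imp (ℓ : ℕ) [Fact ℓ.Prime]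
    {b : LaurentSeries (GaloisRep.ratLocalizedAt ℓ)} (hb : s28v_pi ℓ b ≠ 0) : b ≠ 0 := by
  rintro rfl
  exact hb (map_zero _)

theorem s28v_O_le_L (ℓ : ℕ) [Fact ℓ.Prime] {x : LaurentSeries ℚ} (hx : x ∈ s28v_O ℓ) :
    x ∈ s28v_L ℓ := by
  obtain ⟨a, b, hb, hab⟩ := hx
  exact ⟨a, b, s28v_pi_ne_zero_imp ℓ hb, hab⟩

theorem s28v_iota_mem_O (ℓ : ℕ) [Fact ℓ.Prime] (a : LaurentSeries (GaloisRep.ratLocalizedAt ℓ)) :
    s28v_iota ℓ a ∈ s28v_O ℓ :=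
  ⟨a, 1, by rw [map_one]; exact one_ne_zero, by rw [map_one, one_mul]⟩

open Classical in
/-- the residue map as a function on `ℚ⸨q⸩` (junk value `0` outside `𝒪`). -/
def s28v_rhoFun (ℓ : ℕ) [Fact ℓ.Prime] (x : LaurentSeries ℚ) : LaurentSeries (ZMod ℓ) :=
  if h : x ∈ s28v_O ℓ then s28v_pi ℓ h.choose / s28v_pi ℓ h.choose_spec.choose else 0

/-- `ρ x = π a / π b` for every representation `b x = a` with `π b ≠ 0`. -/
theorem s28v_rhoFun_eq (ℓ : ℕ) [Fact ℓ.Prime] {x : LaurentSeries ℚ}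
    {a b : LaurentSeries (GaloisRep.ratLocalizedAt ℓ)} (hb : s28v_pi ℓ b ≠ 0)
    (hab : s28v_iota ℓ b * x = s28v_iota ℓ a) :
    s28v_rhoFun ℓ x = s28v_pi ℓ a / s28v_pi ℓ b := by
  have h : x ∈ s28v_O ℓ := ⟨a, b, hb, hab⟩
  rw [s28v_rhoFun, dif_pos h]
  obtain ⟨hb', hab'⟩ := h.choose_spec.choose_spec
  set a' := h.choose
  set b' := h.choose_spec.choose
  rw [div_eq_div_iff hb' hb]
  have h1 : s28v_iota ℓ (a' * b) = s28v_iota ℓ (a * b') := by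
    rw [map_mul, map_mul, ← hab', ← hab]
    ring
  have h2 := s28v_iota_injective ℓ h1
  rw [← map_mul, ← map_mul, h2]

/-- the residue map `ρ : 𝒪 → 𝔽_ℓ⸨q⸩`. -/
def s28v_rho (ℓ : ℕ) [Fact ℓ.Prime] : s28v_O ℓ →+* LaurentSeries (ZMod ℓ) where
  toFun x := s28v_rhoFun ℓ (x : LaurentSeries ℚ)
  map_one' := by
    have := s28v_rhoFun_eq ℓ (x := (1 : LaurentSeries ℚ)) (a := 1) (b := 1)
      (by rw [map_one]; exact one_ne_zero) (by rw [map_one, mul_one])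
    rw [map_one, div_one] at this
    exact this
  map_mul' := by
    rintro ⟨x, a, b, hb, hab⟩ ⟨y, a', b', hb', hab'⟩
    show s28v_rhoFun ℓ (x * y) = s28v_rhoFun ℓ x * s28v_rhoFun ℓ y
    rw [s28v_rhoFun_eq ℓ hb hab, s28v_rhoFun_eq ℓ hb' hab',
      s28v_rhoFun_eq ℓ (a := a * a') (b := b * b') (by rw [map_mul]; exact mul_ne_zero hb hb')
        (by rw [map_mul, map_mul, ← hab, ← hab']; ring), map_mul, map_mul, mul_div_mul_comm]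
  map_zero' := by
    have := s28v_rhoFun_eq ℓ (x := (0 : LaurentSeries ℚ)) (a := 0) (b := 1)
      (by rw [map_one]; exact one_ne_zero) (by rw [map_one, map_zero, mul_zero])
    rw [map_zero, zero_div] at this
    exact this
  map_add' := by
    rintro ⟨x, a, b, hb, hab⟩ ⟨y, a', b', hb', hab'⟩
    show s28v_rhoFun ℓ (x + y) = s28v_rhoFun ℓ x + s28v_rhoFun ℓ y
    rw [s28v_rhoFun_eq ℓ hb hab, s28v_rhoFun_eq ℓ hb' hab',
      s28v_rhoFun_eq ℓ (a := a * b' + a' * b) (b := b * b')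
        (by rw [map_mul]; exact mul_ne_zero hb hb')
        (by rw [map_mul, map_add, map_mul, map_mul, ← hab, ← hab']; ring),
      map_mul, map_add, map_mul, map_mul, div_add_div _ _ hb hb',
      mul_comm (s28v_pi ℓ a') (s28v_pi ℓ b)]

theorem s28v_rho_apply (ℓ : ℕ) [Fact ℓ.Prime] (x : s28v_O ℓ) :
    s28v_rho ℓ x = s28v_rhoFun ℓ (x : LaurentSeries ℚ) := rfl

theorem s28v_rho_eq (ℓ : ℕ) [Fact ℓ.Prime] (x : s28v_O ℓ)
    {a b : LaurentSeries (GaloisRep.ratLocalizedAt ℓ)} (hb : s28v_pi ℓ b ≠ 0)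
    (hab : s28v_iota ℓ b * (x : LaurentSeries ℚ) = s28v_iota ℓ a) :
    s28v_rho ℓ x = s28v_pi ℓ a / s28v_pi ℓ b :=
  s28v_rhoFun_eq ℓ hb hab

/-- `ρ (ι a) = π a`. -/
theorem s28v_rho_iota (ℓ : ℕ) [Fact ℓ.Prime] (a : LaurentSeries (GaloisRep.ratLocalizedAt ℓ)) :
    s28v_rho ℓ ⟨s28v_iota ℓ a, s28v_iota_mem_O ℓ a⟩ = s28v_pi ℓ a := by
  rw [s28v_rho_eq ℓ _ (a := a) (b := 1) (by rw [map_one]; exact one_ne_zero)
    (by rw [map_one, one_mul]), map_one, div_one]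

/-- the constant `ℓ` as an element of `ℚ⸨q⸩`. -/
def s28v_ellQ (ℓ : ℕ) : LaurentSeries ℚ := HahnSeries.C (ℓ : ℚ)

theorem s28v_ellQ_ne_zero (ℓ : ℕ) [Fact ℓ.Prime] : s28v_ellQ ℓ ≠ 0 := by
  rw [s28v_ellQ, ← s28v_iota_ellS]
  intro h
  exact s28v_ellS_ne_zero ℓ ((s28v_iota_eq_zero_iff ℓ _).mp h)

theorem s28v_ellQ_mem_O (ℓ : ℕ) [Fact ℓ.Prime] : s28v_ellQ ℓ ∈ s28v_O ℓ := by
  rw [s28v_ellQ, ← s28v_iota_ellS]
  exact s28v_iota_mem_O ℓ _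

/-- the kernel of `ρ` is `ℓ 𝒪`. -/
theorem s28v_rho_eq_zero_iff (ℓ : ℕ) [Fact ℓ.Prime] (x : s28v_O ℓ) :
    s28v_rho ℓ x = 0 ↔ ∃ y : s28v_O ℓ, (x : LaurentSeries ℚ) = s28v_ellQ ℓ * (y : LaurentSeries ℚ) := by
  constructor
  · intro h
    obtain ⟨a, b, hb, hab⟩ := x.2
    rw [s28v_rho_eq ℓ x hb hab, div_eq_zero_iff] at h
    have ha : s28v_pi ℓ a = 0 := h.resolve_right hb
    obtain ⟨a', rfl⟩ := (s28v_pi_eq_zero_iff ℓ a).mp ha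
    have hιb : s28v_iota ℓ b ≠ 0 := fun h0 =>
      s28v_pi_ne_zero_imp ℓ hb ((s28v_iota_eq_zero_iff ℓ b).mp h0)
    refine ⟨⟨(x : LaurentSeries ℚ) / s28v_ellQ ℓ, a', b, hb, ?_⟩, ?_⟩
    · rw [map_mul, s28v_iota_ellS] at hab
      rw [← mul_div_assoc, hab]
      show HahnSeries.C (ℓ : ℚ) * _ / HahnSeries.C (ℓ : ℚ) = _
      rw [mul_div_assoc, mul_comm, div_mul_cancel₀]
      exact s28v_ellQ_ne_zero ℓ
    · show (x : LaurentSeries ℚ) = s28v_ellQ ℓ * ((x : LaurentSeries ℚ) / s28v_ellQ ℓ)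
      rw [mul_div_cancel₀ _ (s28v_ellQ_ne_zero ℓ)]
  · rintro ⟨y, hy⟩
    obtain ⟨a, b, hb, hab⟩ := y.2
    rw [s28v_rho_eq ℓ x (a := s28v_ellS ℓ * a) (b := b) hb
      (by rw [hy, map_mul, s28v_iota_ellS, ← hab]; show _ = HahnSeries.C (ℓ : ℚ) * _
          rw [s28v_ellQ]; ring),
      map_mul, s28v_pi_ellS, zero_mul, zero_div]

/-- an element of `𝒪` with nonzero residue is a unit of `𝒪`. -/
theorem s28v_inv_mem_O (ℓ : ℕ) [Fact ℓ.Prime] (x : s28v_O ℓ) (hx : s28v_rho ℓ x ≠ 0) :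
    (x : LaurentSeries ℚ)⁻¹ ∈ s28v_O ℓ := by
  obtain ⟨a, b, hb, hab⟩ := x.2
  rw [s28v_rho_eq ℓ x hb hab] at hx
  have ha : s28v_pi ℓ a ≠ 0 := fun h => hx (by rw [h, zero_div])
  have hx0 : (x : LaurentSeries ℚ) ≠ 0 := by
    intro h0
    rw [h0, mul_zero] at hab
    exact s28v_pi_ne_zero_imp ℓ ha ((s28v_iota_eq_zero_iff ℓ a).mp hab.symm)
  refine ⟨b, a, ha, ?_⟩
  rw [← hab, mul_assoc, mul_inv_cancel₀ hx0, mul_one]

/-- every nonzero element of `L` is `ℓ^s` times a unit of `𝒪`. -/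
theorem s28v_exists_zpow_mul_mem (ℓ : ℕ) [Fact ℓ.Prime] {x : LaurentSeries ℚ}
    (hxL : x ∈ s28v_L ℓ) (hx : x ≠ 0) :
    ∃ (s : ℤ) (u : s28v_O ℓ), x = s28v_ellQ ℓ ^ s * (u : LaurentSeries ℚ) ∧ s28v_rho ℓ u ≠ 0 := by
  obtain ⟨a, b, hb, hab⟩ := hxL
  have hιb : s28v_iota ℓ b ≠ 0 := fun h => hb ((s28v_iota_eq_zero_iff ℓ b).mp h)
  have ha : a ≠ 0 := by
    rintro rfl
    rw [map_zero] at hab
    rcases mul_eq_zero.mp hab with h | h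
    · exact hιb h
    · exact hx h
  obtain ⟨s, a₀, rfl, ha₀⟩ := s28v_exists_pow_mul ℓ a ha
  obtain ⟨t, b₀, rfl, hb₀⟩ := s28v_exists_pow_mul ℓ b hb
  have hℓ := s28v_ellQ_ne_zero ℓ
  have hιb₀ : s28v_iota ℓ b₀ ≠ 0 := fun h =>
    s28v_pi_ne_zero_imp ℓ hb₀ ((s28v_iota_eq_zero_iff ℓ b₀).mp h)
  rw [map_mul, map_mul, map_pow, map_pow, s28v_iota_ellS] at hab
  change (s28v_ellQ ℓ ^ t * s28v_iota ℓ b₀) * x = s28v_ellQ ℓ ^ s * s28v_iota ℓ a₀ at hab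
  have hu : s28v_iota ℓ b₀ * (s28v_ellQ ℓ ^ ((t : ℤ) - s) * x) = s28v_iota ℓ a₀ := by
    rw [zpow_sub₀ hℓ, zpow_natCast, zpow_natCast]
    field_simp
    linear_combination hab
  refine ⟨(s : ℤ) - t, ⟨s28v_ellQ ℓ ^ ((t : ℤ) - s) * x, a₀, b₀, hb₀, hu⟩, ?_, ?_⟩
  · show x = s28v_ellQ ℓ ^ ((s : ℤ) - t) * (s28v_ellQ ℓ ^ ((t : ℤ) - s) * x)
    rw [← mul_assoc, ← zpow_add₀ hℓ]
    simp
  · have h1 := s28v_rhoFun_eq ℓ hb₀ hu
    show s28v_rhoFun ℓ (s28v_ellQ ℓ ^ ((t : ℤ) - s) * x) ≠ 0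
    rw [h1]
    exact div_ne_zero ha₀ hb₀

theorem s28v_ellQ_pow_mem_O (ℓ : ℕ) [Fact ℓ.Prime] (m : ℕ) : s28v_ellQ ℓ ^ m ∈ s28v_O ℓ := by
  induction m with
  | zero => rw [pow_zero]; exact (s28v_O ℓ).one_mem
  | succ m ih => rw [pow_succ]; exact (s28v_O ℓ).mul_mem ih (s28v_ellQ_mem_O ℓ)

/-- `𝒪` is a valuation ring of `L`. -/
theorem s28v_mem_or_inv_mem (ℓ : ℕ) [Fact ℓ.Prime] {x : LaurentSeries ℚ} (hxL : x ∈ s28v_L ℓ) :
    x ∈ s28v_O ℓ ∨ x⁻¹ ∈ s28v_O ℓ := by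
  by_cases hx : x = 0
  · left
    rw [hx]
    exact (s28v_O ℓ).zero_mem
  obtain ⟨s, u, hxu, hu⟩ := s28v_exists_zpow_mul_mem ℓ hxL hx
  rcases le_or_gt 0 s with hs | hs
  · left
    rw [hxu]
    lift s to ℕ using hs
    rw [zpow_natCast]
    exact (s28v_O ℓ).mul_mem (s28v_ellQ_pow_mem_O ℓ s) u.2
  · right
    rw [hxu, mul_inv, ← zpow_neg]
    have hs' : 0 ≤ -s := by omega
    obtain ⟨m, hm⟩ := Int.eq_ofNat_of_zero_le hs'
    rw [hm, zpow_natCast]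
    exact (s28v_O ℓ).mul_mem (s28v_ellQ_pow_mem_O ℓ m) (s28v_inv_mem_O ℓ u hu)

end Fermat.Agent.S28
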