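import Fermat.Agent.S28.VRes

/-!
# S28 / valuation core (V1a): Laurent series over `ℤ_(ℓ)`

`s28v_iota : ℤ_(ℓ)⸨q⸩ → ℚ⸨q⸩` (injective), `s28v_pi : ℤ_(ℓ)⸨q⸩ → 𝔽_ℓ⸨q⸩`, kernel of `π`,
and the factorisation `a = ℓ^s a₀` with `π a₀ ≠ 0` of a nonzero series.
-/

set_option autoImplicit false

noncomputable section

namespace Fermat.Agent.S28

open ModularCurve HahnSeries

/-- `ℤ_(ℓ)⸨q⸩ → ℚ⸨q⸩`. -/
def s28v_iota (ℓ : ℕ) : LaurentSeries (GaloisRep.ratLocalizedAt ℓ) →+* LaurentSeries ℚ :=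
  coeffMap (GaloisRep.ratLocalizedAt ℓ).subtype

/-- `ℤ_(ℓ)⸨q⸩ → 𝔽_ℓ⸨q⸩`. -/
def s28v_pi (ℓ : ℕ) [Fact ℓ.Prime] :
    LaurentSeries (GaloisRep.ratLocalizedAt ℓ) →+* LaurentSeries (ZMod ℓ) :=
  coeffMap (s28v_res ℓ)

@[simp] theorem s28v_iota_coeff (ℓ : ℕ) (a : LaurentSeries (GaloisRep.ratLocalizedAt ℓ)) (n : ℤ) :
    (s28v_iota ℓ a).coeff n = ((a.coeff n : GaloisRep.ratLocalizedAt ℓ) : ℚ) := rfl

@[simp] theorem s28v_pi_coeff (ℓ : ℕ) [Fact ℓ.Prime]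
    (a : LaurentSeries (GaloisRep.ratLocalizedAt ℓ)) (n : ℤ) :
    (s28v_pi ℓ a).coeff n = s28v_res ℓ (a.coeff n) := rfl

theorem s28v_iota_injective (ℓ : ℕ) : Function.Injective (s28v_iota ℓ) := by
  intro a b h
  refine HahnSeries.ext ?_
  funext n
  have := congrArg (fun x : LaurentSeries ℚ => x.coeff n) h
  simp only [s28v_iota_coeff] at this
  exact Subtype.ext this

theorem s28v_iota_eq_zero_iff (ℓ : ℕ) (a : LaurentSeries (GaloisRep.ratLocalizedAt ℓ)) :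
    s28v_iota ℓ a = 0 ↔ a = 0 := by
  rw [← map_zero (s28v_iota ℓ)]
  exact (s28v_iota_injective ℓ).eq_iff

/-- the constant series `ℓ`. -/
def s28v_ellS (ℓ : ℕ) : LaurentSeries (GaloisRep.ratLocalizedAt ℓ) :=
  HahnSeries.C (s28v_ell ℓ)

theorem s28v_ellS_mul_coeff (ℓ : ℕ) (a : LaurentSeries (GaloisRep.ratLocalizedAt ℓ)) (n : ℤ) :
    (s28v_ellS ℓ * a).coeff n = s28v_ell ℓ * a.coeff n := by
  rw [s28v_ellS, HahnSeries.C_mul_eq_smul, HahnSeries.coeff_smul, smul_eq_mul]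

theorem s28v_pi_ellS (ℓ : ℕ) [Fact ℓ.Prime] : s28v_pi ℓ (s28v_ellS ℓ) = 0 := by
  refine HahnSeries.ext ?_
  funext n
  rw [s28v_pi_coeff, s28v_ellS, HahnSeries.coeff_zero, HahnSeries.C_apply, HahnSeries.coeff_single]
  by_cases hn : n = 0
  · rw [if_pos hn, s28v_res_ell]
  · rw [if_neg hn, map_zero]

theorem s28v_iota_ellS (ℓ : ℕ) : s28v_iota ℓ (s28v_ellS ℓ) = HahnSeries.C (ℓ : ℚ) := by
  refine HahnSeries.ext ?_
  funext n
  rw [s28v_iota_coeff, s28v_ellS, HahnSeries.C_apply, HahnSeries.C_apply, HahnSeries.coeff_single,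
    HahnSeries.coeff_single]
  by_cases hn : n = 0
  · rw [if_pos hn, if_pos hn, s28v_ell_coe]
  · rw [if_neg hn, if_neg hn]
    rfl

theorem s28v_ellS_ne_zero (ℓ : ℕ) [Fact ℓ.Prime] : s28v_ellS ℓ ≠ 0 := by
  intro h
  have := congrArg (fun x : LaurentSeries (GaloisRep.ratLocalizedAt ℓ) => x.coeff 0) h
  simp only [s28v_ellS, HahnSeries.C_apply, HahnSeries.coeff_single_same,
    HahnSeries.coeff_zero] at this
  exact s28v_ell_ne_zero ℓ this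

open Classical in
/-- coefficientwise division by `ℓ`. -/
def s28v_divEll (ℓ : ℕ) [Fact ℓ.Prime] :
    ZeroHom (GaloisRep.ratLocalizedAt ℓ) (GaloisRep.ratLocalizedAt ℓ) where
  toFun r := if h : ∃ y, r = s28v_ell ℓ * y then h.choose else 0
  map_zero' := by
    have h : ∃ y : GaloisRep.ratLocalizedAt ℓ, (0 : GaloisRep.ratLocalizedAt ℓ) = s28v_ell ℓ * y :=
      ⟨0, (mul_zero _).symm⟩
    rw [dif_pos h]
    have := h.choose_spec
    rcases mul_eq_zero.mp this.symm with h1 | h1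
    · exact absurd h1 (s28v_ell_ne_zero ℓ)
    · exact h1

open Classical in
theorem s28v_divEll_spec (ℓ : ℕ) [Fact ℓ.Prime] (r : GaloisRep.ratLocalizedAt ℓ)
    (h : s28v_res ℓ r = 0) : s28v_ell ℓ * s28v_divEll ℓ r = r := by
  have h' := (s28v_res_eq_zero_iff ℓ r).mp h
  show s28v_ell ℓ * (if h : ∃ y, r = s28v_ell ℓ * y then h.choose else 0) = r
  rw [dif_pos h']
  exact h'.choose_spec.symm

/-- the kernel of `π` is `ℓ · ℤ_(ℓ)⸨q⸩`. -/
theorem s28v_pi_eq_zero_iff (ℓ : ℕ) [Fact ℓ.Prime]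
    (a : LaurentSeries (GaloisRep.ratLocalizedAt ℓ)) :
    s28v_pi ℓ a = 0 ↔ ∃ a' : LaurentSeries (GaloisRep.ratLocalizedAt ℓ), a = s28v_ellS ℓ * a' := by
  constructor
  · intro h
    refine ⟨a.map (s28v_divEll ℓ), ?_⟩
    refine HahnSeries.ext ?_
    funext n
    rw [s28v_ellS_mul_coeff, HahnSeries.map_coeff]
    have hn := congrArg (fun x : LaurentSeries (ZMod ℓ) => x.coeff n) h
    simp only [s28v_pi_coeff, HahnSeries.coeff_zero] at hn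
    exact (s28v_divEll_spec ℓ _ hn).symm
  · rintro ⟨a', rfl⟩
    rw [map_mul, s28v_pi_ellS, zero_mul]

/-- a nonzero series is `ℓ^s a₀` with `π a₀ ≠ 0`. -/
theorem s28v_exists_pow_mul (ℓ : ℕ) [Fact ℓ.Prime]
    (a : LaurentSeries (GaloisRep.ratLocalizedAt ℓ)) (ha : a ≠ 0) :
    ∃ (s : ℕ) (a₀ : LaurentSeries (GaloisRep.ratLocalizedAt ℓ)),
      a = s28v_ellS ℓ ^ s * a₀ ∧ s28v_pi ℓ a₀ ≠ 0 := by
  obtain ⟨n, hn⟩ : ∃ n, a.coeff n ≠ 0 := by
    by_contra hcon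
    apply ha
    refine HahnSeries.ext ?_
    funext n
    by_contra hn
    exact hcon ⟨n, hn⟩
  obtain ⟨s, u, hu, hres⟩ := s28v_exists_pow_mul_unit ℓ (a.coeff n) hn
  clear hn ha
  induction s generalizing a with
  | zero =>
    refine ⟨0, a, by simp, ?_⟩
    intro h0
    have := congrArg (fun x : LaurentSeries (ZMod ℓ) => x.coeff n) h0
    simp only [s28v_pi_coeff, HahnSeries.coeff_zero] at this
    rw [hu, pow_zero, one_mul] at this
    exact hres this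
  | succ s ih =>
    by_cases hπ : s28v_pi ℓ a = 0
    · obtain ⟨a', rfl⟩ := (s28v_pi_eq_zero_iff ℓ a).mp hπ
      have h1 : a'.coeff n = s28v_ell ℓ ^ s * u := by
        rw [s28v_ellS_mul_coeff, pow_succ, mul_comm (s28v_ell ℓ ^ s), mul_assoc] at hu
        exact mul_left_cancel₀ (s28v_ell_ne_zero ℓ) hu
      obtain ⟨t, a₀, ha₀, hπ₀⟩ := ih a' h1
      refine ⟨t + 1, a₀, ?_, hπ₀⟩
      rw [ha₀, pow_succ]
      ring
    · exact ⟨0, a, by simp, hπ⟩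

end Fermat.Agent.S28
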